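import Fermat.Agent.LT.TF.RadialOne
import Fermat.Agent.LT.TF.EllipticTerm
import Fermat.Agent.LT.TF.Trace.Stable
import Mathlib.FieldTheory.PrimitiveElement

/-!
Matching at infinity: over a complex place of the base the three coordinates above it are
integrated to the triple convolution.
-/

set_option autoImplicit false
set_option linter.unusedSectionVars false
set_option linter.style.haveILetI false

noncomputable section

namespace FLTAgent.LT.Match

open NumberField MeasureTheory Matrix

variable {F E : Type*} [Field F] [NumberField F] [Field E] [NumberField E]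

/-! ### Points seen through an embedding -/

/-- The coordinate of a point at an embedding. -/
def embPt (φ : F →+* ℂ) (x : Xinf F) : H3 := by
  classical exact
    if (InfinitePlace.mk φ).embedding = φ then x (InfinitePlace.mk φ)
    else conjH3 (x (InfinitePlace.mk φ))

theorem embPt_embedding (w : InfinitePlace F) (x : Xinf F) : embPt w.embedding x = x w := by
  simp [embPt]

theorem mk_embedding_comp (i : F →+* E) (w : InfinitePlace E) :
    InfinitePlace.mk (w.embedding.comp i) = w.comap i := by
  conv_rhs => rw [← w.mk_embedding, InfinitePlace.comap_mk]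

theorem infMap_eq_embPt (i : F →+* E) (x : Xinf F) (w : InfinitePlace E) :
    infMap i x w = embPt (w.embedding.comp i) x := by
  rw [infMap, embPt, mk_embedding_comp]

theorem conjH3_conjH3 (p : H3) : conjH3 (conjH3 p) = p := by simp [conjH3]

theorem embedding_mk_conj (φ : F →+* ℂ)
    (h : (InfinitePlace.mk φ).embedding ≠ φ) :
    (InfinitePlace.mk φ).embedding = ComplexEmbedding.conjugate φ :=
  (InfinitePlace.embedding_mk_eq φ).resolve_left h

variable [IsTotallyComplex F]

theorem conjugate_ne (φ : F →+* ℂ) : ComplexEmbedding.conjugate φ ≠ φ := fun h =>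
  IsTotallyComplex.complexEmbedding_not_isReal φ (ComplexEmbedding.isReal_iff.2 h)

theorem embPt_conj (φ : F →+* ℂ) (x : Xinf F) :
    embPt (ComplexEmbedding.conjugate φ) x = conjH3 (embPt φ x) := by
  have e : InfinitePlace.mk (ComplexEmbedding.conjugate φ) = InfinitePlace.mk φ :=
    InfinitePlace.mk_conjugate_eq φ
  rw [embPt, embPt, e]
  rcases InfinitePlace.embedding_mk_eq φ with h | h
  · rw [if_neg fun h' => conjugate_ne φ (h'.symm.trans h), if_pos h]
  · rw [if_pos h, if_neg fun h' => conjugate_ne φ (h.symm.trans h'), conjH3_conjH3]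

theorem embPt_infMap (i : F →+* E) (φ : E →+* ℂ) (x : Xinf F) :
    embPt φ (infMap i x) = embPt (φ.comp i) x := by
  by_cases h : (InfinitePlace.mk φ).embedding = φ
  · rw [embPt, if_pos h, infMap_eq_embPt, h]
  · rw [embPt, if_neg h, infMap_eq_embPt, embedding_mk_conj φ h,
      show (ComplexEmbedding.conjugate φ).comp i = ComplexEmbedding.conjugate (φ.comp i) from
        RingHom.ext fun _ => rfl, embPt_conj, conjH3_conjH3]

theorem embPt_actInf (g : GL (Fin 2) E) (φ : E →+* ℂ) (x : Xinf E) :
    embPt φ (actInf g x) = act (GeneralLinearGroup.map φ g) (embPt φ x) := by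
  by_cases h : (InfinitePlace.mk φ).embedding = φ
  · rw [embPt, if_pos h, embPt, if_pos h]
    show act _ _ = _
    rw [h]
  · rw [embPt, if_neg h, embPt, if_neg h]
    show conjH3 (act _ _) = _
    rw [Ell.conjH3_act, embedding_mk_conj φ h]
    congr 1
    exact Units.ext (Matrix.ext fun p q => by simp [ComplexEmbedding.conjugate])

theorem measurable_embPt (φ : F →+* ℂ) : Measurable (embPt φ) := by
  by_cases h : (InfinitePlace.mk φ).embedding = φ
  · rw [show embPt φ = fun x => x (InfinitePlace.mk φ) from funext fun x => if_pos h]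
    exact measurable_pi_apply _
  · rw [show embPt φ = fun x => conjH3 (x (InfinitePlace.mk φ)) from funext fun x => if_neg h]
    exact TraceTheta.measurable_conjH3.comp (measurable_pi_apply _)

theorem hdist_conjH3 (p q : H3) : hdist (conjH3 p) (conjH3 q) = hdist p q := by
  rw [hdist, hdist, TraceTheta.coshDist_conjH3]

theorem hdist_embPt (φ : F →+* ℂ) (x y : Xinf F) :
    hdist (embPt φ x) (embPt φ y) = hdist (x (InfinitePlace.mk φ)) (y (InfinitePlace.mk φ)) := by
  by_cases h : (InfinitePlace.mk φ).embedding = φ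
  · rw [embPt, if_pos h, embPt, if_pos h]
  · rw [embPt, if_neg h, embPt, if_neg h, hdist_conjH3]

/-! ### The fibres -/

variable {i : F →+* E} {τ : E →+* E} (h : Ell.CycGen i τ 3)
include h

theorem cyc3 (x : E) : τ (τ (τ x)) = x := h.pow x

/-- Two embeddings with the same restriction differ by a power of the generator. -/
theorem embedding_orbit {φ ψ : E →+* ℂ} (e : ψ.comp i = φ.comp i) :
    ψ = φ ∨ ψ = φ.comp τ ∨ ψ = (φ.comp τ).comp τ := by
  obtain ⟨x, hx⟩ := Field.exists_primitive_element ℚ E
  obtain ⟨c₁, h1⟩ := h.fix (x + τ x + τ (τ x)) (by rw [map_add, map_add, cyc3 h x]; ring)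
  obtain ⟨c₂, h2⟩ := h.fix (x * τ x + τ x * τ (τ x) + τ (τ x) * x) (by
    rw [map_add, map_add, map_mul, map_mul, map_mul, cyc3 h x]; ring)
  obtain ⟨c₃, h3⟩ := h.fix (x * τ x * τ (τ x)) (by rw [map_mul, map_mul, cyc3 h x]; ring)
  have he : ∀ c, ψ (i c) = φ (i c) := fun c => DFunLike.congr_fun e c
  have hroot : (ψ x - φ x) * (ψ x - φ (τ x)) * (ψ x - φ (τ (τ x))) = 0 := by
    have hz : x ^ 3 - i c₁ * x ^ 2 + i c₂ * x - i c₃ = 0 := by rw [h1, h2, h3]; ring
    have hz' := congrArg ψ hz
    simp only [map_sub, map_add, map_mul, map_pow, map_zero, he] at hz'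
    rw [h1, h2, h3] at hz'
    simp only [map_add, map_mul] at hz'
    linear_combination hz'
  have key : ∀ χ : E →+* ℂ, ψ x = χ x → ψ = χ := fun χ hχ => by
    have hext := (IntermediateField.adjoin.powerBasis
      (IsAlgebraic.isIntegral (Algebra.IsAlgebraic.isAlgebraic (R := ℚ) x))).algHom_ext
      (f := ψ.toRatAlgHom.comp (IntermediateField.val _))
      (g := χ.toRatAlgHom.comp (IntermediateField.val _)) (by simpa using hχ)
    refine RingHom.ext fun y => ?_
    exact DFunLike.congr_fun hext ⟨y, hx ▸ IntermediateField.mem_top⟩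
  rcases mul_eq_zero.1 hroot with h' | h'
  · rcases mul_eq_zero.1 h' with h'' | h''
    · exact Or.inl (key φ (sub_eq_zero.1 h''))
    · exact Or.inr (Or.inl (key _ (sub_eq_zero.1 h'')))
  · exact Or.inr (Or.inr (key _ (sub_eq_zero.1 h')))

theorem comap_tau_ne (w : InfinitePlace E) : w.comap τ ≠ w := by
  intro e
  rw [← mk_embedding_comp] at e
  conv_rhs at e => rw [← w.mk_embedding]
  rcases InfinitePlace.mk_eq_iff.1 e with e' | e'
  · obtain ⟨x, hx⟩ := h.ne 1 one_pos (by norm_num)
    exact hx (w.embedding.injective (DFunLike.congr_fun e' x))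
  · refine conjugate_ne (w.embedding.comp i) (RingHom.ext fun c => ?_)
    have e1 := DFunLike.congr_fun e' (i c)
    simp only [ComplexEmbedding.conjugate_coe_eq, RingHom.comp_apply, h.fixed] at e1
    exact e1

theorem comap_tau_cube (w : InfinitePlace E) : ((w.comap τ).comap τ).comap τ = w :=
  InfinitePlace.ext _ _ fun x => by simp [InfinitePlace.comap_apply, cyc3 h x]

theorem comap_i_tau (w : InfinitePlace E) : (w.comap τ).comap i = w.comap i :=
  InfinitePlace.ext _ _ fun x => by simp [InfinitePlace.comap_apply, h.fixed x]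

theorem comap_tau2_ne (w : InfinitePlace E) :
    (w.comap τ).comap τ ≠ w ∧ (w.comap τ).comap τ ≠ w.comap τ := by
  refine ⟨fun e => comap_tau_ne h w ?_, comap_tau_ne h _⟩
  conv_rhs => rw [← comap_tau_cube h w, e]

theorem place_orbit {w w' : InfinitePlace E} (e : w'.comap i = w.comap i) :
    w' = w ∨ w' = w.comap τ ∨ w' = (w.comap τ).comap τ := by
  rw [← mk_embedding_comp i w', ← mk_embedding_comp i w] at e
  obtain ⟨ψ, hψ, hψe⟩ : ∃ ψ : E →+* ℂ, InfinitePlace.mk ψ = w' ∧ ψ.comp i = w.embedding.comp i := by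
    rcases InfinitePlace.mk_eq_iff.1 e with e' | e'
    · exact ⟨_, w'.mk_embedding, e'⟩
    · exact ⟨ComplexEmbedding.conjugate w'.embedding,
        (InfinitePlace.mk_conjugate_eq _).trans w'.mk_embedding, e' ▸ RingHom.ext fun _ => rfl⟩
  rw [← hψ]
  rcases embedding_orbit h hψe with rfl | rfl | rfl
  · exact Or.inl w.mk_embedding
  · exact Or.inr (Or.inl (mk_embedding_comp τ w))
  · refine Or.inr (Or.inr ?_)
    rw [← InfinitePlace.comap_mk, mk_embedding_comp]

omit h in
/-- An embedding of `E` above an embedding of `F`. -/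
theorem exists_emb_above {v : InfinitePlace F} {w : InfinitePlace E} (e : w.comap i = v) :
    ∃ φ : E →+* ℂ, InfinitePlace.mk φ = w ∧ φ.comp i = v.embedding := by
  rw [← mk_embedding_comp] at e
  conv_rhs at e => rw [← v.mk_embedding]
  rcases InfinitePlace.mk_eq_iff.1 e with e' | e'
  · exact ⟨_, w.mk_embedding, e'⟩
  · exact ⟨ComplexEmbedding.conjugate w.embedding,
      (InfinitePlace.mk_conjugate_eq _).trans w.mk_embedding, e' ▸ RingHom.ext fun _ => rfl⟩

set_option maxHeartbeats 1000000 in
/-- **Matching at infinity.** -/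
theorem exists_infMatch {H : InfinitePlace E → ℝ → ℝ} {H' : InfinitePlace F → ℝ → ℝ}
    (hH : ∀ w, Rad1 (H w))
    (hH' : ∀ v, ∃ w : InfinitePlace E, w.comap i = v ∧
      H' v = conv1 (conv1 (H w) (H (w.comap τ))) (H ((w.comap τ).comap τ))) :
    ∃ π : Xinf E → Xinf F, Measurable π ∧
      (∀ (ξ : GL (Fin 2) F) x,
        π (actInf (Matrix.GeneralLinearGroup.map i ξ) x) = actInf ξ (π x)) ∧
      ∀ {δ : GL (Fin 2) F} {γ : GL (Fin 2) E} {a : Eˣ},
        (twNorm τ 3 γ : Matrix (Fin 2) (Fin 2) E) =
          (a : E) • (Matrix.GeneralLinearGroup.map i δ : Matrix (Fin 2) (Fin 2) E) →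
        ∀ Ψ : Xinf F → ℂ, Measurable Ψ →
          Integrable (fun x => radFun H (fun w => hdist (x w) (actInf γ (infMap τ x) w)) * Ψ (π x))
            (Measure.pi fun _ : InfinitePlace E => hypMeasure) →
          ∫ x, radFun H (fun w => hdist (x w) (actInf γ (infMap τ x) w)) * Ψ (π x)
              ∂(Measure.pi fun _ : InfinitePlace E => hypMeasure) =
            ∫ y, radFun H' (fun v => hdist (y v) (actInf δ y v)) * Ψ y
              ∂(Measure.pi fun _ : InfinitePlace F => hypMeasure) := by
  classical
  have : IsTotallyComplex E := ⟨fun w => by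
    refine InfinitePlace.not_isReal_iff_isComplex.1 fun hr => ?_
    exact InfinitePlace.not_isReal_iff_isComplex.2 (IsTotallyComplex.isComplex (w.comap i))
      (hr.comap i)⟩
  choose wv hwv hHv using hH'
  choose φ hφw hφi using fun v => exists_emb_above (i := i) (hwv v)
  -- the three sheets
  let em : InfinitePlace F ⊕ (InfinitePlace F ⊕ InfinitePlace F) → (E →+* ℂ) :=
    Sum.elim φ (Sum.elim (fun v => (φ v).comp τ) fun v => ((φ v).comp τ).comp τ)
  have hm1 : ∀ v, InfinitePlace.mk ((φ v).comp τ) = (wv v).comap τ := fun v => by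
    rw [← InfinitePlace.comap_mk, hφw]
  have hm2 : ∀ v, InfinitePlace.mk (((φ v).comp τ).comp τ) = ((wv v).comap τ).comap τ := fun v => by
    rw [← InfinitePlace.comap_mk, hm1]
  have hbelow : ∀ s, (InfinitePlace.mk (em s)).comap i = s.elim id (Sum.elim id id) := by
    rintro (v | v | v) <;> simp [em, hφw, hm1, hm2, comap_i_tau h, hwv]
  have hbij : Function.Bijective fun s => InfinitePlace.mk (em s) := by
    refine ⟨fun s s' e => ?_, fun w => ?_⟩
    · have e1 := congrArg (fun u => InfinitePlace.comap u i) e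
      simp only [hbelow] at e1
      have n1 := fun v => comap_tau_ne h (wv v)
      have n2 := fun v => (comap_tau2_ne h (wv v)).1
      have n3 := fun v => (comap_tau2_ne h (wv v)).2
      rcases s with v | v | v <;> rcases s' with v' | v' | v' <;>
        simp only [em, Sum.elim_inl, Sum.elim_inr, id_eq, hφw, hm1, hm2] at e e1 <;> subst e1 <;>
        first
          | rfl
          | exact absurd e (n1 v) | exact absurd e.symm (n1 v)
          | exact absurd e (n2 v) | exact absurd e.symm (n2 v)
          | exact absurd e (n3 v) | exact absurd e.symm (n3 v)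
    · rcases place_orbit h (w := wv (w.comap i)) (w' := w) (hwv _).symm with e | e | e
      · exact ⟨Sum.inl (w.comap i), by simp [em, hφw, ← e]⟩
      · exact ⟨Sum.inr (Sum.inl (w.comap i)), by simp [em, hm1, ← e]⟩
      · exact ⟨Sum.inr (Sum.inr (w.comap i)), by simp [em, hm2, ← e]⟩
  let σ := Equiv.ofBijective _ hbij
  -- the coordinates
  let cj : InfinitePlace F ⊕ (InfinitePlace F ⊕ InfinitePlace F) → (H3 ≃ᵐ H3) := fun s =>
    if (InfinitePlace.mk (em s)).embedding = em s then MeasurableEquiv.refl H3 else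
      ⟨⟨conjH3, conjH3, conjH3_conjH3, conjH3_conjH3⟩, TraceTheta.measurable_conjH3,
        TraceTheta.measurable_conjH3⟩
  let Θ : Xinf E ≃ᵐ Xinf F × (Xinf F × Xinf F) :=
    (((MeasurableEquiv.piCongrLeft (fun _ : InfinitePlace E => H3) σ).symm.trans
      (MeasurableEquiv.piCongrRight cj)).trans (MeasurableEquiv.sumPiEquivProdPi _)).trans
      ((MeasurableEquiv.refl _).prodCongr (MeasurableEquiv.sumPiEquivProdPi _))
  have hΘ : ∀ x, Θ x = (fun v => embPt (φ v) x,
      (fun v => embPt ((φ v).comp τ) x, fun v => embPt (((φ v).comp τ).comp τ) x)) := by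
    intro x
    have e : ∀ s, (cj s) (x (σ s)) = embPt (em s) x := fun s => by
      show (cj s) (x (InfinitePlace.mk (em s))) = _
      by_cases hs : (InfinitePlace.mk (em s)).embedding = em s
      · simp [cj, embPt, hs]
      · simp [cj, embPt, hs]
    refine Prod.ext (funext fun v => e (Sum.inl v)) (Prod.ext (funext fun v => e (Sum.inr (Sum.inl v)))
      (funext fun v => e (Sum.inr (Sum.inr v))))
  set μE := Measure.pi fun _ : InfinitePlace E => hypMeasure
  set μ := Measure.pi fun _ : InfinitePlace F => hypMeasure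
  have hmp : MeasurePreserving Θ μE (μ.prod (μ.prod μ)) := by
    have h1 : MeasurePreserving (MeasurableEquiv.piCongrLeft (fun _ : InfinitePlace E => H3) σ).symm
        μE (Measure.pi fun _ => hypMeasure) :=
      (measurePreserving_piCongrLeft (α := fun _ : InfinitePlace E => H3) (fun _ => hypMeasure) σ).symm _
    have h2 : MeasurePreserving (MeasurableEquiv.piCongrRight cj)
        (Measure.pi fun _ => hypMeasure) (Measure.pi fun _ => hypMeasure) := by
      refine measurePreserving_pi _ _ fun s => ?_
      simp only [cj]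
      split_ifs
      · exact MeasurePreserving.id _
      · exact TraceTheta.measurePreserving_conjH3
    refine (((h1.trans h2).trans
      (measurePreserving_sumPiEquivProdPi fun _ => hypMeasure)).trans ?_)
    exact (MeasurePreserving.id μ).prod (measurePreserving_sumPiEquivProdPi fun _ => hypMeasure)
  refine ⟨fun x v => embPt (φ v) x, measurable_pi_lambda _ fun v => measurable_embPt _,
    fun ξ x => funext fun v => ?_, ?_⟩
  · show embPt (φ v) _ = act _ (embPt (φ v) x)
    rw [embPt_actInf, ← hφi v]
    rfl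
  intro δ γ a hN Ψ hΨ hint
  -- the kernel in coordinates
  set g0 := fun v => GeneralLinearGroup.map (φ v) γ
  set g1 := fun v => GeneralLinearGroup.map ((φ v).comp τ) γ
  set g2 := fun v => GeneralLinearGroup.map (((φ v).comp τ).comp τ) γ
  set h0 := fun v => H (wv v)
  set h1 := fun v => H ((wv v).comap τ)
  set h2 := fun v => H (((wv v).comap τ).comap τ)
  have hprod : ∀ v p, act (g0 v) (act (g1 v) (act (g2 v) p)) =
      act (GeneralLinearGroup.map v.embedding δ) p := fun v p => by
    have e : g0 v * (g1 v * g2 v) = GeneralLinearGroup.map (φ v) (twNorm τ 3 γ) := by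
      simp only [twNorm, map_one, mul_one, map_mul]
      rfl
    have e2 : twNorm τ 3 γ =
        GeneralLinearGroup.scalar (Fin 2) a * GeneralLinearGroup.map i δ :=
      Units.ext (by
        rw [hN, Units.val_mul]
        ext p q
        simp [GeneralLinearGroup.scalar])
    rw [← Hyp.act_mul, ← Hyp.act_mul, mul_assoc, e, e2, map_mul, Hyp.act_mul,
      show GeneralLinearGroup.map (φ v) (GeneralLinearGroup.scalar (Fin 2) a) =
        GeneralLinearGroup.scalar (Fin 2) (Units.map (φ v).toMonoidHom a) from
        Units.ext (by ext p q; rcases eq_or_ne p q with rfl | hpq <;>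
          simp_all [GeneralLinearGroup.scalar]), act_scalar, ← hφi v]
    rfl
  set f : Xinf F × (Xinf F × Xinf F) → ℂ := fun z =>
    radFun h0 (fun v => hdist (z.1 v) (act (g0 v) (z.2.1 v))) *
      radFun h1 (fun v => hdist (z.2.1 v) (act (g1 v) (z.2.2 v))) *
      radFun h2 (fun v => hdist (z.2.2 v) (act (g2 v) (z.1 v))) * Ψ z.1
  have hf : ∀ x, radFun H (fun w => hdist (x w) (actInf γ (infMap τ x) w)) *
      Ψ (fun v => embPt (φ v) x) = f (Θ x) := fun x => by
    rw [hΘ]
    simp only [f, radFun, h0, h1, h2]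
    congr 1
    rw [← Equiv.prod_comp σ, Fintype.prod_sum_type, Fintype.prod_sum_type, mul_assoc]
    have e : ∀ (ψ : E →+* ℂ), hdist (x (InfinitePlace.mk ψ))
        (actInf γ (infMap τ x) (InfinitePlace.mk ψ)) =
        hdist (embPt ψ x) (act (GeneralLinearGroup.map ψ γ) (embPt (ψ.comp τ) x)) := fun ψ => by
      rw [← hdist_embPt, embPt_actInf, embPt_infMap]
    have e3 : ∀ v, (((φ v).comp τ).comp τ).comp τ = φ v := fun v =>
      RingHom.ext fun y => congrArg (φ v) (cyc3 h y)
    refine congrArg₂ (· * ·) ?_ (congrArg₂ (· * ·) ?_ ?_) <;>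
      refine Finset.prod_congr rfl fun v _ => ?_
    · rw [show σ (Sum.inl v) = InfinitePlace.mk (φ v) from rfl, e, hφw]
    · rw [show σ (Sum.inr (Sum.inl v)) = InfinitePlace.mk ((φ v).comp τ) from rfl, e, hm1]
    · rw [show σ (Sum.inr (Sum.inr v)) = InfinitePlace.mk (((φ v).comp τ).comp τ) from rfl, e, hm2,
        e3]
  have hintf : Integrable f (μ.prod (μ.prod μ)) := by
    refine (hmp.integrable_comp_emb Θ.measurableEmbedding).1 ?_
    exact hint.congr (ae_of_all _ hf)
  rw [integral_congr_ae (ae_of_all _ hf), hmp.integral_comp Θ.measurableEmbedding f,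
    integral_prod _ hintf]
  refine integral_congr_ae (ae_of_all _ fun y => ?_)
  show ∫ z : Xinf F × Xinf F, f (y, z) ∂μ.prod μ = _
  simp only [f, integral_mul_const]
  congr 1
  have hR0 : ∀ v, Rad1 (h0 v) := fun v => hH _
  have hR1 : ∀ v, Rad1 (h1 v) := fun v => hH _
  have hR2 : ∀ v, Rad1 (h2 v) := fun v => hH _
  have hR01 : ∀ v, Rad1 (conv1 (h0 v) (h1 v)) := fun v => (hR0 v).conv1 (hR1 v)
  set A : Xinf F → ℂ := fun z => radFun h0 fun v => hdist (y v) (act (g0 v) (z v))
  set B : Xinf F × Xinf F → ℂ := fun z => radFun h1 fun v => hdist (z.1 v) (act (g1 v) (z.2 v))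
  set C : Xinf F → ℂ := fun z => radFun h2 fun v => hdist (z v) (act (g2 v) (y v))
  have hA : A = fun z => radFun h0 fun v => hdist (act (g0 v)⁻¹ (y v)) (z v) := funext fun z => by
    refine congrArg (radFun h0) (funext fun v => ?_)
    rw [← hdist_act (g0 v)⁻¹ (y v), Hyp.act_inv_act]
  have hiA : Integrable A μ := by rw [hA]; exact integrable_radFun_hdist hR0 _
  have hiC : Integrable C μ := by
    simp only [C, hdist_comm _ (act (g2 _) (y _))]
    exact integrable_radFun_hdist hR2 _
  obtain ⟨K, hK⟩ := (hasCompactSupport_radFun hR1).exists_bound_of_continuous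
    (continuous_radFun hR1)
  have hBm : Continuous B := by
    refine (continuous_radFun hR1).comp (continuous_pi fun v => ?_)
    exact Continuous.comp (g := fun p : H3 × H3 => hdist p.1 p.2)
      (f := fun z : Xinf F × Xinf F => (z.1 v, act (g1 v) (z.2 v))) continuous_hdist_pair
      (((continuous_apply v).comp continuous_fst).prodMk
        ((Hyp.continuous_act (g1 v)).comp ((continuous_apply v).comp continuous_snd)))
  have hi : Integrable (fun z : Xinf F × Xinf F => A z.1 * B z * C z.2) (μ.prod μ) := by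
    have h' := (hiA.mul_prod hiC).mul_bdd (c := K) hBm.aestronglyMeasurable
      (ae_of_all _ fun z => hK _)
    exact h'.congr (ae_of_all _ fun z => by ring)
  rw [integral_prod_symm _ hi]
  have hin : ∀ z₂ : Xinf F, ∫ z₁, A z₁ * B (z₁, z₂) ∂μ =
      radFun (fun v => conv1 (h0 v) (h1 v))
        fun v => hdist (act (g1 v)⁻¹ (act (g0 v)⁻¹ (y v))) (z₂ v) := fun z₂ => by
    rw [hA]
    refine (radFun_conv hR0 hR1 (fun v => act (g0 v)⁻¹ (y v))
      (fun v => act (g1 v) (z₂ v))).trans (congrArg (radFun _) (funext fun v => ?_))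
    rw [← hdist_act (g1 v) (act (g1 v)⁻¹ _), Hyp.act_act_inv]
  have hin' : ∀ z₂ : Xinf F, ∫ z₁, A z₁ * B (z₁, z₂) * C z₂ ∂μ =
      radFun (fun v => conv1 (h0 v) (h1 v))
        (fun v => hdist (act (g1 v)⁻¹ (act (g0 v)⁻¹ (y v))) (z₂ v)) * C z₂ := fun z₂ => by
    rw [integral_mul_const, hin]
  refine (integral_congr_ae (ae_of_all _ hin')).trans ?_
  refine (radFun_conv hR01 hR2 _ (fun v => act (g2 v) (y v))).trans ?_
  rw [show H' = fun v => conv1 (conv1 (h0 v) (h1 v)) (h2 v) from funext hHv]
  refine congrArg (radFun _) (funext fun v => ?_)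
  show hdist _ (act (g2 v) (y v)) = hdist (y v) (act _ (y v))
  rw [← hprod, ← hdist_act (g1 v), Hyp.act_act_inv, ← hdist_act (g0 v), Hyp.act_act_inv]

end FLTAgent.LT.Match
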