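import Fermat.Agent.LT.TF.Match.Diag
import Mathlib.Data.Complex.Basic
import Mathlib.GroupTheory.Coset.Card
import Mathlib.Algebra.BigOperators.Finprod

/-!
A pair of valued fields `A → B` with an automorphism of order three fixing `A`; the local matching
predicate; twisted norms; the contracting twisted classes.
-/

set_option autoImplicit false
set_option linter.unusedSectionVars false

noncomputable section

namespace FLTAgent.LT.Match

open WithZero

local notation "Γ₀" => WithZero (Multiplicative ℤ)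

/-- Entrywise map. -/
abbrev gl {R S : Type*} [CommRing R] [CommRing S] (f : R →+* S) :
    GL (Fin 2) R →* GL (Fin 2) S :=
  Matrix.GeneralLinearGroup.map f

theorem gl_apply {R S : Type*} [CommRing R] [CommRing S] (f : R →+* S) (g : GL (Fin 2) R)
    (i k : Fin 2) : (gl f g : Matrix (Fin 2) (Fin 2) S) i k = f ((g : Matrix (Fin 2) (Fin 2) R) i k) :=
  rfl

theorem gl_scal {R S : Type*} [Field R] [Field S] (f : R →+* S) (c : Rˣ) :
    gl f (scal c) = scal (Units.map f.toMonoidHom c) :=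
  Units.ext (by ext i k; fin_cases i <;> fin_cases k <;> simp [scal])

theorem gl_dg {R S : Type*} [Field R] [Field S] (f : R →+* S) (p : Rˣ × Rˣ) :
    gl f (dg p) = dg (Units.map f.toMonoidHom p.1, Units.map f.toMonoidHom p.2) :=
  Units.ext (by ext i k; fin_cases i <;> fin_cases k <;> simp [dg])

variable {A B : Type*} [Field A] [Valued A Γ₀] [Field B] [Valued B Γ₀]

/-- `A` is the fixed field of the isometry `τ` of order dividing three of `B`. -/
structure Pair (j : A →+* B) (τ : B →+* B) : Prop where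
  v_tau : ∀ x, Valued.v (τ x) = Valued.v x
  v_j : ∀ x y, Valued.v (j x) ≤ Valued.v (j y) ↔ Valued.v x ≤ Valued.v y
  tau_j : ∀ x, τ (j x) = j x
  cube : ∀ x, τ (τ (τ x)) = x
  fixed : ∀ x, τ x = x → ∃ y, j y = x

/-- `s · τ s · τ² s`. -/
def N3 (τ : B →+* B) (s : GL (Fin 2) B) : GL (Fin 2) B := s * gl τ s * gl τ (gl τ s)

variable {j : A →+* B} {τ : B →+* B}

theorem Pair.v_j_lt (P : Pair j τ) (x y : A) :
    Valued.v (j x) < Valued.v (j y) ↔ Valued.v x < Valued.v y := by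
  rw [← not_le, ← not_le, P.v_j]

theorem Pair.v_j_lt_one (P : Pair j τ) {x : A} :
    Valued.v (j x) < (1 : Γ₀) ↔ Valued.v x < (1 : Γ₀) := by
  simpa using P.v_j_lt x 1

theorem Pair.gl_tau_j (P : Pair j τ) (g : GL (Fin 2) A) : gl τ (gl j g) = gl j g :=
  Units.ext (by ext i k; exact P.tau_j _)

theorem Pair.gl_cube (P : Pair j τ) (g : GL (Fin 2) B) : gl τ (gl τ (gl τ g)) = g :=
  Units.ext (by ext i k; exact P.cube _)

theorem Pair.tau_mem_lvl (P : Pair j τ) {e : Γ₀} {k : GL (Fin 2) B} (hk : k ∈ lvl e) :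
    gl τ k ∈ lvl e := by
  constructor <;> intro a b
  · have := hk.1 a b
    simp only [Matrix.sub_apply, gl_apply] at this ⊢
    rwa [show (1 : Matrix (Fin 2) (Fin 2) B) a b = τ ((1 : Matrix (Fin 2) (Fin 2) B) a b) by
      rcases eq_or_ne a b with rfl | h <;> simp_all, ← map_sub, P.v_tau]
  · have := hk.2 a b
    rw [← map_inv]
    simp only [Matrix.sub_apply, gl_apply] at this ⊢
    rwa [show (1 : Matrix (Fin 2) (Fin 2) B) a b = τ ((1 : Matrix (Fin 2) (Fin 2) B) a b) by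
      rcases eq_or_ne a b with rfl | h <;> simp_all, ← map_sub, P.v_tau]

theorem Pair.j_mem_lvl (P : Pair j τ) {ν : A} (hν : Valued.v ν < (1 : Γ₀)) {k : GL (Fin 2) A}
    (hk : k ∈ lvl (Valued.v ν)) : gl j k ∈ lvl (Valued.v (j ν)) := by
  refine mem_lvl_of_ent (P.v_j_lt_one.2 hν) fun a b => ?_
  have h := ((mem_lvl hν.le).1 hk).1 a b
  simp only [Matrix.sub_apply, gl_apply] at h ⊢
  rwa [show (1 : Matrix (Fin 2) (Fin 2) B) a b = j ((1 : Matrix (Fin 2) (Fin 2) A) a b) by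
    rcases eq_or_ne a b with rfl | h <;> simp_all, ← map_sub, P.v_j]

/-- Twisted conjugation conjugates the norm. -/
theorem Pair.N3_twist (P : Pair j τ) (g s : GL (Fin 2) B) :
    N3 τ (g⁻¹ * s * gl τ g) = g⁻¹ * N3 τ s * g := by
  simp only [N3, map_mul, map_inv, P.gl_cube]
  group

theorem N3_scal (c : Bˣ) (s : GL (Fin 2) B) :
    N3 τ (s * scal c) =
      N3 τ s * scal (c * Units.map τ.toMonoidHom c * Units.map τ.toMonoidHom (Units.map τ.toMonoidHom c)) := by
  simp only [N3, map_mul, gl_scal, scal_mul]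
  simp only [mul_assoc]
  rw [← mul_assoc (scal c) (gl τ s), scal_mul_comm c (gl τ s)]
  simp only [mul_assoc]
  rw [← mul_assoc (scal (Units.map τ.toMonoidHom c)) (gl τ (gl τ s)), scal_mul_comm _ (gl τ (gl τ s))]
  simp only [mul_assoc]
  rw [← mul_assoc (scal c) (gl τ (gl τ s)), scal_mul_comm c (gl τ (gl τ s))]
  simp only [mul_assoc]

/-- Local matching of twisted orbital sums: an equivariant map of coset spaces on the support whose
fibre sums are proportional. -/
def LocalMatch (j : A →+* B) (UB : Subgroup (GL (Fin 2) B)) (UA : Subgroup (GL (Fin 2) A))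
    (δ : GL (Fin 2) A) (FB : GL (Fin 2) B → ℂ) (FA : GL (Fin 2) A → ℂ) (κ : ℕ) : Prop :=
  ∃ π : GL (Fin 2) B ⧸ UB → GL (Fin 2) A ⧸ UA,
    (∀ ξ, Commute ξ δ → ∀ c, FB c.out ≠ 0 → π (gl j ξ • c) = ξ • π c) ∧
      ∀ c', {c | FB c.out ≠ 0 ∧ π c = c'}.Finite ∧
        ∑ᶠ (c) (_ : FB c.out ≠ 0 ∧ π c = c'), FB c.out = κ * FA c'.out

/-- Units congruent to one. -/
def oneAdd (K : Type*) [Field K] [Valued K Γ₀] (e : Γ₀) : Subgroup Kˣ :=
  (lvlZ e).comap (dg.comp (MonoidHom.inl Kˣ Kˣ))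

theorem mem_oneAdd {K : Type*} [Field K] [Valued K Γ₀] {e : Γ₀} (he : e < 1) {u : Kˣ} :
    u ∈ oneAdd K e ↔ Valued.v ((u : K) - 1) ≤ e := by
  refine ⟨fun h => ?_, fun h => lvl_le_lvlZ e (dg_mem_lvl he h (by simp))⟩
  obtain ⟨k, hk, c, hc⟩ := h
  have hk' := ((mem_lvl he.le).1 hk).1
  have e00 := congrArg (fun g : GL (Fin 2) K => (g : Matrix (Fin 2) (Fin 2) K) 0 0) hc
  have e11 := congrArg (fun g : GL (Fin 2) K => (g : Matrix (Fin 2) (Fin 2) K) 1 1) hc
  simp [dg, scal, Matrix.mul_apply, Fin.sum_univ_two] at e00 e11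
  have h0 := hk' 0 0
  have h1 := hk' 1 1
  simp at h0 h1
  have hv1 := v_eq_one_of_sub he h1
  have hk1 : (k : Matrix (Fin 2) (Fin 2) K) 1 1 ≠ 0 := fun h => by simp [h] at hv1
  rw [show (u : K) = (k : Matrix (Fin 2) (Fin 2) K) 0 0 / (k : Matrix (Fin 2) (Fin 2) K) 1 1 by
    rw [e00, eq_div_iff hk1]; linear_combination -(k : Matrix (Fin 2) (Fin 2) K) 0 0 * e11,
    div_sub_one hk1, map_div₀, hv1, div_one, ← sub_sub_sub_cancel_right _ _ (1 : K)]
  exact Valued.v.map_sub_le h0 h1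

/-- The classes `P diag(y,1)`. -/
def classMap {K : Type*} [Field K] [Valued K Γ₀] (P : GL (Fin 2) K) (e : Γ₀) :
    Kˣ ⧸ oneAdd K e → GL (Fin 2) K ⧸ lvlZ e :=
  Quotient.lift (fun y => QuotientGroup.mk (P * dg (y, 1))) fun y z h => by
    rw [QuotientGroup.eq]
    have h' : (y⁻¹ * z) ∈ oneAdd K e := QuotientGroup.leftRel_apply.1 h
    rw [show (P * dg (y, 1))⁻¹ * (P * dg (z, 1)) = dg (y⁻¹ * z, 1) by
      rw [mul_inv_rev, mul_assoc, inv_mul_cancel_left, ← map_inv, ← map_mul]; simp]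
    exact h'

theorem classMap_mk {K : Type*} [Field K] [Valued K Γ₀] (P : GL (Fin 2) K) (e : Γ₀) (y : Kˣ) :
    classMap P e y = QuotientGroup.mk (P * dg (y, 1)) := rfl

theorem classMap_injective {K : Type*} [Field K] [Valued K Γ₀] (P : GL (Fin 2) K) (e : Γ₀) :
    Function.Injective (classMap P e) := by
  intro y z h
  induction y using QuotientGroup.induction_on with | _ y =>
  induction z using QuotientGroup.induction_on with | _ z =>
  rw [classMap_mk, classMap_mk, QuotientGroup.eq] at h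
  rw [show (P * dg (y, 1))⁻¹ * (P * dg (z, 1)) = dg (y⁻¹ * z, 1) by
    rw [mul_inv_rev, mul_assoc, inv_mul_cancel_left, ← map_inv, ← map_mul]; simp] at h
  exact QuotientGroup.eq.2 h

/-- Equivariance of the classes. -/
theorem smul_classMap {K : Type*} [Field K] [Valued K Γ₀] {P ξ : GL (Fin 2) K} {e : Γ₀}
    {p : Kˣ × Kˣ} (hξ : ξ * P = P * dg p) (y : Kˣ ⧸ oneAdd K e) :
    ξ • classMap P e y = classMap P e (QuotientGroup.mk (p.1 / p.2) * y) := by
  induction y using QuotientGroup.induction_on with | _ y =>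
  rw [classMap_mk, ← QuotientGroup.mk_mul, classMap_mk, MulAction.Quotient.smul_mk, smul_eq_mul,
    ← mul_assoc, hξ, QuotientGroup.eq]
  have : (P * dg p * dg (y, 1))⁻¹ * (P * dg (p.1 / p.2 * y, 1)) = scal p.2⁻¹ := by
    rw [mul_assoc P, mul_inv_rev, mul_assoc, inv_mul_cancel_left, ← map_mul, ← map_inv, ← map_mul,
      scal_eq_dg]
    congr 1
    refine Prod.ext ?_ ?_
    · simp only [Prod.fst_mul, Prod.fst_inv, div_eq_mul_inv]
      calc (p.1 * y)⁻¹ * (p.1 * p.2⁻¹ * y) = p.1⁻¹ * p.1 * (y⁻¹ * y) * p.2⁻¹ := by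
            rw [mul_inv_rev]; ac_rfl
        _ = p.2⁻¹ := by simp
    · simp
  rw [this]
  exact scal_mem_lvlZ e _

variable [CompleteSpace A] [CompleteSpace B]

/-- **The support at a contracting class.** -/
theorem conj_mem_Dset_iff {K : Type*} [Field K] [Valued K Γ₀] [CompleteSpace K] {e : Γ₀}
    (he : e < 1) {ϖ : Kˣ} (hϖ : Valued.v (ϖ : K) < (1 : Γ₀)) {P : GL (Fin 2) K} {a b : Kˣ}
    (hab : Valued.v (a : K) < Valued.v (b : K)) (g : GL (Fin 2) K) :
    g⁻¹ * (P * dg (a, b) * P⁻¹) * g ∈ Dset e ϖ ↔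
      Valued.v (((a / (b * ϖ) : Kˣ) : K) - 1) ≤ e ∧
        (QuotientGroup.mk g : GL (Fin 2) K ⧸ lvlZ e) ∈ Set.range (classMap P e) := by
  constructor
  · intro hg
    obtain ⟨h, hh, α, β, c, hα, hβ, hgh⟩ := exists_diag he hϖ hg
    obtain ⟨p, hp, ha, hb⟩ := eq_dg_of_mul hab (v_dg_lt he hϖ hα hβ c) (Q := P⁻¹ * g * h) (by
      calc dg (a, b) * (P⁻¹ * g * h) = P⁻¹ * g * (g⁻¹ * (P * dg (a, b) * P⁻¹) * g) * h := by group
        _ = _ := by rw [hgh]; group)
    refine ⟨?_, QuotientGroup.mk (p.1 / p.2), ?_⟩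
    · rw [show a / (b * ϖ) = α / β by
        rw [ha, hb, div_eq_div_iff_mul_eq_mul]; ac_rfl]
      have := (mem_oneAdd he).1 (div_mem ((mem_oneAdd he).2 hα) ((mem_oneAdd he).2 hβ))
      exact this
    · rw [classMap_mk, QuotientGroup.eq]
      have hg' : g = P * dg p * h⁻¹ := by rw [← hp]; group
      have e1 : dg p = dg (p.1 / p.2, 1) * scal p.2 := by
        rw [scal_eq_dg, ← map_mul]; simp
      rw [hg', e1, show (P * dg (p.1 / p.2, 1))⁻¹ * (P * (dg (p.1 / p.2, 1) * scal p.2) * h⁻¹) =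
        scal p.2 * h⁻¹ by group]
      exact mul_mem (scal_mem_lvlZ e _) (lvl_le_lvlZ e (inv_mem hh))
  · rintro ⟨hr, y, hy⟩
    induction y using QuotientGroup.induction_on with | _ y =>
    rw [classMap_mk, QuotientGroup.eq] at hy
    set u := (P * dg (y, 1))⁻¹ * g with hu
    have hg' : g = P * dg (y, 1) * u := by rw [hu]; group
    have hcomm : (dg (y, (1 : Kˣ)))⁻¹ * dg (a, b) * dg (y, 1) = dg (a, b) := by
      rw [← map_inv, ← map_mul, ← map_mul]
      simp
    have hconj : g⁻¹ * (P * dg (a, b) * P⁻¹) * g = u⁻¹ * dg (a, b) * u := by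
      rw [hg']
      calc _ = u⁻¹ * ((dg (y, 1))⁻¹ * dg (a, b) * dg (y, 1)) * u := by group
        _ = _ := by rw [hcomm]
    rw [hconj]
    refine mul_mem_Dset (inv_mem hy) ?_ hy
    have := conj_dg_mem_Dset he (ϖ := ϖ) (one_mem (lvl e)) hr (show Valued.v (((1 : Kˣ) : K) - 1) ≤ e
      by simp) b
    simpa [mul_comm b ϖ, mul_div_cancel] using this

end FLTAgent.LT.Match
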