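import Fermat.Agent.LT.Red.Level
import Fermat.Agent.LT.TF.Match.Pair

/-!
Components of adelic matrices at the places, maps of completions with prescribed source, cosets of
`U(N) Z` and products of local functions.
-/

set_option autoImplicit false
set_option linter.unusedSectionVars false
set_option linter.style.haveILetI false

noncomputable section

namespace FLTAgent.LT.Match

open NumberField IsDedekindDomain

variable {F E : Type*} [Field F] [NumberField F] [Field E] [NumberField E]

/-- The completion at a place. -/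
abbrev Kp (F : Type*) [Field F] [NumberField F] (v : HeightOneSpectrum (𝓞 F)) := v.adicCompletion F

/-! ### Components -/

/-- The component at `v` of a finite adele. -/
def evalAf (v : HeightOneSpectrum (𝓞 F)) : Af F →+* Kp F v where
  toFun a := a v
  map_one' := rfl
  map_mul' _ _ := rfl
  map_zero' := rfl
  map_add' _ _ := rfl

theorem evalAf_apply (v : HeightOneSpectrum (𝓞 F)) (a : Af F) : evalAf v a = a v := rfl

/-- The component at `v` of an adelic matrix. -/
def locGF (v : HeightOneSpectrum (𝓞 F)) : GF F →* GL (Fin 2) (Kp F v) := gl (evalAf v)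

theorem coe_locGF (v : HeightOneSpectrum (𝓞 F)) (g : GF F) :
    (locGF v g : Matrix (Fin 2) (Fin 2) (Kp F v)) = Red.loc v (g : Matrix (Fin 2) (Fin 2) (Af F)) :=
  rfl

theorem locGF_ext {g h : GF F} (H : ∀ v, locGF v g = locGF v h) : g = h :=
  Units.ext (Matrix.ext fun a b => FiniteAdeleRing.ext F fun v =>
    congrArg (fun x : GL (Fin 2) (Kp F v) => (x : Matrix (Fin 2) (Fin 2) (Kp F v)) a b) (H v))

/-- The component of a rational matrix. -/
theorem locGF_toFin (v : HeightOneSpectrum (𝓞 F)) (γ : GL (Fin 2) F) :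
    locGF v (toFin γ) = gl (algebraMap F (Kp F v)) γ :=
  Units.ext (Matrix.ext fun _ _ => rfl)

/-- The component of a scalar. -/
theorem locGF_scalarGF (v : HeightOneSpectrum (𝓞 F)) (c : (Af F)ˣ) :
    locGF v (scalarGF c) = scal (Units.map (evalAf v).toMonoidHom c) := by
  refine Units.ext (Matrix.ext fun a b => ?_)
  fin_cases a <;> fin_cases b <;> simp [locGF, gl, scalarGF, scal, evalAf] <;> exact map_zero (evalAf v)

/-! ### Maps of completions -/

/-- The map of completions along `i`, for places one below the other. -/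
def cMap (i : F →+* E) (w : HeightOneSpectrum (𝓞 E)) (v : HeightOneSpectrum (𝓞 F))
    (h : placeBelow i w = v) : Kp F v →+* Kp E w := by
  subst h
  exact complMap i w

theorem cMap_rfl (i : F →+* E) (w : HeightOneSpectrum (𝓞 E)) :
    cMap i w (placeBelow i w) rfl = complMap i w := rfl

theorem cMap_coe (i : F →+* E) {w : HeightOneSpectrum (𝓞 E)} {v : HeightOneSpectrum (𝓞 F)}
    (h : placeBelow i w = v) (x : F) :
    cMap i w v h (x : Kp F v) = (i x : Kp E w) := by
  subst h
  exact complMap_coe i w x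

theorem continuous_cMap (i : F →+* E) {w : HeightOneSpectrum (𝓞 E)} {v : HeightOneSpectrum (𝓞 F)}
    (h : placeBelow i w = v) : Continuous (cMap i w v h) := by
  subst h
  exact continuous_complMap i w

theorem cMap_afMap (i : F →+* E) {w : HeightOneSpectrum (𝓞 E)} {v : HeightOneSpectrum (𝓞 F)}
    (h : placeBelow i w = v) (a : Af F) : cMap i w v h (a v) = afMap i a w := by
  subst h
  rfl

theorem locGF_gfMap (i : F →+* E) {w : HeightOneSpectrum (𝓞 E)} {v : HeightOneSpectrum (𝓞 F)}
    (h : placeBelow i w = v) (g : GF F) :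
    locGF w (gfMap i g) = gl (cMap i w v h) (locGF v g) :=
  Units.ext (Matrix.ext fun a b => (cMap_afMap i h _).symm)

/-- Two continuous maps on a completion agreeing on the field are equal. -/
theorem hom_ext_dense {v : HeightOneSpectrum (𝓞 F)} {K : Type*} [TopologicalSpace K] [T2Space K]
    {f g : Kp F v → K} (hf : Continuous f) (hg : Continuous g)
    (H : ∀ x : F, f (x : Kp F v) = g (x : Kp F v)) : f = g :=
  (HeightOneSpectrum.denseRange_algebraMap F v).equalizer hf hg (funext H)

theorem cMap_comp {G : Type*} [Field G] [NumberField G] (i : F →+* E) (k : E →+* G)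
    {u : HeightOneSpectrum (𝓞 G)} {w : HeightOneSpectrum (𝓞 E)} {v : HeightOneSpectrum (𝓞 F)}
    (h : placeBelow k u = w) (h' : placeBelow i w = v) (h'' : placeBelow (k.comp i) u = v)
    (x : Kp F v) : cMap k u w h (cMap i w v h' x) = cMap (k.comp i) u v h'' x :=
  congrFun (hom_ext_dense ((continuous_cMap k h).comp (continuous_cMap i h'))
    (continuous_cMap (k.comp i) h'') fun y => by
      simp only [Function.comp_apply, cMap_coe, RingHom.comp_apply]) x

/-- Maps along equal homomorphisms agree. -/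
theorem cMap_congr {i k : F →+* E} (e : i = k) {w : HeightOneSpectrum (𝓞 E)}
    {v : HeightOneSpectrum (𝓞 F)} (h : placeBelow i w = v) (h' : placeBelow k w = v) :
    cMap i w v h = cMap k w v h' := by
  subst e
  rfl

/-! ### Cosets -/

/-- The valuation of the level. -/
def levN (v : HeightOneSpectrum (𝓞 F)) (N : ℕ) : WithZero (Multiplicative ℤ) :=
  Valued.v ((N : Af F) v)

theorem levN_eq (v : HeightOneSpectrum (𝓞 F)) (N : ℕ) :
    levN v N = Valued.v ((N : Kp F v)) := by
  rw [levN, ← evalAf_apply, map_natCast]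

theorem levN_le_one (v : HeightOneSpectrum (𝓞 F)) (N : ℕ) : levN v N ≤ 1 :=
  Red.valued_natCast_le_one N v

theorem levN_ne_zero (v : HeightOneSpectrum (𝓞 F)) {N : ℕ} (hN : 0 < N) : levN v N ≠ 0 :=
  Red.valued_natCast_ne_zero hN v

theorem levN_eq_one {v : HeightOneSpectrum (𝓞 F)} {N : ℕ} (h : (N : 𝓞 F) ∉ v.asIdeal) :
    levN v N = 1 :=
  Red.valued_natCast_eq_one h

theorem mem_lvl_of_inLevel {N : ℕ} {k : GF F} (hk : InLevel N k) (v : HeightOneSpectrum (𝓞 F)) :
    locGF v k ∈ lvl (levN v N) := by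
  refine (mem_lvl (levN_le_one v N)).2 ⟨(Red.inLevel_iff.1 hk v).1, ?_⟩
  rw [← map_inv]
  exact (Red.inLevel_iff.1 hk v).2

theorem inLevel_of_mem_lvl {N : ℕ} {k : GF F} (hk : ∀ v, locGF v k ∈ lvl (levN v N)) :
    InLevel N k := Red.inLevel_iff.2 fun v => by
  have h := (mem_lvl (levN_le_one v N)).1 (hk v)
  rw [← map_inv] at h
  exact h

/-- An element of `U(1) Z` has unit scalar part where its determinant is a unit. -/
theorem v_scal_eq_one {K : Type*} [Field K] [Valued K (WithZero (Multiplicative ℤ))]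
    {e : WithZero (Multiplicative ℤ)} {k : GL (Fin 2) K} (hk : k ∈ lvl e) {c : Kˣ}
    (hd : Valued.v ((k * scal c : GL (Fin 2) K) : Matrix (Fin 2) (Fin 2) K).det =
      (1 : WithZero (Multiplicative ℤ))) :
    Valued.v (c : K) = (1 : WithZero (Multiplicative ℤ)) := by
  rw [Units.val_mul, Matrix.det_mul, map_mul, v_det_of_mem_lvl hk, one_mul] at hd
  rw [show ((scal c : GL (Fin 2) K) : Matrix (Fin 2) (Fin 2) K).det = (c : K) * c by
      simp [scal, sq], map_mul, ← sq] at hd
  exact (pow_eq_one_iff.1 hd).resolve_right two_ne_zero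

theorem eventually_v_det (g : GF F) : ∀ᶠ v in Filter.cofinite,
    Valued.v ((locGF v g : GL (Fin 2) (Kp F v)) : Matrix (Fin 2) (Fin 2) (Kp F v)).det = 1 := by
  have h := FiniteAdeleRing.unitsEquiv_finite_valued_eq_one (Matrix.GeneralLinearGroup.det g)
  refine Filter.eventually_cofinite.2 ((Filter.eventually_cofinite.1 h).subset fun v hv hv' => hv ?_)
  rw [show ((locGF v g : GL (Fin 2) (Kp F v)) : Matrix (Fin 2) (Fin 2) (Kp F v)).det =
      evalAf v (g : Matrix (Fin 2) (Fin 2) (Af F)).det from ((evalAf v).map_det _).symm]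
  exact hv'

theorem eventually_mem_lvl (g : GF F) : ∀ᶠ v in Filter.cofinite, locGF v g ∈ lvl 1 := by
  have h : ∀ a b : Fin 2, ∀ᶠ v in Filter.cofinite,
      Valued.v ((g : Matrix (Fin 2) (Fin 2) (Af F)) a b v) ≤ 1 := fun a b => by
    filter_upwards [((g : Matrix (Fin 2) (Fin 2) (Af F)) a b).2] with v hv
    exact hv
  filter_upwards [eventually_v_det g, h 0 0, h 0 1, h 1 0, h 1 1] with v hd h00 h01 h10 h11
  refine mem_lvl_one.2 ⟨fun a b => ?_, hd⟩
  fin_cases a <;> fin_cases b <;> assumption

/-- `U(N) Z` is cut out by the components. -/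
theorem mem_UZ_iff {N : ℕ} {g : GF F} :
    g ∈ UZ F N ↔ ∀ v, locGF v g ∈ lvlZ (levN v N) := by
  refine ⟨fun hg v => ?_, fun h => ?_⟩
  · obtain ⟨k, hk, c, rfl⟩ := Red.mem_UZ.1 hg
    exact ⟨_, mem_lvl_of_inLevel hk v, _, by rw [map_mul, locGF_scalarGF]⟩
  choose k hk c hc using h
  have hev : ∀ᶠ v in Filter.cofinite, Valued.v (c v : Kp F v) = 1 := by
    filter_upwards [eventually_v_det g] with v hd
    rw [hc v] at hd
    exact v_scal_eq_one (hk v) hd
  let cA : (Af F)ˣ :=
    { val := RestrictedProduct.mk (fun v => (c v : Kp F v)) (hev.mono fun v hv => hv.le)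
      inv := RestrictedProduct.mk (fun v => (((c v)⁻¹ : (Kp F v)ˣ) : Kp F v))
        (hev.mono fun v hv => by
          show Valued.v (((c v)⁻¹ : (Kp F v)ˣ) : Kp F v) ≤ 1
          rw [Units.val_inv_eq_inv_val, map_inv₀, hv, inv_one])
      val_inv := FiniteAdeleRing.ext F fun v => (c v).mul_inv
      inv_val := FiniteAdeleRing.ext F fun v => (c v).inv_mul }
  have hcA : ∀ v, Units.map (evalAf v).toMonoidHom cA = c v := fun v => Units.ext rfl
  refine Red.mem_UZ.2 ⟨g * (scalarGF cA)⁻¹, inLevel_of_mem_lvl fun v => ?_, cA, by group⟩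
  rw [map_mul, map_inv, locGF_scalarGF, hcA, hc v, mul_inv_cancel_right]
  exact hk v

/-- The component of a coset. -/
def locCos (N : ℕ) (v : HeightOneSpectrum (𝓞 F)) :
    Cos F N → GL (Fin 2) (Kp F v) ⧸ lvlZ (levN v N) :=
  Quotient.map' (locGF v) fun g h hgh => QuotientGroup.leftRel_apply.2 <| by
    rw [← map_inv, ← map_mul]
    exact mem_UZ_iff.1 (QuotientGroup.leftRel_apply.1 hgh) v

theorem locCos_mk {N : ℕ} (v : HeightOneSpectrum (𝓞 F)) (g : GF F) :
    locCos N v (QuotientGroup.mk g) = QuotientGroup.mk (locGF v g) := rfl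

theorem locCos_smul {N : ℕ} (v : HeightOneSpectrum (𝓞 F)) (g : GF F) (c : Cos F N) :
    locCos N v (g • c) = locGF v g • locCos N v c := by
  induction c using QuotientGroup.induction_on with
  | _ h => exact congrArg QuotientGroup.mk (map_mul (locGF v) g h)

theorem eventually_locCos {N : ℕ} (hN : 0 < N) (c : Cos F N) :
    ∀ᶠ v in Filter.cofinite, locCos N v c = QuotientGroup.mk 1 := by
  induction c using QuotientGroup.induction_on with
  | _ g =>
    have hlev : ∀ᶠ v : HeightOneSpectrum (𝓞 F) in Filter.cofinite, levN v N = 1 :=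
      Filter.eventually_cofinite.2 ((Red.finite_natCast_mem hN).subset fun v hv => by
        by_contra h
        exact hv (levN_eq_one h))
    filter_upwards [eventually_mem_lvl g, hlev] with v hv hl
    rw [locCos_mk, QuotientGroup.eq, mul_one, hl]
    exact inv_mem (lvl_le_lvlZ 1 hv)

theorem locCos_injective {N : ℕ} {c d : Cos F N} (H : ∀ v, locCos N v c = locCos N v d) :
    c = d := by
  induction c using QuotientGroup.induction_on with
  | _ g =>
    induction d using QuotientGroup.induction_on with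
    | _ h =>
      refine QuotientGroup.eq.2 (mem_UZ_iff.2 fun v => ?_)
      rw [map_mul, map_inv]
      exact QuotientGroup.eq.1 (H v)

/-- A family of components, almost all integral. -/
theorem exists_gf (g : ∀ v, GL (Fin 2) (Kp F v))
    (hg : ∀ᶠ v in Filter.cofinite, g v ∈ lvl 1) : ∃ G : GF F, ∀ v, locGF v G = g v := by
  let M : (∀ v, GL (Fin 2) (Kp F v)) → (∀ᶠ v in Filter.cofinite, ∀ a b,
      Valued.v ((g v : Matrix (Fin 2) (Fin 2) (Kp F v)) a b) ≤ 1 ∧
        Valued.v (((g v)⁻¹ : GL (Fin 2) (Kp F v)).1 a b) ≤ 1) → GF F := fun _ hg' =>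
    { val := Matrix.of fun a b => RestrictedProduct.mk (fun v => (g v).1 a b)
        (hg'.mono fun v hv => (hv a b).1)
      inv := Matrix.of fun a b => RestrictedProduct.mk (fun v => ((g v)⁻¹).1 a b)
        (hg'.mono fun v hv => (hv a b).2)
      val_inv := Matrix.ext fun a b => FiniteAdeleRing.ext F fun v => by
        simp only [Matrix.mul_apply, Fin.sum_univ_two, Matrix.of_apply, ← evalAf_apply, map_add,
          map_mul]
        rw [evalAf_apply, evalAf_apply, evalAf_apply, evalAf_apply]
        have := congrArg (fun x : GL (Fin 2) (Kp F v) => x.1 a b) (mul_inv_cancel (g v))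
        simp only [Units.val_mul, Units.val_one, Matrix.mul_apply, Fin.sum_univ_two] at this
        refine this.trans ?_
        fin_cases a <;> fin_cases b <;> rfl
      inv_val := Matrix.ext fun a b => FiniteAdeleRing.ext F fun v => by
        simp only [Matrix.mul_apply, Fin.sum_univ_two, Matrix.of_apply, ← evalAf_apply, map_add,
          map_mul]
        rw [evalAf_apply, evalAf_apply, evalAf_apply, evalAf_apply]
        have := congrArg (fun x : GL (Fin 2) (Kp F v) => x.1 a b) (inv_mul_cancel (g v))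
        simp only [Units.val_mul, Units.val_one, Matrix.mul_apply, Fin.sum_univ_two] at this
        refine this.trans ?_
        fin_cases a <;> fin_cases b <;> rfl }
  have hg' : ∀ᶠ v in Filter.cofinite, ∀ a b,
      Valued.v ((g v : Matrix (Fin 2) (Fin 2) (Kp F v)) a b) ≤ 1 ∧
        Valued.v (((g v)⁻¹ : GL (Fin 2) (Kp F v)).1 a b) ≤ 1 := by
    filter_upwards [hg] with v hv a b
    exact ⟨ent_of_mem_lvl hv a b, ent_of_mem_lvl (inv_mem hv) a b⟩
  exact ⟨M g hg', fun v => Units.ext (Matrix.ext fun a b => rfl)⟩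

/-- Cosets with prescribed components. -/
theorem exists_cos {N : ℕ} (x : ∀ v, GL (Fin 2) (Kp F v) ⧸ lvlZ (levN v N))
    (hx : ∀ᶠ v in Filter.cofinite, x v = QuotientGroup.mk 1) :
    ∃ c : Cos F N, ∀ v, locCos N v c = x v := by
  classical
  obtain ⟨G, hG⟩ := exists_gf (fun v => if x v = QuotientGroup.mk 1 then 1 else (x v).out)
    (hx.mono fun v hv => by rw [if_pos hv]; exact one_mem _)
  refine ⟨QuotientGroup.mk G, fun v => ?_⟩
  rw [locCos_mk, hG]
  split_ifs with h
  · exact h.symm
  · exact QuotientGroup.out_eq' _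

/-- The cosets as a restricted product. -/
def cosEquiv {N : ℕ} (hN : 0 < N) : Cos F N ≃
    {x : ∀ v, GL (Fin 2) (Kp F v) ⧸ lvlZ (levN v N) //
      ∀ᶠ v in Filter.cofinite, x v = QuotientGroup.mk 1} :=
  Equiv.ofBijective (fun c => ⟨fun v => locCos N v c, eventually_locCos hN c⟩)
    ⟨fun _ _ h => locCos_injective fun v => congrFun (congrArg Subtype.val h) v,
      fun x => (exists_cos x.1 x.2).imp fun _ hc => Subtype.ext (funext hc)⟩

/-! ### Products of local functions -/

/-- The indicator of `U(e) Z`. -/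
def unitFn {K : Type*} [Field K] [Valued K (WithZero (Multiplicative ℤ))]
    (e : WithZero (Multiplicative ℤ)) : GL (Fin 2) K → ℂ :=
  ((lvlZ (K := K) e : Subgroup (GL (Fin 2) K)) : Set (GL (Fin 2) K)).indicator 1

/-- The product of the local functions at the components. -/
def prodFun (L : ∀ v, GL (Fin 2) (Kp F v) → ℂ) (g : GF F) : ℂ :=
  ∏ᶠ v, L v (locGF v g)

/-- Local functions fit for a product at level `N`. -/
structure LocFam (N : ℕ) (L : ∀ v, GL (Fin 2) (Kp F v) → ℂ) : Prop where
  unit : ∀ᶠ v in Filter.cofinite, L v = unitFn 1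
  left_inv : ∀ v, ∀ u ∈ lvlZ (levN v N), ∀ g, L v (u * g) = L v g
  right_inv : ∀ v, ∀ u ∈ lvlZ (levN v N), ∀ g, L v (g * u) = L v g
  finite : ∀ v, ((QuotientGroup.mk : GL (Fin 2) (Kp F v) → GL (Fin 2) (Kp F v) ⧸ lvlZ (levN v N)) ''
    Function.support (L v)).Finite

theorem LocFam.mulSupport_finite {N : ℕ} {L : ∀ v, GL (Fin 2) (Kp F v) → ℂ} (hL : LocFam N L)
    (g : GF F) : (Function.mulSupport fun v => L v (locGF v g)).Finite := by
  have h := hL.unit.and (eventually_mem_lvl g)
  refine (Filter.eventually_cofinite.1 h).subset fun v hv ⟨hu, hg⟩ => hv ?_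
  show L v (locGF v g) = 1
  rw [hu, unitFn, Set.indicator_of_mem (SetLike.mem_coe.2 (lvl_le_lvlZ 1 hg)), Pi.one_apply]

theorem LocFam.prodFun_ne_zero {N : ℕ} {L : ∀ v, GL (Fin 2) (Kp F v) → ℂ} (hL : LocFam N L)
    {g : GF F} : prodFun L g ≠ 0 ↔ ∀ v, L v (locGF v g) ≠ 0 := by
  rw [prodFun, finprod_eq_prod _ (hL.mulSupport_finite g), Finset.prod_ne_zero_iff]
  refine ⟨fun h v => ?_, fun h v _ => h v⟩
  by_cases hv : v ∈ (hL.mulSupport_finite g).toFinset
  · exact h v hv
  · rw [Set.Finite.mem_toFinset, Function.mem_mulSupport, not_not] at hv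
    simp [hv]

theorem LocFam.prod_left_inv {N : ℕ} {L : ∀ v, GL (Fin 2) (Kp F v) → ℂ} (hL : LocFam N L) {u : GF F}
    (hu : u ∈ UZ F N) (g : GF F) : prodFun L (u * g) = prodFun L g :=
  finprod_congr fun v => by rw [map_mul, hL.left_inv v _ (mem_UZ_iff.1 hu v)]

theorem LocFam.prod_right_inv {N : ℕ} {L : ∀ v, GL (Fin 2) (Kp F v) → ℂ} (hL : LocFam N L)
    {u : GF F} (hu : u ∈ UZ F N) (g : GF F) : prodFun L (g * u) = prodFun L g :=
  finprod_congr fun v => by rw [map_mul, hL.right_inv v _ (mem_UZ_iff.1 hu v)]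

theorem LocFam.prod_finite {N : ℕ} (hN : 0 < N) {L : ∀ v, GL (Fin 2) (Kp F v) → ℂ}
    (hL : LocFam N L) :
    ((QuotientGroup.mk : GF F → Cos F N) '' Function.support (prodFun L)).Finite := by
  classical
  have hlev : ∀ᶠ v : HeightOneSpectrum (𝓞 F) in Filter.cofinite, levN v N = 1 :=
    Filter.eventually_cofinite.2 ((Red.finite_natCast_mem hN).subset fun v hv => by
      by_contra h
      exact hv (levN_eq_one h))
  set S := (Filter.eventually_cofinite.1 (hL.unit.and hlev)).toFinset
  have hS : ∀ v ∉ S, L v = unitFn 1 ∧ levN v N = 1 := fun v hv => by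
    simpa [S] using hv
  refine Set.Finite.of_finite_image (f := fun c : Cos F N => fun v : S => locCos N v.1 c) ?_ ?_
  · refine (Set.Finite.pi' fun v : S => hL.finite v.1).subset ?_
    rintro _ ⟨_, ⟨g, hg, rfl⟩, rfl⟩ v
    exact ⟨_, hL.prodFun_ne_zero.1 hg v.1, rfl⟩
  · rintro _ ⟨g, hg, rfl⟩ _ ⟨g', hg', rfl⟩ he
    refine locCos_injective fun v => ?_
    by_cases hv : v ∈ S
    · exact congrFun he ⟨v, hv⟩
    · obtain ⟨hu, hl⟩ := hS v hv
      have key : ∀ x : GF F, prodFun L x ≠ 0 → locCos N v (QuotientGroup.mk x) = QuotientGroup.mk 1 := by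
        intro x hx
        rw [locCos_mk, QuotientGroup.eq, mul_one, hl]
        refine inv_mem ?_
        by_contra hmem
        exact hL.prodFun_ne_zero.1 hx v (by rw [hu, unitFn, Set.indicator_of_notMem (by simpa using hmem)])
      rw [key g hg, key g' hg']

/-- The test of a family of local functions. -/
def prodTest (L : ∀ v, GL (Fin 2) (Kp F v) → ℂ) (h : (InfinitePlace F → ℝ) → ℂ) : Test F :=
  ⟨prodFun L, h⟩

theorem LocFam.ok {N : ℕ} (hN : 0 < N) {L : ∀ v, GL (Fin 2) (Kp F v) → ℂ} (hL : LocFam N L)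
    {h : (InfinitePlace F → ℝ) → ℂ} (hl : ∃ C, LipschitzWith C h) (hc : HasCompactSupport h) :
    (prodTest L h).Ok N :=
  ⟨fun _ hu g => hL.prod_left_inv hu g, fun _ hu g => hL.prod_right_inv hu g, hL.prod_finite hN,
    hl, hc⟩

end FLTAgent.LT.Match
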