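import Fermat.Agent.LT.TF.Match.Unram

/-!
Matching of the units at a good inert place: existence of a norm, the map of classes.
-/

set_option autoImplicit false
set_option linter.unusedSectionVars false

noncomputable section

namespace FLTAgent.LT.Match

open NormUnits Matrix IsLocalRing

local notation "Γ₀" => WithZero (Multiplicative ℤ)

variable {A B : Type*} [Field A] [Valued A Γ₀] [Field B] [Valued B Γ₀]
variable {j : A →+* B} {τ : B →+* B} [CompleteSpace A] [CompleteSpace B]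

/-- The residue field is finite when finitely many elements represent it. -/
theorem finite_residueField_intB {B : Type*} [Field B] [Valued B Γ₀]
    (h : ∃ R : Set B, R.Finite ∧ ∀ x, Valued.v x ≤ (1 : Γ₀) → ∃ r ∈ R, Valued.v (x - r) < (1 : Γ₀)) :
    Finite (ResidueField (intB B)) := by
  obtain ⟨R, hR, hrep⟩ := h
  have := hR.to_subtype
  choose r hr hlt using fun x : intB B => hrep x x.2
  refine Finite.of_injective (fun c => (⟨_, hr (residue_surjective c).choose⟩ : R)) fun c c' e => ?_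
  have e' : r (residue_surjective c).choose = r (residue_surjective c').choose :=
    congrArg Subtype.val e
  rw [← (residue_surjective c).choose_spec, ← (residue_surjective c').choose_spec, ← sub_eq_zero,
    ← map_sub, residue_eq_zero_iff_lt]
  have h1 := hlt (residue_surjective c).choose
  have h2 := hlt (residue_surjective c').choose
  rw [e'] at h1
  simpa using Valued.v.map_sub_lt h1 h2

theorem scal_one {K : Type*} [Field K] : scal (1 : Kˣ) = (1 : GL (Fin 2) K) := map_one _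

theorem conj_scal {K : Type*} [Field K] [Valued K Γ₀] (g x : GL (Fin 2) K) (c : Kˣ) :
    g⁻¹ * (x * scal c) * g = g⁻¹ * x * g * scal c := by
  simp only [mul_assoc]
  rw [scal_mul_comm]

theorem mul_scal_mem_lvlZ_iff {K : Type*} [Field K] [Valued K Γ₀] {e : Γ₀} (x : GL (Fin 2) K)
    (c : Kˣ) : x * scal c ∈ lvlZ e ↔ x ∈ lvlZ e :=
  (lvlZ e).mul_mem_cancel_right (scal_mem_lvlZ e c)

theorem det_conj' {K : Type*} [Field K] (g x : GL (Fin 2) K) :
    ((g⁻¹ * x * g : GL (Fin 2) K) : Matrix (Fin 2) (Fin 2) K).det =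
      (x : Matrix (Fin 2) (Fin 2) K).det := by
  rw [Units.val_mul, Units.val_mul, det_mul, det_mul, mul_right_comm, ← det_mul, ← Units.val_mul,
    inv_mul_cancel, Units.val_one, det_one, one_mul]

theorem Pair.j_mem_lvlZ_one (P : Pair j τ) {q : GL (Fin 2) A} (hq : q ∈ lvlZ 1) :
    gl j q ∈ lvlZ 1 := by
  obtain ⟨k, hk, c, rfl⟩ := hq
  rw [map_mul, gl_scal]
  refine ⟨gl j k, mem_lvl_one.2 ⟨fun a b => P.v_j_le_one.2 (ent_of_mem_lvl hk a b), ?_⟩, _, rfl⟩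
  rw [show ((gl j k : GL (Fin 2) B) : Matrix (Fin 2) (Fin 2) B).det =
    j (k : Matrix (Fin 2) (Fin 2) A).det from (j.map_det _).symm]
  exact P.v_j_eq_one.2 (v_det_of_mem_lvl hk)

theorem Pair.tau_mem_lvlZ (P : Pair j τ) {x : GL (Fin 2) B} (hx : x ∈ lvlZ 1) :
    gl τ x ∈ lvlZ 1 := by
  obtain ⟨k, hk, c, rfl⟩ := hx
  exact ⟨gl τ k, P.tau_mem_lvl hk, Units.map τ.toMonoidHom c, by rw [map_mul, gl_scal]⟩

theorem Pair.N3_mem_lvlZ (P : Pair j τ) {x : GL (Fin 2) B} (hx : x ∈ lvlZ 1) :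
    N3 τ x ∈ lvlZ 1 :=
  mul_mem (mul_mem hx (P.tau_mem_lvlZ hx)) (P.tau_mem_lvlZ (P.tau_mem_lvlZ hx))

/-- The unit of the order with norm a scalar times `δ`, when `δ` meets the maximal compact. -/
theorem Pair.exists_eps (P : Pair j τ) [Finite (ResidueField (intB B))]
    (hval : ∀ x : B, ∃ y, Valued.v (j y) = Valued.v x) {θ : B} (hθ : Valued.v θ ≤ (1 : Γ₀))
    (hθ' : Valued.v (τ θ - θ) = (1 : Γ₀)) {δ : GL (Fin 2) A} {g₀ : GL (Fin 2) B}
    (hg₀ : g₀⁻¹ * gl j δ * g₀ ∈ lvlZ 1) :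
    ∃ (δ' : GL (Fin 2) A) (c₀ : Aˣ) (e : GL (Fin 2) B) (cu : Bˣ),
      δ = δ' * scal c₀ ∧ Valued.v (δ' : Matrix (Fin 2) (Fin 2) A).det = (1 : Γ₀) ∧
      Commute e (gl j δ) ∧ N3 τ e = gl j δ' * scal cu ∧
      ∀ g : GL (Fin 2) B, g⁻¹ * gl j δ' * g ∈ lvl 1 → g⁻¹ * e * g ∈ lvl 1 := by
  obtain ⟨c₀, hc₀⟩ := P.exists_scal hval hg₀
  set δ' : GL (Fin 2) A := δ * scal c₀⁻¹ with hδ'
  have hδδ' : δ = δ' * scal c₀ := by
    rw [hδ', mul_assoc, ← scal_mul, inv_mul_cancel, scal_one, mul_one]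
  have hg₀' : g₀⁻¹ * gl j δ' * g₀ ∈ lvl 1 := by
    rw [hδ', map_mul, gl_scal, map_inv, conj_scal]
    exact hc₀
  set D : Matrix (Fin 2) (Fin 2) B := ((gl j δ' : GL (Fin 2) B) : Matrix (Fin 2) (Fin 2) B)
  set t := (δ' : Matrix (Fin 2) (Fin 2) A).trace
  set d := (δ' : Matrix (Fin 2) (Fin 2) A).det
  have htr : D.trace = j t := (AddMonoidHom.map_trace j.toAddMonoidHom _).symm
  have hdet : D.det = j d := (j.map_det _).symm
  have hDτ : D.map τ = D := congrArg Units.val (P.gl_tau_j δ')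
  have ht : Valued.v t ≤ (1 : Γ₀) := P.v_j_le_one.1 (by
    rw [← htr]
    have e : (((g₀⁻¹ * gl j δ' * g₀ : GL (Fin 2) B)) : Matrix (Fin 2) (Fin 2) B).trace = D.trace := by
      rw [Units.val_mul, trace_mul_comm, ← Units.val_mul, ← mul_assoc, mul_inv_cancel, one_mul]
    rw [← e, trace_fin_two]
    exact Valued.v.map_add_le (ent_of_mem_lvl hg₀' 0 0) (ent_of_mem_lvl hg₀' 1 1))
  have hd : Valued.v d = (1 : Γ₀) := P.v_j_eq_one.1 (by
    rw [← hdet, ← det_conj' g₀]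
    exact v_det_of_mem_lvl hg₀')
  obtain ⟨w, cw, hw0, hw1, hwn, hNw⟩ := P.exists_norm_omega hθ hθ' ht hd
  set φ := ev D htr hdet
  have hw : IsUnit w := QuadraticAlgebra.isUnit_iff_norm_isUnit.2
    (isUnit_iff_ne_zero.2 fun e => by simp [e] at hwn)
  set e : GL (Fin 2) B := Units.map φ.toMonoidHom hw.unit
  have hNu : IsUnit (N3Q (P.tau_j t) (P.tau_j d) w) :=
    (hw.mul (hw.map (sig (P.tau_j t) (P.tau_j d)))).mul
      ((hw.map (sig (P.tau_j t) (P.tau_j d))).map (sig (P.tau_j t) (P.tau_j d)))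
  have hcw : cw ≠ 0 := fun e0 => by
    rw [hNw, e0] at hNu
    exact not_isUnit_zero (M₀ := QA (j t) (j d)) hNu
  refine ⟨δ', c₀, e, Units.mk0 cw hcw, hδδ', hd, ?_, ?_, fun g hg => ?_⟩
  · have h1 : Commute e (gl j δ') := by
      refine Units.ext ?_
      show φ w * D = D * φ w
      simp only [φ, ev_apply, mul_add, add_mul, Matrix.mul_smul, Matrix.smul_mul, mul_one, one_mul]
    rw [hδδ', map_mul, gl_scal]
    exact h1.mul_right (show Commute e (scal _) from (scal_mul_comm _ e).symm)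
  · refine Units.ext ?_
    have h1 : ((N3 τ e : GL (Fin 2) B) : Matrix (Fin 2) (Fin 2) B) =
        φ (N3Q (P.tau_j t) (P.tau_j d) w) := by
      simp only [N3, N3Q, Units.val_mul, map_mul, φ, ev_sig htr hdet (P.tau_j t) (P.tau_j d) hDτ]
      rfl
    rw [h1, hNw, Units.val_mul]
    ext i k
    simp [φ, ev_apply, scal, D, Matrix.mul_diagonal, mul_comm]
  · refine mem_lvl_one.2 ⟨fun i k => ?_, ?_⟩
    · have hE : ((g⁻¹ * e * g : GL (Fin 2) B) : Matrix (Fin 2) (Fin 2) B) =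
          w.re • (1 : Matrix (Fin 2) (Fin 2) B) +
            w.im • ((g⁻¹ * gl j δ' * g : GL (Fin 2) B) : Matrix (Fin 2) (Fin 2) B) := by
        show ((g⁻¹ : GL (Fin 2) B) : Matrix (Fin 2) (Fin 2) B) * φ w * _ = _
        simp only [φ, ev_apply, Matrix.mul_add, Matrix.add_mul, Matrix.mul_smul, Matrix.smul_mul,
          mul_one, Units.val_mul]
        rw [← Units.val_mul, inv_mul_cancel, Units.val_one]
      rw [hE, Matrix.add_apply, Matrix.smul_apply, Matrix.smul_apply, smul_eq_mul, smul_eq_mul]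
      refine Valued.v.map_add_le ?_ ?_ <;> rw [map_mul]
      · exact mul_le_one' hw0 (ent_one i k)
      · exact mul_le_one' hw1 (ent_of_mem_lvl hg i k)
    · rw [det_conj']
      show Valued.v (φ w).det = _
      rw [det_ev]
      exact hwn

/-- **A norm at an inert place.** -/
theorem Pair.exists_norm (P : Pair j τ) [Finite (ResidueField (intB B))]
    (hval : ∀ x : B, ∃ y, Valued.v (j y) = Valued.v x) {θ : B} (hθ : Valued.v θ ≤ (1 : Γ₀))
    (hθ' : Valued.v (τ θ - θ) = (1 : Γ₀)) {δ : GL (Fin 2) A}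
    (hq : ∃ q : GL (Fin 2) A, q⁻¹ * δ * q ∈ lvlZ 1) :
    ∃ (e : GL (Fin 2) B) (c : Bˣ), Commute e (gl j δ) ∧ N3 τ e = gl j δ * scal c := by
  obtain ⟨q, hq⟩ := hq
  obtain ⟨δ', c₀, e, cu, hδ', -, he, hN, -⟩ := P.exists_eps hval hθ hθ' (g₀ := gl j q)
    (by rw [← map_inv, ← map_mul, ← map_mul]; exact P.j_mem_lvlZ_one hq)
  refine ⟨e, cu / Units.map j.toMonoidHom c₀, he, ?_⟩
  rw [hN, hδ', map_mul, gl_scal, mul_assoc, ← scal_mul, mul_div_cancel]

/-- Two elements of the centraliser with proportional norms differ by a coboundary and a scalar. -/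
theorem Pair.exists_coboundary (P : Pair j τ) {θ : B} (hθ' : τ θ ≠ θ)
    {δ : GL (Fin 2) A} (hδ : (δ : Matrix (Fin 2) (Fin 2) A) 0 1 ≠ 0) {γ e : GL (Fin 2) B}
    (hγc : Commute γ (gl j δ)) (hec : Commute e (gl j δ)) {u : Bˣ}
    (hN : N3 τ γ = N3 τ e * scal u) :
    ∃ (Z : GL (Fin 2) B) (mu : Bˣ), γ * gl τ Z = Z * e * scal mu ∧
      ∀ ξ, Commute ξ δ → gl j ξ * Z = Z * gl j ξ := by
  set D : Matrix (Fin 2) (Fin 2) B := ((gl j δ : GL (Fin 2) B) : Matrix (Fin 2) (Fin 2) B)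
  set t := (δ : Matrix (Fin 2) (Fin 2) A).trace
  set d := (δ : Matrix (Fin 2) (Fin 2) A).det
  have htr : D.trace = j t := (AddMonoidHom.map_trace j.toAddMonoidHom _).symm
  have hdet : D.det = j d := (j.map_det _).symm
  have hDτ : D.map τ = D := congrArg Units.val (P.gl_tau_j δ)
  set φ := ev D htr hdet
  have hD01 : D 0 1 ≠ 0 := fun h0 => hδ (j.injective (by simpa [D] using h0))
  have hcomm : ∀ x : GL (Fin 2) B, Commute x (gl j δ) →
      ∃ y : QA (j t) (j d), IsUnit y ∧ (x : Matrix (Fin 2) (Fin 2) B) = φ y := fun x hx => by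
    set y1 := (x : Matrix (Fin 2) (Fin 2) B) 0 1 / D 0 1
    refine ⟨⟨(x : Matrix (Fin 2) (Fin 2) B) 0 0 - y1 * D 0 0, y1⟩, ?_⟩
    have hM : (x : Matrix (Fin 2) (Fin 2) B) * D = D * (x : Matrix (Fin 2) (Fin 2) B) :=
      congrArg Units.val hx.eq
    have h00 := congrFun (congrFun hM 0) 0
    have h01 := congrFun (congrFun hM 0) 1
    simp [Matrix.mul_apply, Fin.sum_univ_two] at h00 h01
    have hy1 : y1 * D 0 1 = (x : Matrix (Fin 2) (Fin 2) B) 0 1 := div_mul_cancel₀ _ hD01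
    have he : (x : Matrix (Fin 2) (Fin 2) B) =
        φ ⟨(x : Matrix (Fin 2) (Fin 2) B) 0 0 - y1 * D 0 0, y1⟩ := by
      ext i k
      fin_cases i <;> fin_cases k <;> simp [φ, ev_apply]
      · exact hy1.symm
      · exact mul_left_cancel₀ hD01 (by linear_combination -h00 - D 1 0 * hy1)
      · exact mul_left_cancel₀ hD01 (by linear_combination -h01 + (D 0 0 - D 1 1) * hy1)
    refine ⟨QuadraticAlgebra.isUnit_iff_norm_isUnit.2 (isUnit_iff_ne_zero.2 ?_), he⟩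
    rw [← det_ev htr hdet, ← he]
    exact (Matrix.GeneralLinearGroup.det x).ne_zero
  have hinj : Function.Injective φ := fun x y hxy => by
    have h01 := congrFun (congrFun hxy 0) 1
    have h00 := congrFun (congrFun hxy 0) 0
    simp [φ, ev_apply, hD01] at h01 h00
    rw [h01, add_left_inj] at h00
    exact QuadraticAlgebra.ext h00 h01
  have hφsig : ∀ x, φ (sig (P.tau_j t) (P.tau_j d) x) = (φ x).map τ :=
    ev_sig htr hdet (P.tau_j t) (P.tau_j d) hDτ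
  obtain ⟨yγ, hγu, hyγ⟩ := hcomm γ hγc
  obtain ⟨w, hw, hyw⟩ := hcomm e hec
  obtain ⟨wi, hwi⟩ := hw.exists_right_inv
  have hscal : ∀ c : Bˣ, φ ⟨(c : B), 0⟩ = ((scal c : GL (Fin 2) B) : Matrix (Fin 2) (Fin 2) B) :=
    fun c => by
      ext i k
      fin_cases i <;> fin_cases k <;> simp [φ, ev_apply, scal]
  have hφN : ∀ (x : GL (Fin 2) B) (y : QA (j t) (j d)),
      (x : Matrix (Fin 2) (Fin 2) B) = φ y →
      ((N3 τ x : GL (Fin 2) B) : Matrix (Fin 2) (Fin 2) B) =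
        φ (N3Q (P.tau_j t) (P.tau_j d) y) := fun x y hxy => by
    simp only [N3, N3Q, Units.val_mul, map_mul, hφsig, ← hxy]
    rfl
  set β : B := (u : B)
  set y' := yγ * wi
  have hNy' : N3Q (P.tau_j t) (P.tau_j d) y' = ⟨β, 0⟩ := by
    have h1 : N3Q (P.tau_j t) (P.tau_j d) yγ = N3Q (P.tau_j t) (P.tau_j d) w * ⟨β, 0⟩ := hinj (by
      rw [map_mul, ← hφN γ yγ hyγ, ← hφN e w hyw, hscal, hN, Units.val_mul])
    rw [show y' = yγ * wi from rfl, N3Q_mul, h1, mul_right_comm, ← N3Q_mul, hwi, N3Q_one, one_mul]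
  have hy'u : IsUnit y' := hγu.mul (IsUnit.of_mul_eq_one _ ((mul_comm wi w).trans hwi))
  set n := QuadraticAlgebra.norm y'
  have hn : n ≠ 0 := (QuadraticAlgebra.isUnit_iff_norm_isUnit.1 hy'u).ne_zero
  have hβτ : τ β = β :=
    congrArg QuadraticAlgebra.re (hNy' ▸ sig_N3Q (P.tau_j t) (P.tau_j d) P.cube y')
  have hnn : n * τ n * τ (τ n) = β ^ 2 := by
    have := congrArg QuadraticAlgebra.norm hNy'
    simp only [N3Q, map_mul, norm_sig] at this
    rw [this]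
    simp [QuadraticAlgebra.norm_def]
    ring
  set m : B := β / n
  have hm : m ≠ 0 := div_ne_zero u.ne_zero hn
  set y'' : QA (j t) (j d) := y' * ⟨m⁻¹, 0⟩
  have hy'' : N3Q (P.tau_j t) (P.tau_j d) y'' = 1 := by
    rw [N3Q_mul, hNy']
    have hmm : β * (m⁻¹ * τ m⁻¹ * τ (τ m⁻¹)) = 1 := by
      have hβ : β ≠ 0 := u.ne_zero
      simp only [m, map_inv₀, map_div₀, hβτ]
      field_simp
      linear_combination hnn
    refine QuadraticAlgebra.ext ?_ ?_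
    · simp [N3Q, sig, QuadraticAlgebra.re_one]
      simpa using hmm
    · simp [N3Q, sig, QuadraticAlgebra.im_one]
  obtain ⟨z, hz, hzy⟩ := hilbert90 (P.tau_j t) (P.tau_j d) P.cube (θ := θ)
    (isUnit_iff_ne_zero.2 (sub_ne_zero.2 hθ')) hy''
  refine ⟨Units.map φ.toMonoidHom hz.unit, Units.mk0 m hm, ?_, fun ξ hξ => ?_⟩
  · refine Units.ext ?_
    have h1 : yγ * sig (P.tau_j t) (P.tau_j d) z = z * w * ⟨m, 0⟩ := by
      have hmi : (⟨m⁻¹, 0⟩ : QA (j t) (j d)) * ⟨m, 0⟩ = 1 :=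
        QuadraticAlgebra.ext (by simp [hm, QuadraticAlgebra.re_one])
          (by simp [QuadraticAlgebra.im_one])
      calc yγ * sig (P.tau_j t) (P.tau_j d) z
          = y'' * sig (P.tau_j t) (P.tau_j d) z * w * ⟨m, 0⟩ := by
            simp only [y'', y']
            linear_combination (-(yγ * sig (P.tau_j t) (P.tau_j d) z * (wi * w))) * hmi -
              (yγ * sig (P.tau_j t) (P.tau_j d) z) * hwi
        _ = _ := by rw [hzy]
    rw [Units.val_mul, Units.val_mul, Units.val_mul, ← hscal, hyγ, hyw]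
    show φ yγ * (φ z).map τ = φ z * φ w * φ _
    rw [← hφsig, ← map_mul, h1, map_mul, map_mul]
    rfl
  · refine Units.ext ?_
    have hc2 : ((gl j ξ : GL (Fin 2) B) : Matrix (Fin 2) (Fin 2) B) * D = D * _ :=
      congrArg Units.val (hξ.map (gl j)).eq
    show _ * φ z = φ z * _
    simp only [φ, ev_apply, mul_add, add_mul, Matrix.mul_smul, Matrix.smul_mul, mul_one, one_mul,
      hc2]

/-- The matching through a unit and a coboundary. -/
theorem Pair.match_core (P : Pair j τ) (hval : ∀ x : B, ∃ y, Valued.v (j y) = Valued.v x) {θ : B}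
    (hθ : Valued.v θ ≤ (1 : Γ₀)) (hθ' : Valued.v (τ θ - θ) = (1 : Γ₀)) {δ δ' : GL (Fin 2) A}
    {c₀ : Aˣ} (hδ' : δ = δ' * scal c₀)
    (hd : Valued.v (δ' : Matrix (Fin 2) (Fin 2) A).det = (1 : Γ₀)) {γ e Z : GL (Fin 2) B} {cu mu : Bˣ}
    (hNe : N3 τ e = gl j δ' * scal cu)
    (heint : ∀ g : GL (Fin 2) B, g⁻¹ * gl j δ' * g ∈ lvl 1 → g⁻¹ * e * g ∈ lvl 1)
    (hsplit : γ * gl τ Z = Z * e * scal mu) (hZ : ∀ ξ, Commute ξ δ → gl j ξ * Z = Z * gl j ξ) :
    ∃ π : GL (Fin 2) B ⧸ lvlZ (K := B) (1 : Γ₀) → GL (Fin 2) A ⧸ lvlZ (K := A) (1 : Γ₀),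
      (∀ ξ, Commute ξ δ → ∀ c, c.out⁻¹ * γ * gl τ c.out ∈ lvlZ 1 → π (gl j ξ • c) = ξ • π c) ∧
      (∀ c', (∀ c, ¬ (c.out⁻¹ * γ * gl τ c.out ∈ lvlZ 1 ∧ π c = c')) ∧
          ¬ c'.out⁻¹ * δ * c'.out ∈ lvlZ 1 ∨
        ∃ c₁, (∀ c, (c.out⁻¹ * γ * gl τ c.out ∈ lvlZ 1 ∧ π c = c') ↔ c = c₁) ∧
          c'.out⁻¹ * δ * c'.out ∈ lvlZ 1) ∧
      (Z = 1 → π (QuotientGroup.mk 1) = QuotientGroup.mk 1) := by
  classical
  have hfun : ∀ h : GL (Fin 2) B,
      ((Z * h)⁻¹ * γ * gl τ (Z * h) ∈ lvlZ 1 ↔ h⁻¹ * e * gl τ h ∈ lvlZ 1) := fun h => by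
    rw [show (Z * h)⁻¹ * γ * gl τ (Z * h) = h⁻¹ * e * gl τ h * scal mu by
      rw [map_mul, mul_assoc, mul_assoc, ← mul_assoc γ, hsplit, _root_.mul_inv_rev]
      simp only [mul_assoc, inv_mul_cancel_left]
      rw [scal_mul_comm mu], mul_scal_mem_lvlZ_iff]
  have hscale : ∀ g : GL (Fin 2) B, g⁻¹ * gl j δ' * g ∈ lvlZ 1 → g⁻¹ * gl j δ' * g ∈ lvl 1 :=
    fun g hg => mem_lvl_one_of_det hg (by
      rw [det_conj', show ((gl j δ' : GL (Fin 2) B) : Matrix (Fin 2) (Fin 2) B).det =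
        j (δ' : Matrix (Fin 2) (Fin 2) A).det from (j.map_det _).symm]
      exact P.v_j_eq_one.2 hd)
  have hAsupp : ∀ q : GL (Fin 2) A, q⁻¹ * δ * q ∈ lvlZ 1 ↔ q⁻¹ * δ' * q ∈ lvlZ 1 := fun q => by
    rw [hδ', conj_scal, mul_scal_mem_lvlZ_iff]
  have hto : ∀ q : GL (Fin 2) A, q⁻¹ * δ * q ∈ lvlZ 1 →
      (Z * gl j q)⁻¹ * γ * gl τ (Z * gl j q) ∈ lvlZ 1 := fun q hq => by
    rw [hfun, P.gl_tau_j]
    refine lvl_le_lvlZ 1 (heint _ (hscale _ ?_))
    rw [← map_inv, ← map_mul, ← map_mul]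
    exact P.j_mem_lvlZ_one ((hAsupp q).1 hq)
  have hfrom : ∀ g : GL (Fin 2) B, g⁻¹ * γ * gl τ g ∈ lvlZ 1 →
      ∃ q : GL (Fin 2) A, q⁻¹ * δ * q ∈ lvlZ 1 ∧ g⁻¹ * (Z * gl j q) ∈ lvlZ 1 := fun g hg => by
    set h := Z⁻¹ * g with hh
    have hs : h⁻¹ * e * gl τ h ∈ lvlZ 1 := (hfun h).1 (by rwa [hh, mul_inv_cancel_left])
    have hN := P.N3_mem_lvlZ hs
    rw [P.N3_twist, hNe, conj_scal, mul_scal_mem_lvlZ_iff] at hN
    have hδh : h⁻¹ * gl j δ' * h ∈ lvl 1 := hscale _ hN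
    have hth : h⁻¹ * gl τ h ∈ lvlZ 1 := by
      have h' := mul_mem (lvl_le_lvlZ 1 (inv_mem (heint h hδh))) hs
      rwa [show (h⁻¹ * e * h)⁻¹ * (h⁻¹ * e * gl τ h) = h⁻¹ * gl τ h by group] at h'
    obtain ⟨q, hq⟩ := P.exists_descent hθ hθ' hth
    refine ⟨q, (hAsupp q).2 (P.mem_lvlZ_of_gl_j hval (lvl_le_lvlZ 1 ?_)), ?_⟩
    · rw [map_mul, map_mul, map_inv]
      have h' := mul_mem (mul_mem (inv_mem hq) hδh) hq
      rwa [show (h⁻¹ * gl j q)⁻¹ * (h⁻¹ * gl j δ' * h) * (h⁻¹ * gl j q) =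
        (gl j q)⁻¹ * gl j δ' * gl j q by group] at h'
    · rw [← mul_assoc]
      refine lvl_le_lvlZ 1 ?_
      rwa [show g⁻¹ * Z = h⁻¹ by rw [hh, _root_.mul_inv_rev, inv_inv]]
  let Φ : GL (Fin 2) A ⧸ lvlZ (K := A) (1 : Γ₀) → GL (Fin 2) B ⧸ lvlZ (K := B) (1 : Γ₀) :=
    Quotient.lift (fun q => QuotientGroup.mk (Z * gl j q)) fun q q' hqq => by
      rw [QuotientGroup.eq, show (Z * gl j q)⁻¹ * (Z * gl j q') = gl j (q⁻¹ * q') by
        rw [map_mul, map_inv]; group]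
      exact P.j_mem_lvlZ_one (QuotientGroup.leftRel_apply.1 hqq)
  have hΦinj : Function.Injective Φ := by
    intro c c' hcc
    induction c using QuotientGroup.induction_on with | _ q =>
    induction c' using QuotientGroup.induction_on with | _ q' =>
    refine QuotientGroup.eq.2 (P.mem_lvlZ_of_gl_j hval ?_)
    have h' := QuotientGroup.eq.1 (show QuotientGroup.mk (Z * gl j q) =
      (QuotientGroup.mk (Z * gl j q') : GL (Fin 2) B ⧸ lvlZ (K := B) (1 : Γ₀)) from hcc)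
    rwa [show (Z * gl j q)⁻¹ * (Z * gl j q') = gl j (q⁻¹ * q') by
      rw [map_mul, map_inv]; group] at h'
  have hsupp : ∀ c : GL (Fin 2) B ⧸ lvlZ (K := B) (1 : Γ₀),
      c.out⁻¹ * γ * gl τ c.out ∈ lvlZ 1 ↔
        ∃ c' : GL (Fin 2) A ⧸ lvlZ (K := A) (1 : Γ₀), c'.out⁻¹ * δ * c'.out ∈ lvlZ 1 ∧ Φ c' = c := by
    intro c
    constructor
    · intro hc
      obtain ⟨q, hq, hgq⟩ := hfrom _ hc
      refine ⟨QuotientGroup.mk q, ?_, ?_⟩
      · obtain ⟨⟨u, hu⟩, e'⟩ := QuotientGroup.mk_out_eq_mul (lvlZ (K := A) (1 : Γ₀)) q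
        rw [e', show (q * u)⁻¹ * δ * (q * u) = u⁻¹ * (q⁻¹ * δ * q) * u by group]
        exact mul_mem (mul_mem (inv_mem hu) hq) hu
      · conv_rhs => rw [← QuotientGroup.out_eq' c]
        exact (QuotientGroup.eq.2 hgq).symm
    · rintro ⟨c', hc', rfl⟩
      obtain ⟨u, e'⟩ : ∃ u : lvlZ (K := B) (1 : Γ₀), (Φ c').out = Z * gl j c'.out * u := by
        have : Φ c' = QuotientGroup.mk (Z * gl j c'.out) := by
          conv_lhs => rw [← QuotientGroup.out_eq' c']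
          rfl
        rw [this]
        exact QuotientGroup.mk_out_eq_mul _ _
      rw [e', map_mul (gl τ) (Z * gl j c'.out), _root_.mul_inv_rev]
      have h' := mul_mem (mul_mem (inv_mem u.2) (hto _ hc')) (P.tau_mem_lvlZ u.2)
      simpa only [mul_assoc] using h'
  have : Nonempty (GL (Fin 2) A ⧸ lvlZ (K := A) (1 : Γ₀)) := ⟨QuotientGroup.mk 1⟩
  refine ⟨Function.invFun Φ, fun ξ hξ c hc => ?_, fun c' => ?_, fun h1 => ?_⟩
  · obtain ⟨c', -, rfl⟩ := (hsupp c).1 hc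
    have hsmul : gl j ξ • Φ c' = Φ (ξ • c') := by
      induction c' using QuotientGroup.induction_on with | _ q =>
      show QuotientGroup.mk (gl j ξ * (Z * gl j q)) = (QuotientGroup.mk (Z * gl j (ξ * q)) :
        GL (Fin 2) B ⧸ lvlZ (K := B) (1 : Γ₀))
      rw [map_mul, ← mul_assoc, hZ ξ hξ, mul_assoc]
    rw [hsmul, Function.leftInverse_invFun hΦinj, Function.leftInverse_invFun hΦinj]
  · by_cases hc' : c'.out⁻¹ * δ * c'.out ∈ lvlZ 1
    · refine Or.inr ⟨Φ c', fun c => ⟨fun ⟨h1, h2⟩ => ?_, fun h => ?_⟩, hc'⟩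
      · obtain ⟨c'', -, rfl⟩ := (hsupp c).1 h1
        rw [← h2, Function.leftInverse_invFun hΦinj]
      · subst h
        exact ⟨(hsupp _).2 ⟨c', hc', rfl⟩, Function.leftInverse_invFun hΦinj c'⟩
    · refine Or.inl ⟨fun c ⟨h1, h2⟩ => ?_, hc'⟩
      obtain ⟨c'', hc'', rfl⟩ := (hsupp c).1 h1
      rw [Function.leftInverse_invFun hΦinj] at h2
      exact hc' (h2 ▸ hc'')
  · have : Φ (QuotientGroup.mk 1) = QuotientGroup.mk 1 := by
      show (QuotientGroup.mk (Z * gl j 1) : GL (Fin 2) B ⧸ lvlZ (K := B) (1 : Γ₀)) = _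
      rw [h1, map_one, mul_one]
    rw [← this, Function.leftInverse_invFun hΦinj]

/-- **The matching of the units**, with the base point when everything is integral. -/
theorem Pair.exists_unit_match (P : Pair j τ) [Finite (ResidueField (intB B))]
    (hval : ∀ x : B, ∃ y, Valued.v (j y) = Valued.v x) {θ : B} (hθ : Valued.v θ ≤ (1 : Γ₀))
    (hθ' : Valued.v (τ θ - θ) = (1 : Γ₀)) {δ : GL (Fin 2) A}
    (hδ : (δ : Matrix (Fin 2) (Fin 2) A) 0 1 ≠ 0) {γ : GL (Fin 2) B} {a : Bˣ}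
    (hγ : N3 τ γ = gl j δ * scal a) (hcomm : Commute γ (gl j δ)) :
    ∃ π : GL (Fin 2) B ⧸ lvlZ (K := B) (1 : Γ₀) → GL (Fin 2) A ⧸ lvlZ (K := A) (1 : Γ₀),
      ((∀ ξ, Commute ξ δ → ∀ c,
          ((lvlZ (K := B) (1 : Γ₀) : Subgroup (GL (Fin 2) B)) : Set (GL (Fin 2) B)).indicator
            (1 : GL (Fin 2) B → ℂ) (c.out⁻¹ * γ * gl τ c.out) ≠ 0 → π (gl j ξ • c) = ξ • π c) ∧
        ∀ c', {c | ((lvlZ (K := B) (1 : Γ₀) : Subgroup (GL (Fin 2) B)) : Set (GL (Fin 2) B)).indicator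
              (1 : GL (Fin 2) B → ℂ) (c.out⁻¹ * γ * gl τ c.out) ≠ 0 ∧ π c = c'}.Finite ∧
          ∑ᶠ (c) (_ : ((lvlZ (K := B) (1 : Γ₀) : Subgroup (GL (Fin 2) B)) : Set (GL (Fin 2) B)).indicator
              (1 : GL (Fin 2) B → ℂ) (c.out⁻¹ * γ * gl τ c.out) ≠ 0 ∧ π c = c'),
            ((lvlZ (K := B) (1 : Γ₀) : Subgroup (GL (Fin 2) B)) : Set (GL (Fin 2) B)).indicator
              (1 : GL (Fin 2) B → ℂ) (c.out⁻¹ * γ * gl τ c.out) =
            ((1 : ℕ) : ℂ) * ((lvlZ (K := A) (1 : Γ₀) : Subgroup (GL (Fin 2) A)) :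
              Set (GL (Fin 2) A)).indicator (1 : GL (Fin 2) A → ℂ) (c'.out⁻¹ * δ * c'.out)) ∧
      (γ ∈ lvlZ 1 → δ ∈ lvl 1 → Valued.v ((δ : Matrix (Fin 2) (Fin 2) A) 1 0) = (1 : Γ₀) →
        π (QuotientGroup.mk 1) = QuotientGroup.mk 1) := by
  classical
  have hB : ∀ g : GL (Fin 2) B,
      ((lvlZ (K := B) (1 : Γ₀) : Subgroup (GL (Fin 2) B)) : Set (GL (Fin 2) B)).indicator
        (1 : GL (Fin 2) B → ℂ) g = if g ∈ lvlZ 1 then 1 else 0 := fun g => by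
    simp [Set.indicator_apply]
  have hA : ∀ g : GL (Fin 2) A,
      ((lvlZ (K := A) (1 : Γ₀) : Subgroup (GL (Fin 2) A)) : Set (GL (Fin 2) A)).indicator
        (1 : GL (Fin 2) A → ℂ) g = if g ∈ lvlZ 1 then 1 else 0 := fun g => by
    simp [Set.indicator_apply]
  simp only [hB, hA, ne_eq, ite_eq_right_iff, one_ne_zero, imp_false, not_not]
  -- reduce to the core
  suffices h : ∃ π : GL (Fin 2) B ⧸ lvlZ (K := B) (1 : Γ₀) → GL (Fin 2) A ⧸ lvlZ (K := A) (1 : Γ₀),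
      (∀ ξ, Commute ξ δ → ∀ c, c.out⁻¹ * γ * gl τ c.out ∈ lvlZ 1 → π (gl j ξ • c) = ξ • π c) ∧
      (∀ c', (∀ c, ¬ (c.out⁻¹ * γ * gl τ c.out ∈ lvlZ 1 ∧ π c = c')) ∧
          ¬ c'.out⁻¹ * δ * c'.out ∈ lvlZ 1 ∨
        ∃ c₁, (∀ c, (c.out⁻¹ * γ * gl τ c.out ∈ lvlZ 1 ∧ π c = c') ↔ c = c₁) ∧
          c'.out⁻¹ * δ * c'.out ∈ lvlZ 1) ∧
      (γ ∈ lvlZ 1 → δ ∈ lvl 1 → Valued.v ((δ : Matrix (Fin 2) (Fin 2) A) 1 0) = (1 : Γ₀) →
        π (QuotientGroup.mk 1) = QuotientGroup.mk 1) by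
    obtain ⟨π, h1, h2, h3⟩ := h
    refine ⟨π, ⟨h1, fun c' => ?_⟩, h3⟩
    rcases h2 c' with ⟨h, hc'⟩ | ⟨c₁, h, hc'⟩
    · simp [h, hc']
    · refine ⟨by simp [h], ?_⟩
      simp only [h, finsum_cond_eq_left]
      simp [hc', ((h c₁).2 rfl).1]
  by_cases hb : γ ∈ lvlZ 1 ∧ δ ∈ lvl 1 ∧ Valued.v ((δ : Matrix (Fin 2) (Fin 2) A) 1 0) = (1 : Γ₀)
  · obtain ⟨⟨k, hk, c, hγk⟩, hδ1, hv10⟩ := hb
    set n3 : Bˣ := c * Units.map τ.toMonoidHom c * Units.map τ.toMonoidHom (Units.map τ.toMonoidHom c)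
    have hNk : N3 τ k = gl j δ * scal (a / n3) := by
      have e1 := N3_scal (τ := τ) c k
      rw [← hγk, hγ] at e1
      rw [div_eq_mul_inv, scal_mul, ← mul_assoc, e1, mul_assoc, ← scal_mul, mul_inv_cancel,
        scal_one, mul_one]
    have hkc : Commute k (gl j δ) := by
      have : k = γ * scal c⁻¹ := by rw [hγk, mul_assoc, ← scal_mul, mul_inv_cancel, scal_one, mul_one]
      rw [this]
      exact hcomm.mul_left (scal_mul_comm _ _)
    have heint : ∀ g : GL (Fin 2) B, g⁻¹ * gl j δ * g ∈ lvl 1 → g⁻¹ * k * g ∈ lvl 1 := fun g hg => by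
      refine mem_lvl_one.2 ⟨?_, by rw [det_conj']; exact v_det_of_mem_lvl hk⟩
      set K : Matrix (Fin 2) (Fin 2) B := (k : Matrix (Fin 2) (Fin 2) B)
      set D : Matrix (Fin 2) (Fin 2) B := ((gl j δ : GL (Fin 2) B) : Matrix (Fin 2) (Fin 2) B)
      have hD10 : Valued.v (D 1 0) = (1 : Γ₀) := P.v_j_eq_one.2 hv10
      have hD0 : D 1 0 ≠ 0 := fun e0 => by simp [e0] at hD10
      have hM : K * D = D * K := congrArg Units.val hkc.eq
      have h00 := congrFun (congrFun hM 0) 0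
      have h10 := congrFun (congrFun hM 1) 0
      simp [Matrix.mul_apply, Fin.sum_univ_two] at h00 h10
      set y := K 1 0 / D 1 0
      have hy : y * D 1 0 = K 1 0 := div_mul_cancel₀ _ hD0
      have hK : K = (K 0 0 - y * D 0 0) • (1 : Matrix (Fin 2) (Fin 2) B) + y • D := by
        ext i l
        fin_cases i <;> fin_cases l <;> simp
        · exact mul_left_cancel₀ hD0 (by linear_combination h00 - D 0 1 * hy)
        · exact hy.symm
        · exact mul_left_cancel₀ hD0 (by linear_combination h10 + (D 0 0 - D 1 1) * hy)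
      have hvy : Valued.v y ≤ (1 : Γ₀) := by
        rw [map_div₀, hD10, div_one]
        exact ent_of_mem_lvl hk 1 0
      intro i l
      have hE : ((g⁻¹ * k * g : GL (Fin 2) B) : Matrix (Fin 2) (Fin 2) B) =
          (K 0 0 - y * D 0 0) • (1 : Matrix (Fin 2) (Fin 2) B) +
            y • ((g⁻¹ * gl j δ * g : GL (Fin 2) B) : Matrix (Fin 2) (Fin 2) B) := by
        rw [Units.val_mul, Units.val_mul]
        show _ * K * _ = _
        conv_lhs => rw [hK]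
        simp only [Matrix.mul_add, Matrix.add_mul, Matrix.mul_smul, Matrix.smul_mul, mul_one,
          Units.val_mul]
        rw [← Units.val_mul, inv_mul_cancel, Units.val_one]
      rw [hE, Matrix.add_apply, Matrix.smul_apply, Matrix.smul_apply, smul_eq_mul, smul_eq_mul]
      refine Valued.v.map_add_le ?_ ?_ <;> rw [map_mul]
      · refine mul_le_one' (Valued.v.map_sub_le (ent_of_mem_lvl hk 0 0) ?_) (ent_one i l)
        rw [map_mul]
        exact mul_le_one' hvy (P.v_j_le_one.2 (ent_of_mem_lvl hδ1 0 0))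
      · exact mul_le_one' hvy (ent_of_mem_lvl hg i l)
    obtain ⟨π, h1, h2, h3⟩ := P.match_core hval hθ hθ' (δ := δ) (δ' := δ) (c₀ := 1)
      (by rw [scal_one, mul_one]) (v_det_of_mem_lvl hδ1) (γ := γ) (e := k) (Z := 1)
      (mu := c) hNk heint (by rw [map_one, mul_one, one_mul, hγk]) (fun ξ _ => by simp)
    exact ⟨π, h1, h2, fun _ _ _ => h3 rfl⟩
  by_cases hne : ∃ g : GL (Fin 2) B, g⁻¹ * gl j δ * g ∈ lvlZ 1
  · obtain ⟨g₀, hg₀⟩ := hne
    obtain ⟨δ', c₀, e, cu, hδ', hd, hec, hNe, heint⟩ := P.exists_eps hval hθ hθ' hg₀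
    obtain ⟨Z, mu, hsplit, hZ⟩ := P.exists_coboundary (fun e0 => by rw [e0, sub_self, map_zero] at hθ'; exact zero_ne_one hθ') hδ hcomm hec
      (u := a * (cu / Units.map j.toMonoidHom c₀)⁻¹) (by
        rw [hγ, hNe, hδ', map_mul, gl_scal, mul_assoc, mul_assoc, ← scal_mul, ← scal_mul]
        congr 2
        rw [inv_div, mul_div_assoc', mul_div_assoc', mul_comm (Units.map _ c₀), eq_comm,
          mul_div_cancel_left])
    obtain ⟨π, h1, h2, -⟩ := P.match_core hval hθ hθ' hδ' hd hNe heint hsplit hZ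
    exact ⟨π, h1, h2, fun h₁ h₂ h₃ => absurd ⟨h₁, h₂, h₃⟩ hb⟩
  · have h1 : ∀ g : GL (Fin 2) B, g⁻¹ * γ * gl τ g ∉ lvlZ 1 := fun g hg => hne ⟨g, by
      have h3 := P.N3_mem_lvlZ hg
      rwa [P.N3_twist, hγ, conj_scal, mul_scal_mem_lvlZ_iff] at h3⟩
    have h2 : ∀ q : GL (Fin 2) A, q⁻¹ * δ * q ∉ lvlZ 1 := fun q hq =>
      hne ⟨gl j q, by rw [← map_inv, ← map_mul, ← map_mul]; exact P.j_mem_lvlZ_one hq⟩
    exact ⟨fun _ => QuotientGroup.mk 1, fun ξ _ c hc => absurd hc (h1 _),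
      fun c' => Or.inl ⟨fun c hc => h1 _ hc.1, h2 _⟩, fun _ _ _ => rfl⟩

/-- **Local matching of the units.** -/
theorem Pair.localMatch_unit (P : Pair j τ) [Finite (ResidueField (intB B))]
    (hval : ∀ x : B, ∃ y, Valued.v (j y) = Valued.v x) {θ : B} (hθ : Valued.v θ ≤ (1 : Γ₀))
    (hθ' : Valued.v (τ θ - θ) = (1 : Γ₀)) {δ : GL (Fin 2) A}
    (hδ : (δ : Matrix (Fin 2) (Fin 2) A) 0 1 ≠ 0) {γ : GL (Fin 2) B} {a : Bˣ}
    (hγ : N3 τ γ = gl j δ * scal a) (hcomm : Commute γ (gl j δ)) :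
    LocalMatch j (lvlZ 1) (lvlZ 1) δ
      (fun g => ((lvlZ (K := B) (1 : Γ₀) : Subgroup (GL (Fin 2) B)) : Set (GL (Fin 2) B)).indicator 1
        (g⁻¹ * γ * gl τ g))
      (fun q => ((lvlZ (K := A) (1 : Γ₀) : Subgroup (GL (Fin 2) A)) : Set (GL (Fin 2) A)).indicator 1
        (q⁻¹ * δ * q)) 1 := by
  obtain ⟨π, h, -⟩ := P.exists_unit_match hval hθ hθ' hδ hγ hcomm
  exact ⟨π, h⟩

end FLTAgent.LT.Match
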