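import Fermat.Agent.LT.TF.Match.Contract

/-!
The twisted contracting classes are the double cosets `U diag(b,1) U Z` with `N b` congruent to the
cube of the parameter; in particular they are bi-invariant at their own level.
-/

set_option autoImplicit false
set_option linter.unusedSectionVars false

noncomputable section

namespace FLTAgent.LT.Match

open WithZero

local notation "Γ₀" => WithZero (Multiplicative ℤ)

variable {K : Type*} [Field K] [Valued K Γ₀]

/-- Products of contracting double cosets. -/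
theorem dg_mul_lvl_mul_dg {e : Γ₀} (he : e < 1) {a b : Kˣ} (ha : Valued.v (a : K) ≤ (1 : Γ₀))
    (hb : Valued.v (b : K) ≤ (1 : Γ₀)) {k : GL (Fin 2) K} (hk : k ∈ lvl e) :
    ∃ u ∈ lvl e, ∃ w ∈ lvl e, dg (a, 1) * k * dg (b, 1) = u * dg (a * b, 1) * w := by
  have h := ((mem_lvl he.le).1 hk).1
  have h00 := h 0 0; have h01 := h 0 1; have h10 := h 1 0; have h11 := h 1 1
  simp at h00 h01 h10 h11
  set p := (k : Matrix (Fin 2) (Fin 2) K) 0 0 with hp
  set q := (k : Matrix (Fin 2) (Fin 2) K) 0 1 with hq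
  set r := (k : Matrix (Fin 2) (Fin 2) K) 1 0 with hr
  set s := (k : Matrix (Fin 2) (Fin 2) K) 1 1 with hs
  have hs1 : Valued.v s = (1 : Γ₀) := v_eq_one_of_sub he h11
  have hs0 : s ≠ 0 := fun h => by simp [h] at hs1
  have hα : Valued.v (p - q * r / s - 1) ≤ e := by
    rw [show p - q * r / s - 1 = (p - 1) - q * (r / s) by ring]
    refine Valued.v.map_sub_le h00 ?_
    rw [map_mul, map_div₀, hs1, div_one]
    exact (mul_le_mul' h01 (h10.trans he.le)).trans_eq (mul_one e)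
  have hα0 : p - q * r / s ≠ 0 := fun h => by simpa [h] using v_eq_one_of_sub he hα
  set u : GL (Fin 2) K := Matrix.GeneralLinearGroup.mkOfDetNeZero !![1, (a : K) * q / s; 0, 1]
    (by simp [Matrix.det_fin_two])
  set w : GL (Fin 2) K := Matrix.GeneralLinearGroup.mkOfDetNeZero
    !![p - q * r / s, 0; r * (b : K), s] (by simp [Matrix.det_fin_two, hα0, hs0])
  refine ⟨u, mem_lvl_of_ent he fun i j => ?_, w, mem_lvl_of_ent he fun i j => ?_, ?_⟩
  · fin_cases i <;> fin_cases j <;> simp [u]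
    rw [hs1, div_one]
    exact (mul_le_of_le_one_left' ha).trans h01
  · fin_cases i <;> fin_cases j <;> simp [w]
    · exact hα
    · exact (mul_le_of_le_one_right' hb).trans h10
    · exact h11
  · refine Units.ext ?_
    ext i j
    fin_cases i <;> fin_cases j <;>
      simp [u, w, dg, Matrix.mul_apply, Matrix.vecMul, dotProduct, Fin.sum_univ_two, ← hp, ← hq,
        ← hr, ← hs] <;>
      first
      | ring1
      | (field_simp; ring1)
      | field_simp

variable {B : Type*} [Field B] [Valued B Γ₀] {A : Type*} [Field A] [Valued A Γ₀] {j : A →+* B}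
  {τ : B →+* B}

/-- Members of the double cosets are in the twisted classes. -/
theorem Pair.mem_Omega (P : Pair j τ) {e : Γ₀} (he : e < 1) {ϖ b : Bˣ}
    (hb1 : Valued.v (b : B) ≤ (1 : Γ₀)) (hb : Valued.v (((nrm3 τ b / ϖ ^ 3 : Bˣ) : B) - 1) ≤ e)
    {h k : GL (Fin 2) B} (hh : h ∈ lvl e) (hk : k ∈ lvl e) (z : Bˣ) :
    h * dg (b, 1) * k * scal z ∈ Omega τ e ϖ := by
  rw [Omega, Set.mem_ofPred_eq, N3_scal, scal_mem_Dset_mul]
  set b₁ := Units.map τ.toMonoidHom b with hb₁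
  set b₂ := Units.map τ.toMonoidHom b₁ with hb₂
  have hv1 : Valued.v (b₁ : B) ≤ (1 : Γ₀) := by simpa [hb₁, P.v_tau] using hb1
  have hv2 : Valued.v (b₂ : B) ≤ (1 : Γ₀) := by simpa [hb₂, P.v_tau] using hv1
  obtain ⟨u, hu, w, hw, e1⟩ := dg_mul_lvl_mul_dg he hb1 hv1 (mul_mem hk (P.tau_mem_lvl hh))
  obtain ⟨u', hu', w', hw', e2⟩ := dg_mul_lvl_mul_dg he
    (show Valued.v ((b * b₁ : Bˣ) : B) ≤ (1 : Γ₀) by
      rw [Units.val_mul, map_mul]; exact mul_le_one' hb1 hv1) hv2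
    (mul_mem (mul_mem hw (P.tau_mem_lvl hk)) (P.tau_mem_lvl (P.tau_mem_lvl hh)))
  have hN : N3 τ (h * dg (b, 1) * k) = h * u * u' * dg (nrm3 τ b, 1) *
      (w' * gl τ (gl τ k)) := by
    rw [show nrm3 τ b = b * b₁ * b₂ from rfl]
    calc N3 τ (h * dg (b, 1) * k)
        = h * (dg (b, 1) * (k * gl τ h) * dg (b₁, 1)) * gl τ k *
            (gl τ (gl τ h) * dg (b₂, 1) * gl τ (gl τ k)) := by
          simp only [N3, map_mul, gl_dg, map_one, hb₁, hb₂]
          group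
      _ = h * u * (dg (b * b₁, 1) * (w * gl τ k * gl τ (gl τ h)) * dg (b₂, 1)) *
            gl τ (gl τ k) := by rw [e1]; group
      _ = _ := by rw [e2]; group
  rw [hN]
  refine mul_mem_Dset (lvl_le_lvlZ e (mul_mem (mul_mem hh hu) hu')) ?_
    (lvl_le_lvlZ e (mul_mem hw' (P.tau_mem_lvl (P.tau_mem_lvl hk))))
  have := conj_dg_mem_Dset he (ϖ := ϖ ^ 3) (one_mem (lvl e)) hb
    (show Valued.v (((1 : Bˣ) : B) - 1) ≤ e by simp) 1
  simpa [mul_div_cancel] using this

variable [CompleteSpace A] [CompleteSpace B]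

/-- **The twisted classes as double cosets.** -/
theorem Pair.omega_iff_dset (P : Pair j τ) {e : Γ₀} (he : e < 1) {ϖ : Bˣ}
    (hϖ : Valued.v (ϖ : B) < (1 : Γ₀)) {s : GL (Fin 2) B} :
    s ∈ Omega τ e ϖ ↔ ∃ h ∈ lvl e, ∃ k ∈ lvl e, ∃ b z : Bˣ,
      s = h * dg (b, 1) * k * scal z ∧ Valued.v (b : B) = Valued.v (ϖ : B) ∧
        Valued.v (((nrm3 τ b / ϖ ^ 3 : Bˣ) : B) - 1) ≤ e := by
  refine ⟨fun hs => ?_, ?_⟩
  · obtain ⟨h, hh, b, z, rfl, hb⟩ := (P.omega_iff he hϖ).1 hs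
    refine ⟨h, hh, (gl τ h)⁻¹, inv_mem (P.tau_mem_lvl hh), b, z, rfl, ?_, hb⟩
    have h1 := v_eq_one_of_sub he hb
    simp only [nrm3, Units.val_div_eq_div_val, Units.val_mul, Units.val_pow_eq_pow_val,
      Units.coe_map, map_div₀, map_mul, map_pow, RingHom.toMonoidHom_eq_coe, MonoidHom.coe_coe,
      P.v_tau] at h1
    rw [div_eq_one_iff_eq (pow_ne_zero 3 ((map_ne_zero _).2 ϖ.ne_zero))] at h1
    refine (pow_left_inj₀ zero_le zero_le three_ne_zero).1 ?_
    rw [← h1, pow_succ, pow_two]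
  · rintro ⟨h, hh, k, hk, b, z, rfl, hbv, hb⟩
    exact P.mem_Omega he (hbv.trans_le hϖ.le) hb hh hk z

/-- **Bi-invariance of the twisted classes at their own level.** -/
theorem Pair.omega_mul_lvlZ (P : Pair j τ) {e : Γ₀} (he : e < 1) {ϖ : Bˣ}
    (hϖ : Valued.v (ϖ : B) < (1 : Γ₀)) {s u : GL (Fin 2) B} (hs : s ∈ Omega τ e ϖ)
    (hu : u ∈ lvlZ e) : s * u ∈ Omega τ e ϖ ∧ u * s ∈ Omega τ e ϖ := by
  obtain ⟨h, hh, k, hk, b, z, rfl, hbv, hb⟩ := (P.omega_iff_dset he hϖ).1 hs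
  obtain ⟨l, hl, c, rfl⟩ := hu
  have hb1 : Valued.v (b : B) ≤ (1 : Γ₀) := hbv.trans_le hϖ.le
  constructor
  · rw [show h * dg (b, 1) * k * scal z * (l * scal c) = h * dg (b, 1) * (k * l) * scal (z * c) by
      rw [scal_mul, ← mul_assoc _ l, mul_assoc _ (scal z) l, scal_mul_comm z l]
      group]
    exact P.mem_Omega he hb1 hb hh (mul_mem hk hl) _
  · rw [show l * scal c * (h * dg (b, 1) * k * scal z) = l * h * dg (b, 1) * k * scal (c * z) by
      rw [mul_assoc l, scal_mul, ← mul_assoc (scal c), scal_mul_comm c (h * dg (b, 1) * k)]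
      group]
    exact P.mem_Omega he hb1 hb (mul_mem hl hh) hk _

theorem Pair.omegaFn_mul_lvlZ (P : Pair j τ) {e e' : Γ₀} (he : e < 1) {ϖ : Bˣ}
    (hϖ : Valued.v (ϖ : B) < (1 : Γ₀)) (hle : e' ≤ e) {u : GL (Fin 2) B} (hu : u ∈ lvlZ e')
    (g : GL (Fin 2) B) :
    omegaFn τ e ϖ (u * g) = omegaFn τ e ϖ g ∧ omegaFn τ e ϖ (g * u) = omegaFn τ e ϖ g := by
  classical
  have hu' := lvlZ_mono hle hu
  simp only [omegaFn, Set.indicator_apply]
  constructor <;> refine if_congr ⟨fun h => ?_, fun h => ?_⟩ rfl rfl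
  · simpa [mul_assoc] using (P.omega_mul_lvlZ he hϖ h (inv_mem hu')).2
  · exact (P.omega_mul_lvlZ he hϖ h hu').2
  · simpa [mul_assoc] using (P.omega_mul_lvlZ he hϖ h (inv_mem hu')).1
  · exact (P.omega_mul_lvlZ he hϖ h hu').1

end FLTAgent.LT.Match
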