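import Fermat.Agent.LT.TF.Match.Tests
import Fermat.Agent.LT.Red.Approx

/-!
A split place: the fibres of cyclic products over three coset spaces, and transport of `T_v` along
an isometry of completions.
-/

set_option autoImplicit false
set_option linter.unusedSectionVars false
set_option linter.style.haveILetI false

noncomputable section

namespace FLTAgent.LT.Match

open NumberField IsDedekindDomain

section Cyclic

variable {G : Type*} [Group G]

/-- Invariant on both sides under `U`, finitely supported modulo `U`. -/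
structure BiFin (U : Subgroup G) (f : G → ℂ) : Prop where
  left : ∀ u ∈ U, ∀ g, f (u * g) = f g
  right : ∀ u ∈ U, ∀ g, f (g * u) = f g
  fin : {c : G ⧸ U | f c.out ≠ 0}.Finite

/-- The triple convolution modulo `U`, a sum over pairs of cosets. -/
def conv3 (U : Subgroup G) (f : Fin 3 → G → ℂ) (s : G) : ℂ :=
  ∑ᶠ p : (G ⧸ U) × (G ⧸ U), f 0 p.1.out * f 1 (p.1.out⁻¹ * p.2.out) * f 2 (p.2.out⁻¹ * s)

/-- The cyclic product at three cosets. -/
def cycFn (U : Subgroup G) (f : Fin 3 → G → ℂ) (g : Fin 3 → G) (x : Fin 3 → G ⧸ U) : ℂ :=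
  f 0 ((x 0).out⁻¹ * g 0 * (x 1).out) * f 1 ((x 1).out⁻¹ * g 1 * (x 2).out) *
    f 2 ((x 2).out⁻¹ * g 2 * (x 0).out)

variable {U V : Subgroup G} {f : Fin 3 → G → ℂ}

theorem exists_out_mk (U : Subgroup G) (a : G) : ∃ u ∈ U, (QuotientGroup.mk a : G ⧸ U).out = a * u := by
  obtain ⟨u, hu⟩ := QuotientGroup.mk_out_eq_mul U a
  exact ⟨u, u.2, hu⟩

theorem BiFin.apply_out {h : G → ℂ} (hh : BiFin U h) (a m b : G) :
    h ((QuotientGroup.mk a : G ⧸ U).out⁻¹ * m * (QuotientGroup.mk b : G ⧸ U).out) =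
      h (a⁻¹ * m * b) := by
  obtain ⟨u, hu, ea⟩ := exists_out_mk U a
  obtain ⟨u', hu', eb⟩ := exists_out_mk U b
  rw [ea, eb, show (a * u)⁻¹ * m * (b * u') = u⁻¹ * ((a⁻¹ * m * b) * u') by group,
    hh.left _ (inv_mem hu), hh.right _ hu']

theorem BiFin.apply_out' {h : G → ℂ} (hh : BiFin U h) (a : G) :
    h (QuotientGroup.mk a : G ⧸ U).out = h a := by
  obtain ⟨u, hu, ea⟩ := exists_out_mk U a
  rw [ea, hh.right _ hu]

/-- The summands of `conv3` are finite in number. -/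
theorem conv3_finite (hf : ∀ i, BiFin U (f i)) (s : G) :
    {p : (G ⧸ U) × (G ⧸ U) |
      f 0 p.1.out * f 1 (p.1.out⁻¹ * p.2.out) * f 2 (p.2.out⁻¹ * s) ≠ 0}.Finite := by
  refine ((hf 0).fin.prod ((hf 0).fin.biUnion fun y _ => (hf 1).fin.image (y.out • ·))).subset ?_
  rintro ⟨y, z⟩ hp
  obtain ⟨h0, h1⟩ := mul_ne_zero_iff.1 (mul_ne_zero_iff.1 hp).1
  refine ⟨h0, Set.mem_biUnion h0 ⟨QuotientGroup.mk (y.out⁻¹ * z.out), ?_, ?_⟩⟩
  · show f 1 _ ≠ 0
    rwa [(hf 1).apply_out']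
  · show QuotientGroup.mk (y.out * (y.out⁻¹ * z.out)) = z
    rw [mul_inv_cancel_left, QuotientGroup.out_eq']

theorem conv3_mul_right (h2 : ∀ v ∈ V, ∀ g, f 2 (g * v) = f 2 g) {v : G} (hv : v ∈ V) (s : G) :
    conv3 U f (s * v) = conv3 U f s :=
  finsum_congr fun p => by rw [← mul_assoc, h2 v hv]

theorem conv3_mul_left (hf : ∀ i, BiFin U (f i)) (h0 : ∀ v ∈ V, ∀ g, f 0 (v * g) = f 0 g)
    {v : G} (hv : v ∈ V) (s : G) : conv3 U f (v * s) = conv3 U f s := by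
  let e : (G ⧸ U) × (G ⧸ U) ≃ (G ⧸ U) × (G ⧸ U) := (MulAction.toPerm v).prodCongr (MulAction.toPerm v)
  rw [conv3, conv3]
  symm
  refine finsum_eq_of_bijective e e.bijective fun p => ?_
  obtain ⟨y, z⟩ := p
  obtain ⟨a, rfl⟩ := QuotientGroup.mk_surjective y
  obtain ⟨b, rfl⟩ := QuotientGroup.mk_surjective z
  show _ = f 0 (QuotientGroup.mk (v * a) : G ⧸ U).out *
    f 1 ((QuotientGroup.mk (v * a) : G ⧸ U).out⁻¹ * (QuotientGroup.mk (v * b) : G ⧸ U).out) *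
    f 2 ((QuotientGroup.mk (v * b) : G ⧸ U).out⁻¹ * (v * s))
  obtain ⟨u₁, hu₁, e₁⟩ := exists_out_mk U (v * a)
  obtain ⟨u₂, hu₂, e₂⟩ := exists_out_mk U (v * b)
  obtain ⟨u₃, hu₃, e₃⟩ := exists_out_mk U a
  obtain ⟨u₄, hu₄, e₄⟩ := exists_out_mk U b
  simp only [e₁, e₂, e₃, e₄]
  rw [show (a * u₃)⁻¹ * (b * u₄) = u₃⁻¹ * ((a⁻¹ * b) * u₄) by group,
    (hf 1).left _ (inv_mem hu₃), (hf 1).right _ hu₄,
    show (v * a * u₁)⁻¹ * (v * b * u₂) = u₁⁻¹ * ((a⁻¹ * b) * u₂) by group,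
    (hf 1).left _ (inv_mem hu₁), (hf 1).right _ hu₂,
    show (v * b * u₂)⁻¹ * (v * s) = u₂⁻¹ * (b⁻¹ * s) by group, (hf 2).left _ (inv_mem hu₂),
    show (b * u₄)⁻¹ * s = u₄⁻¹ * (b⁻¹ * s) by group, (hf 2).left _ (inv_mem hu₄),
    mul_assoc v a u₁, h0 v hv, (hf 0).right _ hu₁, (hf 0).right _ hu₃]

/-- `conv3` is finitely supported modulo the bigger group. -/
theorem conv3_support (hf : ∀ i, BiFin U (f i)) (hUV : U ≤ V) :
    {c : G ⧸ V | conv3 U f c.out ≠ 0}.Finite := by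
  refine ((((hf 0).fin.biUnion fun y _ => (hf 1).fin.image (y.out • ·)).biUnion fun z _ =>
    (hf 2).fin.image (z.out • ·)).image (Subgroup.quotientMapOfLE hUV)).subset fun c hc => ?_
  obtain ⟨⟨y, z⟩, hp⟩ : ∃ p : (G ⧸ U) × (G ⧸ U),
      f 0 p.1.out * f 1 (p.1.out⁻¹ * p.2.out) * f 2 (p.2.out⁻¹ * c.out) ≠ 0 := by
    by_contra h
    push Not at h
    exact hc (finsum_eq_zero_of_forall_eq_zero h)
  obtain ⟨h01, h2⟩ := mul_ne_zero_iff.1 hp
  obtain ⟨h0, h1⟩ := mul_ne_zero_iff.1 h01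
  refine ⟨QuotientGroup.mk c.out, Set.mem_iUnion₂.2 ⟨z, Set.mem_iUnion₂.2 ⟨y, h0,
    QuotientGroup.mk (y.out⁻¹ * z.out), ?_, ?_⟩, QuotientGroup.mk (z.out⁻¹ * c.out), ?_, ?_⟩, ?_⟩
  · show f 1 _ ≠ 0
    rwa [(hf 1).apply_out']
  · show QuotientGroup.mk (y.out * (y.out⁻¹ * z.out)) = z
    rw [mul_inv_cancel_left, QuotientGroup.out_eq']
  · show f 2 _ ≠ 0
    rwa [(hf 2).apply_out']
  · show QuotientGroup.mk (z.out * (z.out⁻¹ * c.out)) = _
    rw [mul_inv_cancel_left]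
  · rw [Subgroup.quotientMapOfLE_apply_mk, QuotientGroup.out_eq']

theorem conv3_biFin (hf : ∀ i, BiFin U (f i)) (hUV : U ≤ V)
    (h0 : ∀ v ∈ V, ∀ g, f 0 (v * g) = f 0 g) (h2 : ∀ v ∈ V, ∀ g, f 2 (g * v) = f 2 g) :
    BiFin V (conv3 U f) :=
  ⟨fun _ hv s => conv3_mul_left hf h0 hv s, fun _ hv s => conv3_mul_right h2 hv s,
    conv3_support hf hUV⟩

/-- The units in two slots drop out. -/
theorem conv3_units (U : Subgroup G) {h : G → ℂ} (hh : ∀ u ∈ U, ∀ g, h (g * u) = h g) (s : G) :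
    conv3 U ![h, (U : Set G).indicator 1, (U : Set G).indicator 1] s = h s := by
  rw [conv3, finsum_eq_single _ ((QuotientGroup.mk s, QuotientGroup.mk s) : (G ⧸ U) × (G ⧸ U))]
  · obtain ⟨u, hu, e⟩ := exists_out_mk U s
    simp only [Matrix.cons_val_zero, Matrix.cons_val_one, Matrix.cons_val_two, Matrix.head_cons,
      Matrix.tail_cons, inv_mul_cancel, e, hh u hu]
    rw [show (s * u)⁻¹ * s = u⁻¹ by group, Set.indicator_of_mem (one_mem U),
      Set.indicator_of_mem (inv_mem hu)]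
    simp
  · rintro ⟨y, z⟩ hne
    simp only [Matrix.cons_val_zero, Matrix.cons_val_one, Matrix.cons_val_two, Matrix.head_cons,
      Matrix.tail_cons]
    by_cases hz : z.out⁻¹ * s ∈ U
    · have hz' : z = QuotientGroup.mk s := by
        rw [← z.out_eq']
        exact QuotientGroup.eq.2 hz
      have hy : y.out⁻¹ * z.out ∉ U := fun hy => hne (by
        have : y = z := by
          rw [← y.out_eq', ← z.out_eq']
          exact QuotientGroup.eq.2 hy
        rw [this, hz'])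
      rw [Set.indicator_of_notMem hy]
      simp
    · rw [Set.indicator_of_notMem (s := (U : Set G)) hz, mul_zero]

set_option maxHeartbeats 800000 in
/-- The fibres of the projection of the first coset. -/
theorem cyc_fibre (hf : ∀ i, BiFin U (f i)) (hUV : U ≤ V) [Finite (V ⧸ U.subgroupOf V)]
    (h0 : ∀ v ∈ V, ∀ g, f 0 (v * g) = f 0 g) (h2 : ∀ v ∈ V, ∀ g, f 2 (g * v) = f 2 g)
    (g : Fin 3 → G) (c : G ⧸ V) :
    {x : Fin 3 → G ⧸ U | cycFn U f g x ≠ 0 ∧ Subgroup.quotientMapOfLE hUV (x 0) = c}.Finite ∧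
      ∑ᶠ (x) (_ : cycFn U f g x ≠ 0 ∧ Subgroup.quotientMapOfLE hUV (x 0) = c), cycFn U f g x =
        (Nat.card (V ⧸ U.subgroupOf V) : ℂ) * conv3 U f (c.out⁻¹ * (g 0 * g 1 * g 2) * c.out) := by
  classical
  haveI := Fintype.ofFinite (V ⧸ U.subgroupOf V)
  set h := c.out⁻¹ * (g 0 * g 1 * g 2) * c.out with hh
  set T := (G ⧸ U) × (G ⧸ U)
  set tm : G → T → ℂ := fun s p =>
    f 0 p.1.out * f 1 (p.1.out⁻¹ * p.2.out) * f 2 (p.2.out⁻¹ * s)
  set a : V ⧸ U.subgroupOf V → G := fun w => c.out * (w.out : G)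
  set Φ : (V ⧸ U.subgroupOf V) × T → (Fin 3 → G ⧸ U) := fun p =>
    ![QuotientGroup.mk (a p.1), ((g 0)⁻¹ * a p.1) • p.2.1, ((g 0 * g 1)⁻¹ * a p.1) • p.2.2]
  have hinj : Function.Injective Φ := by
    rintro ⟨w, y, z⟩ ⟨w', y', z'⟩ he
    have h₀ : (QuotientGroup.mk (a w) : G ⧸ U) = QuotientGroup.mk (a w') := congrFun he 0
    have hw : w = w' := by
      rw [QuotientGroup.eq] at h₀
      rw [← w.out_eq', ← w'.out_eq', QuotientGroup.eq, Subgroup.mem_subgroupOf]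
      simpa [a, mul_assoc] using h₀
    subst hw
    have h₁ : ((g 0)⁻¹ * a w) • y = ((g 0)⁻¹ * a w) • y' := congrFun he 1
    have h₂ : ((g 0 * g 1)⁻¹ * a w) • z = ((g 0 * g 1)⁻¹ * a w) • z' := congrFun he 2
    rw [smul_left_cancel _ h₁, smul_left_cancel _ h₂]
  have hfib : ∀ p, Subgroup.quotientMapOfLE hUV (Φ p 0) = c := fun p => by
    show Subgroup.quotientMapOfLE hUV (QuotientGroup.mk (a p.1)) = c
    rw [Subgroup.quotientMapOfLE_apply_mk]
    conv_rhs => rw [← c.out_eq']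
    rw [QuotientGroup.eq]
    simp [a, mul_assoc]
  have hsurj : ∀ x : Fin 3 → G ⧸ U, Subgroup.quotientMapOfLE hUV (x 0) = c → x ∈ Set.range Φ := by
    intro x hx
    rw [← (x 0).out_eq', Subgroup.quotientMapOfLE_apply_mk, ← c.out_eq', eq_comm,
      QuotientGroup.eq] at hx
    set w : V ⧸ U.subgroupOf V := QuotientGroup.mk ⟨_, hx⟩
    refine ⟨(w, ((g 0)⁻¹ * a w)⁻¹ • x 1, ((g 0 * g 1)⁻¹ * a w)⁻¹ • x 2), funext fun i => ?_⟩
    fin_cases i
    · show QuotientGroup.mk (a w) = x 0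
      obtain ⟨u, hu⟩ := QuotientGroup.mk_out_eq_mul (U.subgroupOf V) (⟨_, hx⟩ : V)
      rw [← (x 0).out_eq', QuotientGroup.eq]
      simp only [a, w, hu, Subgroup.coe_mul]
      simpa [mul_assoc] using Subgroup.mem_subgroupOf.1 u.2
    · exact smul_inv_smul _ _
    · exact smul_inv_smul _ _
  have hval : ∀ w y z, cycFn U f g (Φ (w, y, z)) =
      tm ((w.out : G)⁻¹ * h * (w.out : G)) (y, z) := by
    intro w y z
    obtain ⟨b, rfl⟩ := QuotientGroup.mk_surjective y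
    obtain ⟨b', rfl⟩ := QuotientGroup.mk_surjective z
    show f 0 ((QuotientGroup.mk (a w) : G ⧸ U).out⁻¹ * g 0 *
          (QuotientGroup.mk ((g 0)⁻¹ * a w * b) : G ⧸ U).out) *
        f 1 ((QuotientGroup.mk ((g 0)⁻¹ * a w * b) : G ⧸ U).out⁻¹ * g 1 *
          (QuotientGroup.mk ((g 0 * g 1)⁻¹ * a w * b') : G ⧸ U).out) *
        f 2 ((QuotientGroup.mk ((g 0 * g 1)⁻¹ * a w * b') : G ⧸ U).out⁻¹ * g 2 *
          (QuotientGroup.mk (a w) : G ⧸ U).out) = _
    rw [(hf 0).apply_out, (hf 1).apply_out, (hf 2).apply_out]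
    simp only [tm]
    obtain ⟨u₁, hu₁, e₁⟩ := exists_out_mk U b
    obtain ⟨u₂, hu₂, e₂⟩ := exists_out_mk U b'
    rw [e₁, e₂, show (a w)⁻¹ * g 0 * ((g 0)⁻¹ * a w * b) = b by group,
      show ((g 0)⁻¹ * a w * b)⁻¹ * g 1 * ((g 0 * g 1)⁻¹ * a w * b') = b⁻¹ * b' by group,
      show ((g 0 * g 1)⁻¹ * a w * b')⁻¹ * g 2 * a w =
        b'⁻¹ * ((w.out : G)⁻¹ * h * (w.out : G)) by simp only [a, hh]; group,
      (hf 0).right _ hu₁,
      show (b * u₁)⁻¹ * (b' * u₂) = u₁⁻¹ * ((b⁻¹ * b') * u₂) by group,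
      (hf 1).left _ (inv_mem hu₁), (hf 1).right _ hu₂,
      show ∀ s : G, (b' * u₂)⁻¹ * s = u₂⁻¹ * (b'⁻¹ * s) from fun s => by group,
      (hf 2).left _ (inv_mem hu₂)]
  have hfin : (Function.support (cycFn U f g ∘ Φ)).Finite := by
    refine ((Set.finite_univ (α := V ⧸ U.subgroupOf V)).biUnion fun w _ =>
      (conv3_finite hf ((w.out : G)⁻¹ * h * (w.out : G))).image (Prod.mk w)).subset ?_
    rintro ⟨w, y, z⟩ hp
    refine Set.mem_biUnion (Set.mem_univ w) ⟨(y, z), ?_, rfl⟩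
    have hp' : cycFn U f g (Φ (w, y, z)) ≠ 0 := hp
    rwa [hval] at hp'
  have hset : {x : Fin 3 → G ⧸ U | cycFn U f g x ≠ 0 ∧
      Subgroup.quotientMapOfLE hUV (x 0) = c} = Φ '' Function.support (cycFn U f g ∘ Φ) := by
    ext x
    constructor
    · rintro ⟨hx, hxc⟩
      obtain ⟨p, rfl⟩ := hsurj x hxc
      exact ⟨p, hx, rfl⟩
    · rintro ⟨p, hp, rfl⟩
      exact ⟨hp, hfib p⟩
  refine ⟨hset ▸ hfin.image Φ, ?_⟩
  calc ∑ᶠ (x) (_ : cycFn U f g x ≠ 0 ∧ Subgroup.quotientMapOfLE hUV (x 0) = c), cycFn U f g x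
      = ∑ᶠ x ∈ Φ '' Function.support (cycFn U f g ∘ Φ), cycFn U f g x := by
        rw [← hset]; simp only [Set.mem_ofPred_eq]
    _ = ∑ᶠ p ∈ Function.support (cycFn U f g ∘ Φ), cycFn U f g (Φ p) :=
        finsum_mem_image hinj.injOn
    _ = ∑ᶠ p, cycFn U f g (Φ p) := finsum_mem_support (cycFn U f g ∘ Φ)
    _ = ∑ᶠ w, ∑ᶠ p : T, cycFn U f g (Φ (w, p)) := finsum_curry _ hfin
    _ = ∑ w, conv3 U f h := by
        rw [finsum_eq_sum_of_fintype]
        refine Finset.sum_congr rfl fun w _ => ?_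
        rw [show (∑ᶠ p : T, cycFn U f g (Φ (w, p))) =
          conv3 U f ((w.out : G)⁻¹ * h * (w.out : G)) from finsum_congr fun p => hval w p.1 p.2]
        exact (conv3_mul_right (f := f) h2 (v := (w.out : G)) (w.out).2 ((w.out : G)⁻¹ * h)).trans
          (conv3_mul_left hf h0 (v := (w.out : G)⁻¹) (inv_mem (w.out).2) h)
    _ = _ := by rw [Finset.sum_const, Finset.card_univ, nsmul_eq_mul, Nat.card_eq_fintype_card]

end Cyclic

section Transport

variable {F E : Type*} [Field F] [NumberField F] [Field E] [NumberField E]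

local notation "Γ₀" => WithZero (Multiplicative ℤ)

theorem coe_hLoc (v : HeightOneSpectrum (𝓞 F)) (r : Aleph.RIdx v) :
    (hLoc v r : Matrix (Fin 2) (Fin 2) (Kp F v)) = Aleph.lRep v r := by
  rw [hLoc, coe_locGF]
  exact (Aleph.loc_hRep_self v r).1

theorem valued_int_le_one (v : HeightOneSpectrum (𝓞 F)) (x : 𝓞 F) :
    Valued.v (((x : F) : Kp F v)) ≤ (1 : Γ₀) := by
  rw [HeightOneSpectrum.adicCompletion.valued_coe]
  exact v.valuation_le_one x

theorem mk_eq_mk_iff_valued (v : HeightOneSpectrum (𝓞 F)) {x y : 𝓞 F} :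
    Ideal.Quotient.mk v.asIdeal x = Ideal.Quotient.mk v.asIdeal y ↔
      Valued.v ((((x : F) : Kp F v)) - ((y : F) : Kp F v)) ≤ WithZero.exp (-1 : ℤ) := by
  rw [← Red.coe_sub_completion, HeightOneSpectrum.adicCompletion.valued_coe, ← map_sub,
    HeightOneSpectrum.valuation_of_algebraMap, Ideal.Quotient.eq]
  simpa using (v.intValuation_le_pow_iff_mem (x - y) 1).symm

theorem inv_upper_mul_map {K L : Type*} [Field K] [Field L] (s : K →+* L) (P b' : L) (p b : K) :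
    !![P⁻¹, -(P⁻¹ * b'); 0, 1] * (!![p, b; 0, 1] : Matrix (Fin 2) (Fin 2) K).map s =
      !![P⁻¹ * s p, P⁻¹ * (s b - b'); 0, 1] := by
  ext i k
  fin_cases i <;> fin_cases k <;> simp [Matrix.mul_apply, Fin.sum_univ_two] <;> ring

theorem inv_diag_mul_map {K L : Type*} [Field K] [Field L] (s : K →+* L) (P : L) (p : K) :
    !![1, 0; 0, P⁻¹] * (!![1, 0; 0, p] : Matrix (Fin 2) (Fin 2) K).map s =
      !![1, 0; 0, P⁻¹ * s p] := by
  ext i k
  fin_cases i <;> fin_cases k <;> simp [Matrix.mul_apply, Fin.sum_univ_two]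

/-- `T_v` transported along an isometry. -/
theorem heckeFn_transport {v : HeightOneSpectrum (𝓞 F)} {w : HeightOneSpectrum (𝓞 E)}
    (s : Kp F v →+* Kp E w) (hs : Function.Bijective s)
    (hv : ∀ x, Valued.v (s x) = Valued.v x) {f : GL (Fin 2) (Kp E w) → ℂ}
    (hf : ∀ u ∈ lvlZ 1, ∀ g, f (g * u) = f g) (y : GL (Fin 2) (Kp F v)) :
    heckeFn v (fun g => f (gl s g)) y = heckeFn w f (gl s y) := by
  classical
  haveI := Fintype.ofFinite (𝓞 F ⧸ v.asIdeal)
  haveI := Fintype.ofFinite (𝓞 E ⧸ w.asIdeal)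
  set e : Γ₀ := WithZero.exp (-1 : ℤ) with he
  have hpw : Valued.v (Aleph.piV w) = e := Aleph.valued_piV w
  have hpv : Valued.v (s (Aleph.piV v)) = e := (hv _).trans (Aleph.valued_piV v)
  choose σ hσ using fun u : 𝓞 F ⧸ v.asIdeal => Red.exists_int_near w
    (x := s (((Quotient.out u : 𝓞 F) : F) : Kp F v))
    (by rw [hv]; exact valued_int_le_one v _) (WithZero.exp_ne_zero (a := (-1 : ℤ)))
  set S : 𝓞 F ⧸ v.asIdeal → 𝓞 E ⧸ w.asIdeal := fun u => Ideal.Quotient.mk w.asIdeal (σ u)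
  have hS : ∀ u, Valued.v (s (((Quotient.out u : 𝓞 F) : F) : Kp F v) -
      (((Quotient.out (S u) : 𝓞 E) : E) : Kp E w)) ≤ e := fun u => by
    have h2 := (mk_eq_mk_iff_valued w).1
      (Ideal.Quotient.mk_out (S u)).symm
    rw [← sub_add_sub_cancel _ (((σ u : 𝓞 E) : E) : Kp E w)]
    exact Valued.v.map_add_le (hσ u) h2
  have hinj : Function.Injective S := fun u u' h => by
    rw [← Ideal.Quotient.mk_out u, ← Ideal.Quotient.mk_out u']
    refine (mk_eq_mk_iff_valued v).2 ?_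
    rw [← hv, map_sub, ← sub_sub_sub_cancel_right _ _ (((Quotient.out (S u) : 𝓞 E) : E) : Kp E w)]
    refine Valued.v.map_sub_le (hS u) ?_
    rw [h]; exact hS u'
  have hsurj : Function.Surjective S := fun u' => by
    obtain ⟨x, hx⟩ := hs.2 (((Quotient.out u' : 𝓞 E) : E) : Kp E w)
    obtain ⟨y', hy'⟩ := Red.exists_int_near v (x := x)
      (by rw [← hv, hx]; exact valued_int_le_one w _) (WithZero.exp_ne_zero (a := (-1 : ℤ)))
    refine ⟨Ideal.Quotient.mk v.asIdeal y', ?_⟩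
    rw [← Ideal.Quotient.mk_out (S _), ← Ideal.Quotient.mk_out u']
    refine (mk_eq_mk_iff_valued w).2 ?_
    set u := Ideal.Quotient.mk v.asIdeal y'
    have h1 : Valued.v (x - (((Quotient.out u : 𝓞 F) : F) : Kp F v)) ≤ e := by
      rw [← sub_add_sub_cancel x (((y' : 𝓞 F) : F) : Kp F v)]
      exact Valued.v.map_add_le hy' ((mk_eq_mk_iff_valued v).1 (Ideal.Quotient.mk_out u).symm)
    rw [← hv, map_sub, hx] at h1
    rw [← sub_sub_sub_cancel_left _ _ (s (((Quotient.out u : 𝓞 F) : F) : Kp F v))]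
    refine Valued.v.map_sub_le ?_ (hS u)
    rwa [Valuation.map_sub_swap]
  let R : Aleph.RIdx v ≃ Aleph.RIdx w := Equiv.optionCongr (Equiv.ofBijective S ⟨hinj, hsurj⟩)
  have hpw0 : Aleph.piV w ≠ 0 := Aleph.piV_ne_zero w
  have hdiv : ∀ x : Kp E w, Valued.v x ≤ e → Valued.v ((Aleph.piV w)⁻¹ * x) ≤ (1 : Γ₀) := fun x hx =>
    Aleph.valued_div_piV_le w (hx.trans_lt (by
      rw [he, ← WithZero.exp_zero]; exact WithZero.exp_lt_exp.2 (by norm_num)))
  have hunit : Valued.v ((Aleph.piV w)⁻¹ * s (Aleph.piV v)) = (1 : Γ₀) := by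
    rw [map_mul, map_inv₀, hpw, hpv, inv_mul_cancel₀ WithZero.exp_ne_zero]
  have hmem : ∀ r, (hLoc w (R r))⁻¹ * gl s (hLoc v r) ∈ lvlZ (1 : Γ₀) := fun r => by
    refine lvl_le_lvlZ 1 (mem_lvl_one.2 ?_)
    have hi : (((hLoc w (R r))⁻¹ : GL (Fin 2) (Kp E w)) : Matrix (Fin 2) (Fin 2) (Kp E w)) =
        Aleph.lInv w (R r) := by
      rw [hLoc, ← map_inv, coe_locGF]
      exact (Aleph.loc_hRep_self w (R r)).2
    have hg : ((gl s (hLoc v r) : GL (Fin 2) (Kp E w)) : Matrix (Fin 2) (Fin 2) (Kp E w)) =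
        (Aleph.lRep v r).map s := by rw [← coe_hLoc]; rfl
    rw [Units.val_mul, hi, hg]
    cases r with
    | none =>
      have hprod : Aleph.lInv w (R none) * (Aleph.lRep v none).map s =
          !![1, 0; 0, (Aleph.piV w)⁻¹ * s (Aleph.piV v)] := by
        exact inv_diag_mul_map s _ _
      rw [hprod, Matrix.det_fin_two]
      refine ⟨fun i k => ?_, by simpa using hunit⟩
      fin_cases i <;> fin_cases k
      · simp
      · simp
      · simp
      · simpa using hunit.le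
    | some u =>
      have hprod : Aleph.lInv w (R (some u)) * (Aleph.lRep v (some u)).map s =
          !![(Aleph.piV w)⁻¹ * s (Aleph.piV v),
            (Aleph.piV w)⁻¹ * (s (((Quotient.out u : 𝓞 F) : F) : Kp F v) -
              (((Quotient.out (S u) : 𝓞 E) : E) : Kp E w)); 0, 1] := by
        exact inv_upper_mul_map s _ _ _ _
      rw [hprod, Matrix.det_fin_two]
      refine ⟨fun i k => ?_, by simpa using hunit⟩
      fin_cases i <;> fin_cases k
      · simpa using hunit.le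
      · exact hdiv _ (hS u)
      · simp
      · simp
  have hterm : ∀ r, f (gl s (y * hLoc v r)) = f (gl s y * hLoc w (R r)) := fun r => by
    rw [map_mul, show gl s y * gl s (hLoc v r) =
      gl s y * hLoc w (R r) * ((hLoc w (R r))⁻¹ * gl s (hLoc v r)) by group, hf _ (hmem r)]
  simp only [heckeFn, finsum_eq_sum_of_fintype, hterm]
  congr 1
  exact Fintype.sum_equiv (Equiv.ofBijective S ⟨hinj, hsurj⟩) _ _ fun u => rfl

end Transport

end FLTAgent.LT.Match
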