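import Fermat.Agent.LT.TF.Match.Fin
import Fermat.Agent.LT.TF.Match.Inert
import Fermat.Agent.LT.TF.Match.OmegaLevel
import Fermat.Agent.LT.TF.Match.Split

/-!
The local matching at the three kinds of places: one place above with contracting classes, one place
above with units, three places above.
-/

set_option autoImplicit false
set_option linter.unusedSectionVars false
set_option linter.style.haveILetI false

noncomputable section

namespace FLTAgent.LT.Match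

open NumberField IsDedekindDomain

local notation "Γ₀" => WithZero (Multiplicative ℤ)

variable {F E : Type*} [Field F] [NumberField F] [Field E] [NumberField E] {i : F →+* E}
  {τ : E →+* E} {N : ℕ}

/-- Completions commute with maps of the field. -/
theorem gl_cMap_alg (k : F →+* E) {w : HeightOneSpectrum (𝓞 E)} {v : HeightOneSpectrum (𝓞 F)}
    (h : placeBelow k w = v) (g : GL (Fin 2) F) :
    gl (cMap k w v h) (gl (algebraMap F (Kp F v)) g) = gl (algebraMap E (Kp E w)) (gl k g) :=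
  Units.ext (Matrix.ext fun _ _ => cMap_coe k h _)

/-- A norm equation in the group. -/
theorem alg_norm {γ : GL (Fin 2) E} {δ : GL (Fin 2) F} {a : Eˣ}
    (hN : (twNorm τ 3 γ : Matrix (Fin 2) (Fin 2) E) =
      (a : E) • (Matrix.GeneralLinearGroup.map i δ : Matrix (Fin 2) (Fin 2) E))
    (w : HeightOneSpectrum (𝓞 E)) :
    gl (algebraMap E (Kp E w)) (γ * gl τ γ * gl τ (gl τ γ)) =
      gl (algebraMap E (Kp E w)) (gl i δ) *
        scal (Units.map (algebraMap E (Kp E w)).toMonoidHom a) := by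
  have e : γ * gl τ γ * gl τ (gl τ γ) = twNorm τ 3 γ := by
    simp only [twNorm, mul_one, map_mul, map_one, mul_assoc]
  rw [e]
  refine Units.ext (Matrix.ext fun p q => ?_)
  rw [gl_apply, hN, Matrix.smul_apply, smul_eq_mul, map_mul, Units.val_mul]
  fin_cases p <;> fin_cases q <;>
    simp [Matrix.mul_apply, Fin.sum_univ_two, scal, gl_apply, mul_comm]

theorem alg_commute {γ : GL (Fin 2) E} {δ : GL (Fin 2) F}
    (hc : Commute γ (Matrix.GeneralLinearGroup.map i δ)) {w : HeightOneSpectrum (𝓞 E)}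
    {v : HeightOneSpectrum (𝓞 F)} (hw : placeBelow i w = v) :
    Commute (gl (algebraMap E (Kp E w)) γ) (gl (cMap i w v hw) (gl (algebraMap F (Kp F v)) δ)) := by
  rw [gl_cMap_alg]
  exact hc.map (gl (algebraMap E (Kp E w)))

theorem unitFn_of_mem {K : Type*} [Field K] [Valued K Γ₀] {e : Γ₀} {g : GL (Fin 2) K}
    (hg : g ∈ lvlZ e) : unitFn e g = 1 := Set.indicator_of_mem (SetLike.mem_coe.2 hg) _

theorem alg_apply_ne_zero {δ : GL (Fin 2) F} {p q : Fin 2}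
    (hδ : (δ : Matrix (Fin 2) (Fin 2) F) p q ≠ 0) (v : HeightOneSpectrum (𝓞 F)) :
    (gl (algebraMap F (Kp F v)) δ : Matrix (Fin 2) (Fin 2) (Kp F v)) p q ≠ 0 := by
  rw [gl_apply]
  exact (map_ne_zero _).2 hδ

section fixed

variable (h : Ell.CycGen i τ 3) {w : HeightOneSpectrum (𝓞 E)} {v : HeightOneSpectrum (𝓞 F)}

include h in
theorem above_subsingleton (hτ : placeBelow τ w = w) (hw : placeBelow i w = v) :
    ∀ u : Above i v, u = ⟨w, hw⟩ := fun u => by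
  refine Subtype.ext ?_
  rcases placeBelow_orbit h (u.2.trans hw.symm) with e | e | e
  · exact e
  · rw [e, hτ]
  · rw [e, hτ, hτ]

theorem N3_alg (hτ : placeBelow τ w = w) (hw : placeBelow i w = v) {γ : GL (Fin 2) E}
    {δ : GL (Fin 2) F} {a : Eˣ} (hN : (twNorm τ 3 γ : Matrix (Fin 2) (Fin 2) E) =
      (a : E) • (Matrix.GeneralLinearGroup.map i δ : Matrix (Fin 2) (Fin 2) E)) :
    N3 (cMap τ w w hτ) (gl (algebraMap E (Kp E w)) γ) =
      gl (cMap i w v hw) (gl (algebraMap F (Kp F v)) δ) *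
        scal (Units.map (algebraMap E (Kp E w)).toMonoidHom a) := by
  rw [gl_cMap_alg, ← alg_norm hN w, N3, gl_cMap_alg, gl_cMap_alg, map_mul, map_mul]

/-- The term at a place with one place above. -/
theorem aLoc_fixed (hτ : placeBelow τ w = w) (hw : placeBelow i w = v)
    (L : ∀ w, GL (Fin 2) (Kp E w) → ℂ) (γ : GL (Fin 2) E) (x : XLoc i N v) :
    aLoc h L γ v x = L w ((x ⟨w, hw⟩).out⁻¹ * gl (algebraMap E (Kp E w)) γ *
      gl (cMap τ w w hτ) (x ⟨w, hw⟩).out) := by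
  rw [aLoc, finprod_eq_single _ ⟨w, hw⟩ fun u hu => absurd (above_subsingleton h hτ hw u) hu]
  have key : ∀ (u : Above i v) (hu : placeBelow τ w = u.1), u = ⟨w, hw⟩ →
      gl (cMap τ w u.1 hu) (x u).out = gl (cMap τ w w hτ) (x ⟨w, hw⟩).out := by
    rintro u hu rfl
    rfl
  exact congrArg _ (congrArg _ (key (nxt h ⟨w, hw⟩) rfl (above_subsingleton h hτ hw _)))

/-- From a local matching at the place above. -/
theorem locData_of_local (hτ : placeBelow τ w = w) (hw : placeBelow i w = v)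
    {L : ∀ w, GL (Fin 2) (Kp E w) → ℂ} {L' : ∀ v, GL (Fin 2) (Kp F v) → ℂ} {γ : GL (Fin 2) E}
    {δ : GL (Fin 2) F} {κ : ℕ}
    {π₀ : GL (Fin 2) (Kp E w) ⧸ lvlZ (levN w N) → YLoc N v}
    (h1 : ∀ ξ, Commute ξ (gl (algebraMap F (Kp F v)) δ) → ∀ c,
      L w (c.out⁻¹ * gl (algebraMap E (Kp E w)) γ * gl (cMap τ w w hτ) c.out) ≠ 0 →
        π₀ (gl (cMap i w v hw) ξ • c) = ξ • π₀ c)
    (h2 : ∀ y, {c | L w (c.out⁻¹ * gl (algebraMap E (Kp E w)) γ * gl (cMap τ w w hτ) c.out) ≠ 0 ∧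
        π₀ c = y}.Finite ∧
      ∑ᶠ (c) (_ : L w (c.out⁻¹ * gl (algebraMap E (Kp E w)) γ * gl (cMap τ w w hτ) c.out) ≠ 0 ∧
          π₀ c = y), L w (c.out⁻¹ * gl (algebraMap E (Kp E w)) γ * gl (cMap τ w w hτ) c.out) =
        κ * L' v (y.out⁻¹ * gl (algebraMap F (Kp F v)) δ * y.out)) :
    LocData h L L' γ δ v κ (fun x => π₀ (x ⟨w, hw⟩)) := by
  have hsub := above_subsingleton h hτ hw
  let p : XLoc i N v → GL (Fin 2) (Kp E w) ⧸ lvlZ (levN w N) := fun x => x ⟨w, hw⟩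
  have hp : Function.Bijective p := by
    refine ⟨fun x y e => funext fun u => ?_, fun c =>
      ⟨fun u => (hsub u).symm ▸ c, rfl⟩⟩
    obtain rfl := hsub u
    exact e
  refine ⟨fun ξ hξ x hx => ?_, fun y => ?_, fun y => ?_⟩
  · rw [aLoc_fixed h hτ hw] at hx
    rw [← h1 _ (hξ.map (gl (algebraMap F (Kp F v)))) _ hx, gl_cMap_alg]
    rfl
  · refine ((h2 y).1.preimage hp.1.injOn).subset fun x hx => ?_
    rw [Set.mem_ofPred_eq, aLoc_fixed h hτ hw] at hx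
    exact hx
  · rw [bLoc, ← (h2 y).2, ← finsum_comp_equiv (Equiv.ofBijective p hp) (f := fun c =>
      ∑ᶠ (_ : L w (c.out⁻¹ * gl (algebraMap E (Kp E w)) γ * gl (cMap τ w w hτ) c.out) ≠ 0 ∧
        π₀ c = y), L w (c.out⁻¹ * gl (algebraMap E (Kp E w)) γ * gl (cMap τ w w hτ) c.out))]
    exact finsum_congr fun x => finsum_congr_Prop (by rw [aLoc_fixed h hτ hw]; rfl)
      fun _ => aLoc_fixed h hτ hw L γ x

/-- Finitely many classes modulo the base. -/
theorem finite_classes (w : HeightOneSpectrum (𝓞 E)) {e : Γ₀} (he : e ≠ 0)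
    {R : Subgroup ((Kp E w)ˣ ⧸ oneAdd (Kp E w) e)} {p : (Kp E w)ˣ}
    (hp : Valued.v (p : Kp E w) < (1 : Γ₀)) (hpR : QuotientGroup.mk p ∈ R) :
    Finite (((Kp E w)ˣ ⧸ oneAdd (Kp E w) e) ⧸ R) := by
  classical
  set d := Valued.v (p : Kp E w)
  have hd : d ≠ 0 := (map_ne_zero _).2 p.ne_zero
  set cls := classMap (1 : GL (Fin 2) (Kp E w)) e
  have hfin : (cls ⁻¹' ((QuotientGroup.mk : GL (Fin 2) (Kp E w) → _ ⧸ lvlZ e) ''
      {g | ∀ a b, Valued.v ((g : Matrix (Fin 2) (Fin 2) (Kp E w)) a b) ≤ 1 ∧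
        d ≤ Valued.v (g : Matrix (Fin 2) (Fin 2) (Kp E w)).det})).Finite :=
    (finite_bounded_cosets w hd he).preimage (classMap_injective _ _).injOn
  haveI := hfin.to_subtype
  refine Finite.of_surjective (fun x : ↥(cls ⁻¹' ((QuotientGroup.mk : GL (Fin 2) (Kp E w) → _ ⧸ lvlZ e) ''
      {g | ∀ a b, Valued.v ((g : Matrix (Fin 2) (Fin 2) (Kp E w)) a b) ≤ 1 ∧
        d ≤ Valued.v (g : Matrix (Fin 2) (Fin 2) (Kp E w)).det})) => (QuotientGroup.mk x.1 : _ ⧸ R)) fun q => ?_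
  induction q using QuotientGroup.induction_on with | _ b =>
  induction b using QuotientGroup.induction_on with | _ b =>
  -- shift into the shell
  obtain ⟨k, hk1, hk2⟩ : ∃ k : ℤ, d ≤ Valued.v ((b * p ^ k : (Kp E w)ˣ) : Kp E w) ∧
      Valued.v ((b * p ^ k : (Kp E w)ˣ) : Kp E w) ≤ 1 := by
    set n := WithZero.log d with hn
    set m := WithZero.log (Valued.v (b : Kp E w)) with hm
    have hd' : d = WithZero.exp n := (WithZero.exp_log hd).symm
    have hb' : Valued.v (b : Kp E w) = WithZero.exp m :=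
      (WithZero.exp_log ((map_ne_zero _).2 b.ne_zero)).symm
    have hn0 : n < 0 := by
      have : d < 1 := hp
      rw [hd', ← WithZero.exp_zero,
        WithZero.exp_lt_exp] at this
      exact this
    -- `n ≤ m + k n ≤ 0`
    have key : ∃ k : ℤ, n ≤ m + k * n ∧ m + k * n ≤ 0 := by
      clear_value n m
      obtain ⟨s, rfl⟩ : ∃ s, n = -s := ⟨-n, (neg_neg n).symm⟩
      have hs : 0 < s := by omega
      refine ⟨m / s + 1, ?_, ?_⟩ <;>
        nlinarith [Int.emod_nonneg m hs.ne', Int.emod_lt_of_pos m hs, Int.emod_add_mul_ediv m s]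
    obtain ⟨k, h1, h2⟩ := key
    refine ⟨k, ?_⟩
    rw [Units.val_mul, Units.val_zpow_eq_zpow_val, map_mul, map_zpow₀,
      show Valued.v (p : Kp E w) = d from rfl, hb', hd', ← WithZero.exp_zsmul, ← WithZero.exp_add,
      smul_eq_mul, WithZero.exp_le_exp, ← WithZero.exp_zero, WithZero.exp_le_exp]
    exact ⟨h1, h2⟩
  refine ⟨⟨QuotientGroup.mk (b * p ^ k), ⟨dg (b * p ^ k, 1), fun i j => ⟨?_, ?_⟩, ?_⟩⟩, ?_⟩
  · fin_cases i <;> fin_cases j <;> simp [dg]
    simpa using hk2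
  · simpa [dg, Matrix.det_fin_two] using hk1
  · rw [show cls (QuotientGroup.mk (b * p ^ k)) = _ from classMap_mk _ _ _, one_mul]
  · show (QuotientGroup.mk (QuotientGroup.mk (b * p ^ k)) : _ ⧸ R) = QuotientGroup.mk (QuotientGroup.mk b)
    rw [eq_comm, QuotientGroup.eq, ← QuotientGroup.mk_inv, ← QuotientGroup.mk_mul,
      inv_mul_cancel_left, QuotientGroup.mk_zpow]
    exact zpow_mem hpR k

theorem levN_lt_one {n : ℕ} (hw : (n : 𝓞 E) ∈ w.asIdeal) : levN w n < 1 := by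
  rw [levN_eq, ← map_natCast (algebraMap E (Kp E w)), ← map_natCast (algebraMap (𝓞 E) E)]
  show Valued.v ((((n : 𝓞 E) : E)) : Kp E w) < 1
  rw [HeightOneSpectrum.adicCompletion.valued_coe, HeightOneSpectrum.valuation_of_algebraMap]
  exact (w.intValuation_lt_one_iff_mem _).2 hw

include h in
/-- **The contracting classes at a place with one place above.** -/
theorem exists_locData_omega (hN : 0 < N) {j : ℕ} (hj : 0 < j) (hτ : placeBelow τ w = w)
    (hw : placeBelow i w = v) (hv : (N : 𝓞 F) ∈ v.asIdeal) :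
    ∃ κ : ℕ, κ ≠ 0 ∧ ∀ (L : ∀ w, GL (Fin 2) (Kp E w) → ℂ) (L' : ∀ v, GL (Fin 2) (Kp F v) → ℂ),
      L w = omegaAt τ N j w → L' v = dsetAt N j v → ∀ (γ : GL (Fin 2) E) (δ : GL (Fin 2) F) (a : Eˣ),
      (δ : Matrix (Fin 2) (Fin 2) F) 0 1 ≠ 0 →
      (twNorm τ 3 γ : Matrix (Fin 2) (Fin 2) E) =
        (a : E) • (Matrix.GeneralLinearGroup.map i δ : Matrix (Fin 2) (Fin 2) E) →
      ∃ π : XLoc i N v → YLoc N v, LocData h L L' γ δ v κ π := by
  set jv := cMap i w v hw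
  have P := pair_of_fixed h hτ hw
  set ν := natU (Kp F v) N
  have hνval : (ν : Kp F v) = (N : Kp F v) := natU_val hN
  have hlev : Valued.v (ν : Kp F v) = levN v N := by rw [hνval, levN_eq]
  have hlevw : Valued.v (jv ν) = levN w N := by rw [hνval, map_natCast, levN_eq]
  have hν : Valued.v (ν : Kp F v) < (1 : Γ₀) := hlev.trans_lt (levN_lt_one hv)
  have hϖ : Valued.v ((ν ^ j : (Kp F v)ˣ) : Kp F v) < (1 : Γ₀) := by
    rw [Units.val_pow_eq_pow_val, map_pow]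
    exact pow_lt_one₀ zero_le hν hj.ne'
  haveI hfin1 : Finite (((Kp E w)ˣ ⧸ oneAdd (Kp E w) (Valued.v (jv ν))) ⧸ (P.jClass hν).range) := by
    refine finite_classes w (by rw [hlevw]; exact levN_ne_zero w hN)
      (p := Units.map jv.toMonoidHom ν) ?_ ⟨QuotientGroup.mk ν, rfl⟩
    exact P.v_j_lt_one.2 hν
  haveI hfin2 : Finite (↥(lvlZ (K := Kp E w) (Valued.v (jv ν))) ⧸
      (lvlZ (levN w N)).subgroupOf (lvlZ (Valued.v (jv ν)))) :=
    finite_lvlZ_quotient w _ (levN_ne_zero w hN)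
  refine ⟨Nat.card (((Kp E w)ˣ ⧸ oneAdd (Kp E w) (Valued.v (jv ν))) ⧸ (P.jClass hν).range) *
    Nat.card (↥(lvlZ (K := Kp E w) (Valued.v (jv ν))) ⧸
      (lvlZ (levN w N)).subgroupOf (lvlZ (Valued.v (jv ν)))),
    mul_ne_zero Nat.card_pos.ne' Nat.card_pos.ne', fun L L' hL hL' γ δ a hδ hNm => ?_⟩
  have H := P.localMatch_omega (e' := levN w N) hν hϖ hlevw.ge (alg_apply_ne_zero hδ v)
    (N3_alg hτ hw hNm)
  have hpow : Units.map jv.toMonoidHom (ν ^ j) = natU (Kp E w) N ^ j := by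
    rw [map_pow]
    congr 1
    refine Units.ext ?_
    rw [Units.coe_map]
    show jv (ν : Kp F v) = _
    rw [hνval, map_natCast, natU_val hN]
  have e1 : ∀ g, L w g = omegaFn (cMap τ w w hτ) (Valued.v (jv ν)) (Units.map jv.toMonoidHom (ν ^ j)) g :=
    fun g => by rw [hL, omegaAt, dif_pos hτ, hlevw, hpow]
  have e2 : ∀ g, L' v g = dsetFn (levN v N) (ν ^ j) g := fun g => by rw [hL']; rfl
  obtain ⟨κ, hκ⟩ : ∃ κ : ℕ, κ = Nat.card (((Kp E w)ˣ ⧸ oneAdd (Kp E w) (Valued.v (jv ν))) ⧸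
      (P.jClass hν).range) * Nat.card (↥(lvlZ (K := Kp E w) (Valued.v (jv ν))) ⧸
        (lvlZ (levN w N)).subgroupOf (lvlZ (Valued.v (jv ν)))) := ⟨_, rfl⟩
  rw [← hκ] at H ⊢
  have H' : ∀ ev : Γ₀, Valued.v (ν : Kp F v) = ev →
      LocalMatch jv (lvlZ (levN w N)) (lvlZ ev) (gl (algebraMap F (Kp F v)) δ)
        (fun g => L w (g⁻¹ * gl (algebraMap E (Kp E w)) γ * gl (cMap τ w w hτ) g))
        (fun q => dsetFn ev (ν ^ j) (q⁻¹ * gl (algebraMap F (Kp F v)) δ * q)) κ := by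
    rintro _ rfl
    simp only [e1]
    exact H
  obtain ⟨π₀, h1, h2⟩ := H' _ hlev
  simp only [← e2] at h2
  exact ⟨_, locData_of_local h hτ hw h1 h2⟩

/-- The residue field of a completion is finite. -/
theorem finite_residueField_Kp (w : HeightOneSpectrum (𝓞 E)) :
    Finite (IsLocalRing.ResidueField (intB (Kp E w))) := by
  refine finite_residueField_intB ?_
  obtain ⟨R, hR, hrep⟩ := Red.exists_finite_reps fun y : 𝓞 E => Ideal.Quotient.mk w.asIdeal y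
  refine ⟨(fun y : 𝓞 E => ((y : E) : Kp E w)) '' R, hR.image _, fun x hx => ?_⟩
  obtain ⟨y, hy⟩ := Red.exists_int_near w hx (γ := WithZero.exp (-1 : ℤ)) WithZero.exp_ne_zero
  obtain ⟨r, hr, hry⟩ := hrep y
  refine ⟨_, ⟨r, hr, rfl⟩, lt_of_le_of_lt ?_
    (by rw [← WithZero.exp_zero, WithZero.exp_lt_exp]; norm_num : WithZero.exp (-1 : ℤ) < (1 : Γ₀))⟩
  rw [← sub_add_sub_cancel x ((y : E) : Kp E w)]
  exact Valued.v.map_add_le hy ((mk_eq_mk_iff_valued w).1 hry.symm)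

include h in
/-- **The units at a place with one place above.** -/
theorem exists_locData_unit (hτ : placeBelow τ w = w) (hw : placeBelow i w = v)
    (hlw : levN w N = 1) (hlv : levN v N = 1)
    (hval : ∀ x : Kp E w, ∃ y, Valued.v (cMap i w v hw y) = Valued.v x) {θ : Kp E w}
    (hθ : Valued.v θ ≤ (1 : Γ₀)) (hθ' : Valued.v (cMap τ w w hτ θ - θ) = (1 : Γ₀))
    {L : ∀ w, GL (Fin 2) (Kp E w) → ℂ} {L' : ∀ v, GL (Fin 2) (Kp F v) → ℂ}
    (hL : L w = unitFn 1) (hL' : L' v = unitFn 1) {γ : GL (Fin 2) E} {δ : GL (Fin 2) F} {a : Eˣ}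
    (hδ : (δ : Matrix (Fin 2) (Fin 2) F) 0 1 ≠ 0)
    (hN : (twNorm τ 3 γ : Matrix (Fin 2) (Fin 2) E) =
      (a : E) • (Matrix.GeneralLinearGroup.map i δ : Matrix (Fin 2) (Fin 2) E))
    (hc : Commute γ (Matrix.GeneralLinearGroup.map i δ)) :
    ∃ π : XLoc i N v → YLoc N v, LocData h L L' γ δ v 1 π ∧
      (gl (algebraMap E (Kp E w)) γ ∈ lvlZ 1 → gl (algebraMap F (Kp F v)) δ ∈ lvl 1 →
        Valued.v ((gl (algebraMap F (Kp F v)) δ : Matrix (Fin 2) (Fin 2) (Kp F v)) 1 0) = (1 : Γ₀) →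
        LocGood h L L' γ δ v 1 π) := by
  haveI := finite_residueField_Kp (E := E) w
  have P := pair_of_fixed h hτ hw
  have main : ∀ (ew ev : Γ₀), ew = 1 → ev = 1 →
      ∃ π₀ : GL (Fin 2) (Kp E w) ⧸ lvlZ ew → GL (Fin 2) (Kp F v) ⧸ lvlZ ev,
        ((∀ ξ, Commute ξ (gl (algebraMap F (Kp F v)) δ) → ∀ c,
          L w (c.out⁻¹ * gl (algebraMap E (Kp E w)) γ * gl (cMap τ w w hτ) c.out) ≠ 0 →
            π₀ (gl (cMap i w v hw) ξ • c) = ξ • π₀ c) ∧
        ∀ y, {c | L w (c.out⁻¹ * gl (algebraMap E (Kp E w)) γ * gl (cMap τ w w hτ) c.out) ≠ 0 ∧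
            π₀ c = y}.Finite ∧
          ∑ᶠ (c) (_ : L w (c.out⁻¹ * gl (algebraMap E (Kp E w)) γ * gl (cMap τ w w hτ) c.out) ≠ 0 ∧
              π₀ c = y), L w (c.out⁻¹ * gl (algebraMap E (Kp E w)) γ * gl (cMap τ w w hτ) c.out) =
            ((1 : ℕ) : ℂ) * L' v (y.out⁻¹ * gl (algebraMap F (Kp F v)) δ * y.out)) ∧
        (gl (algebraMap E (Kp E w)) γ ∈ lvlZ 1 → gl (algebraMap F (Kp F v)) δ ∈ lvl 1 →
          Valued.v ((gl (algebraMap F (Kp F v)) δ : Matrix (Fin 2) (Fin 2) (Kp F v)) 1 0) = (1 : Γ₀) →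
          π₀ (QuotientGroup.mk 1) = QuotientGroup.mk 1) := by
    rintro _ _ rfl rfl
    rw [hL, hL']
    exact P.exists_unit_match hval hθ hθ' (alg_apply_ne_zero hδ v) (N3_alg hτ hw hN)
      (alg_commute hc hw)
  obtain ⟨π₀, ⟨h1, h2⟩, h3⟩ := main _ _ hlw hlv
  have hD := locData_of_local h hτ hw (L' := L') h1 h2
  refine ⟨_, hD, fun hγ1 hδ1 hδ10 => ?_⟩
  obtain ⟨u, hu, eu⟩ := exists_out_mk (lvlZ (levN w N)) (1 : GL (Fin 2) (Kp E w))
  obtain ⟨u', hu', eu'⟩ := exists_out_mk (lvlZ (levN v N)) (1 : GL (Fin 2) (Kp F v))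
  rw [hlw] at hu
  rw [hlv] at hu'
  have ha : aLoc h L γ v (xBase i N v) = 1 := by
    rw [aLoc_fixed h hτ hw, hL, show xBase i N v ⟨w, hw⟩ = QuotientGroup.mk 1 from rfl, eu, one_mul]
    exact unitFn_of_mem (mul_mem (mul_mem (inv_mem hu) hγ1)
      (gl_mem_lvlZ_of_isometry _ (fun x => v_cMap_endo τ hτ x) hu))
  have hb : bLoc L' δ v (yBase N v) = 1 := by
    rw [bLoc, hL', yBase, eu', one_mul]
    exact unitFn_of_mem (mul_mem (mul_mem (inv_mem hu') (lvl_le_lvlZ 1 hδ1)) hu')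
  have hbase : (fun x : XLoc i N v => π₀ (x ⟨w, hw⟩)) (xBase i N v) = yBase N v := h3 hγ1 hδ1 hδ10
  refine ⟨rfl, hbase, ha, hb, fun x hx hπ => ?_⟩
  -- the fibre has one element
  have hs := hD.sum (yBase N v)
  have hfin := hD.finite (yBase N v)
  have honeA : ∀ z : XLoc i N v, aLoc h L γ v z ≠ 0 → aLoc h L γ v z = 1 := fun z hz => by
    rw [aLoc_fixed h hτ hw, hL] at hz ⊢
    rw [unitFn] at hz ⊢
    by_cases hmem : (z ⟨w, hw⟩).out⁻¹ * gl (algebraMap E (Kp E w)) γ *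
        gl (cMap τ w w hτ) (z ⟨w, hw⟩).out ∈ lvlZ (1 : Γ₀)
    · exact Set.indicator_of_mem (SetLike.mem_coe.2 hmem) _
    · exact absurd (Set.indicator_of_notMem (by simpa using hmem) _) hz
  rw [hb, Nat.cast_one, mul_one] at hs
  change ∑ᶠ z ∈ {z | aLoc h L γ v z ≠ 0 ∧ π₀ (z ⟨w, hw⟩) = yBase N v}, aLoc h L γ v z = 1 at hs
  rw [finsum_mem_congr rfl (fun z hz => honeA z hz.1),
    finsum_mem_eq_finite_toFinset_sum _ hfin, Finset.sum_const, nsmul_one,
    Nat.cast_eq_one] at hs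
  exact Finset.card_le_one.1 hs.le x (hfin.mem_toFinset.2 ⟨hx, hπ⟩) _
    (hfin.mem_toFinset.2 ⟨by rw [ha]; exact one_ne_zero, hbase⟩)

end fixed

end FLTAgent.LT.Match
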