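import Fermat.Agent.LT.TF.Match.Hasse
import Fermat.Agent.LT.TF.Match.LocalData

/-!
Local norms at the places with one place above, and their approximation by the field: the hypotheses
of the Hasse norm theorem.
-/

set_option autoImplicit false
set_option linter.unusedSectionVars false
set_option linter.style.haveILetI false

noncomputable section

namespace FLTAgent.LT.Match

open NumberField IsDedekindDomain

local notation "Γ₀" => WithZero (Multiplicative ℤ)

section field

variable {K : Type*} [Field K] [Valued K Γ₀] [CompleteSpace K]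

/-- Elements congruent to one modulo `9` are cubes. -/
theorem exists_cube_root {u : K} (h3 : (3 : K) ≠ 0) (h3v : Valued.v (3 : K) ≤ (1 : Γ₀))
    (h1 : Valued.v (u - 1) < (1 : Γ₀)) (h9 : Valued.v (u - 1) ≤ Valued.v (9 : K)) :
    ∃ r, r ^ 3 = u := by
  have h90 : (9 : K) ≠ 0 := by
    rw [show (9 : K) = 3 * 3 by norm_num]; exact mul_ne_zero h3 h3
  rcases h3v.lt_or_eq with hlt | heq
  · set c := (u - 1) / 9 with hc
    have hvc : Valued.v c ≤ (1 : Γ₀) := by
      rw [hc, map_div₀, div_le_one₀ (zero_lt_iff.2 ((map_ne_zero _).2 h90))]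
      exact h9
    suffices H : ∃ s, Valued.v s ≤ (Valued.v (1 : K) : Γ₀) ∧ c - 3 * s ^ 2 - 3 * s ^ 3 = s by
      obtain ⟨s, -, hs⟩ := H
      have hc9 : c * 9 = u - 1 := div_mul_cancel₀ _ h90
      exact ⟨1 + 3 * s, by linear_combination hc9 - 9 * hs⟩
    refine exists_fixed_point (fun x : K => c - 3 * x ^ 2 - 3 * x ^ 3) 1 (by simp) hlt
      (fun x hx => ?_) fun x y hx hy => ?_
    · rw [map_one] at hx ⊢
      refine Valued.v.map_sub_le (Valued.v.map_sub_le hvc ?_) ?_ <;> rw [map_mul, map_pow] <;>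
        exact mul_le_one' h3v (pow_le_one₀ zero_le hx)
    · rw [map_one] at hx hy
      rw [show c - 3 * x ^ 2 - 3 * x ^ 3 - (c - 3 * y ^ 2 - 3 * y ^ 3) =
        3 * ((x - y) * -((x + y) + (x * x + x * y + y * y))) by ring, map_mul, map_mul,
        Valuation.map_neg]
      refine mul_le_mul' le_rfl (mul_le_of_le_one_right' (Valued.v.map_add_le
        (Valued.v.map_add_le hx hy) (Valued.v.map_add_le (Valued.v.map_add_le ?_ ?_) ?_))) <;>
        rw [map_mul] <;> exact mul_le_one' (by assumption) (by assumption)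
  · obtain ⟨t, -, ht⟩ := exists_small_root (c := (u - 1) / 3) (a := -1) (b := -1 / 3)
      (by rw [map_div₀, heq, div_one]; exact h1) (by simp) (by simp [heq])
    refine ⟨1 + t, ?_⟩
    field_simp at ht
    linear_combination -ht

/-- A ball is a neighbourhood. -/
theorem ball_mem_nhds {e : K} (he : e ≠ 0) (z₀ : K) :
    {z : K | Valued.v (z - z₀) < (Valued.v e : Γ₀)} ∈ nhds z₀ := by
  refine Valued.mem_nhds.2 ⟨Units.mk0 (Valued.v.restrict e) (by simp [he]), fun y hy => ?_⟩
  exact Valued.v.restrict_lt_iff.1 hy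

/-- A class meeting a contracting class is a cube up to scalars. -/
theorem exists_cube_of_dset {e : Γ₀} (he : e < 1) {ϖ : Kˣ} (hϖ : Valued.v (ϖ : K) < (1 : Γ₀))
    (h3 : (3 : K) ≠ 0) (h3v : Valued.v (3 : K) ≤ (1 : Γ₀)) (h9 : e ≤ Valued.v (9 : K))
    {δ q : GL (Fin 2) K} (h : q⁻¹ * δ * q ∈ Dset e (ϖ ^ 3)) :
    ∃ (k : GL (Fin 2) K) (c : Kˣ), Commute k δ ∧ k * k * k = δ * scal c := by
  obtain ⟨l, -, α, β, c, hα, hβ, hl⟩ := exists_diag he (by simpa using v_cube_lt (K := K) hϖ) h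
  have hu : Valued.v (((α / β : Kˣ) : K) - 1) ≤ e :=
    (mem_oneAdd he).1 (div_mem ((mem_oneAdd he).2 hα) ((mem_oneAdd he).2 hβ))
  obtain ⟨r, hr⟩ := exists_cube_root h3 h3v (hu.trans_lt he) (hu.trans h9)
  have hr0 : r ≠ 0 := by
    rintro rfl
    exact (α / β).ne_zero (by simpa using hr.symm)
  set Q := q * l
  set p : Kˣ := ϖ * Units.mk0 r hr0
  have hp : p * p * p = ϖ ^ 3 * α / β := by
    refine Units.ext ?_
    simp only [p, Units.val_mul, Units.val_mk0, Units.val_pow_eq_pow_val, Units.val_div_eq_div_val]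
    rw [Units.val_div_eq_div_val] at hr
    rw [mul_div_assoc, ← hr]
    ring
  have hδ : δ = Q * dg (c * ϖ ^ 3 * α, c * β) * Q⁻¹ := by
    have := congrArg (fun x => q * x * q⁻¹) hl
    simp only [Q] at this ⊢
    simpa [mul_assoc] using this
  refine ⟨Q * dg (p, 1) * Q⁻¹, (c * β)⁻¹, ?_, ?_⟩
  · rw [hδ]
    show Q * dg (p, 1) * Q⁻¹ * (Q * dg (c * ϖ ^ 3 * α, c * β) * Q⁻¹) =
      Q * dg (c * ϖ ^ 3 * α, c * β) * Q⁻¹ * (Q * dg (p, 1) * Q⁻¹)
    simp only [mul_assoc, inv_mul_cancel_left]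
    rw [← mul_assoc (dg _), ← map_mul, ← mul_assoc (dg _), ← map_mul, mul_comm ((p, (1 : Kˣ)))]
  · calc Q * dg (p, 1) * Q⁻¹ * (Q * dg (p, 1) * Q⁻¹) * (Q * dg (p, 1) * Q⁻¹)
        = Q * (dg (p, 1) * dg (p, 1) * dg (p, 1)) * Q⁻¹ := by group
      _ = Q * (dg (c * ϖ ^ 3 * α, c * β) * scal (c * β)⁻¹) * Q⁻¹ := by
          rw [← map_mul, ← map_mul, scal_eq_dg, ← map_mul]
          congr 2
          refine congrArg dg (Prod.ext ?_ ?_)
          · simp only [Prod.fst_mul, hp]
            refine Units.ext ?_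
            simp only [Units.val_div_eq_div_val, Units.val_mul, Units.val_pow_eq_pow_val,
              Units.val_inv_eq_inv_val]
            field_simp
          · simp
      _ = δ * scal (c * β)⁻¹ := by
          rw [hδ, ← mul_assoc Q, mul_assoc (Q * dg _), scal_mul_comm, ← mul_assoc]

end field

section coord

variable {A B : Type*} [Field A] [Field B]

theorem qmat_injective {M : Matrix (Fin 2) (Fin 2) B} (hM : M 0 1 ≠ 0) {x y : B × B}
    (e : qmat M x = qmat M y) : x = y := by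
  have h2 : x.2 = y.2 := by
    have := congrFun (congrFun e 0) 1
    simpa [qmat, hM] using this
  have h1 := congrFun (congrFun e 0) 0
  simp [qmat, h2] at h1
  exact Prod.ext h1 h2

/-- A commuting matrix is a polynomial. -/
theorem exists_qmat {M X : Matrix (Fin 2) (Fin 2) B} (hM : M 0 1 ≠ 0) (hc : X * M = M * X) :
    ∃ x, X = qmat M x := by
  have h00 := congrFun (congrFun hc 0) 0
  have h01 := congrFun (congrFun hc 0) 1
  simp [Matrix.mul_apply, Fin.sum_univ_two] at h00 h01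
  set y := X 0 1 / M 0 1
  have hy : y * M 0 1 = X 0 1 := div_mul_cancel₀ _ hM
  refine ⟨(X 0 0 - y * M 0 0, y), ?_⟩
  ext a b
  fin_cases a <;> fin_cases b <;> simp [qmat]
  · exact hy.symm
  · exact mul_left_cancel₀ hM (by linear_combination -h00 - M 1 0 * hy)
  · exact mul_left_cancel₀ hM (by linear_combination -h01 + (M 0 0 - M 1 1) * hy)

/-- A norm gives a norm of coordinates. -/
theorem exists_qnorm_of_N3 [Valued A Γ₀] [Valued B Γ₀] {j : A →+* B} {τ : B →+* B}
    (P : Pair j τ) {δ : GL (Fin 2) A} (hδ : (δ : Matrix (Fin 2) (Fin 2) A) 0 1 ≠ 0)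
    {e : GL (Fin 2) B} {c : Bˣ} (hc : Commute e (gl j δ)) (hN : N3 τ e = gl j δ * scal c) :
    ∃ x : B × B, qnorm τ (j (δ : Matrix (Fin 2) (Fin 2) A).trace)
      (j (δ : Matrix (Fin 2) (Fin 2) A).det) x = (0, (c : B)) := by
  set D : Matrix (Fin 2) (Fin 2) B := ((gl j δ : GL (Fin 2) B) : Matrix (Fin 2) (Fin 2) B)
  have ht : D.trace = j (δ : Matrix (Fin 2) (Fin 2) A).trace :=
    (AddMonoidHom.map_trace j.toAddMonoidHom _).symm
  have hd : D.det = j (δ : Matrix (Fin 2) (Fin 2) A).det := (j.map_det _).symm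
  have hD01 : D 0 1 ≠ 0 := fun h0 => hδ (j.injective (by simpa [D] using h0))
  have hDτ : D.map τ = D := congrArg Units.val (P.gl_tau_j δ)
  obtain ⟨x, hx⟩ := exists_qmat hD01 (congrArg Units.val hc.eq)
  have hmap : ∀ y, (qmat D y).map τ = qmat D (qconj τ y) := fun y => by
    ext a b
    have := congrFun (congrFun hDτ a) b
    simp only [Matrix.map_apply] at this
    by_cases hab : a = b
    · subst hab; simp [qmat, qconj, this]
    · simp [qmat, qconj, hab, this]
  refine ⟨x, qmat_injective hD01 ?_⟩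
  rw [qnorm, ← ht, ← hd, qmat_qmul, qmat_qmul, ← hmap, ← hmap, ← hmap, ← hx]
  refine (show _ = ((N3 τ e : GL (Fin 2) B) : Matrix (Fin 2) (Fin 2) B) from rfl).trans ?_
  rw [hN, Units.val_mul, show ((scal c : GL (Fin 2) B) : Matrix (Fin 2) (Fin 2) B) = (c : B) • 1
    from scalar_coe c, mul_smul_comm, mul_one]
  simp [qmat, D]

end coord

variable {F E : Type*} [Field F] [NumberField F] [Field E] [NumberField E] {i : F →+* E}
  {τ : E →+* E}

/-- **Approximation of a local norm by a global one.** -/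
theorem approx_qnorm (h : Ell.CycGen i τ 3) {w : HeightOneSpectrum (𝓞 E)}
    {v : HeightOneSpectrum (𝓞 F)} (hτ : placeBelow τ w = w) (hw : placeBelow i w = v) {p d : F}
    {x : Kp E w × Kp E w} {c : (Kp E w)ˣ}
    (hx : qnorm (cMap τ w w hτ) (cMap i w v hw (p : Kp F v)) (cMap i w v hw (d : Kp F v)) x =
      (0, (c : Kp E w))) {m : ℕ} (hm : 0 < m) :
    ∃ (x' : E × E) (P Q : F), qnorm τ (i p) (i d) x' = (i P, i Q) ∧ Q ≠ 0 ∧
      v.valuation F P ≤ v.valuation F ((m : F) * Q) := by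
  set t := cMap τ w w hτ
  set j := cMap i w v hw
  set f : Kp E w × Kp E w → Kp E w × Kp E w := qnorm t (j (p : Kp F v)) (j (d : Kp F v))
  have hf : Continuous f := by
    have ht : Continuous t := continuous_cMap τ hτ
    show Continuous fun z => qnorm t (j (p : Kp F v)) (j (d : Kp F v)) z
    unfold qnorm qmul qconj
    fun_prop
  have hm0 : (m : Kp E w) ≠ 0 := fun e => levN_ne_zero w hm (by rw [levN_eq, e, map_zero])
  have hmc : (m : Kp E w) * c ≠ 0 := mul_ne_zero hm0 c.ne_zero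
  have hV : {z | Valued.v (z.1 - 0) < (Valued.v ((m : Kp E w) * c) : Γ₀) ∧
      Valued.v (z.2 - (c : Kp E w)) < (Valued.v (c : Kp E w) : Γ₀)} ∈ nhds (f x) := by
    show _ ∈ nhds (f x)
    rw [show f x = (0, (c : Kp E w)) from hx, nhds_prod_eq]
    exact Filter.prod_mem_prod (ball_mem_nhds hmc 0) (ball_mem_nhds c.ne_zero _)
  have hd : DenseRange (Prod.map (fun a : E => (a : Kp E w)) fun a : E => (a : Kp E w)) :=
    (HeightOneSpectrum.denseRange_algebraMap E w).prodMap
      (HeightOneSpectrum.denseRange_algebraMap E w)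
  obtain ⟨_, hz, x', rfl⟩ := mem_closure_iff_nhds.1 (hd x) _ (hf.continuousAt hV)
  obtain ⟨hz1, hz2⟩ := hz
  have hfix := qnorm_fixed (τ := τ) (cyc_cube h) (h.fixed p) (h.fixed d) x'
  obtain ⟨P, hP⟩ := h.fix _ (congrArg Prod.fst hfix)
  obtain ⟨Q, hQ⟩ := h.fix _ (congrArg Prod.snd hfix)
  have hg : qconj (algebraMap E (Kp E w)) (qnorm τ (i p) (i d) x') =
      f (Prod.map (fun a : E => (a : Kp E w)) (fun a : E => (a : Kp E w)) x') := by
    rw [qmap_qnorm (algebraMap E (Kp E w)) (τ' := t) (fun a => (cMap_coe τ hτ a).symm)]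
    simp only [f, j, cMap_coe]
    rfl
  rw [← hg] at hz1 hz2
  change Valued.v (((qnorm τ (i p) (i d) x').1 : Kp E w) - 0) < _ at hz1
  change Valued.v (((qnorm τ (i p) (i d) x').2 : Kp E w) - _) < _ at hz2
  rw [← hP, sub_zero] at hz1
  rw [← hQ] at hz2
  have hQv : Valued.v (((i Q : E) : Kp E w)) = (Valued.v (c : Kp E w) : Γ₀) := by
    have e := Valued.v.map_add_eq_of_lt_left hz2
    rwa [add_sub_cancel] at e
  refine ⟨x', P, Q, Prod.ext hP.symm hQ.symm, fun e => ?_, ?_⟩
  · rw [e, map_zero] at hQv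
    exact (map_ne_zero _).2 c.ne_zero ((map_zero _).symm.trans ((by simpa using hQv) : (Valued.v (0 : Kp E w) : Γ₀) = _)).symm
  · rw [← HeightOneSpectrum.adicCompletion.valued_coe, ← HeightOneSpectrum.adicCompletion.valued_coe,
      ← v_cMap_le_iff i hw, cMap_coe, cMap_coe,
      show ((i ((m : F) * Q) : E) : Kp E w) = (m : Kp E w) * ((i Q : E) : Kp E w) by
        rw [map_mul i, map_natCast i]
        exact (map_mul (algebraMap E (Kp E w)) _ _).trans (by rw [map_natCast]; rfl),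
      map_mul, hQv, ← map_mul]
    exact hz1.le

end FLTAgent.LT.Match
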