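import Fermat.Agent.LT.TF.Match.LocalData
import Fermat.Agent.LT.TF.Match.Supply

/-!
What matching needs at a bad place with one place above: local norms on the support below and the
local data of the pair of functions.
-/

set_option autoImplicit false
set_option linter.unusedSectionVars false
set_option linter.style.haveILetI false

noncomputable section

namespace FLTAgent.LT.Match

open NumberField IsDedekindDomain

local notation "Γ₀" => WithZero (Multiplicative ℤ)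

variable {F E : Type*} [Field F] [NumberField F] [Field E] [NumberField E] {i : F →+* E}
  {τ : E →+* E}

/-- The hypotheses of matching at a bad place with one place above. -/
structure BadLoc (h : Ell.CycGen i τ 3) (N : ℕ) {w : HeightOneSpectrum (𝓞 E)}
    {v : HeightOneSpectrum (𝓞 F)} (hτ : placeBelow τ w = w) (hw : placeBelow i w = v)
    (f : GL (Fin 2) (Kp E w) → ℂ) (f' : GL (Fin 2) (Kp F v) → ℂ) : Prop where
  norms : ∀ {δv q : GL (Fin 2) (Kp F v)}, (δv : Matrix (Fin 2) (Fin 2) (Kp F v)) 0 1 ≠ 0 →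
    f' (q⁻¹ * δv * q) ≠ 0 →
    ∃ (e : GL (Fin 2) (Kp E w)) (c : (Kp E w)ˣ), Commute e (gl (cMap i w v hw) δv) ∧
      N3 (cMap τ w w hτ) e = gl (cMap i w v hw) δv * scal c
  data : ∃ κ : ℕ, κ ≠ 0 ∧ ∀ (L : ∀ w, GL (Fin 2) (Kp E w) → ℂ)
      (L' : ∀ v, GL (Fin 2) (Kp F v) → ℂ), L w = f → L' v = f' →
    ∀ (γ : GL (Fin 2) E) (δ : GL (Fin 2) F) (a : Eˣ),
      (δ : Matrix (Fin 2) (Fin 2) F) 0 1 ≠ 0 →
      (twNorm τ 3 γ : Matrix (Fin 2) (Fin 2) E) =
        (a : E) • (Matrix.GeneralLinearGroup.map i δ : Matrix (Fin 2) (Fin 2) E) →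
      Commute γ (Matrix.GeneralLinearGroup.map i δ) →
      ∃ π : XLoc i N v → YLoc N v, LocData h L L' γ δ v κ π

/-- `lvlZ e` with lower left entry at most `n`. -/
def pinGrp {B : Type*} [Field B] [Valued B Γ₀] (e n : Γ₀) : Subgroup (GL (Fin 2) B) where
  carrier := {g | ∃ k ∈ lvl e, Valued.v ((k : Matrix (Fin 2) (Fin 2) B) 1 0) ≤ n ∧
    Valued.v (((k⁻¹ : GL (Fin 2) B) : Matrix (Fin 2) (Fin 2) B) 1 0) ≤ n ∧ ∃ c : Bˣ, g = k * scal c}
  one_mem' := ⟨1, one_mem _, by simp, by simp, 1, by simp [scal]⟩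
  mul_mem' := by
    have key : ∀ k l : GL (Fin 2) B, k ∈ lvl e → l ∈ lvl e →
        Valued.v ((k : Matrix (Fin 2) (Fin 2) B) 1 0) ≤ n →
        Valued.v ((l : Matrix (Fin 2) (Fin 2) B) 1 0) ≤ n →
        Valued.v (((k * l : GL (Fin 2) B) : Matrix (Fin 2) (Fin 2) B) 1 0) ≤ n :=
      fun k l hk hl hk' hl' => by
        rw [Units.val_mul, Matrix.mul_apply, Fin.sum_univ_two]
        refine Valued.v.map_add_le ?_ ?_ <;> rw [map_mul]
        · exact (mul_le_mul' hk' (ent_of_mem_lvl hl 0 0)).trans_eq (mul_one n)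
        · exact (mul_le_mul' (ent_of_mem_lvl hk 1 1) hl').trans_eq (one_mul n)
    rintro _ _ ⟨k, hk, hk1, hk2, c, rfl⟩ ⟨l, hl, hl1, hl2, d, rfl⟩
    refine ⟨k * l, mul_mem hk hl, key k l hk hl hk1 hl1,
      by rw [mul_inv_rev]; exact key _ _ (inv_mem hl) (inv_mem hk) hl2 hk2, c * d, ?_⟩
    rw [show scal (c * d) = scal c * scal d from map_mul _ c d, mul_assoc k, ← mul_assoc (scal c),
      scal_mul_comm c l]
    simp only [mul_assoc]
  inv_mem' := by
    rintro _ ⟨k, hk, hk1, hk2, c, rfl⟩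
    refine ⟨k⁻¹, inv_mem hk, hk2, by rwa [inv_inv], c⁻¹, ?_⟩
    rw [mul_inv_rev, ← scal_mul_comm, show (scal c)⁻¹ = scal c⁻¹ from (map_inv _ c).symm]

/-- A character of `pinGrp e n` fixed by `τ` with a function whose value at cubes is the character. -/
structure PinChar {B : Type*} [Field B] [Valued B Γ₀] (τ : B →+* B) (e n : Γ₀)
    (ψ ψ' : GL (Fin 2) B → ℂ) : Prop where
  lt_one : e < 1
  le : n ≤ e
  supp : ∀ g, ψ g ≠ 0 ↔ g ∈ pinGrp e n
  supp' : ∀ g, ψ' g ≠ 0 ↔ g ∈ pinGrp e n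
  mul : ∀ g ∈ pinGrp e n, ∀ k ∈ pinGrp e n, ψ (g * k) = ψ g * ψ k
  tau : ∀ g ∈ pinGrp e n, ψ (gl τ g) = ψ g
  central : ∀ (c : Bˣ) g, ψ (g * scal c) = ψ g
  central' : ∀ (c : Bˣ) g, ψ' (g * scal c) = ψ' g
  cube : ∀ g ∈ pinGrp e n, ψ' (g * g * g) = ψ g

/-- The contracting classes match. -/
theorem badLoc_omega (h : Ell.CycGen i τ 3) {N : ℕ} (hN : 0 < N) (h9 : 9 ∣ N) {j : ℕ} (hj : 0 < j)
    {w : HeightOneSpectrum (𝓞 E)} {v : HeightOneSpectrum (𝓞 F)} (hτ : placeBelow τ w = w)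
    (hw : placeBelow i w = v) (hv : (N : 𝓞 F) ∈ v.asIdeal) :
    BadLoc h N hτ hw (omegaAt τ N j w) (dsetAt N j v) := by
  refine ⟨fun {δv q} _ hq => ?_, ?_⟩
  · rw [dsetAt, dsetFn] at hq
    have hd : q⁻¹ * δv * q ∈ Dset (levN v N) ((natU (Kp F v) N ^ j) ^ 3) :=
      Set.mem_of_indicator_ne_zero hq
    have hlt : levN v N < 1 := levN_lt_one hv
    have hϖ : Valued.v ((natU (Kp F v) N ^ j : (Kp F v)ˣ) : Kp F v) < (1 : Γ₀) := by
      rw [Units.val_pow_eq_pow_val, map_pow, natU_val hN, ← levN_eq]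
      exact pow_lt_one₀ zero_le hlt hj.ne'
    have h3v : Valued.v (3 : Kp F v) ≤ (1 : Γ₀) := by
      have := levN_le_one v 3
      rwa [levN_eq, Nat.cast_ofNat] at this
    have h3 : (3 : Kp F v) ≠ 0 := fun e0 => levN_ne_zero v (N := 3) (by norm_num) (by
      rw [levN_eq, Nat.cast_ofNat, e0, map_zero])
    have h9v : levN v N ≤ Valued.v (9 : Kp F v) := by
      obtain ⟨M, rfl⟩ := h9
      rw [levN_eq, Nat.cast_mul, map_mul, Nat.cast_ofNat]
      refine mul_le_of_le_one_right' ?_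
      rw [← levN_eq]
      exact levN_le_one v M
    obtain ⟨k, c, hk, hk3⟩ := exists_cube_of_dset hlt hϖ h3 h3v h9v hd
    refine ⟨gl (cMap i w v hw) k, Units.map (cMap i w v hw).toMonoidHom c,
      hk.map (gl (cMap i w v hw)), ?_⟩
    have P := pair_of_fixed h hτ hw
    rw [N3, P.gl_tau_j, P.gl_tau_j, ← map_mul, ← map_mul, hk3, map_mul, gl_scal]
  · obtain ⟨κ, hκ, hd⟩ := exists_locData_omega h hN hj hτ hw hv
    exact ⟨κ, hκ, fun L L' e e' γ δ a h01 hNm _ => hd L L' e e' γ δ a h01 hNm⟩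

end FLTAgent.LT.Match
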