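import Fermat.Agent.LT.TF.Match.LocalData

/-!
The local matching at a split place: the three completions are the completion below, and the term is
the cyclic product.
-/

set_option autoImplicit false
set_option linter.unusedSectionVars false
set_option linter.style.haveILetI false

noncomputable section

namespace FLTAgent.LT.Match

open NumberField IsDedekindDomain

local notation "Γ₀" => WithZero (Multiplicative ℤ)

section iso

variable {K L : Type*} [Field K] [Valued K Γ₀] [Field L] [Valued L Γ₀]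

/-- The inverse of a bijective isometry. -/
def isoInv (s : K →+* L) (hs : Function.Bijective s) : L →+* K :=
  (RingEquiv.ofBijective s hs).symm.toRingHom

variable {s : K →+* L} {hs : Function.Bijective s}

theorem isoInv_apply (x : L) : s (isoInv s hs x) = x :=
  (RingEquiv.ofBijective s hs).apply_symm_apply x

theorem apply_isoInv (x : K) : isoInv s hs (s x) = x :=
  (RingEquiv.ofBijective s hs).symm_apply_apply x

theorem gl_isoInv (g : GL (Fin 2) L) : gl s (gl (isoInv s hs) g) = g :=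
  Units.ext (Matrix.ext fun _ _ => isoInv_apply (hs := hs) _)

theorem isoInv_gl (g : GL (Fin 2) K) : gl (isoInv s hs) (gl s g) = g :=
  Units.ext (Matrix.ext fun _ _ => apply_isoInv (hs := hs) _)

/-- Cosets along an isometry. -/
def isoCos (s : K →+* L) (hv : ∀ x, Valued.v (s x) = Valued.v x) {e e' : Γ₀} (he : e = e') :
    GL (Fin 2) K ⧸ lvlZ e → GL (Fin 2) L ⧸ lvlZ e' :=
  Quotient.map' (gl s) fun a b hab => QuotientGroup.leftRel_apply.2 (by
    rw [← map_inv, ← map_mul, ← he]
    exact gl_mem_lvlZ_of_isometry s hv (QuotientGroup.leftRel_apply.1 hab))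

theorem isoCos_mk (hv : ∀ x, Valued.v (s x) = Valued.v x) {e e' : Γ₀} (he : e = e')
    (g : GL (Fin 2) K) : isoCos s hv he (QuotientGroup.mk g) = QuotientGroup.mk (gl s g) := rfl

theorem isoCos_bijective (hs : Function.Bijective s) (hv : ∀ x, Valued.v (s x) = Valued.v x)
    {e e' : Γ₀} (he : e = e') : Function.Bijective (isoCos s hv he) := by
  have hv' : ∀ x, Valued.v (isoInv s hs x) = Valued.v x := fun x => by rw [← hv, isoInv_apply]
  refine Function.bijective_iff_has_inverse.2 ⟨isoCos (isoInv s hs) hv' he.symm, fun c => ?_, fun c => ?_⟩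
  · induction c using QuotientGroup.induction_on with | _ g =>
    rw [isoCos_mk, isoCos_mk, isoInv_gl]
  · induction c using QuotientGroup.induction_on with | _ g =>
    rw [isoCos_mk, isoCos_mk, gl_isoInv]

theorem isoCos_out (hv : ∀ x, Valued.v (s x) = Valued.v x) {e e' : Γ₀} (he : e = e')
    (c : GL (Fin 2) K ⧸ lvlZ e) :
    ∃ u ∈ lvlZ e', (isoCos s hv he c).out = gl s c.out * u := by
  refine ⟨(gl s c.out)⁻¹ * (isoCos s hv he c).out, ?_, (mul_inv_cancel_left _ _).symm⟩
  rw [← QuotientGroup.eq, QuotientGroup.out_eq', ← isoCos_mk hv he, QuotientGroup.out_eq']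

theorem isoCos_smul (hv : ∀ x, Valued.v (s x) = Valued.v x) {e e' : Γ₀} (he : e = e')
    (g : GL (Fin 2) K) (c : GL (Fin 2) K ⧸ lvlZ e) :
    isoCos s hv he (g • c) = gl s g • isoCos s hv he c := by
  induction c using QuotientGroup.induction_on with
  | _ x => exact congrArg QuotientGroup.mk (map_mul (gl s) g x)

theorem isoCos_one (hv : ∀ x, Valued.v (s x) = Valued.v x) {e e' : Γ₀} (he : e = e') :
    isoCos s hv he (QuotientGroup.mk 1) = QuotientGroup.mk 1 := by
  rw [isoCos_mk, map_one]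

end iso

variable {F E : Type*} [Field F] [NumberField F] [Field E] [NumberField E] {i : F →+* E}
  {τ : E →+* E} {N : ℕ}

/-- The three functions below a moved place. -/
def orbitFn (τ : E →+* E) (i : F →+* E) (h : Ell.CycGen i τ 3) {w : HeightOneSpectrum (𝓞 E)}
    {v : HeightOneSpectrum (𝓞 F)} (hw : placeBelow i w = v)
    (L : ∀ w, GL (Fin 2) (Kp E w) → ℂ) : Fin 3 → GL (Fin 2) (Kp F v) → ℂ :=
  ![fun g => L w (gl (cMap i w v hw) g),
    fun g => L (placeBelow τ w) (gl (cMap i (placeBelow τ w) v ((placeBelow_i_tau h w).trans hw)) g),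
    fun g => L (placeBelow τ (placeBelow τ w)) (gl (cMap i (placeBelow τ (placeBelow τ w)) v
      ((placeBelow_i_tau h _).trans ((placeBelow_i_tau h w).trans hw))) g)]

variable (h : Ell.CycGen i τ 3) {w : HeightOneSpectrum (𝓞 E)} {v : HeightOneSpectrum (𝓞 F)}

/-- The orbit above `v`. -/
def orb (hw : placeBelow i w = v) : Fin 3 → Above i v :=
  ![⟨w, hw⟩, nxt h ⟨w, hw⟩, nxt h (nxt h ⟨w, hw⟩)]

include h in
theorem moved_of_moved (hτ : placeBelow τ w ≠ w) (hw : placeBelow i w = v) (u : Above i v) :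
    placeBelow τ u.1 ≠ u.1 := by
  intro e
  have inj := (placePerm τ).injective
  rcases placeBelow_orbit h (u.2.trans hw.symm) with e' | e' | e' <;> rw [e'] at e
  · exact hτ e
  · exact hτ (inj e)
  · exact hτ (inj (inj e))

theorem orb_bijective (hτ : placeBelow τ w ≠ w) (hw : placeBelow i w = v) :
    Function.Bijective (orb h hw) := by
  obtain ⟨n1, n2⟩ := placeBelow_tau_ne h hτ
  refine ⟨fun a b e => ?_, fun u => ?_⟩
  · have e' := congrArg Subtype.val e
    fin_cases a <;> fin_cases b <;> simp [orb, nxt] at e' ⊢ <;>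
      first
      | exact hτ e' | exact hτ e'.symm | exact n1 e' | exact n1 e'.symm | exact n2 e' | exact n2 e'.symm
  · rcases placeBelow_orbit h (u.2.trans hw.symm) with e | e | e
    · exact ⟨0, Subtype.ext e.symm⟩
    · exact ⟨1, Subtype.ext e.symm⟩
    · exact ⟨2, Subtype.ext e.symm⟩

theorem nxt_orb (hw : placeBelow i w = v) (k : Fin 3) : nxt h (orb h hw k) = orb h hw (k + 1) := by
  fin_cases k
  · rfl
  · rfl
  · exact Subtype.ext (placeBelow_tau_cube h w)

include h in
theorem bijective_cMap_of_moved (u : Above i v) (hu : placeBelow τ u.1 ≠ u.1) :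
    Function.Bijective (cMap i u.1 v u.2) :=
  ⟨(cMap i u.1 v u.2).injective, cMap_surjective h hu u.2⟩

include h in
theorem levN_above (u : Above i v) (hu : placeBelow τ u.1 ≠ u.1) : levN v N = levN u.1 N := by
  rw [levN_eq, levN_eq, ← v_cMap_of_moved h hu u.2, map_natCast]

include h in
/-- A function above, seen below, is bi-invariant with finite support. -/
theorem biFin_pull (u : Above i v) (hu : placeBelow τ u.1 ≠ u.1)
    {L : ∀ w, GL (Fin 2) (Kp E w) → ℂ} (hL : LocFam N L) :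
    BiFin (lvlZ (levN v N)) (fun g => L u.1 (gl (cMap i u.1 v u.2) g)) := by
  have hv := v_cMap_of_moved h hu u.2
  have hm : ∀ x ∈ lvlZ (levN v N), gl (cMap i u.1 v u.2) x ∈ lvlZ (levN u.1 N) := fun x hx => by
    rw [← levN_above h u hu]
    exact gl_mem_lvlZ_of_isometry _ hv hx
  refine ⟨fun x hx g => by rw [map_mul, hL.left_inv _ _ (hm x hx)],
    fun x hx g => by rw [map_mul, hL.right_inv _ _ (hm x hx)], ?_⟩
  refine ((hL.finite u.1).preimage
    (isoCos_bijective (bijective_cMap_of_moved h u hu) hv (levN_above h u hu)).1.injOn).subset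
    fun c hc => ⟨_, hc, ?_⟩
  rw [← isoCos_mk hv (levN_above h u hu), QuotientGroup.out_eq']

theorem orbitFn_eq (hw : placeBelow i w = v) (L : ∀ w, GL (Fin 2) (Kp E w) → ℂ) (k : Fin 3) :
    orbitFn τ i h hw L k = fun g => L (orb h hw k).1 (gl (cMap i (orb h hw k).1 v (orb h hw k).2) g) := by
  fin_cases k <;> rfl

include h in
theorem gl_cMap_tau {b c : Above i v} (e : placeBelow τ b.1 = c.1) (x : GL (Fin 2) (Kp F v)) :
    gl (cMap τ b.1 c.1 e) (gl (cMap i c.1 v c.2) x) = gl (cMap i b.1 v b.2) x := by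
  have e' : τ.comp i = i := RingHom.ext h.fixed
  refine Units.ext (Matrix.ext fun p q => ?_)
  rw [gl_apply, gl_apply, gl_apply, cMap_comp i τ e c.2 (by rw [e']; exact b.2),
    cMap_congr e' _ b.2]

/-- **The split places.** -/
theorem exists_locData_split (hτ : placeBelow τ w ≠ w) (hw : placeBelow i w = v)
    {L : ∀ w, GL (Fin 2) (Kp E w) → ℂ} (hL : LocFam N L)
    {L' : ∀ v, GL (Fin 2) (Kp F v) → ℂ}
    (hconv : L' v = conv3 (lvlZ (levN v N)) (orbitFn τ i h hw L)) {γ : GL (Fin 2) E}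
    {δ : GL (Fin 2) F} {a : Eˣ}
    (hN : (twNorm τ 3 γ : Matrix (Fin 2) (Fin 2) E) =
      (a : E) • (Matrix.GeneralLinearGroup.map i δ : Matrix (Fin 2) (Fin 2) E)) :
    ∃ π : XLoc i N v → YLoc N v, LocData h L L' γ δ v 1 π ∧
      ((∀ u : Above i v, L u.1 = unitFn 1 ∧ gl (algebraMap E (Kp E u.1)) γ ∈ lvlZ 1 ∧ levN u.1 N = 1) →
        L' v = unitFn 1 → levN v N = 1 → gl (algebraMap F (Kp F v)) δ ∈ lvlZ 1 →
        LocGood h L L' γ δ v 1 π) := by
  classical
  set U : Subgroup (GL (Fin 2) (Kp F v)) := lvlZ (levN v N) with hU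
  set f := orbitFn τ i h hw L
  set o := orb h hw
  have hmv : ∀ k, placeBelow τ (o k).1 ≠ (o k).1 := fun k => moved_of_moved h hτ hw (o k)
  let s : ∀ k, Kp F v →+* Kp E (o k).1 := fun k => cMap i (o k).1 v (o k).2
  have hs : ∀ k, Function.Bijective (s k) := fun k => bijective_cMap_of_moved h _ (hmv k)
  have hv : ∀ k x, Valued.v (s k x) = Valued.v x := fun k => v_cMap_of_moved h (hmv k) (o k).2
  have he : ∀ k, levN v N = levN (o k).1 N := fun k => levN_above h _ (hmv k)
  let φ : ∀ k, (GL (Fin 2) (Kp F v) ⧸ U) ≃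
      (GL (Fin 2) (Kp E (o k).1) ⧸ lvlZ (levN (o k).1 N)) := fun k =>
    Equiv.ofBijective _ (isoCos_bijective (hs k) (hv k) (he k))
  let Φ : (Fin 3 → GL (Fin 2) (Kp F v) ⧸ U) ≃ XLoc i N v :=
    Equiv.piCongr (Equiv.ofBijective o (orb_bijective h hτ hw)) φ
  have hΦ : ∀ y k, Φ y (o k) = φ k (y k) := fun y k =>
    Equiv.piCongr_apply_apply _ _ y k
  let g : Fin 3 → GL (Fin 2) (Kp F v) := fun k =>
    gl (isoInv (s k) (hs k)) (gl (algebraMap E (Kp E (o k).1)) γ)
  have hg : ∀ k, gl (s k) (g k) = gl (algebraMap E (Kp E (o k).1)) γ := fun k => gl_isoInv _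
  have hbi : ∀ k, BiFin U (f k) := fun k => by
    rw [show f k = _ from orbitFn_eq h hw L k]
    exact biFin_pull h _ (hmv k) hL
  -- one factor
  have hfac : ∀ y k, L (o k).1 ((Φ y (o k)).out⁻¹ * gl (algebraMap E (Kp E (o k).1)) γ *
      gl (cMap τ (o k).1 (nxt h (o k)).1 rfl) (Φ y (nxt h (o k))).out) =
      f k ((y k).out⁻¹ * g k * (y (k + 1)).out) := by
    intro y k
    have key : ∀ (u : Above i v) (hu : placeBelow τ (o k).1 = u.1), u = o (k + 1) →
        L (o k).1 ((Φ y (o k)).out⁻¹ * gl (algebraMap E (Kp E (o k).1)) γ *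
          gl (cMap τ (o k).1 u.1 hu) (Φ y u).out) =
        f k ((y k).out⁻¹ * g k * (y (k + 1)).out) := by
      rintro u hu rfl
      rw [hΦ, hΦ]
      obtain ⟨u₁, hu₁, e₁⟩ := isoCos_out (hv k) (he k) (y k)
      obtain ⟨u₂, hu₂, e₂⟩ := isoCos_out (hv (k + 1)) (he (k + 1)) (y (k + 1))
      have hcomp : ∀ x : GL (Fin 2) (Kp F v),
          gl (cMap τ (o k).1 (o (k + 1)).1 hu) (gl (s (k + 1)) x) = gl (s k) x :=
        gl_cMap_tau h hu
      show L (o k).1 ((isoCos (s k) (hv k) (he k) (y k)).out⁻¹ * _ *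
        gl _ (isoCos (s (k + 1)) (hv (k + 1)) (he (k + 1)) (y (k + 1))).out) = _
      rw [e₁, e₂, map_mul, hcomp, ← hg, apply_conj_congr (hL.left_inv _) (hL.right_inv _) hu₁
          (by
            rw [← levN_eq_of_cMap τ hu]
            exact gl_mem_lvlZ_of_isometry _ (fun x => v_cMap_endo τ hu x) hu₂),
        show f k = _ from orbitFn_eq h hw L k]
      simp only [map_mul, map_inv]
      rfl
    exact key _ rfl (nxt_orb h hw k)
  have ha : ∀ y, aLoc h L γ v (Φ y) = cycFn U f g y := fun y => by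
    rw [aLoc, ← finprod_comp_equiv (Equiv.ofBijective o (orb_bijective h hτ hw)),
      finprod_eq_prod_of_fintype, Fin.prod_univ_three, cycFn]
    refine congrArg₂ (· * ·) (congrArg₂ (· * ·) (hfac y 0) (hfac y 1)) (hfac y 2)
  -- the product of the three components
  have hprod : g 0 * g 1 * g 2 = gl (algebraMap F (Kp F v)) δ *
      scal (Units.map (isoInv (s 0) (hs 0)).toMonoidHom
        (Units.map (algebraMap E (Kp E (o 0).1)).toMonoidHom a)) := by
    have e0 : gl (s 0) (g 0 * g 1 * g 2) = gl (algebraMap E (Kp E (o 0).1))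
        (γ * gl τ γ * gl τ (gl τ γ)) := by
      have hn : ∀ k, placeBelow τ (o k).1 = (o (k + 1)).1 := fun k =>
        congrArg Subtype.val (nxt_orb h hw k)
      have t1 : ∀ k, gl (s k) (g (k + 1)) = gl (cMap τ (o k).1 (o (k + 1)).1 (hn k))
          (gl (algebraMap E (Kp E (o (k + 1)).1)) γ) := fun k => by
        rw [← hg (k + 1)]
        exact (gl_cMap_tau h (hn k) _).symm
      have t2 : gl (s 0) (g 2) = gl (cMap τ (o 0).1 (o 1).1 (hn 0)) (gl (s 1) (g 2)) :=
        (gl_cMap_tau h (hn 0) _).symm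
      rw [map_mul, map_mul, map_mul, map_mul, hg, show g 1 = g (0 + 1) from rfl, t1 0, t2,
        show g 2 = g (1 + 1) from rfl, t1 1, gl_cMap_alg, gl_cMap_alg]
      erw [gl_cMap_alg]
    have hinj : ∀ A B, gl (s 0) A = gl (s 0) B → A = B := fun A B e => by
      rw [← isoInv_gl (hs := hs 0) A, e, isoInv_gl]
    refine hinj _ _ ?_
    rw [e0, alg_norm hN, map_mul, gl_scal, show gl (s 0) (gl (algebraMap F (Kp F v)) δ) = _ from
      gl_cMap_alg i (o 0).2 δ]
    congr 2
    exact Units.ext (isoInv_apply _).symm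
  have h0 : ∀ x ∈ U, ∀ y, f 0 (x * y) = f 0 y := (hbi 0).left
  have h2 : ∀ x ∈ U, ∀ y, f 2 (y * x) = f 2 y := (hbi 2).right
  haveI : Finite (U ⧸ U.subgroupOf U) := by
    rw [Subgroup.subgroupOf_self]
    haveI : Subsingleton (U ⧸ (⊤ : Subgroup U)) := QuotientGroup.subsingleton_quotient_top
    infer_instance
  have hcard : Nat.card (U ⧸ U.subgroupOf U) = 1 := by
    rw [Subgroup.subgroupOf_self]
    exact Nat.card_eq_one_iff_unique.2 ⟨QuotientGroup.subsingleton_quotient_top, inferInstance⟩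
  have hproj : ∀ x : GL (Fin 2) (Kp F v) ⧸ U, Subgroup.quotientMapOfLE le_rfl x = x := fun x => by
    induction x using QuotientGroup.induction_on with | _ x => rfl
  have hfib := fun c => cyc_fibre hbi le_rfl h0 h2 g c
  simp only [hproj, hcard] at hfib
  let π : XLoc i N v → YLoc N v := fun x => Φ.symm x 0
  have hset : ∀ c, {x | aLoc h L γ v x ≠ 0 ∧ π x = c} =
      Φ.symm ⁻¹' {y | cycFn U f g y ≠ 0 ∧ y 0 = c} := fun c => by
    ext x
    simp only [Set.mem_ofPred_eq, Set.mem_preimage, π, ← ha, Equiv.apply_symm_apply]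
  have hD : LocData h L L' γ δ v 1 π := by
    refine ⟨fun ξ _ x _ => ?_, fun c => ?_, fun c => ?_⟩
    · obtain ⟨y, rfl⟩ := Φ.surjective x
      have e : xSmul ξ (Φ y) = Φ (fun k => gl (algebraMap F (Kp F v)) ξ • y k) := funext fun u => by
        obtain ⟨k, rfl⟩ := (orb_bijective h hτ hw).2 u
        rw [xSmul, hΦ, hΦ]
        show _ • isoCos (s k) (hv k) (he k) (y k) = isoCos (s k) (hv k) (he k) _
        rw [isoCos_smul, gl_cMap_alg]
      show Φ.symm (xSmul ξ (Φ y)) 0 = _ • Φ.symm (Φ y) 0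
      rw [e, Φ.symm_apply_apply, Φ.symm_apply_apply]
    · rw [hset]
      exact (hfib c).1.preimage Φ.symm.injective.injOn
    · rw [bLoc, hconv]
      have e := (hfib c).2
      rw [show c.out⁻¹ * (g 0 * g 1 * g 2) * c.out =
          c.out⁻¹ * gl (algebraMap F (Kp F v)) δ * c.out *
            scal (Units.map (isoInv (s 0) (hs 0)).toMonoidHom
              (Units.map (algebraMap E (Kp E (o 0).1)).toMonoidHom a)) by
        rw [hprod, ← mul_assoc, mul_assoc _ (scal _) c.out, scal_mul_comm, ← mul_assoc],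
        conv3_mul_right h2 (scal_mem_lvlZ _ _)] at e
      rw [← e, ← finsum_comp_equiv Φ (f := fun x => ∑ᶠ (_ : aLoc h L γ v x ≠ 0 ∧ π x = c),
        aLoc h L γ v x)]
      exact finsum_congr fun y => finsum_congr_Prop (by simp only [π, ha, Equiv.symm_apply_apply])
        fun _ => ha y
  refine ⟨π, hD, fun hu hL' hlv hδ => ?_⟩
  have hone : ∀ k, f k = (U : Set (GL (Fin 2) (Kp F v))).indicator 1 := fun k => funext fun x => by
    rw [show f k = _ from orbitFn_eq h hw L k, (hu (o k)).1, unitFn, hU, hlv]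
    simp only [Set.indicator_apply, SetLike.mem_coe, Pi.one_apply]
    refine if_congr ⟨fun hx => ?_, fun hx => gl_mem_lvlZ_of_isometry _ (hv k) hx⟩ rfl rfl
    have := gl_mem_lvlZ_of_isometry (isoInv (s k) (hs k)) (fun z => by rw [← hv k, isoInv_apply]) hx
    rwa [isoInv_gl] at this
  have hgU : ∀ k, g k ∈ U := fun k => by
    rw [hU, hlv]
    exact gl_mem_lvlZ_of_isometry _ (fun z => by rw [← hv k, isoInv_apply]) (hu (o k)).2.1
  have hb0 : Φ (fun _ => QuotientGroup.mk 1) = xBase i N v := funext fun u => by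
    obtain ⟨k, rfl⟩ := (orb_bijective h hτ hw).2 u
    rw [hΦ]
    exact isoCos_one (hv k) (he k)
  have hsupp : ∀ y, cycFn U f g y ≠ 0 →
      cycFn U f g y = 1 ∧ ∀ k, (y k).out⁻¹ * g k * (y (k + 1)).out ∈ U := fun y hy => by
    simp only [cycFn, hone] at hy ⊢
    obtain ⟨h01, hm2⟩ := mul_ne_zero_iff.1 hy
    obtain ⟨hm0, hm1⟩ := mul_ne_zero_iff.1 h01
    simp only [ne_eq, Set.indicator_apply_eq_zero, SetLike.mem_coe, Pi.one_apply, one_ne_zero,
      imp_false, not_not] at hm0 hm1 hm2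
    refine ⟨?_, fun k => ?_⟩
    · rw [Set.indicator_of_mem hm0, Set.indicator_of_mem hm1, Set.indicator_of_mem hm2]
      simp
    · fin_cases k <;> assumption
  have hyb : cycFn U f g (fun _ => QuotientGroup.mk 1) = 1 := by
    obtain ⟨u, hu', eu⟩ := exists_out_mk U (1 : GL (Fin 2) (Kp F v))
    have hm : ∀ k, (QuotientGroup.mk 1 : GL (Fin 2) (Kp F v) ⧸ U).out⁻¹ * g k *
        (QuotientGroup.mk 1 : GL (Fin 2) (Kp F v) ⧸ U).out ∈ U := fun k => by
      rw [eu, one_mul]
      exact mul_mem (mul_mem (inv_mem hu') (hgU k)) hu'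
    simp only [cycFn, hone, Set.indicator_of_mem (SetLike.mem_coe.2 (hm _))]
    simp
  refine ⟨rfl, ?_, ?_, ?_, fun x hx hπ => ?_⟩
  · show Φ.symm (xBase i N v) 0 = _
    rw [← hb0, Φ.symm_apply_apply]
    rfl
  · rw [← hb0, ha, hyb]
  · rw [bLoc, hL', yBase]
    obtain ⟨u, hu', eu⟩ := exists_out_mk (lvlZ (levN v N)) (1 : GL (Fin 2) (Kp F v))
    rw [hlv] at hu'
    rw [eu, one_mul]
    exact unitFn_of_mem (mul_mem (mul_mem (inv_mem hu') hδ) hu')
  · obtain ⟨y, rfl⟩ := Φ.surjective x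
    rw [ha] at hx
    obtain ⟨-, hy⟩ := hsupp y hx
    change Φ.symm (Φ y) 0 = _ at hπ
    rw [Φ.symm_apply_apply] at hπ
    have step : ∀ k, y k = QuotientGroup.mk 1 → y (k + 1) = QuotientGroup.mk 1 := fun k hk => by
      rw [← (y (k + 1)).out_eq', QuotientGroup.eq, mul_one]
      refine inv_mem ?_
      have hk' : (y k).out ∈ U := by
        rw [hk]
        obtain ⟨u, hu', eu⟩ := exists_out_mk U (1 : GL (Fin 2) (Kp F v))
        rw [eu, one_mul]
        exact hu'
      have := mul_mem (mul_mem (inv_mem (hgU k)) hk') (hy k)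
      rwa [show (g k)⁻¹ * (y k).out * ((y k).out⁻¹ * g k * (y (k + 1)).out) = (y (k + 1)).out by
        group] at this
    rw [← hb0]
    refine congrArg Φ (funext fun k => ?_)
    have y1 := step 0 hπ
    fin_cases k
    · exact hπ
    · exact y1
    · exact step 1 y1

end FLTAgent.LT.Match
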