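import Fermat.Agent.LT.TF.Setup
import Fermat.Agent.LT.TF.Match.Pair

/-!
At a good place of `M` fixed by the generator of `Gal(M/K)` an integer is moved by a unit, and the
values of the fixed field then exhaust those of the completion.
-/

set_option autoImplicit false
set_option linter.unusedSectionVars false
set_option linter.style.haveILetI false
set_option synthInstance.maxHeartbeats 400000

noncomputable section

namespace FLTAgent.LT.Match

open NumberField IsDedekindDomain WithZero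
open scoped Pointwise

local notation "Γ₀" => WithZero (Multiplicative ℤ)

section pair

variable {A B : Type*} [Field A] [Valued A Γ₀] [Field B] [Valued B Γ₀]

/-- An integer moved by a unit makes the fixed field take every value. -/
theorem Pair.exists_v_j_eq {j : A →+* B} {τ : B →+* B} (P : Pair j τ) {θ : B}
    (hθ : Valued.v θ ≤ (1 : Γ₀)) (hθ' : Valued.v (τ θ - θ) = (1 : Γ₀)) (x : B) :
    ∃ y : A, Valued.v (j y) = Valued.v x := by
  rcases eq_or_ne x 0 with rfl | hx
  · exact ⟨0, by simp⟩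
  have hvx : Valued.v x ≠ (0 : Γ₀) := (map_ne_zero _).2 hx
  set u := τ x / x with hu
  set u' := τ (τ x) / x with hu'
  have hvu : Valued.v u = (1 : Γ₀) := by rw [map_div₀, P.v_tau, div_self hvx]
  have hvu' : Valued.v u' = (1 : Γ₀) := by rw [map_div₀, P.v_tau, P.v_tau, div_self hvx]
  let T : B → B := fun s => s + u * τ s + u' * τ (τ s)
  have hT : ∀ s, Valued.v s ≤ (1 : Γ₀) → Valued.v (T s) ≤ (1 : Γ₀) := fun s hs =>
    Valued.v.map_add_le (Valued.v.map_add_le hs (by rw [map_mul, hvu, one_mul, P.v_tau]; exact hs))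
      (by rw [map_mul, hvu', one_mul, P.v_tau, P.v_tau]; exact hs)
  obtain ⟨s, hs, hs1⟩ : ∃ s, Valued.v s ≤ (1 : Γ₀) ∧ Valued.v (T s) = (1 : Γ₀) := by
    by_contra hne
    push Not at hne
    have hlt : ∀ s, Valued.v s ≤ (1 : Γ₀) → Valued.v (T s) < (1 : Γ₀) := fun s hs =>
      lt_of_le_of_ne (hT s hs) (hne s hs)
    have hb : Valued.v (θ - τ (τ θ)) = (1 : Γ₀) := by
      rw [← P.v_tau, map_sub, P.cube]; exact hθ'
    have hid : (θ - τ θ) * (θ - τ (τ θ)) =
        T (θ * θ) - (τ θ + τ (τ θ)) * T θ + τ θ * τ (τ θ) * T 1 := by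
      simp only [T, map_mul, map_one]; ring
    have hprod : Valued.v ((θ - τ θ) * (θ - τ (τ θ))) = (1 : Γ₀) := by
      rw [map_mul, hb, Valuation.map_sub_swap, hθ', one_mul]
    rw [hid] at hprod
    refine absurd hprod (ne_of_lt ?_)
    refine Valued.v.map_add_lt (Valued.v.map_sub_lt (hlt _ ?_) ?_) ?_
    · rw [map_mul]; exact mul_le_one₀ hθ zero_le hθ
    · rw [map_mul]
      exact lt_of_le_of_lt (mul_le_of_le_one_left zero_le
        (Valued.v.map_add_le (by rw [P.v_tau]; exact hθ) (by rw [P.v_tau, P.v_tau]; exact hθ)))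
        (hlt θ hθ)
    · rw [map_mul]
      exact lt_of_le_of_lt (mul_le_of_le_one_left zero_le
        (by rw [map_mul, P.v_tau, P.v_tau, P.v_tau]; exact mul_le_one₀ hθ zero_le hθ))
        (hlt 1 (by simp))
  have e : x * T s = x * s + τ (x * s) + τ (τ (x * s)) := by
    simp only [T, hu, hu', map_mul]
    field_simp
  obtain ⟨y, hy⟩ := P.fixed (x * T s) (by
    rw [e, map_add, map_add, P.cube]; abel)
  exact ⟨y, by rw [hy, map_mul, hs1, mul_one]⟩

end pair

open FLTAgent.Frobenius FLTAgent.TW in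
/-- The residue degree divides the exponents of the residue field. -/
theorem residueDegree_dvd {K : IntermediateField ℚ Qb} [FiniteDimensional ℚ K]
    {A : ValuationSubring Qb} {l f n : ℕ} (hl : l.Prime) (hA : A.LiesOverPrime l) (hf : 0 < f)
    (hcard : Nat.card (𝓞 K ⧸ (placeIn K A hl hA).asIdeal) = l ^ f)
    (hpow : ∀ y : 𝓞 K, y ^ l ^ n - y ∈ (placeIn K A hl hA).asIdeal) : f ∣ n := by
  set P := (placeIn K A hl hA).asIdeal
  have : P.IsMaximal := (placeIn K A hl hA).isPrime.isMaximal (placeIn K A hl hA).ne_bot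
  let _ : Field (𝓞 K ⧸ P) := Ideal.Quotient.field P
  have : Finite (𝓞 K ⧸ P) := Ideal.finiteQuotientOfFreeOfNeBot P (placeIn K A hl hA).ne_bot
  have := Fintype.ofFinite (𝓞 K ⧸ P)
  have hq : ∀ z : 𝓞 K ⧸ P, z ^ l ^ f = z := fun z => by
    rw [← hcard, Nat.card_eq_fintype_card, FiniteField.pow_card]
  have hn : ∀ z : 𝓞 K ⧸ P, z ^ l ^ n = z := fun z => by
    obtain ⟨y, rfl⟩ := Ideal.Quotient.mk_surjective z
    rw [← map_pow, Ideal.Quotient.eq]
    exact hpow y
  have hr : ∀ z : 𝓞 K ⧸ P, z ^ l ^ (n % f) = z := by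
    intro z
    have hit : ∀ j : ℕ, z ^ l ^ (f * j) = z := by
      intro j
      induction j with
      | zero => simp
      | succ j ih => rw [Nat.mul_succ, pow_add, pow_mul, ih, hq]
    conv_rhs => rw [← hn z, ← Nat.div_add_mod n f, pow_add, pow_mul, hit]
  by_contra hne
  have hr0 : n % f ≠ 0 := fun h => hne (Nat.dvd_of_mod_eq_zero h)
  have h1 : 1 < l ^ (n % f) := Nat.one_lt_pow hr0 hl.one_lt
  have hle : Fintype.card (𝓞 K ⧸ P) ≤ l ^ (n % f) := by
    rw [← FiniteField.X_pow_card_sub_X_natDegree_eq (𝓞 K ⧸ P) h1]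
    refine Polynomial.card_le_degree_of_subset_roots (Z := Finset.univ) fun z _ => ?_
    rw [Polynomial.mem_roots (FiniteField.X_pow_card_sub_X_ne_zero _ h1)]
    simp [hr z]
  rw [← Nat.card_eq_fintype_card, hcard] at hle
  exact absurd ((Nat.pow_le_pow_iff_right hl.one_lt).mp hle) (not_le.mpr (Nat.mod_lt n hf))

local instance : IsGalois ℚ Qb := Octa.isGalois_Qb

open FLTAgent.Frobenius in
/-- An element of the decomposition group of a good place inducing the identity on the residue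
field of `M` lies in `G_M`. -/
theorem mem_GM_of_residue (d : Octa) {N : ℕ} (hN : d.Good N) {l : ℕ} (hl : l.Prime)
    {A : ValuationSubring Qb} (hA : A.LiesOverPrime l) (hlN : ¬ l ∣ N) {g : Gam}
    (hg : g ∈ A.decompositionSubgroup ℚ)
    (hres : ∀ y : 𝓞 d.Mf, g • toZbar d.Mf y - toZbar d.Mf y ∈ centre A) : g ∈ d.GM := by
  have hI := hN.2.2 l hl hlN A hA
  obtain ⟨hFfix, hFfd⟩ := Octa.fixing_of_open (show IsOpen (d.rbar.ker : Set Gam) from
    d.isOpen_comap ⊥)
  set F := IntermediateField.fixedField d.rbar.ker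
  haveI : FiniteDimensional ℚ (d.Mf ⊔ F : IntermediateField ℚ Qb) :=
    IntermediateField.finiteDimensional_sup _ _
  set L := IntermediateField.normalClosure ℚ (d.Mf ⊔ F : IntermediateField ℚ Qb) Qb
  haveI : FiniteDimensional ℚ L := normalClosure.is_finiteDimensional ℚ _ Qb
  haveI : Normal ℚ L := normalClosure.normal ℚ _ Qb
  have hle : d.Mf ⊔ F ≤ L := IntermediateField.le_normalClosure _
  obtain ⟨φ, hφ⟩ := Frobenius.exists_isFrobeniusAt hl hA
  obtain ⟨n, ι, hι, hgι⟩ := TW.Local.exists_frobenius_pow_mul hl hA hφ L hg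
  obtain ⟨f, hf, hcard⟩ := Recip.exists_natCard_residue (K := d.Mf) hl hA
  have hfn : f ∣ n := residueDegree_dvd hl hA hf hcard fun y => by
    show toZbar d.Mf (y ^ l ^ n - y) ∈ centre A
    have e : g • toZbar d.Mf y = φ ^ n • (ι • toZbar d.Mf y) := by
      rw [← mul_smul]
      exact Subtype.ext (hgι _ (hle (le_sup_left (b := F) (y : d.Mf).2)))
    have h1 := TW.Local.frobenius_pow_sub_mem hl hφ n (toZbar d.Mf y)
    have h2 : φ ^ n • (ι • toZbar d.Mf y - toZbar d.Mf y) ∈ centre A :=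
      (TW.Local.smul_mem_centre_iff (Subgroup.pow_mem _ hφ.mem_decompositionSubgroup n)).mpr
        ((mem_inertiaSubgroupIn_iff_centre).mp hι _)
    rw [smul_sub, ← e] at h2
    rw [map_sub, map_pow]
    have h3 := sub_mem (sub_mem (hres y) h2) h1
    convert h3 using 1
    abel
  obtain ⟨m, rfl⟩ := hfn
  obtain ⟨σ, hσM, hσ⟩ := Recip.exists_frobenius_fixing (K := d.Mf) hl hA
  rw [hcard] at hσ
  have hσm : A.IsFrobeniusAt (σ ^ m) (l ^ (f * m)) := by
    rw [pow_mul]; exact ThetaM.isFrobeniusAt_pow (pow_pos hl.pos f) hσ m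
  have hr := Descent.rbar_eq (d := d) hI (pow_pos hl.pos _)
    (ThetaM.isFrobeniusAt_pow hl.pos hφ (f * m)) hσm
  have hker : (φ ^ (f * m) * ι)⁻¹ * g ∈ d.rbar.ker := by
    rw [← hFfix, IntermediateField.mem_fixingSubgroup_iff]
    intro x hx
    rw [AlgEquiv.mul_apply, hgι x (hle (le_sup_right (a := d.Mf) hx)), ← AlgEquiv.mul_apply,
      inv_mul_cancel]
    rfl
  rw [MonoidHom.mem_ker, map_mul, map_inv, inv_mul_eq_one] at hker
  show d.rbar g ∈ Octa.quat
  rw [← hker, map_mul, hI ι hι, mul_one, hr]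
  rw [d.fixing_Mf] at hσM
  exact (pow_mem hσM m : σ ^ m ∈ d.GM)

open FLTAgent.Frobenius in
/-- At a good place fixed by the generator an integer is moved by a unit. -/
theorem exists_theta_inert (d : Octa) {N : ℕ} (hN : d.Good N) (w : HeightOneSpectrum (𝓞 d.Mf))
    (hw : (N : 𝓞 d.Mf) ∉ w.asIdeal) (hτ : placeBelow (Descent.tauM d) w = w) :
    ∃ θ : d.Mf, w.valuation d.Mf θ ≤ 1 ∧
      w.valuation d.Mf (Descent.tauM d θ - θ) = 1 := by
  obtain ⟨l, hl, hlw⟩ := TW.exists_prime_mem w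
  obtain ⟨A, hA, rfl⟩ := TW.exists_placeIn d.Mf w hl hlw
  have hlN : ¬ l ∣ N := fun hd => hw (by
    obtain ⟨c, rfl⟩ := hd
    rw [Nat.cast_mul]
    exact Ideal.mul_mem_right _ _ hlw)
  rw [Descent.placeBelow_placeIn_tauM] at hτ
  obtain ⟨s, hs, hsA⟩ := TW.exists_fix_smul_eq d.Mf (congrArg HeightOneSpectrum.asIdeal hτ)
  set g := Descent.tauQ d * s⁻¹
  have hg : g ∈ A.decompositionSubgroup ℚ := MulAction.mem_stabilizer_iff.mpr (by
    conv_lhs => rw [← hsA]
    rw [mul_smul, inv_smul_smul, smul_inv_smul])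
  have hgM : g ∉ d.GM := fun h => Descent.tauQ_pow_not_mem d one_pos (by norm_num) (by
    rw [d.fixing_Mf] at hs
    simpa [g] using mul_mem h hs)
  by_contra hne
  push Not at hne
  refine hgM (mem_GM_of_residue d hN hl hA hlN hg fun y => ?_)
  by_contra hy
  set z := RingOfIntegers.mapRingHom (Descent.tauM d) y - y with hz
  have hzc : toZbar d.Mf z = g • toZbar d.Mf y - toZbar d.Mf y := by
    rw [hz, map_sub]
    congr 1
    refine Subtype.ext ?_
    show Descent.tauQ d ((y : d.Mf) : Qb) = (Descent.tauQ d * s⁻¹) ((y : d.Mf) : Qb)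
    rw [AlgEquiv.mul_apply, TW.apply_coe_eq_of_mem_fixing (inv_mem hs)]
  refine hne (y : d.Mf) (HeightOneSpectrum.valuation_le_one _ y) ?_
  have hval := HeightOneSpectrum.valuation_of_algebraMap (K := d.Mf) (TW.placeIn d.Mf A hl hA) z
  rw [show Descent.tauM d (y : d.Mf) - (y : d.Mf) = (z : d.Mf) from rfl, hval,
    HeightOneSpectrum.intValuation_eq_one_iff]
  intro hm
  refine hy ?_
  rw [← hzc]
  exact hm

end FLTAgent.LT.Match
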