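import Fermat.Agent.LT.TF.EllipticTerm
import Fermat.Agent.LT.TF.Match.BadLoc
import Fermat.Agent.LT.TF.Match.Inf
import Fermat.Agent.LT.TF.Match.LocalSplit
import Fermat.Agent.LT.TF.Match.Supply
import Fermat.Agent.LT.TF.Match.Theta
import Fermat.Agent.LT.Red.Iwasawa

/-!
Matching of product tests along a cyclic cubic extension, and the absence of singular norms.
-/

set_option autoImplicit false
set_option linter.unusedSectionVars false
set_option linter.style.haveILetI false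
set_option maxHeartbeats 1000000

noncomputable section

namespace FLTAgent.LT.Match

open NumberField IsDedekindDomain MeasureTheory

local notation "Γ₀" => WithZero (Multiplicative ℤ)

variable {F E : Type*} [Field F] [NumberField F] [Field E] [NumberField E] {i : F →+* E}
  {τ : E →+* E}

/-- Every place has one above it. -/
theorem exists_place_above (i : F →+* E) (v : HeightOneSpectrum (𝓞 F)) :
    ∃ w, placeBelow i w = v := by
  letI : Algebra F E := i.toAlgebra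
  haveI := v.isMaximal
  obtain ⟨P, hP, hlie⟩ := Ideal.exists_maximal_ideal_liesOver_of_isIntegral (S := 𝓞 E) v.asIdeal
  refine ⟨⟨P, hP.isPrime, Ideal.ne_bot_of_liesOver_of_ne_bot v.ne_bot P⟩,
    HeightOneSpectrum.ext ?_⟩
  exact (hlie.over).symm

theorem natCast_mem_below (i : F →+* E) {w : HeightOneSpectrum (𝓞 E)}
    {v : HeightOneSpectrum (𝓞 F)} (hw : placeBelow i w = v) (n : ℕ) :
    (n : 𝓞 F) ∈ v.asIdeal ↔ (n : 𝓞 E) ∈ w.asIdeal := by
  subst hw
  show RingOfIntegers.mapRingHom i (n : 𝓞 F) ∈ w.asIdeal ↔ _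
  rw [map_natCast]

theorem eventually_places_above (i : F →+* E) {P : HeightOneSpectrum (𝓞 E) → Prop}
    (hP : ∀ᶠ w in Filter.cofinite, P w) :
    ∀ᶠ v in Filter.cofinite, ∀ u : Above i v, P u.1 := by
  refine Filter.eventually_cofinite.2 (((Filter.eventually_cofinite.1 hP).image (placeBelow i)).subset
    fun v hv => ?_)
  obtain ⟨u, hu⟩ := not_forall.1 hv
  exact ⟨u.1, hu, u.2⟩

theorem eventually_v_eq_one {x : F} (hx : x ≠ 0) :
    ∀ᶠ v : HeightOneSpectrum (𝓞 F) in Filter.cofinite,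
      Valued.v (algebraMap F (Kp F v) x) = (1 : Γ₀) :=
  FiniteAdeleRing.unitsEquiv_finite_valued_eq_one
    (Units.map (algebraMap F (Af F)).toMonoidHom (Units.mk0 x hx))

theorem eventually_levN {N : ℕ} (hN : 0 < N) :
    ∀ᶠ v : HeightOneSpectrum (𝓞 F) in Filter.cofinite, levN v N = 1 :=
  Filter.eventually_cofinite.2 ((Red.finite_natCast_mem hN).subset fun v hv => by
    by_contra h
    exact hv (levN_eq_one h))

theorem offDiag_ne_zero {δ : GL (Fin 2) F} (hδ : EllElem δ) :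
    (δ : Matrix (Fin 2) (Fin 2) F) 0 1 ≠ 0 ∧ (δ : Matrix (Fin 2) (Fin 2) F) 1 0 ≠ 0 := by
  constructor <;> intro h0 <;>
    refine hδ.2 ⟨(δ : Matrix (Fin 2) (Fin 2) F) 0 0 - (δ : Matrix (Fin 2) (Fin 2) F) 1 1, ?_⟩ <;>
    rw [Matrix.trace_fin_two, Matrix.det_fin_two, h0] <;> ring

/-- The local norms wherever the test below does not vanish. -/
theorem exists_local_norms (h : Ell.CycGen i τ 3) {N : ℕ}
    (hθ : ∀ w : HeightOneSpectrum (𝓞 E), (N : 𝓞 E) ∉ w.asIdeal → placeBelow τ w = w →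
      ∃ θ : E, w.valuation E θ ≤ 1 ∧ w.valuation E (τ θ - θ) = 1)
    {L : ∀ w, GL (Fin 2) (Kp E w) → ℂ} {L' : ∀ v, GL (Fin 2) (Kp F v) → ℂ}
    (hbad : ∀ w (hτ : placeBelow τ w = w), (N : 𝓞 E) ∈ w.asIdeal →
      BadLoc h N hτ (v := placeBelow i w) rfl (L w) (L' (placeBelow i w)))
    (hgood : ∀ w, placeBelow τ w = w → (N : 𝓞 E) ∉ w.asIdeal →
      L w = unitFn 1 ∧ L' (placeBelow i w) = unitFn 1)
    {δ : GL (Fin 2) F} (hδ : EllElem δ) {v : HeightOneSpectrum (𝓞 F)}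
    {q : GL (Fin 2) (Kp F v)} (hq : L' v (q⁻¹ * gl (algebraMap F (Kp F v)) δ * q) ≠ 0) :
    (∃ w, placeBelow i w = v ∧ placeBelow τ w ≠ w) ∨
      ∀ m : ℕ, 0 < m → ∃ (x : E × E) (P Q : F),
        qnorm τ (i (δ : Matrix (Fin 2) (Fin 2) F).trace) (i (δ : Matrix (Fin 2) (Fin 2) F).det) x =
          (i P, i Q) ∧ Q ≠ 0 ∧ v.valuation F P ≤ v.valuation F ((m : F) * Q) := by
  refine or_iff_not_imp_left.2 fun hsplit m hm => ?_
  push Not at hsplit
  obtain ⟨w, hw⟩ := exists_place_above i v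
  have hτ := hsplit w hw
  have P := pair_of_fixed h hτ hw
  set δv := gl (algebraMap F (Kp F v)) δ with hδv
  have h01 : (δv : Matrix (Fin 2) (Fin 2) (Kp F v)) 0 1 ≠ 0 :=
    alg_apply_ne_zero (offDiag_ne_zero hδ).1 v
  obtain ⟨e, c, hec, hN3⟩ : ∃ (e : GL (Fin 2) (Kp E w)) (c : (Kp E w)ˣ),
      Commute e (gl (cMap i w v hw) δv) ∧
        N3 (cMap τ w w hτ) e = gl (cMap i w v hw) δv * scal c := by
    by_cases hv : (N : 𝓞 F) ∈ v.asIdeal
    · subst hw
      exact (hbad w hτ ((natCast_mem_below i rfl N).1 hv)).norms h01 hq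
    · have hwN : (N : 𝓞 E) ∉ w.asIdeal := fun e => hv ((natCast_mem_below i hw N).2 e)
      have hg := (hgood w hτ hwN).2
      rw [hw] at hg
      rw [hg, unitFn] at hq
      obtain ⟨θ, hθ1, hθ2⟩ := hθ w hwN hτ
      have hθ1' : Valued.v ((θ : Kp E w)) ≤ (1 : Γ₀) := by
        rwa [HeightOneSpectrum.adicCompletion.valued_coe]
      have hθ2' : Valued.v (cMap τ w w hτ (θ : Kp E w) - (θ : Kp E w)) = (1 : Γ₀) := by
        rw [cMap_coe, ← Red.coe_sub_completion, HeightOneSpectrum.adicCompletion.valued_coe]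
        exact hθ2
      haveI := finite_residueField_Kp (E := E) w
      exact P.exists_norm (fun x => P.exists_v_j_eq hθ1' hθ2' x) hθ1' hθ2'
        ⟨q, Set.mem_of_indicator_ne_zero hq⟩
  obtain ⟨x, hx⟩ := exists_qnorm_of_N3 P h01 hec hN3
  have htr : (δv : Matrix (Fin 2) (Fin 2) (Kp F v)).trace =
      (((δ : Matrix (Fin 2) (Fin 2) F).trace : F) : Kp F v) :=
    (AddMonoidHom.map_trace (algebraMap F (Kp F v)).toAddMonoidHom _).symm
  have hdet : (δv : Matrix (Fin 2) (Fin 2) (Kp F v)).det =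
      (((δ : Matrix (Fin 2) (Fin 2) F).det : F) : Kp F v) :=
    ((algebraMap F (Kp F v)).map_det _).symm
  rw [htr, hdet] at hx
  exact approx_qnorm h hτ hw hx hm

/-- The factor at one place does not vanish. -/
theorem LocFam.local_ne_zero {N : ℕ} {L' : ∀ v, GL (Fin 2) (Kp F v) → ℂ} (hL' : LocFam N L')
    {δ : GL (Fin 2) F} {g : GF F}
    (hne : prodFun L' (g⁻¹ * toFin δ * gfMap (RingHom.id F) g) ≠ 0) (v : HeightOneSpectrum (𝓞 F)) :
    L' v ((locGF v g)⁻¹ * gl (algebraMap F (Kp F v)) δ * locGF v g) ≠ 0 := by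
  have := hL'.prodFun_ne_zero.1 hne v
  rwa [gfMap_id, map_mul, map_mul, map_inv, locGF_toFin] at this

/-- Fubini over the cosets. -/
theorem integral_pt {N : ℕ} [Countable (Cos E N)] {G : Pt E N → ℂ}
    (hG : Integrable G (ptMeasure E N)) :
    Summable (fun c => ∫ x, G (x, c) ∂Measure.pi fun _ : InfinitePlace E => hypMeasure) ∧
      ∫ p, G p ∂ptMeasure E N =
        ∑' c, ∫ x, G (x, c) ∂Measure.pi fun _ : InfinitePlace E => hypMeasure := by
  rw [ptMeasure] at hG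
  have hi := hG.integral_prod_right
  refine ⟨(integrable_count_iff.1 hi).of_norm, ?_⟩
  rw [ptMeasure, integral_prod_symm _ hG, integral_countable hi]
  simp only [Measure.real, Measure.count_singleton, ENNReal.toReal_one, one_smul]

theorem integrable_section {N : ℕ} [Countable (Cos E N)] {G : Pt E N → ℂ}
    (hG : Integrable G (ptMeasure E N)) (c : Cos E N) :
    Integrable (fun x => G (x, c)) (Measure.pi fun _ : InfinitePlace E => hypMeasure) := by
  rw [ptMeasure] at hG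
  have h1 := hG.prod_left_ae
  rw [ae_iff, Measure.count_eq_zero_iff, Set.eq_empty_iff_forall_notMem] at h1
  exact not_not.1 (h1 c)

/-- **Matching from the local data.** -/
theorem matched_of_local [IsTotallyComplex F] (h : Ell.CycGen i τ 3) {ζ : F}
    (hζ : IsPrimitiveRoot ζ 3) {N : ℕ} (hN : 0 < N)
    (hθ : ∀ w : HeightOneSpectrum (𝓞 E), (N : 𝓞 E) ∉ w.asIdeal → placeBelow τ w = w →
      ∃ θ : E, w.valuation E θ ≤ 1 ∧ w.valuation E (τ θ - θ) = 1)
    (Lb : ∀ w, GL (Fin 2) (Kp E w) → ℂ) (Lb' : ∀ v, GL (Fin 2) (Kp F v) → ℂ)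
    (hloc : ∀ w (hτ : placeBelow τ w = w), (N : 𝓞 E) ∈ w.asIdeal →
      BadLoc h N hτ (v := placeBelow i w) rfl (Lb w) (Lb' (placeBelow i w))) :
    ∃ c : ℂ, c ≠ 0 ∧ ∀ (L : ∀ w, GL (Fin 2) (Kp E w) → ℂ)
      (L' : ∀ v, GL (Fin 2) (Kp F v) → ℂ) (H : InfinitePlace E → ℝ → ℝ)
      (H' : InfinitePlace F → ℝ → ℝ), LocFam N L → LocFam N L' → (∀ w, Rad1 (H w)) →
      (∀ v, ∃ w : InfinitePlace E, w.comap i = v ∧
        H' v = conv1 (conv1 (H w) (H (w.comap τ))) (H ((w.comap τ).comap τ))) →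
      (∀ w, placeBelow τ w = w → (N : 𝓞 E) ∈ w.asIdeal →
        L w = Lb w ∧ L' (placeBelow i w) = Lb' (placeBelow i w)) →
      (∀ w, placeBelow τ w = w → (N : 𝓞 E) ∉ w.asIdeal →
        L w = unitFn 1 ∧ L' (placeBelow i w) = unitFn 1) →
      (∀ v, (∃ w, placeBelow i w = v ∧ placeBelow τ w ≠ w) →
        ∃ (w : HeightOneSpectrum (𝓞 E)) (hw : placeBelow i w = v),
          L' v = conv3 (lvlZ (levN v N)) (orbitFn τ i h hw L)) →
      Matched i τ 3 (N := N) (N' := N) (prodTest L (radFun H)) (prodTest L' (radFun H')) c := by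
  classical
  haveI := Red.countable_cos (F := E) hN
  haveI := Red.countable_cos (F := F) hN
  -- the constants
  have hκex : ∀ v : HeightOneSpectrum (𝓞 F), ∃ κ : ℕ, κ ≠ 0 ∧
      ((¬ ∃ w, placeBelow i w = v ∧ placeBelow τ w = w ∧ (N : 𝓞 F) ∈ v.asIdeal) → κ = 1) ∧
      ∀ w, placeBelow i w = v → placeBelow τ w = w → (N : 𝓞 F) ∈ v.asIdeal →
        ∀ (L : ∀ w, GL (Fin 2) (Kp E w) → ℂ) (L' : ∀ v, GL (Fin 2) (Kp F v) → ℂ),
          L w = Lb w → L' v = Lb' v →
          ∀ (γ : GL (Fin 2) E) (δ : GL (Fin 2) F) (a : Eˣ),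
            (δ : Matrix (Fin 2) (Fin 2) F) 0 1 ≠ 0 →
            (twNorm τ 3 γ : Matrix (Fin 2) (Fin 2) E) =
              (a : E) • (Matrix.GeneralLinearGroup.map i δ : Matrix (Fin 2) (Fin 2) E) →
            Commute γ (Matrix.GeneralLinearGroup.map i δ) →
            ∃ π : XLoc i N v → YLoc N v, LocData h L L' γ δ v κ π := by
    intro v
    by_cases hex : ∃ w, placeBelow i w = v ∧ placeBelow τ w = w ∧ (N : 𝓞 F) ∈ v.asIdeal
    · obtain ⟨w, hw, hτ, hv⟩ := hex
      subst hw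
      obtain ⟨κ, hκ, hd⟩ := (hloc w hτ ((natCast_mem_below i rfl N).1 hv)).data
      refine ⟨κ, hκ, fun hne => absurd ⟨w, rfl, hτ, hv⟩ hne, fun w' hw' hτ' _ => ?_⟩
      obtain rfl : w' = w := congrArg Subtype.val (above_subsingleton h hτ rfl ⟨w', hw'⟩)
      exact hd
    · exact ⟨1, one_ne_zero, fun _ => rfl, fun w hw hτ hv => absurd ⟨w, hw, hτ, hv⟩ hex⟩
  choose κ hκ0 hκ1 hκd using hκex
  refine ⟨((∏ᶠ v, κ v : ℕ) : ℂ), Nat.cast_ne_zero.2
    (finprod_induction (· ≠ 0) one_ne_zero (fun _ _ => mul_ne_zero) hκ0), ?_⟩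
  intro L L' H H' hL hL' hH hH' hbad hgood hsplit δ hδ
  by_cases hex : ∃ (γ : GL (Fin 2) E) (a : Eˣ), (twNorm τ 3 γ : Matrix (Fin 2) (Fin 2) E) =
      (a : E) • (Matrix.GeneralLinearGroup.map i δ : Matrix (Fin 2) (Fin 2) E) ∧
      Commute γ (Matrix.GeneralLinearGroup.map i δ)
  swap
  · refine Or.inl ⟨fun q => ?_, fun γ hγ => ?_⟩
    · by_contra hne
      have hf := left_ne_zero_of_mul hne
      obtain ⟨γ, a, e1, e2⟩ := exists_norm_preimage h hζ hδ fun v =>
        exists_local_norms h hθ (fun w hτ hw => by rw [(hbad w hτ hw).1, (hbad w hτ hw).2]; exact hloc w hτ hw) hgood hδ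
          (hL'.local_ne_zero hf v)
      exact hex ⟨γ, a, e1, e2⟩
    · obtain ⟨a, g, e⟩ := hγ
      exfalso
      set γ' := g⁻¹ * γ * (Ell.tmap τ g⁻¹)⁻¹
      have e' : twNorm τ 3 γ' = Ell.sc a * Matrix.GeneralLinearGroup.map i δ := by
        have eg : twNorm τ 3 γ = Ell.sc a * (g * Matrix.GeneralLinearGroup.map i δ * g⁻¹) :=
          Units.ext (by
            rw [e, Units.val_mul (Ell.sc a), Ell.coe_sc, smul_mul_assoc, one_mul])
        rw [h.twNorm_twConj', eg, inv_inv, ← mul_assoc, ← (Ell.sc_comm a g⁻¹).eq]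
        group
      refine hex ⟨γ', a, ?_, (h.commute_preimage hδ e').2⟩
      rw [e', Units.val_mul, Ell.coe_sc, smul_mul_assoc, one_mul]
  obtain ⟨γ, a, hNm, hcomm⟩ := hex
  obtain ⟨πi, hπim, hπie, hπi⟩ := exists_infMatch h hH hH'
  -- the local data
  set good : HeightOneSpectrum (𝓞 F) → Prop := fun v =>
    levN v N = 1 ∧ L' v = unitFn 1 ∧ gl (algebraMap F (Kp F v)) δ ∈ lvl (1 : Γ₀) ∧
      Valued.v ((gl (algebraMap F (Kp F v)) δ : Matrix (Fin 2) (Fin 2) (Kp F v)) 1 0) = (1 : Γ₀) ∧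
      ∀ u : Above i v, L u.1 = unitFn 1 ∧ gl (algebraMap E (Kp E u.1)) γ ∈ lvlZ (1 : Γ₀) ∧
        levN u.1 N = 1
  have hloc : ∀ v, ∃ π : XLoc i N v → YLoc N v,
      LocData h L L' γ δ v (κ v) π ∧ (good v → LocGood h L L' γ δ v (κ v) π) := by
    intro v
    by_cases hm : ∃ w, placeBelow i w = v ∧ placeBelow τ w ≠ w
    · obtain ⟨w, hw, hconv⟩ := hsplit v hm
      obtain ⟨w₁, hw₁, hmv⟩ := hm
      have hτ : placeBelow τ w ≠ w := moved_of_moved h hmv hw₁ ⟨w, hw⟩
      have hone : κ v = 1 := hκ1 v (by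
        rintro ⟨w', hw', hfix, -⟩
        exact moved_of_moved h hτ hw ⟨w', hw'⟩ hfix)
      obtain ⟨π, hD, hG⟩ := exists_locData_split h hτ hw hL hconv hNm
      rw [hone]
      exact ⟨π, hD, fun ⟨g1, g2, g3, _, g5⟩ => hG g5 g2 g1 (lvl_le_lvlZ 1 g3)⟩
    · push Not at hm
      obtain ⟨w, hw⟩ := exists_place_above i v
      have hτ := hm w hw
      by_cases hv : (N : 𝓞 F) ∈ v.asIdeal
      · obtain ⟨e1, e2⟩ := hbad w hτ ((natCast_mem_below i hw N).1 hv)
        rw [hw] at e2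
        obtain ⟨π, hD⟩ := hκd v w hw hτ hv L L' e1 e2 γ δ a (offDiag_ne_zero hδ).1 hNm hcomm
        exact ⟨π, hD, fun hg => absurd hg.1 (levN_lt_one hv).ne⟩
      · have hwN : (N : 𝓞 E) ∉ w.asIdeal := fun e => hv ((natCast_mem_below i hw N).2 e)
        obtain ⟨e1, e2⟩ := hgood w hτ hwN
        rw [hw] at e2
        have hone : κ v = 1 := hκ1 v (by rintro ⟨-, -, -, hv'⟩; exact hv hv')
        obtain ⟨θ, hθ1, hθ2⟩ := hθ w hwN hτ
        have hθ1' : Valued.v ((θ : Kp E w)) ≤ (1 : Γ₀) := by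
          rwa [HeightOneSpectrum.adicCompletion.valued_coe]
        have hθ2' : Valued.v (cMap τ w w hτ (θ : Kp E w) - (θ : Kp E w)) = (1 : Γ₀) := by
          rw [cMap_coe, ← Red.coe_sub_completion, HeightOneSpectrum.adicCompletion.valued_coe]
          exact hθ2
        obtain ⟨π, hD, hG⟩ := exists_locData_unit h hτ hw (levN_eq_one hwN) (levN_eq_one hv)
          (fun x => (pair_of_fixed h hτ hw).exists_v_j_eq hθ1' hθ2' x) hθ1' hθ2' e1 e2
          (offDiag_ne_zero hδ).1 hNm hcomm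
        rw [hone]
        exact ⟨π, hD, fun ⟨_, _, g3, g4, g5⟩ => hG (g5 ⟨w, hw⟩).2.1 g3 g4⟩
  choose π hD hG using hloc
  have hev : ∀ᶠ v in Filter.cofinite, LocGood h L L' γ δ v (κ v) (π v) := by
    have hg : ∀ᶠ w in Filter.cofinite, L w = unitFn 1 ∧
        gl (algebraMap E (Kp E w)) γ ∈ lvlZ (1 : Γ₀) ∧ levN w N = 1 := by
      filter_upwards [hL.unit, eventually_mem_lvl (toFin γ), eventually_levN (F := E) hN]
        with w a1 a2 a3
      rw [locGF_toFin] at a2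
      exact ⟨a1, lvl_le_lvlZ 1 a2, a3⟩
    filter_upwards [eventually_levN (F := F) hN, hL'.unit, eventually_mem_lvl (toFin δ),
      eventually_v_eq_one (offDiag_ne_zero hδ).2, eventually_places_above i hg] with v a1 a2 a3 a4 a5
    rw [locGF_toFin] at a3
    exact hG v ⟨a1, a2, a3, a4, a5⟩
  obtain ⟨πf, hπfe, hπff, hπfs⟩ := exists_finMatch h hN hL hL' hD hev
  refine Or.inr ⟨γ, a, fun p => (πi p.1, πf p.2), hNm, hcomm,
    (hπim.comp measurable_fst).prodMk ((measurable_of_countable πf).comp measurable_snd),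
    fun ξ hξ p hp => ?_, fun Φ hΦ hl hr => ?_⟩
  · refine Prod.ext (hπie ξ p.1) ?_
    exact hπfe ξ hξ p.2 (left_ne_zero_of_mul hp)
  -- the integrals
  set A : Cos E N → ℂ := fun c => prodFun L (c.out⁻¹ * toFin γ * gfMap τ c.out)
  set B : Cos F N → ℂ := fun d => prodFun L' (d.out⁻¹ * toFin δ * gfMap (RingHom.id F) d.out)
  set R : Cos F N → ℂ := fun d =>
    ∫ y, radFun H' (fun v => hdist (y v) (actInf δ y v)) * Φ (y, d)
      ∂Measure.pi fun _ : InfinitePlace F => hypMeasure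
  have hinfid : ∀ y : Xinf F, infMap (RingHom.id F) y = y := fun y => by
    funext v
    simp only [infMap]
    have e : v.comap (RingHom.id F) = v := InfinitePlace.ext _ _ fun x => rfl
    rw [e, if_pos (RingHom.comp_id _).symm]
  obtain ⟨hsl, hel⟩ := integral_pt hl
  obtain ⟨hsr, her⟩ := integral_pt hr
  have hsec : ∀ c, (∫ x, term τ (prodTest L (radFun H)) γ (x, c) * Φ (πi x, πf c)
      ∂Measure.pi fun _ : InfinitePlace E => hypMeasure) = A c * R (πf c) := by
    intro c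
    have e : ∀ x, term τ (prodTest L (radFun H)) γ (x, c) * Φ (πi x, πf c) =
        A c * (radFun H (fun w => hdist (x w) (actInf γ (infMap τ x) w)) * Φ (πi x, πf c)) :=
      fun x => mul_assoc _ _ _
    simp only [e]
    rw [integral_const_mul]
    by_cases hA : A c = 0
    · simp [hA]
    congr 1
    refine hπi hNm (fun y => Φ (y, πf c)) (hΦ.comp measurable_prodMk_right) ?_
    have hs := (integrable_section hl c).const_mul (A c)⁻¹
    refine hs.congr (Filter.Eventually.of_forall fun x => ?_)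
    show (A c)⁻¹ * (term τ (prodTest L (radFun H)) γ (x, c) * Φ (πi x, πf c)) = _
    rw [e, inv_mul_cancel_left₀ hA]
  have hsec' : ∀ d, (∫ y, term (RingHom.id F) (prodTest L' (radFun H')) δ (y, d) * Φ (y, d)
      ∂Measure.pi fun _ : InfinitePlace F => hypMeasure) = B d * R d := by
    intro d
    rw [← integral_const_mul]
    refine integral_congr_ae (Filter.Eventually.of_forall fun y => ?_)
    show B d * radFun H' (fun v => hdist (y v) (actInf δ (infMap (RingHom.id F) y) v)) * Φ (y, d) =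
      B d * (radFun H' (fun v => hdist (y v) (actInf δ y v)) * Φ (y, d))
    rw [hinfid, mul_assoc]
  simp only [hsec] at hsl hel
  simp only [hsec'] at hsr her
  rw [hel, her, ← tsum_mul_left]
  -- group by the image
  set eσ := Equiv.sigmaFiberEquiv πf
  have hsσ : Summable fun x => A (eσ x) * R (πf (eσ x)) := eσ.summable_iff.2 hsl
  rw [← eσ.tsum_eq (fun c => A c * R (πf c)), hsσ.tsum_sigma]
  refine tsum_congr fun d => ?_
  have hfib : (∑ᶠ (c) (_ : A c ≠ 0 ∧ πf c = d), A c) = ((∏ᶠ v, κ v : ℕ) : ℂ) * B d := hπfs d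
  rw [show (∑' c : {c // πf c = d}, A (eσ ⟨d, c⟩) * R (πf (eσ ⟨d, c⟩))) =
      (∑' c : {c // πf c = d}, A c.1) * R d by
    rw [← tsum_mul_right]
    refine tsum_congr fun c => ?_
    show A c.1 * R (πf c.1) = _
    rw [c.2]]
  rw [← mul_assoc, ← hfib, tsum_eq_finsum ((((hπff d).preimage Subtype.val_injective.injOn)).subset
    fun c hc => ⟨hc, c.2⟩), finsum_subtype_eq_finsum_cond (f := A) (fun c => πf c = d)]
  congr 1
  refine finsum_congr fun c => ?_
  by_cases hA : A c = 0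
  · simp [hA]
  · exact finsum_congr_Prop (propext ⟨fun hc => ⟨hA, hc⟩, And.right⟩) fun _ => rfl

/-- **No singular norms** meet a test with a contracting class in one slot. -/
theorem noSing_prodTest (h : Ell.CycGen i τ 3) {N : ℕ} (hN : 0 < N) {j : ℕ} (hj : 0 < j)
    {w : HeightOneSpectrum (𝓞 E)} (hτ : placeBelow τ w = w) (hw : (N : 𝓞 E) ∈ w.asIdeal)
    {L : ∀ w, GL (Fin 2) (Kp E w) → ℂ} (hL : LocFam N L) (hLw : L w = omegaAt τ N j w)
    (hinf : (InfinitePlace E → ℝ) → ℂ) : NoSing τ 3 N (prodTest L hinf) := by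
  intro γ p hp
  have P := pair_of_fixed h hτ (v := placeBelow i w) rfl
  have hne := hL.prodFun_ne_zero.1 (left_ne_zero_of_mul hp) w
  rw [hLw, omegaAt, dif_pos hτ, omegaFn] at hne
  have hmem := Set.mem_of_indicator_ne_zero hne
  rw [locGF_twist] at hmem
  have key : ∀ (u : HeightOneSpectrum (𝓞 E)) (hu : placeBelow τ w = u), u = w →
      gl (cMap τ w u hu) (locGF u p.2.out) = gl (cMap τ w w hτ) (locGF w p.2.out) := by
    rintro u hu rfl
    rfl
  rw [key _ rfl hτ, Omega, Set.mem_ofPred_eq, P.N3_twist] at hmem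
  have hlt : levN w N < 1 := levN_lt_one hw
  have hϖ : Valued.v (((natU (Kp E w) N ^ j) ^ 3 : (Kp E w)ˣ) : Kp E w) < (1 : Γ₀) := by
    rw [Units.val_pow_eq_pow_val, Units.val_pow_eq_pow_val, map_pow, map_pow, natU_val hN,
      ← levN_eq]
    exact pow_lt_one₀ zero_le (pow_lt_one₀ zero_le hlt hj.ne') three_ne_zero
  obtain ⟨ht, -, hd⟩ := trace_disc_ne_zero hlt hϖ hmem
  have e : N3 (cMap τ w w hτ) (gl (algebraMap E (Kp E w)) γ) =
      gl (algebraMap E (Kp E w)) (twNorm τ 3 γ) := by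
    simp only [N3, twNorm, mul_one, map_mul, map_one, gl_cMap_alg, mul_assoc]
  rw [e] at ht hd
  have htr : ((gl (algebraMap E (Kp E w)) (twNorm τ 3 γ) : GL (Fin 2) (Kp E w)) :
      Matrix (Fin 2) (Fin 2) (Kp E w)).trace =
        algebraMap E (Kp E w) (twNorm τ 3 γ : Matrix (Fin 2) (Fin 2) E).trace :=
    (AddMonoidHom.map_trace (algebraMap E (Kp E w)).toAddMonoidHom _).symm
  have hdet : ((gl (algebraMap E (Kp E w)) (twNorm τ 3 γ) : GL (Fin 2) (Kp E w)) :
      Matrix (Fin 2) (Fin 2) (Kp E w)).det =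
        algebraMap E (Kp E w) (twNorm τ 3 γ : Matrix (Fin 2) (Fin 2) E).det :=
    ((algebraMap E (Kp E w)).map_det _).symm
  rw [htr] at ht hd
  rw [hdet, ← map_pow, ← map_ofNat (algebraMap E (Kp E w)) 4, ← map_mul, ← map_sub] at hd
  exact ⟨(map_ne_zero _).1 ht, (map_ne_zero _).1 hd⟩

end FLTAgent.LT.Match
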