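import Fermat.Agent.LT.TF.EllipticAlg
import Fermat.Agent.LT.TF.Galois
import Fermat.Agent.LT.TF.Aleph.Local
import Fermat.Agent.LT.TF.Match.Local

/-!
The places above a place along a cyclic cubic extension: one orbit of the generator, fixed with a
semilinear pair of completions, or moved with completions equal to the completion below.
-/

set_option autoImplicit false
set_option linter.unusedSectionVars false
set_option linter.style.haveILetI false

noncomputable section

namespace FLTAgent.LT.Match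

open NumberField IsDedekindDomain WithZero

local notation "Γ₀" => WithZero (Multiplicative ℤ)

section limit

variable {K : Type*} [Field K] [Valued K Γ₀] [CompleteSpace K]

/-- Geometrically convergent sequences have limits. -/
theorem exists_limit (a : ℕ → K) {q : Γ₀} (hq : q < 1)
    (ha : ∀ n, Valued.v (a (n + 1) - a n) ≤ q ^ n) : ∃ l, ∀ n, Valued.v (l - a n) ≤ q ^ n := by
  have htail : ∀ n m, n ≤ m → Valued.v (a m - a n) ≤ q ^ n := fun n m hm => by
    induction m, hm using Nat.le_induction with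
    | base => simp
    | succ m hm ih =>
      rw [← sub_add_sub_cancel (a (m + 1)) (a m) (a n)]
      exact Valued.v.map_add_le ((ha m).trans (pow_le_pow_right_of_le_one' hq.le hm)) ih
  have hC : CauchySeq a := by
    refine Valued.cauchy_iff.2 ⟨Filter.map_neBot, fun γ => ?_⟩
    obtain ⟨N, hN⟩ := exists_pow_lt' hq
      (show MonoidWithZeroHom.ValueGroup₀.embedding γ.1 ≠ 0 by simp)
    refine ⟨a '' Set.Ici N, Filter.image_mem_map (Filter.Ici_mem_atTop N), ?_⟩
    rintro _ ⟨m, hm, rfl⟩ _ ⟨n, hn, rfl⟩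
    rw [Valuation.restrict_lt_iff_lt_embedding]
    refine lt_of_le_of_lt ?_ hN
    rw [← sub_sub_sub_cancel_right (a n) (a m) (a N)]
    exact Valued.v.map_sub_le (htail N n hn) (htail N m hm)
  obtain ⟨l, hl⟩ := cauchySeq_tendsto_of_complete hC
  refine ⟨l, fun n => ?_⟩
  by_contra hne
  rw [not_le] at hne
  have hd : l - a n ≠ 0 := fun h => by simp [h] at hne
  have hmem : {y : K | Valued.v (y - l) < Valued.v (l - a n)} ∈ nhds l := by
    refine Valued.mem_nhds.2 ⟨Units.mk0 (Valued.v.restrict (l - a n)) (by simp [hd]), fun y hy => ?_⟩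
    exact Valued.v.restrict_lt_iff.1 hy
  obtain ⟨m, hm, hnm⟩ := ((hl.eventually hmem).and (Filter.eventually_ge_atTop n)).exists
  have h2 := Valued.v.map_add_lt (x := l - a m) (y := a m - a n)
    (by rw [Valuation.map_sub_swap]; exact hm) ((htail n m hnm).trans_lt hne)
  rw [sub_add_sub_cancel] at h2
  exact lt_irrefl _ h2

end limit

variable {F E : Type*} [Field F] [NumberField F] [Field E] [NumberField E]

theorem coe_add' {v : HeightOneSpectrum (𝓞 E)} (a b : E) :
    ((a + b : E) : Kp E v) = (a : Kp E v) + (b : Kp E v) := map_add (algebraMap E (Kp E v)) a b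

theorem coe_div' {v : HeightOneSpectrum (𝓞 E)} (a b : E) :
    ((a / b : E) : Kp E v) = (a : Kp E v) / (b : Kp E v) := map_div₀ (algebraMap E (Kp E v)) a b

/-! ### Valuations along a map of completions -/

section compare

variable (i : F →+* E) {w : HeightOneSpectrum (𝓞 E)} {v : HeightOneSpectrum (𝓞 F)}
  (hw : placeBelow i w = v)

include hw

theorem v_cMap_le_one {x : Kp F v} (hx : Valued.v x ≤ (1 : Γ₀)) :
    Valued.v (cMap i w v hw x) ≤ (1 : Γ₀) := by
  subst hw
  exact (HeightOneSpectrum.mem_adicCompletionIntegers ..).1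
    (complMap_integer i w x ((HeightOneSpectrum.mem_adicCompletionIntegers ..).2 hx))

theorem v_cMap_lt_one {x : Kp F v} (hx : Valued.v x < (1 : Γ₀)) :
    Valued.v (cMap i w v hw x) < (1 : Γ₀) := by
  have hπ0 : ((unif v : F) : Kp F v) ≠ 0 := unif_coe_ne_zero v
  have hvπ : Valued.v ((unif v : F) : Kp F v) = exp (-1 : ℤ) := by
    rw [HeightOneSpectrum.adicCompletion.valued_coe]
    exact (HeightOneSpectrum.valuation_exists_uniformizer F v).choose_spec
  have h1 : Valued.v (cMap i w v hw ((unif v : F) : Kp F v)) < (1 : Γ₀) := by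
    rw [cMap_coe, HeightOneSpectrum.adicCompletion.valued_coe]
    letI : Algebra F E := i.toAlgebra
    haveI : w.asIdeal.LiesOver v.asIdeal := ⟨by rw [← hw]; rfl⟩
    show w.valuation E (algebraMap F E (unif v)) < 1
    rw [← HeightOneSpectrum.valuation_liesOver E v w (unif v)]
    refine pow_lt_one₀ zero_le ?_ (Ideal.IsDedekindDomain.ramificationIdx'_ne_zero_of_liesOver w.asIdeal v.ne_bot)
    rw [← HeightOneSpectrum.adicCompletion.valued_coe, hvπ, ← exp_zero, exp_lt_exp]
    norm_num
  have h2 : Valued.v (x / ((unif v : F) : Kp F v)) ≤ (1 : Γ₀) := by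
    rcases eq_or_ne (Valued.v x) 0 with h0 | h0
    · rw [map_div₀, h0, zero_div]; exact zero_le_one
    rw [map_div₀, hvπ, div_le_one₀ exp_pos]
    rw [← exp_log h0, ← exp_zero, exp_lt_exp] at hx
    rw [← exp_log h0, exp_le_exp]
    omega
  rw [show x = ((unif v : F) : Kp F v) * (x / ((unif v : F) : Kp F v)) by
    rw [mul_div_cancel₀ _ hπ0], map_mul, map_mul]
  exact mul_lt_one_of_nonneg_of_lt_one_left zero_le h1 (v_cMap_le_one i hw h2)

theorem v_cMap_le_iff (x y : Kp F v) :
    Valued.v (cMap i w v hw x) ≤ Valued.v (cMap i w v hw y) ↔ Valued.v x ≤ Valued.v y := by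
  rcases eq_or_ne y 0 with rfl | hy
  · simp
  have hy' : cMap i w v hw y ≠ 0 := (map_ne_zero _).2 hy
  rw [← div_le_one₀ (zero_lt_iff.2 ((map_ne_zero _).2 hy')),
    ← div_le_one₀ (zero_lt_iff.2 ((map_ne_zero _).2 hy)), ← map_div₀, ← map_div₀, ← map_div₀]
  refine ⟨fun h => ?_, v_cMap_le_one i hw⟩
  by_contra hlt
  rw [not_le] at hlt
  have := v_cMap_lt_one i hw (x := (x / y)⁻¹) (by rw [map_inv₀]; exact inv_lt_one_of_one_lt₀ hlt)
  rw [map_inv₀, map_inv₀] at this
  rw [inv_lt_one₀ (lt_of_le_of_ne zero_le fun h0 => by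
    rw [eq_comm, map_eq_zero, map_eq_zero] at h0
    simp [h0] at hlt)] at this
  exact absurd h (not_le.2 this)

theorem v_cMap_lt_iff (x y : Kp F v) :
    Valued.v (cMap i w v hw x) < Valued.v (cMap i w v hw y) ↔ Valued.v x < Valued.v y := by
  rw [← not_le, ← not_le, v_cMap_le_iff]

theorem v_cMap_eq_one {x : Kp F v} (hx : Valued.v x = (1 : Γ₀)) :
    Valued.v (cMap i w v hw x) = (1 : Γ₀) := by
  refine le_antisymm (v_cMap_le_one i hw hx.le) ?_
  have := (v_cMap_le_iff i hw 1 x).2 (by rw [map_one, hx])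
  simpa using this

/-- An element approximated by the field below comes from the completion below. -/
theorem mem_range_of_approx {x : Kp E w}
    (hx : ∀ γ : Γ₀, γ ≠ 0 → ∃ a : F, Valued.v (x - (i a : E)) ≤ γ) :
    ∃ y, cMap i w v hw y = x := by
  set j := cMap i w v hw
  set p := ((unif v : F) : Kp F v)
  have hp : Valued.v p < (1 : Γ₀) := by
    rw [HeightOneSpectrum.adicCompletion.valued_coe, unif,
      (HeightOneSpectrum.valuation_exists_uniformizer F v).choose_spec, ← exp_zero, exp_lt_exp]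
    norm_num
  have hjp : Valued.v (j p) < (1 : Γ₀) := v_cMap_lt_one i hw hp
  have hp0 : p ≠ 0 := unif_coe_ne_zero v
  choose a ha using fun n : ℕ => hx (Valued.v (j p) ^ n)
    (pow_ne_zero _ ((map_ne_zero _).2 ((map_ne_zero _).2 hp0)))
  have hd : ∀ n, Valued.v ((a (n + 1) : Kp F v) - (a n : Kp F v)) ≤ Valued.v p ^ n := fun n => by
    rw [← map_pow, ← v_cMap_le_iff i hw, map_sub, cMap_coe, cMap_coe, map_pow, map_pow,
      ← sub_sub_sub_cancel_left _ _ x]
    exact Valued.v.map_sub_le (ha n) ((ha (n + 1)).trans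
      (pow_le_pow_right_of_le_one' hjp.le n.le_succ))
  obtain ⟨l, hl⟩ := exists_limit (fun n => (a n : Kp F v)) hp hd
  refine ⟨l, (sub_eq_zero.1 (eq_zero_of_forall_le hjp le_rfl fun n => ?_)).symm⟩
  rw [mul_one, show x - j l = (x - ((i (a n) : E) : Kp E w)) - j (l - (a n : Kp F v)) by
    rw [map_sub, cMap_coe]; ring]
  refine Valued.v.map_sub_le (ha n) ?_
  rw [← map_pow, ← map_pow, v_cMap_le_iff i hw, map_pow]
  exact hl n

end compare

/-! ### Approximation separating the places above one place -/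

theorem placeBelow_natCast_mem (i : F →+* E) {u : HeightOneSpectrum (𝓞 E)}
    {v : HeightOneSpectrum (𝓞 F)} (hu : placeBelow i u = v) {n : ℕ} (hn : (n : 𝓞 F) ∈ v.asIdeal) :
    (n : 𝓞 E) ∈ u.asIdeal := by
  subst hu
  have : RingOfIntegers.mapRingHom i (n : 𝓞 F) ∈ u.asIdeal := hn
  rwa [map_natCast] at this

theorem exists_int_sep (i : F →+* E) {w : HeightOneSpectrum (𝓞 E)} {v : HeightOneSpectrum (𝓞 F)}
    (hw : placeBelow i w = v) {x : Kp E w} (hx : Valued.v x ≤ (1 : Γ₀)) {γ : Γ₀} (hγ : γ ≠ 0) :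
    ∃ y : 𝓞 E, Valued.v (x - ((y : E) : Kp E w)) ≤ γ ∧
      ∀ u, placeBelow i u = v → u ≠ w → u.valuation E (y : E) ≤ γ := by
  set q := Ideal.absNorm v.asIdeal
  have hq : (q : 𝓞 F) ∈ v.asIdeal := Ideal.absNorm_mem _
  have hq0 : 0 < q := Nat.pos_of_ne_zero fun h => v.ne_bot (Ideal.absNorm_eq_zero_iff.1 h)
  obtain ⟨k, hk⟩ := Red.exists_exp_le hγ
  have hsmall : ∀ u, placeBelow i u = v → Valued.v (((q ^ k : ℕ) : Af E) u) ≤ γ := fun u hu => by
    refine le_trans ?_ hk
    rw [Red.valued_natCast, HeightOneSpectrum.intValuation_le_pow_iff_mem, Nat.cast_pow]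
    exact Ideal.pow_mem_pow (placeBelow_natCast_mem i hu hq) k
  obtain ⟨y, hy⟩ := Red.exists_int_sub_le (adeleSingle w x) (fun u => by
    rcases eq_or_ne u w with rfl | h
    · rw [Aleph.adeleSingle_apply_self]; exact hx
    · rw [Aleph.adeleSingle_apply_ne _ _ h, map_zero]; exact zero_le_one) (pow_pos hq0 k)
  refine ⟨y, ?_, fun u hu huw => ?_⟩
  · have h := (hy w).trans (hsmall w hw)
    rwa [show (adeleSingle w x - algebraMap E (Af E) (y : E)) w =
      adeleSingle w x w - ((y : E) : Kp E w) from rfl, Aleph.adeleSingle_apply_self] at h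
  · have h := (hy u).trans (hsmall u hu)
    rwa [show (adeleSingle w x - algebraMap E (Af E) (y : E)) u =
      adeleSingle w x u - ((y : E) : Kp E u) from rfl, Aleph.adeleSingle_apply_ne _ _ huw, zero_sub,
      Valuation.map_neg, HeightOneSpectrum.adicCompletion.valued_coe] at h

/-! ### The generator -/

variable {i : F →+* E} {τ : E →+* E}

theorem placeBelow_comp_eq {G : Type*} [Field G] [NumberField G] (k : F →+* E) (l : E →+* G)
    {m : F →+* G} (e : ∀ x, l (k x) = m x) (u : HeightOneSpectrum (𝓞 G)) :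
    placeBelow k (placeBelow l u) = placeBelow m u :=
  HeightOneSpectrum.ext (Ideal.ext fun x => by
    show RingOfIntegers.mapRingHom l (RingOfIntegers.mapRingHom k x) ∈ u.asIdeal ↔
      RingOfIntegers.mapRingHom m x ∈ u.asIdeal
    rw [show RingOfIntegers.mapRingHom l (RingOfIntegers.mapRingHom k x) =
      RingOfIntegers.mapRingHom m x from RingOfIntegers.ext (e x)])

theorem v_cMap_endo (τ : E →+* E) {w u : HeightOneSpectrum (𝓞 E)} (h : placeBelow τ w = u)
    (x : Kp E u) : Valued.v (cMap τ w u h x) = Valued.v x := by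
  subst h
  rw [cMap_rfl]
  have hn := norm_complMap τ w x
  rw [FinitePlace.norm_def, FinitePlace.norm_def, NNReal.coe_inj] at hn
  have he : Ideal.absNorm (placeBelow τ w).asIdeal = Ideal.absNorm w.asIdeal := absNorm_placeBelow τ w
  exact (WithZeroMulInt.toNNReal_strictMono (HeightOneSpectrum.one_lt_absNorm_nnreal w)).injective
    (hn.trans (by simp only [he]))

variable (h : Ell.CycGen i τ 3)

include h

theorem cyc_cube (x : E) : τ (τ (τ x)) = x := h.pow x

theorem placeBelow_i_tau (w : HeightOneSpectrum (𝓞 E)) :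
    placeBelow i (placeBelow τ w) = placeBelow i w :=
  placeBelow_comp_eq i τ h.fixed w

theorem placeBelow_tau_cube (w : HeightOneSpectrum (𝓞 E)) :
    placeBelow τ (placeBelow τ (placeBelow τ w)) = w := by
  refine HeightOneSpectrum.ext (Ideal.ext fun x => ?_)
  show RingOfIntegers.mapRingHom τ (RingOfIntegers.mapRingHom τ (RingOfIntegers.mapRingHom τ x)) ∈
      w.asIdeal ↔ x ∈ w.asIdeal
  rw [show RingOfIntegers.mapRingHom τ (RingOfIntegers.mapRingHom τ (RingOfIntegers.mapRingHom τ x)) = x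
    from RingOfIntegers.ext (h.pow (x : E))]

theorem placeBelow_tau_ne {w : HeightOneSpectrum (𝓞 E)} (hw : placeBelow τ w ≠ w) :
    placeBelow τ (placeBelow τ w) ≠ w ∧
      placeBelow τ (placeBelow τ w) ≠ placeBelow τ w := by
  refine ⟨fun e => hw ?_, fun e => hw ?_⟩
  · conv_rhs => rw [← placeBelow_tau_cube h w, e]
  · exact (placePerm τ).injective e

theorem exists_trace_eq (y : E) : ∃ a : F, i a = y + τ y + τ (τ y) :=
  h.fix _ (by rw [map_add, map_add, cyc_cube h y]; ring)

/-- **The places above a place form one orbit.** -/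
theorem placeBelow_orbit {w u : HeightOneSpectrum (𝓞 E)} (e : placeBelow i u = placeBelow i w) :
    u = w ∨ u = placeBelow τ w ∨ u = placeBelow τ (placeBelow τ w) := by
  by_contra hne
  push Not at hne
  obtain ⟨z, hz, hz'⟩ := exists_int_sep i e (x := 1) (by simp) (γ := exp (-1 : ℤ)) exp_ne_zero
  have hlt : exp (-1 : ℤ) < (1 : Γ₀) := by rw [← exp_zero, exp_lt_exp]; norm_num
  set t := RingOfIntegers.mapRingHom τ with ht
  set y := 1 - z with hy
  set n := y * t y * t (t y) with hn
  obtain ⟨a, ha⟩ := h.fix (n : E) (by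
    show τ ((y : E) * τ y * τ (τ y)) = (y : E) * τ y * τ (τ y)
    rw [map_mul, map_mul, cyc_cube h (y : E)]; ring)
  -- `n` vanishes at `u`
  have hnu : n ∈ u.asIdeal := by
    refine Ideal.mul_mem_right _ _ (Ideal.mul_mem_right _ _ ?_)
    rw [← u.intValuation_lt_one_iff_mem, ← HeightOneSpectrum.valuation_of_algebraMap (K := E),
      ← HeightOneSpectrum.adicCompletion.valued_coe]
    refine lt_of_le_of_lt (le_of_eq_of_le (congrArg _ ?_) hz) hlt
    rw [hy]
    exact (map_sub (algebraMap E (Kp E u)) 1 (z : E)).trans (by simp; rfl)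
  -- so at `w`
  have haint : IsIntegral ℤ a := by
    rw [← isIntegral_algHom_iff (i.toIntAlgHom) i.injective]
    exact (show i a = (n : E) from ha) ▸ RingOfIntegers.isIntegral_coe n
  have hni : RingOfIntegers.mapRingHom i ⟨a, haint⟩ = n := RingOfIntegers.ext ha
  have hnw : n ∈ w.asIdeal := by
    have h1 : (⟨a, haint⟩ : 𝓞 F) ∈ (placeBelow i u).asIdeal := by
      show RingOfIntegers.mapRingHom i ⟨a, haint⟩ ∈ u.asIdeal
      rw [hni]; exact hnu
    rw [e] at h1
    have h2 : RingOfIntegers.mapRingHom i _ ∈ w.asIdeal := h1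
    rwa [hni] at h2
  have hmem : ∀ s, placeBelow i s = placeBelow i w → s ≠ u → y ∉ s.asIdeal := fun s hs hsu hys => by
    have h1 := hz' s hs hsu
    rw [HeightOneSpectrum.valuation_of_algebraMap] at h1
    have h2 : z ∈ s.asIdeal := (s.intValuation_lt_one_iff_mem z).1 (h1.trans_lt hlt)
    have h3 := Ideal.add_mem _ hys h2
    rw [hy, sub_add_cancel] at h3
    exact s.isPrime.ne_top ((Ideal.eq_top_iff_one _).2 h3)
  rcases w.isPrime.mem_or_mem hnw with h12 | h3
  · rcases w.isPrime.mem_or_mem h12 with h1 | h2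
    · exact hmem w rfl (Ne.symm hne.1) h1
    · exact hmem _ (placeBelow_i_tau h w) (Ne.symm hne.2.1) h2
  · exact hmem _ ((placeBelow_i_tau h _).trans (placeBelow_i_tau h w)) (Ne.symm hne.2.2) h3

/-- **The pair of completions at a fixed place.** -/
theorem pair_of_fixed {w : HeightOneSpectrum (𝓞 E)} (hτ : placeBelow τ w = w)
    {v : HeightOneSpectrum (𝓞 F)} (hw : placeBelow i w = v) :
    Pair (cMap i w v hw) (cMap τ w w hτ) := by
  have hvt : ∀ x, Valued.v (cMap τ w w hτ x) = Valued.v x := fun x => v_cMap_endo τ hτ x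
  refine ⟨hvt, fun x y => v_cMap_le_iff i hw x y, fun x => ?_, fun x => ?_, fun x hx => ?_⟩
  · exact congrFun (hom_ext_dense ((continuous_cMap τ hτ).comp (continuous_cMap i hw))
      (continuous_cMap i hw) fun a => by simp only [Function.comp_apply, cMap_coe, h.fixed]) x
  · exact congrFun (hom_ext_dense ((continuous_cMap τ hτ).comp ((continuous_cMap τ hτ).comp
      (continuous_cMap τ hτ))) continuous_id fun a => by
        simp only [Function.comp_apply, cMap_coe, id_eq]; rw [cyc_cube h a]) x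
  · -- scale to an integral element
    set p := ((unif v : F) : Kp F v)
    have hp : Valued.v p < (1 : Γ₀) := by
      rw [HeightOneSpectrum.adicCompletion.valued_coe, unif,
        (HeightOneSpectrum.valuation_exists_uniformizer F v).choose_spec, ← exp_zero, exp_lt_exp]
      norm_num
    have hjp := v_cMap_lt_one i hw hp
    have hp0 : cMap i w v hw p ≠ 0 := (map_ne_zero _).2 (unif_coe_ne_zero v)
    obtain ⟨k, hk⟩ : ∃ k : ℕ, Valued.v (x * cMap i w v hw p ^ k) ≤ (1 : Γ₀) := by
      rcases eq_or_ne x 0 with rfl | hx0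
      · exact ⟨0, by simp⟩
      have hvx : Valued.v x ≠ (0 : Γ₀) := (map_ne_zero _).2 hx0
      obtain ⟨k, hk⟩ := exists_pow_lt' hjp (inv_ne_zero hvx)
      refine ⟨k, ?_⟩
      rw [map_mul, map_pow]
      calc Valued.v x * Valued.v (cMap i w v hw p) ^ k ≤ Valued.v x * (Valued.v x)⁻¹ :=
            mul_le_mul' le_rfl hk.le
        _ = 1 := mul_inv_cancel₀ hvx
    set x' := x * cMap i w v hw p ^ k
    have hfix : cMap τ w w hτ x' = x' := by
      rw [map_mul, map_pow, hx]
      congr 2
      rw [cMap_coe i hw, cMap_coe τ hτ, h.fixed]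
    obtain ⟨y, hy⟩ : ∃ y, cMap i w v hw y = x' := by
      refine mem_range_of_approx i hw fun γ hγ => ?_
      have h30 : (3 : E) ≠ 0 := by norm_num
      set t : Γ₀ := w.valuation E (3 : E)
      have ht : t ≠ 0 := (map_ne_zero _).2 h30
      obtain ⟨z, hz, -⟩ := exists_int_sep i hw hk (mul_ne_zero hγ ht)
      obtain ⟨b, hb⟩ := exists_trace_eq h (z : E)
      refine ⟨b / 3, ?_⟩
      set zc : Kp E w := ((z : E) : Kp E w)
      have e3 : ((i (b / 3) : E) : Kp E w) = (zc + cMap τ w w hτ zc +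
          cMap τ w w hτ (cMap τ w w hτ zc)) / ((3 : E) : Kp E w) := by
        rw [cMap_coe, cMap_coe, map_div₀, map_ofNat, hb, coe_div', coe_add', coe_add']
      have h30' : ((3 : E) : Kp E w) ≠ 0 := (map_ne_zero (algebraMap E (Kp E w))).2 h30
      have e4 : x' - ((i (b / 3) : E) : Kp E w) = ((x' - zc) + cMap τ w w hτ (x' - zc) +
          cMap τ w w hτ (cMap τ w w hτ (x' - zc))) / ((3 : E) : Kp E w) := by
        rw [e3]
        simp only [map_sub, hfix]
        rw [eq_div_iff h30', sub_mul, div_mul_cancel₀ _ h30',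
          show ((3 : E) : Kp E w) = 3 from map_ofNat (algebraMap E (Kp E w)) 3]
        ring
      rw [e4, map_div₀, div_le_iff₀ (zero_lt_iff.2 ((map_ne_zero _).2 h30')),
        HeightOneSpectrum.adicCompletion.valued_coe]
      refine Valued.v.map_add_le (Valued.v.map_add_le hz ?_) ?_
      · rw [hvt]; exact hz
      · rw [hvt, hvt]; exact hz
    refine ⟨y / p ^ k, ?_⟩
    rw [map_div₀, map_pow, hy, mul_div_cancel_right₀ _ (pow_ne_zero _ hp0)]

/-- At a moved place nothing grows. -/
theorem cMap_surjective {w : HeightOneSpectrum (𝓞 E)} (hτ : placeBelow τ w ≠ w)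
    {v : HeightOneSpectrum (𝓞 F)} (hw : placeBelow i w = v) :
    Function.Surjective (cMap i w v hw) := by
  intro x
  set p := ((unif v : F) : Kp F v)
  have hp : Valued.v p < (1 : Γ₀) := by
    rw [HeightOneSpectrum.adicCompletion.valued_coe, unif,
      (HeightOneSpectrum.valuation_exists_uniformizer F v).choose_spec, ← exp_zero, exp_lt_exp]
    norm_num
  have hjp := v_cMap_lt_one i hw hp
  have hp0 : cMap i w v hw p ≠ 0 := (map_ne_zero _).2 (unif_coe_ne_zero v)
  obtain ⟨k, hk⟩ : ∃ k : ℕ, Valued.v (x * cMap i w v hw p ^ k) ≤ (1 : Γ₀) := by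
    rcases eq_or_ne x 0 with rfl | hx0
    · exact ⟨0, by simp⟩
    have hvx : Valued.v x ≠ (0 : Γ₀) := (map_ne_zero _).2 hx0
    obtain ⟨k, hk⟩ := exists_pow_lt' hjp (inv_ne_zero hvx)
    refine ⟨k, ?_⟩
    rw [map_mul, map_pow]
    calc Valued.v x * Valued.v (cMap i w v hw p) ^ k ≤ Valued.v x * (Valued.v x)⁻¹ :=
          mul_le_mul' le_rfl hk.le
      _ = 1 := mul_inv_cancel₀ hvx
  obtain ⟨y, hy⟩ : ∃ y, cMap i w v hw y = x * cMap i w v hw p ^ k := by
    refine mem_range_of_approx i hw fun γ hγ => ?_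
    obtain ⟨z, hz, hz'⟩ := exists_int_sep i hw hk hγ
    obtain ⟨b, hb⟩ := exists_trace_eq h (z : E)
    refine ⟨b, ?_⟩
    obtain ⟨n1, n2⟩ := placeBelow_tau_ne h hτ
    have e1 : ((i b : E) : Kp E w) = ((z : E) : Kp E w) + ((τ z : E) : Kp E w) +
        ((τ (τ z) : E) : Kp E w) := by
      rw [hb, coe_add', coe_add']
    rw [e1, sub_add_eq_sub_sub, sub_add_eq_sub_sub]
    refine Valued.v.map_sub_le (Valued.v.map_sub_le hz ?_) ?_
    · rw [HeightOneSpectrum.adicCompletion.valued_coe, valuation_placeBelow]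
      exact hz' _ ((placeBelow_i_tau h w).trans hw) hτ
    · rw [HeightOneSpectrum.adicCompletion.valued_coe, valuation_placeBelow, valuation_placeBelow]
      exact hz' _ ((placeBelow_i_tau h _).trans ((placeBelow_i_tau h w).trans hw)) n1
  refine ⟨y / p ^ k, ?_⟩
  rw [map_div₀, map_pow, hy, mul_div_cancel_right₀ _ (pow_ne_zero _ hp0)]

/-- At a moved place the valuations agree. -/
theorem v_cMap_of_moved {w : HeightOneSpectrum (𝓞 E)} (hτ : placeBelow τ w ≠ w)
    {v : HeightOneSpectrum (𝓞 F)} (hw : placeBelow i w = v) (x : Kp F v) :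
    Valued.v (cMap i w v hw x) = Valued.v x := by
  set j := cMap i w v hw
  set p := ((unif v : F) : Kp F v)
  have hvp : Valued.v p = exp (-1 : ℤ) := by
    rw [HeightOneSpectrum.adicCompletion.valued_coe, unif,
      (HeightOneSpectrum.valuation_exists_uniformizer F v).choose_spec]
  have hlt : Valued.v p < (1 : Γ₀) := by rw [hvp, ← exp_zero, exp_lt_exp]; norm_num
  obtain ⟨z, hz⟩ := cMap_surjective h hτ hw (Aleph.piV w)
  have hjp : Valued.v (j p) = exp (-1 : ℤ) := by
    refine le_antisymm ?_ ?_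
    · exact le_exp_neg_one (v_cMap_lt_one i hw hlt)
    · rw [← Aleph.valued_piV w, ← hz, v_cMap_le_iff i hw, hvp]
      refine le_exp_neg_one ?_
      simpa using (v_cMap_lt_iff i hw z 1).1 (by
        rw [hz, Aleph.valued_piV, map_one, map_one, ← exp_zero, exp_lt_exp]
        norm_num)
  rcases eq_or_ne x 0 with rfl | hx
  · simp
  have hv : Valued.v x ≠ (0 : Γ₀) := (map_ne_zero _).2 hx
  set n := log (Valued.v x)
  have hu : Valued.v (x * p ^ n) = (1 : Γ₀) := by
    rw [map_mul, map_zpow₀, hvp, ← exp_zsmul, ← exp_log hv, ← exp_add, ← exp_zero]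
    congr 1
    simp [n]
  have := v_cMap_eq_one i hw hu
  rw [map_mul, map_mul, map_zpow₀, map_zpow₀, hjp, ← hvp, ← map_zpow₀] at this
  rw [map_mul] at hu
  exact mul_right_cancel₀ ((map_ne_zero _).2 (zpow_ne_zero n (unif_coe_ne_zero v))) (this.trans hu.symm)

end FLTAgent.LT.Match
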