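import Mathlib.Topology.Algebra.Valued.ValuedField
import Mathlib.LinearAlgebra.Matrix.GeneralLinearGroup.Defs
import Mathlib.Algebra.GroupWithZero.Range
import Mathlib.Tactic

/-!
Complete valued fields: congruence subgroups of `GL₂`, roots by contraction.
-/

set_option autoImplicit false
set_option linter.unusedSectionVars false

noncomputable section

namespace FLTAgent.LT.Match

open WithZero

local notation "Γ₀" => WithZero (Multiplicative ℤ)

section Valued

variable {K : Type*} [Field K] [Valued K Γ₀]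

lemma le_exp_neg_one {q : Γ₀} (hq : q < 1) : q ≤ exp (-1 : ℤ) := by
  rcases eq_or_ne q 0 with rfl | h
  · exact zero_le
  · rw [← exp_log h, ← exp_zero, exp_lt_exp] at hq
    rw [← exp_log h, exp_le_exp]
    omega

lemma exists_pow_lt' {q e : Γ₀} (hq : q < 1) (he : e ≠ 0) : ∃ n : ℕ, q ^ n < e := by
  refine ⟨(-log e + 1).toNat, ?_⟩
  refine (pow_le_pow_left₀ zero_le (le_exp_neg_one hq) _).trans_lt ?_
  rw [← exp_log he, ← exp_nsmul, exp_lt_exp, log_exp, nsmul_eq_mul]
  omega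

lemma eq_zero_of_forall_le {x : K} {q r : Γ₀} (hq : q < 1) (hr : r ≤ 1)
    (h : ∀ n : ℕ, Valued.v x ≤ q ^ n * r) : x = 0 := by
  by_contra hx
  have hx' : (Valued.v x : Γ₀) ≠ 0 := (map_ne_zero _).2 hx
  obtain ⟨n, hn⟩ := exists_pow_lt' hq hx'
  exact absurd (h n) (not_le.2 ((mul_le_of_le_one_right' hr).trans_lt hn))

variable [CompleteSpace K]

/-- A contraction of a closed ball has a fixed point. -/
theorem exists_fixed_point (f : K → K) (r₀ : K) (hr : Valued.v r₀ ≤ (1 : Γ₀)) {q : Γ₀} (hq : q < 1)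
    (hmap : ∀ x, Valued.v x ≤ Valued.v r₀ → Valued.v (f x) ≤ Valued.v r₀)
    (hdiff : ∀ x y, Valued.v x ≤ Valued.v r₀ → Valued.v y ≤ Valued.v r₀ →
      Valued.v (f x - f y) ≤ q * Valued.v (x - y)) :
    ∃ x, Valued.v x ≤ Valued.v r₀ ∧ f x = x := by
  set a : ℕ → K := fun n => f^[n] 0
  have ha : ∀ n, Valued.v (a n) ≤ Valued.v r₀ := fun n => by
    induction n with
    | zero => simp [a]
    | succ n ih => simpa [a, Function.iterate_succ_apply'] using hmap _ ih
  have hstep : ∀ n, Valued.v (a (n + 1) - a n) ≤ q ^ n * Valued.v r₀ := fun n => by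
    induction n with
    | zero => simpa [a] using hmap 0 (by simp)
    | succ n ih =>
      have h := hdiff (a (n + 1)) (a n) (ha _) (ha _)
      simp only [a, Function.iterate_succ_apply'] at h ih ⊢
      refine h.trans ((mul_le_mul' le_rfl ih).trans (le_of_eq ?_))
      rw [pow_succ]
      ac_rfl
  have htail : ∀ n m, n ≤ m → Valued.v (a m - a n) ≤ q ^ n * Valued.v r₀ := fun n m hm => by
    induction m, hm using Nat.le_induction with
    | base => simp
    | succ m hm ih =>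
      rw [← sub_add_sub_cancel (a (m + 1)) (a m) (a n)]
      exact Valued.v.map_add_le ((hstep m).trans
        (mul_le_mul' (pow_le_pow_right_of_le_one' hq.le hm) le_rfl)) ih
  have hC : CauchySeq a := by
    refine Valued.cauchy_iff.2 ⟨Filter.map_neBot, fun γ => ?_⟩
    obtain ⟨N, hN⟩ := exists_pow_lt' hq
      (show MonoidWithZeroHom.ValueGroup₀.embedding γ.1 ≠ 0 by simp)
    refine ⟨a '' Set.Ici N, Filter.image_mem_map (Filter.Ici_mem_atTop N), ?_⟩
    rintro _ ⟨m, hm, rfl⟩ _ ⟨n, hn, rfl⟩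
    rw [Valuation.restrict_lt_iff_lt_embedding]
    refine lt_of_le_of_lt ?_ ((mul_le_of_le_one_right' hr).trans_lt hN)
    rw [← sub_sub_sub_cancel_right (a n) (a m) (a N)]
    exact Valued.v.map_sub_le (htail N n hn) (htail N m hm)
  obtain ⟨x, hx⟩ := cauchySeq_tendsto_of_complete hC
  have hnear : ∀ e : K, e ≠ 0 → ∀ᶠ n in Filter.atTop, Valued.v (a n - x) < Valued.v e :=
    fun e he => by
    have hmem : {y : K | Valued.v (y - x) < Valued.v e} ∈ nhds x := by
      refine Valued.mem_nhds.2 ⟨Units.mk0 (Valued.v.restrict e) (by simp [he]), fun y hy => ?_⟩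
      exact Valued.v.restrict_lt_iff.1 hy
    exact hx.eventually hmem
  have hxr : Valued.v x ≤ Valued.v r₀ := by
    rcases eq_or_ne r₀ 0 with rfl | h0
    · have : ∀ n, a n = 0 := fun n => by simpa using ha n
      have hc : Filter.Tendsto a Filter.atTop (nhds 0) := by
        simpa [funext this] using tendsto_const_nhds
      haveI : T2Space K := T2Space.of_injective_continuous (f := id) Function.injective_id continuous_id
      simp [tendsto_nhds_unique hx hc]
    · obtain ⟨n, hn⟩ := (hnear r₀ h0).exists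
      rw [show x = a n - (a n - x) by ring]
      exact Valued.v.map_sub_le (ha n) hn.le
  refine ⟨x, hxr, ?_⟩
  by_contra hne
  obtain ⟨n, hn, hn'⟩ := ((hnear _ (sub_ne_zero.2 hne)).and
    ((Filter.tendsto_add_atTop_nat 1).eventually (hnear _ (sub_ne_zero.2 hne)))).exists
  have h := hdiff x (a n) hxr (ha n)
  rw [Valuation.map_sub_swap _ x] at h
  have h1 : Valued.v (f x - f (a n)) < Valued.v (f x - x) :=
    h.trans_lt (lt_of_le_of_lt (mul_le_of_le_one_left' hq.le) hn)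
  have h2 : Valued.v (f (a n) - x) < Valued.v (f x - x) := by
    simpa [a, Function.iterate_succ_apply'] using hn'
  have := Valued.v.map_add_lt h1 h2
  rw [sub_add_sub_cancel] at this
  exact lt_irrefl _ this

/-- Small roots of `x = c + a x² + b x³` with integral `a`, `b`. -/
theorem exists_small_root {c : K} (hc : Valued.v c < (1 : Γ₀)) {a b : K}
    (ha : Valued.v a ≤ (1 : Γ₀)) (hb : Valued.v b ≤ (1 : Γ₀)) :
    ∃ x, Valued.v x ≤ Valued.v c ∧ c + a * x ^ 2 + b * x ^ 3 = x := by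
  refine exists_fixed_point _ c hc.le hc (fun x hx => ?_) fun x y hx hy => ?_
  · have h2 : Valued.v (x ^ 2) ≤ Valued.v c := by
      rw [pow_two, map_mul]
      exact (mul_le_mul' (hx.trans hc.le) hx).trans_eq (one_mul _)
    have h3 : Valued.v (x ^ 3) ≤ Valued.v c := by
      rw [pow_succ, map_mul]
      exact (mul_le_mul' (h2.trans hc.le) hx).trans_eq (one_mul _)
    refine Valued.v.map_add_le (Valued.v.map_add_le le_rfl ?_) ?_
    · rw [map_mul]; exact (mul_le_mul' ha h2).trans_eq (one_mul _)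
    · rw [map_mul]; exact (mul_le_mul' hb h3).trans_eq (one_mul _)
  · have e : c + a * x ^ 2 + b * x ^ 3 - (c + a * y ^ 2 + b * y ^ 3) =
        (x - y) * (a * (x + y) + b * (x * x + x * y + y * y)) := by ring
    rw [e, map_mul, mul_comm (Valued.v c)]
    refine mul_le_mul' le_rfl (Valued.v.map_add_le ?_ ?_) <;> rw [map_mul]
    · exact (mul_le_mul' ha (Valued.v.map_add_le hx hy)).trans_eq (one_mul _)
    · refine (mul_le_mul' hb (Valued.v.map_add_le (Valued.v.map_add_le ?_ ?_) ?_)).trans_eq (one_mul _) <;>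
        rw [map_mul]
      · exact (mul_le_mul' (hx.trans hc.le) hx).trans_eq (one_mul _)
      · exact (mul_le_mul' (hx.trans hc.le) hy).trans_eq (one_mul _)
      · exact (mul_le_mul' (hy.trans hc.le) hy).trans_eq (one_mul _)

end Valued

section Groups

variable {K : Type*} [Field K] [Valued K Γ₀]

/-- All entries are at most `e`. -/
def Ent (e : Γ₀) (A : Matrix (Fin 2) (Fin 2) K) : Prop := ∀ i j, Valued.v (A i j) ≤ e

theorem Ent.add {e : Γ₀} {A B : Matrix (Fin 2) (Fin 2) K} (hA : Ent e A) (hB : Ent e B) :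
    Ent e (A + B) := fun i j => Valued.v.map_add_le (hA i j) (hB i j)

theorem Ent.mono {e d : Γ₀} {A : Matrix (Fin 2) (Fin 2) K} (hA : Ent e A) (h : e ≤ d) : Ent d A :=
  fun i j => (hA i j).trans h

theorem Ent.mul {e d : Γ₀} {A B : Matrix (Fin 2) (Fin 2) K} (hA : Ent e A) (hB : Ent d B) :
    Ent (e * d) (A * B) := fun i j => by
  rw [Matrix.mul_apply]
  refine Valued.v.map_sum_le fun l _ => ?_
  rw [map_mul]
  exact mul_le_mul' (hA i l) (hB l j)

theorem ent_one : Ent (1 : Γ₀) (1 : Matrix (Fin 2) (Fin 2) K) := fun i j => by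
  fin_cases i <;> fin_cases j <;> simp

/-- Matrices congruent to one to the precision `e` (at most one), with their inverses. -/
def lvl (e : Γ₀) : Subgroup (GL (Fin 2) K) where
  carrier := {k | Ent (min e 1) ((k : Matrix (Fin 2) (Fin 2) K) - 1) ∧
    Ent (min e 1) (((k⁻¹ : GL (Fin 2) K) : Matrix (Fin 2) (Fin 2) K) - 1)}
  one_mem' := by simp [Ent]
  mul_mem' := by
    have key : ∀ A B : Matrix (Fin 2) (Fin 2) K, Ent (min e 1) (A - 1) → Ent (min e 1) (B - 1) →
        Ent (min e 1) (A * B - 1) := fun A B hA hB => by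
      rw [show A * B - 1 = (A - 1) * (B - 1) + (A - 1) + (B - 1) by noncomm_ring]
      exact (((hA.mul hB).mono (mul_le_of_le_one_right' (min_le_right _ _))).add hA).add hB
    rintro k l ⟨hk, hk'⟩ ⟨hl, hl'⟩
    exact ⟨by rw [Units.val_mul]; exact key _ _ hk hl,
      by rw [mul_inv_rev, Units.val_mul]; exact key _ _ hl' hk'⟩
  inv_mem' := by rintro k ⟨h, h'⟩; exact ⟨h', by rwa [inv_inv]⟩

theorem mem_lvl {e : Γ₀} (he : e ≤ 1) {k : GL (Fin 2) K} :
    k ∈ lvl e ↔ Ent e ((k : Matrix (Fin 2) (Fin 2) K) - 1) ∧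
      Ent e (((k⁻¹ : GL (Fin 2) K) : Matrix (Fin 2) (Fin 2) K) - 1) := by
  show (_ ∧ _) ↔ _
  rw [min_eq_left he]

theorem lvl_mono {e d : Γ₀} (h : e ≤ d) : lvl (K := K) e ≤ lvl d := fun _ hk =>
  ⟨hk.1.mono (min_le_min_right _ h), hk.2.mono (min_le_min_right _ h)⟩

theorem ent_of_mem_lvl {e : Γ₀} {k : GL (Fin 2) K} (hk : k ∈ lvl e) :
    Ent 1 (k : Matrix (Fin 2) (Fin 2) K) := by
  simpa using (hk.1.mono (min_le_right _ _)).add ent_one

theorem v_det_le_one {A : Matrix (Fin 2) (Fin 2) K} (hA : Ent 1 A) : Valued.v A.det ≤ (1 : Γ₀) := by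
  rw [Matrix.det_fin_two]
  exact Valued.v.map_sub_le (by rw [map_mul]; exact mul_le_one' (hA 0 0) (hA 1 1))
    (by rw [map_mul]; exact mul_le_one' (hA 0 1) (hA 1 0))

theorem v_det_of_mem_lvl {e : Γ₀} {k : GL (Fin 2) K} (hk : k ∈ lvl e) :
    Valued.v (k : Matrix (Fin 2) (Fin 2) K).det = (1 : Γ₀) := by
  refine le_antisymm (v_det_le_one (ent_of_mem_lvl hk)) ?_
  have h := v_det_le_one (ent_of_mem_lvl (inv_mem hk))
  have hmul : Valued.v (k : Matrix (Fin 2) (Fin 2) K).det *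
      Valued.v ((k⁻¹ : GL (Fin 2) K) : Matrix (Fin 2) (Fin 2) K).det = (1 : Γ₀) := by
    rw [← map_mul, ← Matrix.det_mul, ← Units.val_mul, mul_inv_cancel, Units.val_one, Matrix.det_one,
      map_one]
  calc (1 : Γ₀) = _ := hmul.symm
    _ ≤ Valued.v (k : Matrix (Fin 2) (Fin 2) K).det * 1 := mul_le_mul' le_rfl h
    _ = _ := mul_one _

theorem mem_lvl_one {k : GL (Fin 2) K} :
    k ∈ lvl 1 ↔ Ent 1 (k : Matrix (Fin 2) (Fin 2) K) ∧
      Valued.v (k : Matrix (Fin 2) (Fin 2) K).det = (1 : Γ₀) := by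
  refine ⟨fun h => ⟨ent_of_mem_lvl h, v_det_of_mem_lvl h⟩, fun ⟨hk, hd⟩ => (mem_lvl le_rfl).2 ?_⟩
  have hsub : ∀ A : Matrix (Fin 2) (Fin 2) K, Ent 1 A → Ent 1 (A - 1) := fun A hA i j =>
    Valued.v.map_sub_le (hA i j) (ent_one i j)
  refine ⟨hsub _ hk, hsub _ fun i j => ?_⟩
  rw [Matrix.coe_units_inv, Matrix.inv_def, Matrix.smul_apply, smul_eq_mul, map_mul,
    Ring.inverse_eq_inv', map_inv₀, hd, inv_one, one_mul, Matrix.adjugate_fin_two]
  fin_cases i <;> fin_cases j <;> simp [hk 0 0, hk 0 1, hk 1 0, hk 1 1]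

/-- A matrix congruent to one lies in the congruence subgroup. -/
theorem mem_lvl_of_ent {e : Γ₀} (he : e < 1) {k : GL (Fin 2) K}
    (hk : Ent e ((k : Matrix (Fin 2) (Fin 2) K) - 1)) : k ∈ lvl e := by
  have h1 : Ent 1 (k : Matrix (Fin 2) (Fin 2) K) := by simpa using (hk.mono he.le).add ent_one
  have hd : Valued.v (k : Matrix (Fin 2) (Fin 2) K).det = (1 : Γ₀) := by
    have : Valued.v ((k : Matrix (Fin 2) (Fin 2) K).det - 1) < (1 : Γ₀) := by
      rw [Matrix.det_fin_two, show ∀ a b c d : K, a * d - b * c - 1 =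
          (a - 1) * d + (d - 1) - b * c from fun a b c d => by ring]
      refine lt_of_le_of_lt (Valued.v.map_sub_le (Valued.v.map_add_le ?_ ?_) ?_) he
      · rw [map_mul]; exact (mul_le_mul' (by simpa using hk 0 0) (h1 1 1)).trans_eq (mul_one _)
      · simpa using hk 1 1
      · rw [map_mul]; exact (mul_le_mul' (by simpa using hk 0 1) (h1 1 0)).trans_eq (mul_one _)
    have h2 := Valued.v.map_eq_of_sub_lt (x := (1 : K)) (y := (k : Matrix (Fin 2) (Fin 2) K).det)
      (by simpa using this)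
    simpa using h2
  refine (mem_lvl he.le).2 ⟨hk, ?_⟩
  have hinv : Ent 1 ((k⁻¹ : GL (Fin 2) K) : Matrix (Fin 2) (Fin 2) K) :=
    ent_of_mem_lvl (inv_mem (mem_lvl_one.2 ⟨h1, hd⟩))
  have e1 : ((k⁻¹ : GL (Fin 2) K) : Matrix (Fin 2) (Fin 2) K) - 1 =
      -(((k⁻¹ : GL (Fin 2) K) : Matrix (Fin 2) (Fin 2) K) * ((k : Matrix (Fin 2) (Fin 2) K) - 1)) := by
    rw [mul_sub, mul_one, ← Units.val_mul, inv_mul_cancel, Units.val_one, neg_sub]
  intro i j
  rw [e1, Matrix.neg_apply, Valuation.map_neg]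
  exact (hinv.mul hk).mono (one_mul e).le i j

/-- The congruence subgroups are normal in the maximal compact one. -/
theorem conj_mem_lvl {e : Γ₀} {h k : GL (Fin 2) K} (hh : h ∈ lvl 1) (hk : k ∈ lvl e) :
    h * k * h⁻¹ ∈ lvl e := by
  have key : ∀ B : GL (Fin 2) K, Ent (min e 1) ((B : Matrix (Fin 2) (Fin 2) K) - 1) →
      Ent (min e 1) (((h * B * h⁻¹ : GL (Fin 2) K) : Matrix (Fin 2) (Fin 2) K) - 1) := fun B hB => by
    have e1 : ((h * B * h⁻¹ : GL (Fin 2) K) : Matrix (Fin 2) (Fin 2) K) - 1 =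
        (h : Matrix (Fin 2) (Fin 2) K) * ((B : Matrix (Fin 2) (Fin 2) K) - 1) *
          ((h⁻¹ : GL (Fin 2) K) : Matrix (Fin 2) (Fin 2) K) := by
      rw [mul_sub, sub_mul, mul_one, ← Units.val_mul, ← Units.val_mul, ← Units.val_mul,
        mul_inv_cancel, Units.val_one]
    rw [e1]
    simpa using ((ent_of_mem_lvl hh).mul hB).mul (ent_of_mem_lvl (inv_mem hh))
  refine ⟨key k hk.1, ?_⟩
  rw [show (h * k * h⁻¹)⁻¹ = h * k⁻¹ * h⁻¹ by group]
  exact key _ hk.2

/-- Scalar matrices. -/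
def scal (c : Kˣ) : GL (Fin 2) K := Matrix.GeneralLinearGroup.scalar (Fin 2) c

theorem scal_mul_comm (c : Kˣ) (g : GL (Fin 2) K) : scal c * g = g * scal c :=
  Units.ext (Matrix.scalar_commute (c : K) (fun r => Commute.all _ r) _).eq

/-- A congruence subgroup times the centre. -/
def lvlZ (e : Γ₀) : Subgroup (GL (Fin 2) K) where
  carrier := {g | ∃ k ∈ lvl e, ∃ c : Kˣ, g = k * scal c}
  one_mem' := ⟨1, one_mem _, 1, by simp [scal]⟩
  mul_mem' := by
    rintro _ _ ⟨k, hk, c, rfl⟩ ⟨l, hl, d, rfl⟩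
    refine ⟨k * l, mul_mem hk hl, c * d, ?_⟩
    rw [show scal (c * d) = scal c * scal d from map_mul _ c d, mul_assoc k, ← mul_assoc (scal c),
      scal_mul_comm c l]
    simp only [mul_assoc]
  inv_mem' := by
    rintro _ ⟨k, hk, c, rfl⟩
    refine ⟨k⁻¹, inv_mem hk, c⁻¹, ?_⟩
    rw [mul_inv_rev, ← scal_mul_comm, show (scal c)⁻¹ = scal c⁻¹ from (map_inv _ c).symm]

theorem lvl_le_lvlZ (e : Γ₀) : lvl (K := K) e ≤ lvlZ e := fun k hk => ⟨k, hk, 1, by simp [scal]⟩

theorem scal_mem_lvlZ (e : Γ₀) (c : Kˣ) : scal c ∈ lvlZ e := ⟨1, one_mem _, c, (one_mul _).symm⟩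

theorem lvlZ_mono {e d : Γ₀} (h : e ≤ d) : lvlZ (K := K) e ≤ lvlZ d := by
  rintro _ ⟨k, hk, c, rfl⟩
  exact ⟨k, lvl_mono h hk, c, rfl⟩

end Groups

end FLTAgent.LT.Match
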