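import Fermat.Agent.LT.TF.Match.Pair

/-!
Local matching at a place with one place above it, for contracting classes.
-/

set_option autoImplicit false
set_option linter.unusedSectionVars false

noncomputable section

namespace FLTAgent.LT.Match

open WithZero

local notation "Γ₀" => WithZero (Multiplicative ℤ)

variable {A B : Type*} [Field A] [Valued A Γ₀] [CompleteSpace A] [Field B] [Valued B Γ₀]
  [CompleteSpace B]

/-- The set of the twisted classes with contracting norm. -/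
def Omega (τ : B →+* B) (e : Γ₀) (ϖ : Bˣ) : Set (GL (Fin 2) B) := {s | N3 τ s ∈ Dset e (ϖ ^ 3)}

/-- The test at `B`. -/
def omegaFn (τ : B →+* B) (e : Γ₀) (ϖ : Bˣ) : GL (Fin 2) B → ℂ :=
  (Omega τ e ϖ).indicator fun _ => 1

/-- The test at `A`. -/
def dsetFn {K : Type*} [Field K] [Valued K Γ₀] (e : Γ₀) (ϖ : Kˣ) : GL (Fin 2) K → ℂ :=
  (Dset e (ϖ ^ 3)).indicator fun _ => 1

theorem dsetFn_mul {K : Type*} [Field K] [Valued K Γ₀] {e : Γ₀} {ϖ : Kˣ} {u : GL (Fin 2) K}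
    (hu : u ∈ lvlZ e) (g : GL (Fin 2) K) :
    dsetFn e ϖ (u * g) = dsetFn e ϖ g ∧ dsetFn e ϖ (g * u) = dsetFn e ϖ g := by
  classical
  simp only [dsetFn, Set.indicator_apply]
  constructor <;> refine if_congr ⟨fun h => ?_, fun h => ?_⟩ rfl rfl
  · simpa [mul_assoc] using mul_mem_Dset (inv_mem hu) h (one_mem _)
  · simpa using mul_mem_Dset hu h (one_mem _)
  · simpa [mul_assoc] using mul_mem_Dset (one_mem _) h (inv_mem hu)
  · simpa using mul_mem_Dset (one_mem _) h hu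

variable {j : A →+* B} {τ : B →+* B}

theorem v_cube_lt {K : Type*} [Field K] [Valued K Γ₀] {x : K}
    (h : Valued.v x < (1 : Γ₀)) : Valued.v (x ^ 3) < (1 : Γ₀) := by
  rw [map_pow]; exact pow_lt_one₀ zero_le h three_ne_zero

/-- Conjugating a congruence subgroup by a diagonal matrix. -/
theorem dg_conj_mem_lvl {K : Type*} [Field K] [Valued K Γ₀] {e π : Γ₀} {p : Kˣ × Kˣ}
    (hp : Valued.v (p.1 : K) = π * Valued.v (p.2 : K)) (hπ : π ≤ 1) (hπ0 : π ≠ 0) (he : e / π < 1)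
    {k : GL (Fin 2) K} (hk : k ∈ lvl e) : (dg p)⁻¹ * k * dg p ∈ lvl (e / π) := by
  have hle : e ≤ e / π := by
    rw [le_div_iff₀ (zero_lt_iff.2 hπ0)]; exact mul_le_of_le_one_right' hπ
  have h := ((mem_lvl (hle.trans he.le)).1 hk).1
  have h2 : Valued.v (p.2 : K) ≠ 0 := (map_ne_zero _).2 p.2.ne_zero
  refine mem_lvl_of_ent he fun a b => ?_
  rw [← map_inv]
  have h00 := h 0 0; have h01 := h 0 1; have h10 := h 1 0; have h11 := h 1 1
  simp at h00 h01 h10 h11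
  fin_cases a <;> fin_cases b <;>
    simp [dg, Matrix.mul_apply, Matrix.vecMul, dotProduct, Fin.sum_univ_two, ← mul_assoc]
  · rw [show ((p.1 : K))⁻¹ * (k : Matrix (Fin 2) (Fin 2) K) 0 0 * (p.1 : K) =
      (k : Matrix (Fin 2) (Fin 2) K) 0 0 by field_simp]
    exact h00.trans hle
  · rw [hp, le_div_iff₀ (zero_lt_iff.2 hπ0)]
    calc (π * Valued.v (p.2 : K))⁻¹ * Valued.v ((k : Matrix (Fin 2) (Fin 2) K) 0 1) *
          Valued.v (p.2 : K) * π
        = Valued.v ((k : Matrix (Fin 2) (Fin 2) K) 0 1) := by field_simp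
      _ ≤ e := h01
  · rw [hp]
    calc (Valued.v (p.2 : K))⁻¹ * Valued.v ((k : Matrix (Fin 2) (Fin 2) K) 1 0) *
          (π * Valued.v (p.2 : K))
        = Valued.v ((k : Matrix (Fin 2) (Fin 2) K) 1 0) * π := by field_simp
      _ ≤ e := (mul_le_of_le_one_right' hπ).trans h10
      _ ≤ e / π := hle
  · rw [show ((p.2 : K))⁻¹ * (k : Matrix (Fin 2) (Fin 2) K) 1 1 * (p.2 : K) =
      (k : Matrix (Fin 2) (Fin 2) K) 1 1 by field_simp]
    exact h11.trans hle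

/-- **The twisted classes with contracting norm are twisted diagonal.** -/
theorem Pair.omega_form (P : Pair j τ) {e : Γ₀} (he : e < 1) {ϖ : Bˣ}
    (hϖ : Valued.v (ϖ : B) < (1 : Γ₀)) {s : GL (Fin 2) B} (hs : s ∈ Omega τ e ϖ) :
    ∃ h ∈ lvl e, ∃ p : Bˣ × Bˣ, s = h * dg p * (gl τ h)⁻¹ ∧
      Valued.v (p.1 : B) = Valued.v (ϖ : B) * Valued.v (p.2 : B) ∧ N3 τ (dg p) ∈ Dset e (ϖ ^ 3) := by
  obtain ⟨h, hh, α, β, c, hα, hβ, hN⟩ := exists_diag he (by simpa using v_cube_lt (K := B) hϖ) hs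
  set a := c * ϖ ^ 3 * α with ha
  set b := c * β with hb
  have hab : Valued.v (a : B) < Valued.v (b : B) :=
    v_dg_lt he (by simpa using v_cube_lt (K := B) hϖ) hα hβ c
  set u := h⁻¹ * s * gl τ h with hu
  have hNu : N3 τ u = dg (a, b) := by rw [hu, P.N3_twist, hN]; group
  have hτ : gl τ (N3 τ u) = u⁻¹ * N3 τ u * u := by
    simp only [N3, map_mul, P.gl_cube]; group
  rw [hNu, gl_dg] at hτ
  obtain ⟨p, hp, -, -⟩ := eq_dg_of_mul hab
    (a' := Units.map τ.toMonoidHom a) (b' := Units.map τ.toMonoidHom b)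
    (by simpa [P.v_tau] using hab) (Q := u) (by rw [hτ]; group)
  refine ⟨h, hh, p, by rw [← hp, hu]; group, ?_, ?_⟩
  · rw [hp, N3, gl_dg, gl_dg, ← map_mul, ← map_mul] at hNu
    have e1 := congrArg (fun g : GL (Fin 2) B => (g : Matrix (Fin 2) (Fin 2) B) 0 0) hNu
    have e2 := congrArg (fun g : GL (Fin 2) B => (g : Matrix (Fin 2) (Fin 2) B) 1 1) hNu
    simp [dg, ha, hb] at e1 e2
    have f1 := congrArg (fun x : B => (Valued.v x : Γ₀)) e1
    have f2 := congrArg (fun x : B => (Valued.v x : Γ₀)) e2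
    simp [P.v_tau, v_eq_one_of_sub he hα, v_eq_one_of_sub he hβ] at f1 f2
    refine (pow_left_inj₀ zero_le zero_le three_ne_zero).1 ?_
    rw [mul_pow, pow_succ, pow_two, f1, pow_succ (Valued.v (p.2 : B)), pow_two, f2]
    ac_rfl
  · rw [← hp, hNu]
    simpa [ha, hb] using conj_dg_mem_Dset he (ϖ := ϖ ^ 3) (one_mem (lvl e)) hα hβ c

variable {ν : A} {e' : Γ₀}

/-- Invariance of the contracting twisted classes. -/
theorem Pair.omega_mul (P : Pair j τ) {e : Γ₀} (he : e < 1) {ϖ : Bˣ}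
    (hϖ : Valued.v (ϖ : B) < (1 : Γ₀)) (hN : e' ≤ e * Valued.v (ϖ : B) ^ 2)
    {s k : GL (Fin 2) B} (hs : s ∈ Omega τ e ϖ) (hk : k ∈ lvlZ e') :
    s * k ∈ Omega τ e ϖ ∧ k * s ∈ Omega τ e ϖ := by
  set π := Valued.v (ϖ : B) with hπdef
  have hπ0 : π ≠ 0 := (map_ne_zero _).2 ϖ.ne_zero
  have he'1 : e' ≤ e := hN.trans (mul_le_of_le_one_right' (pow_le_one₀ zero_le hϖ.le))
  have key : ∀ {s k : GL (Fin 2) B}, s ∈ Omega τ e ϖ → k ∈ lvl e' → s * k ∈ Omega τ e ϖ := by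
    intro s k hs hk
    obtain ⟨h, hh, p, rfl, hp, hNp⟩ := P.omega_form he hϖ hs
    set k' := (gl τ h)⁻¹ * k * gl τ h with hk'
    have hk'm : k' ∈ lvl e' := by
      have := conj_mem_lvl (inv_mem (lvl_mono he.le (P.tau_mem_lvl hh))) hk
      simpa [hk'] using this
    have hstep : h * dg p * (gl τ h)⁻¹ * k = h * (dg p * k') * (gl τ h)⁻¹ := by rw [hk']; group
    rw [Omega, Set.mem_ofPred_eq, hstep, show h * (dg p * k') * (gl τ h)⁻¹ =
        h⁻¹⁻¹ * (dg p * k') * gl τ h⁻¹ by rw [inv_inv, map_inv], P.N3_twist, inv_inv]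
    refine mul_mem_Dset (lvl_le_lvlZ e hh) ?_ (lvl_le_lvlZ e (inv_mem hh))
    set d1 := gl τ (dg p) with hd1
    set d2 := gl τ d1 with hd2
    have hp1 : Valued.v ((Units.map τ.toMonoidHom p.1 : Bˣ) : B) =
        π * Valued.v ((Units.map τ.toMonoidHom p.2 : Bˣ) : B) := by simp [P.v_tau, hp, hπdef]
    have hp2 : Valued.v ((Units.map τ.toMonoidHom (Units.map τ.toMonoidHom p.1) : Bˣ) : B) =
        π * Valued.v ((Units.map τ.toMonoidHom (Units.map τ.toMonoidHom p.2) : Bˣ) : B) := by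
      simp [P.v_tau, hp, hπdef]
    have e1 : N3 τ (dg p * k') = N3 τ (dg p) *
        ((d2⁻¹ * (d1⁻¹ * k' * d1) * d2) * (d2⁻¹ * gl τ k' * d2) * gl τ (gl τ k')) := by
      simp only [N3, map_mul, hd1, hd2]
      group
    rw [e1]
    have hm : e' / π ≤ e * π := by
      rw [div_le_iff₀ (zero_lt_iff.2 hπ0), mul_assoc, ← pow_two]; exact hN
    have hm1 : e' / π < 1 := hm.trans_lt ((mul_le_of_le_one_right' hϖ.le).trans_lt he)
    have hm2 : e' / π / π ≤ e := by rw [div_le_iff₀ (zero_lt_iff.2 hπ0)]; exact hm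
    have t1 : d2⁻¹ * (d1⁻¹ * k' * d1) * d2 ∈ lvl e := by
      refine lvl_mono hm2 ?_
      rw [hd2, hd1, gl_dg, gl_dg]
      exact dg_conj_mem_lvl hp2 hϖ.le hπ0 (hm2.trans_lt he) (dg_conj_mem_lvl hp1 hϖ.le hπ0 hm1 hk'm)
    have t2 : d2⁻¹ * gl τ k' * d2 ∈ lvl e := by
      refine lvl_mono (hm.trans (mul_le_of_le_one_right' hϖ.le)) ?_
      rw [hd2, hd1, gl_dg, gl_dg]
      exact dg_conj_mem_lvl hp2 hϖ.le hπ0 hm1 (P.tau_mem_lvl hk'm)
    have t3 : gl τ (gl τ k') ∈ lvl e :=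
      lvl_mono he'1 (P.tau_mem_lvl (P.tau_mem_lvl hk'm))
    simpa using mul_mem_Dset (one_mem _) hNp (lvl_le_lvlZ e (mul_mem (mul_mem t1 t2) t3))
  have scalar : ∀ {s : GL (Fin 2) B} (c : Bˣ), s ∈ Omega τ e ϖ → s * scal c ∈ Omega τ e ϖ :=
    fun {s} c hs => by
      rw [Omega, Set.mem_ofPred_eq, N3_scal]
      exact (scal_mem_Dset_mul _).2 hs
  obtain ⟨k, hk, c, rfl⟩ := hk
  refine ⟨by rw [← mul_assoc]; exact scalar c (key hs hk), ?_⟩
  rw [mul_assoc, scal_mul_comm, ← mul_assoc]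
  refine scalar c ?_
  rw [Omega, Set.mem_ofPred_eq, show k * s = k⁻¹⁻¹ * (s * gl τ k) * gl τ k⁻¹ by rw [inv_inv, map_inv]; group, P.N3_twist,
    inv_inv]
  exact mul_mem_Dset (lvlZ_mono he'1 (lvl_le_lvlZ e' hk)) (key hs (P.tau_mem_lvl hk))
    (lvlZ_mono he'1 (lvl_le_lvlZ e' (inv_mem hk)))

theorem Pair.omegaFn_mul (P : Pair j τ) {e : Γ₀} (he : e < 1) {ϖ : Bˣ}
    (hϖ : Valued.v (ϖ : B) < (1 : Γ₀)) (hN : e' ≤ e * Valued.v (ϖ : B) ^ 2) {u : GL (Fin 2) B}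
    (hu : u ∈ lvlZ e') (g : GL (Fin 2) B) :
    omegaFn τ e ϖ (u * g) = omegaFn τ e ϖ g ∧ omegaFn τ e ϖ (g * u) = omegaFn τ e ϖ g := by
  classical
  simp only [omegaFn, Set.indicator_apply]
  constructor <;> refine if_congr ⟨fun h => ?_, fun h => ?_⟩ rfl rfl
  · simpa [mul_assoc] using (P.omega_mul he hϖ hN h (inv_mem hu)).2
  · exact (P.omega_mul he hϖ hN h hu).2
  · simpa [mul_assoc] using (P.omega_mul he hϖ hN h (inv_mem hu)).1
  · exact (P.omega_mul he hϖ hN h hu).1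

/-- `b · τ b · τ² b`. -/
def nrm3 (τ : B →+* B) (b : Bˣ) : Bˣ :=
  b * Units.map τ.toMonoidHom b * Units.map τ.toMonoidHom (Units.map τ.toMonoidHom b)

theorem N3_dg (τ : B →+* B) (p : Bˣ × Bˣ) : N3 τ (dg p) = dg (nrm3 τ p.1, nrm3 τ p.2) := by
  simp only [N3, gl_dg, ← map_mul]
  rfl

/-- **The description of the twisted contracting classes**: `h · diag(b,1) · (τh)⁻¹ · z` with the
norm of `b` congruent to `ϖ³`. -/
theorem Pair.omega_iff (P : Pair j τ) {e : Γ₀} (he : e < 1) {ϖ : Bˣ}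
    (hϖ : Valued.v (ϖ : B) < (1 : Γ₀)) {s : GL (Fin 2) B} :
    s ∈ Omega τ e ϖ ↔ ∃ h ∈ lvl e, ∃ b z : Bˣ, s = h * dg (b, 1) * (gl τ h)⁻¹ * scal z ∧
      Valued.v (((nrm3 τ b / ϖ ^ 3 : Bˣ) : B) - 1) ≤ e := by
  constructor
  · intro hs
    obtain ⟨h, hh, p, rfl, hp, hN⟩ := P.omega_form he hϖ hs
    refine ⟨h, hh, p.1 / p.2, p.2, ?_, ?_⟩
    · rw [show dg p = dg (p.1 / p.2, 1) * scal p.2 by rw [scal_eq_dg, ← map_mul]; simp,
        show h * (dg (p.1 / p.2, 1) * scal p.2) * (gl τ h)⁻¹ =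
          h * dg (p.1 / p.2, 1) * (scal p.2 * (gl τ h)⁻¹) by simp only [mul_assoc],
        scal_mul_comm p.2 (gl τ h)⁻¹, ← mul_assoc]
    · have hab : Valued.v (nrm3 τ p.1 : B) < Valued.v (nrm3 τ p.2 : B) := by
        simp only [nrm3, Units.val_mul, Units.coe_map, RingHom.toMonoidHom_eq_coe,
          MonoidHom.coe_coe, map_mul, P.v_tau, hp]
        have hq : Valued.v (p.2 : B) ≠ (0 : Γ₀) := (map_ne_zero _).2 p.2.ne_zero
        calc Valued.v (ϖ : B) * Valued.v (p.2 : B) * (Valued.v (ϖ : B) * Valued.v (p.2 : B)) *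
              (Valued.v (ϖ : B) * Valued.v (p.2 : B))
            = Valued.v (ϖ : B) ^ 3 *
              (Valued.v (p.2 : B) * Valued.v (p.2 : B) * Valued.v (p.2 : B)) := by
              rw [pow_succ, pow_two]; ac_rfl
          _ < _ := mul_lt_of_lt_one_left (zero_lt_iff.2 (mul_ne_zero (mul_ne_zero hq hq) hq))
              (pow_lt_one₀ zero_le hϖ three_ne_zero)
      have h1 := (conj_mem_Dset_iff he (show Valued.v ((ϖ ^ 3 : Bˣ) : B) < (1 : Γ₀) by
        simpa using v_cube_lt (K := B) hϖ) (P := 1) hab 1).1 (by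
        simpa [N3_dg] using hN)
      rw [show nrm3 τ (p.1 / p.2) = nrm3 τ p.1 / nrm3 τ p.2 by
        simp only [nrm3, map_div]; rw [div_mul_div_comm, div_mul_div_comm], div_div]
      exact h1.1
  · rintro ⟨h, hh, b, z, rfl, hb⟩
    rw [Omega, Set.mem_ofPred_eq, N3_scal, scal_mem_Dset_mul,
      show h * dg (b, 1) * (gl τ h)⁻¹ = h⁻¹⁻¹ * dg (b, 1) * gl τ h⁻¹ by rw [inv_inv, map_inv],
      P.N3_twist, inv_inv, N3_dg]
    have := conj_dg_mem_Dset he (ϖ := ϖ ^ 3) hh hb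
      (show Valued.v (((1 : Bˣ) : B) - 1) ≤ e by simp) 1
    simpa [nrm3, mul_div_cancel] using this

/-- Matrices conjugate into a contracting class are regular with nonzero trace. -/
theorem trace_disc_ne_zero {K : Type*} [Field K] [Valued K Γ₀] [CompleteSpace K] {e : Γ₀}
    (he : e < 1) {ϖ : Kˣ} (hϖ : Valued.v (ϖ : K) < (1 : Γ₀)) {g M : GL (Fin 2) K}
    (h : g⁻¹ * M * g ∈ Dset e ϖ) :
    (M : Matrix (Fin 2) (Fin 2) K).trace ≠ 0 ∧
      Valued.v ((M : Matrix (Fin 2) (Fin 2) K).det / (M : Matrix (Fin 2) (Fin 2) K).trace ^ 2) <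
        (1 : Γ₀) ∧
      (M : Matrix (Fin 2) (Fin 2) K).trace ^ 2 - 4 * (M : Matrix (Fin 2) (Fin 2) K).det ≠ 0 := by
  obtain ⟨k, -, α, β, c, hα, hβ, hk⟩ := exists_diag he hϖ h
  have hab := v_dg_lt he hϖ hα hβ c
  set a := c * ϖ * α
  set b := c * β
  have hM : M = (g * k) * dg (a, b) * (g * k)⁻¹ := by
    rw [show (g * k) * dg (a, b) * (g * k)⁻¹ = g * (k * dg (a, b) * k⁻¹) * g⁻¹ by group, ← hk]
    group
  have htr : (M : Matrix (Fin 2) (Fin 2) K).trace = a + b := by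
    rw [hM, Units.val_mul, Units.val_mul, Matrix.trace_mul_cycle, ← Units.val_mul, inv_mul_cancel,
      Units.val_one, one_mul, Matrix.trace_fin_two]
    simp [dg]
  have hdet : (M : Matrix (Fin 2) (Fin 2) K).det = a * b := by
    rw [hM, Units.val_mul, Units.val_mul, Matrix.det_units_conj, Matrix.det_fin_two]
    simp [dg]
  have hsum : Valued.v ((a : K) + b) = Valued.v (b : K) := Valuation.map_add_eq_of_lt_right _ hab
  have hb0 : Valued.v (b : K) ≠ 0 := (map_ne_zero _).2 b.ne_zero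
  rw [htr, hdet]
  refine ⟨fun h0 => hb0 (by rw [← hsum, h0, map_zero]), ?_, ?_⟩
  · rw [map_div₀, map_mul, map_pow, hsum, div_lt_one₀ (zero_lt_iff.2 (pow_ne_zero 2 hb0)), pow_two]
    exact mul_lt_mul_of_pos_right hab (zero_lt_iff.2 hb0)
  · rw [show ((a : K) + b) ^ 2 - 4 * (a * b) = (a - b) ^ 2 by ring]
    refine pow_ne_zero 2 (sub_ne_zero.2 fun h0 => ?_)
    rw [h0] at hab
    exact lt_irrefl _ hab

theorem card_preimage_quotientMap {G : Type*} [Group G] {U V : Subgroup G} (h : U ≤ V)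
    [Finite (↥V ⧸ U.subgroupOf V)] {S : Set (G ⧸ V)} (hS : S.Finite) :
    (Subgroup.quotientMapOfLE h ⁻¹' S).Finite ∧
      (Subgroup.quotientMapOfLE h ⁻¹' S).ncard = S.ncard * Nat.card (↥V ⧸ U.subgroupOf V) := by
  set e := Subgroup.quotientEquivProdOfLE h
  have he : ∀ c, (e c).1 = Subgroup.quotientMapOfLE h c := fun c => by
    induction c using QuotientGroup.induction_on with | _ g => rfl
  have heq : Subgroup.quotientMapOfLE h ⁻¹' S = e ⁻¹' (S ×ˢ Set.univ) := by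
    ext c; simp [he]
  rw [heq]
  refine ⟨(hS.prod Set.finite_univ).preimage e.injective.injOn, ?_⟩
  rw [Set.ncard_preimage_of_injective_subset_range e.injective (by simp [e.surjective.range_eq]),
    Set.ncard_prod, Set.ncard_univ]

/-- The map of classes. -/
def Pair.jClass (P : Pair j τ) (hν : Valued.v ν < (1 : Γ₀)) :
    Aˣ ⧸ oneAdd A (Valued.v ν) →* Bˣ ⧸ oneAdd B (Valued.v (j ν)) :=
  QuotientGroup.map _ _ (Units.map j.toMonoidHom) fun u hu => by
    rw [Subgroup.mem_comap, mem_oneAdd (P.v_j_lt_one.2 hν)]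
    have h := (mem_oneAdd hν).1 hu
    simp only [RingHom.toMonoidHom_eq_coe, Units.coe_map, MonoidHom.coe_coe]
    rwa [← map_one j, ← map_sub, P.v_j]

theorem Pair.jClass_injective (P : Pair j τ) (hν : Valued.v ν < (1 : Γ₀)) :
    Function.Injective (P.jClass hν) := by
  rw [injective_iff_map_eq_one]
  intro x hx
  induction x using QuotientGroup.induction_on with | _ u =>
  rw [Pair.jClass, QuotientGroup.map_mk, QuotientGroup.eq_one_iff, mem_oneAdd (P.v_j_lt_one.2 hν)]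
    at hx
  rw [QuotientGroup.eq_one_iff, mem_oneAdd hν]
  simp only [RingHom.toMonoidHom_eq_coe, Units.coe_map, MonoidHom.coe_coe] at hx
  rwa [← map_one j, ← map_sub, P.v_j] at hx

/-- **Local matching at a contracting place.** -/
theorem Pair.localMatch_omega (P : Pair j τ) {ν ϖ : Aˣ} (hν : Valued.v (ν : A) < (1 : Γ₀))
    (hϖ : Valued.v (ϖ : A) < (1 : Γ₀)) (he' : e' ≤ Valued.v (j ν))
    [Finite ((Bˣ ⧸ oneAdd B (Valued.v (j ν))) ⧸ (P.jClass hν).range)]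
    [Finite (↥(lvlZ (K := B) (Valued.v (j ν))) ⧸ (lvlZ e').subgroupOf (lvlZ (Valued.v (j ν))))]
    {δ : GL (Fin 2) A} (hδ : (δ : Matrix (Fin 2) (Fin 2) A) 0 1 ≠ 0) {γ : GL (Fin 2) B} {a : Bˣ}
    (hγ : N3 τ γ = gl j δ * scal a) :
    LocalMatch j (lvlZ e') (lvlZ (Valued.v (ν : A))) δ
      (fun g => omegaFn τ (Valued.v (j ν)) (Units.map j.toMonoidHom ϖ) (g⁻¹ * γ * gl τ g))
      (fun q => dsetFn (Valued.v (ν : A)) ϖ (q⁻¹ * δ * q))
      (Nat.card ((Bˣ ⧸ oneAdd B (Valued.v (j ν))) ⧸ (P.jClass hν).range) *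
        Nat.card (↥(lvlZ (K := B) (Valued.v (j ν))) ⧸
          (lvlZ e').subgroupOf (lvlZ (Valued.v (j ν))))) := by
  classical
  set eA := Valued.v (ν : A)
  set eB := Valued.v (j ν)
  set ϖB := Units.map j.toMonoidHom ϖ
  have heB : eB < 1 := P.v_j_lt_one.2 hν
  have hϖB : Valued.v (ϖB : B) < (1 : Γ₀) := P.v_j_lt_one.2 hϖ
  have hB : ∀ g, omegaFn τ eB ϖB (g⁻¹ * γ * gl τ g) ≠ 0 ↔ g⁻¹ * gl j δ * g ∈ Dset eB (ϖB ^ 3) := by
    intro g
    rw [omegaFn, Set.indicator_apply, ne_eq, ite_eq_right_iff, Classical.not_imp, and_iff_left one_ne_zero]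
    rw [Omega, Set.mem_ofPred_eq, P.N3_twist, hγ, show g⁻¹ * (gl j δ * scal a) * g = g⁻¹ * gl j δ * g * scal a by
      rw [mul_assoc g⁻¹, mul_assoc, scal_mul_comm, mul_assoc]; group, scal_mem_Dset_mul]
  have hA : ∀ q, dsetFn eA ϖ (q⁻¹ * δ * q) ≠ 0 ↔ q⁻¹ * δ * q ∈ Dset eA (ϖ ^ 3) := fun q => by
    simp [dsetFn, Set.indicator_apply]
  have hone : ∀ {G : Type _} (S : Set G) (x : G), S.indicator (fun _ => (1 : ℂ)) x ≠ 0 →
      S.indicator (fun _ => (1 : ℂ)) x = 1 := fun S x hx => by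
    by_cases h : x ∈ S
    · simp [h]
    · simp [h] at hx
  have hϖ3 : Valued.v ((ϖ ^ 3 : Aˣ) : A) < (1 : Γ₀) := by simpa using v_cube_lt (K := A) hϖ
  have hϖB3 : Valued.v ((ϖB ^ 3 : Bˣ) : B) < (1 : Γ₀) := by
    simpa using v_cube_lt (K := B) hϖB
  -- nothing in the support
  by_cases hne : ∃ g : GL (Fin 2) B, g⁻¹ * gl j δ * g ∈ Dset eB (ϖB ^ 3)
  swap
  · refine ⟨fun _ => QuotientGroup.mk 1, fun ξ _ c hc => absurd ⟨_, (hB _).1 hc⟩ hne, fun c' => ?_⟩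
    have hempty : {c : GL (Fin 2) B ⧸ lvlZ e' | omegaFn τ eB ϖB (c.out⁻¹ * γ * gl τ c.out) ≠ 0 ∧
        (QuotientGroup.mk 1 : GL (Fin 2) A ⧸ lvlZ eA) = c'} = ∅ :=
      Set.eq_empty_of_forall_notMem fun c hc => hne ⟨_, (hB _).1 hc.1⟩
    refine ⟨by rw [hempty]; exact Set.finite_empty, ?_⟩
    beta_reduce
    have hno : ∀ c : GL (Fin 2) B ⧸ lvlZ e',
        ∑ᶠ (_ : omegaFn τ eB ϖB (c.out⁻¹ * γ * gl τ c.out) ≠ 0 ∧
          (QuotientGroup.mk 1 : GL (Fin 2) A ⧸ lvlZ eA) = c'),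
          omegaFn τ eB ϖB (c.out⁻¹ * γ * gl τ c.out) = 0 := fun c => by
      rw [finsum_eq_if, if_neg fun hc => hne ⟨_, (hB _).1 hc.1⟩]
    refine (finsum_eq_zero_of_forall_eq_zero hno).trans (not_not.1 fun h => hne ?_)
    have h' := right_ne_zero_of_mul (Ne.symm h)
    obtain ⟨k₁, hk₁, k₂, hk₂, c, hc⟩ := (hA _).1 h'
    refine ⟨gl j c'.out, gl j k₁, P.j_mem_lvl hν hk₁, gl j k₂, P.j_mem_lvl hν hk₂,
      Units.map j.toMonoidHom c, ?_⟩
    rw [← map_inv, ← map_mul, ← map_mul, hc, map_mul, map_mul, map_mul, gl_scal, gl_dg]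
    simp [ϖB]
  obtain ⟨g₀, hg₀⟩ := hne
  -- split the element
  obtain ⟨ht, hsm, -⟩ := trace_disc_ne_zero heB hϖB3 hg₀
  have htr : (gl j δ : Matrix (Fin 2) (Fin 2) B).trace = j (δ : Matrix (Fin 2) (Fin 2) A).trace :=
    (AddMonoidHom.map_trace j.toAddMonoidHom _).symm
  have hdt : (gl j δ : Matrix (Fin 2) (Fin 2) B).det = j (δ : Matrix (Fin 2) (Fin 2) A).det :=
    (j.map_det _).symm
  rw [htr] at ht
  rw [htr, hdt, ← map_pow, ← map_div₀] at hsm
  obtain ⟨Q, a₀, b₀, hab, hQ⟩ := exists_eigen hδ (fun h => ht (by rw [h, map_zero]))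
    (P.v_j_lt_one.1 hsm)
  have habB : Valued.v ((Units.map j.toMonoidHom a₀ : Bˣ) : B) <
      Valued.v ((Units.map j.toMonoidHom b₀ : Bˣ) : B) := (P.v_j_lt _ _).2 hab
  have hQB : gl j δ = gl j Q * dg (Units.map j.toMonoidHom a₀, Units.map j.toMonoidHom b₀) *
      (gl j Q)⁻¹ := by rw [hQ, map_mul, map_mul, map_inv, gl_dg]
  have hBiff := fun g => conj_mem_Dset_iff heB hϖB3 (P := gl j Q) habB g
  have hAiff := fun q => conj_mem_Dset_iff hν hϖ3 (P := Q) hab q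
  rw [← hQB] at hBiff
  rw [← hQ] at hAiff
  have hr : Valued.v (((a₀ / (b₀ * ϖ ^ 3) : Aˣ) : A) - 1) ≤ eA := by
    have h := ((hBiff g₀).1 hg₀).1
    refine (P.v_j _ _).1 ?_
    rw [map_sub, map_one]
    convert h using 2
    simp [ϖB, eB]
  have hrB := ((hBiff g₀).1 hg₀).1
  -- the map of classes
  set J := P.jClass hν
  set R := J.range
  haveI : R.Normal := ⟨fun n hn g => by rwa [mul_comm g, mul_assoc, mul_inv_cancel, mul_one]⟩
  let rep : ((Bˣ ⧸ oneAdd B eB) ⧸ R) → Bˣ ⧸ oneAdd B eB := Quotient.out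
  have hψ : ∀ b : Bˣ ⧸ oneAdd B eB, ∃ x, J x = b / rep (QuotientGroup.mk b) := fun b => by
    have : b / rep (QuotientGroup.mk b) ∈ R := by
      rw [← QuotientGroup.eq_one_iff (N := R), QuotientGroup.mk_div, QuotientGroup.out_eq', div_self']
    exact this
  choose ψ hψ using hψ
  have hψeq : ∀ x b, ψ (J x * b) = x * ψ b := fun x b => P.jClass_injective hν (by
    rw [map_mul, hψ, hψ]
    have : (QuotientGroup.mk (J x * b) : (Bˣ ⧸ oneAdd B eB) ⧸ R) = QuotientGroup.mk b := by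
      rw [QuotientGroup.mk_mul, (QuotientGroup.eq_one_iff (N := R) _).2 ⟨x, rfl⟩, one_mul]
    rw [this, mul_div_assoc])
  let fib : (y : Aˣ ⧸ oneAdd A eA) → {b // ψ b = y} ≃ ((Bˣ ⧸ oneAdd B eB) ⧸ R) := fun y =>
    { toFun := fun b => QuotientGroup.mk b.1
      invFun := fun q => ⟨J y * rep q, P.jClass_injective hν (by
        rw [hψ, QuotientGroup.mk_mul, (QuotientGroup.eq_one_iff (N := R) _).2 ⟨y, rfl⟩, one_mul,
          QuotientGroup.out_eq', mul_div_cancel_right])⟩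
      left_inv := fun ⟨b, hb⟩ => Subtype.ext (by simp [← hb, hψ])
      right_inv := fun q => by
        show QuotientGroup.mk (J y * rep q) = q
        rw [QuotientGroup.mk_mul, (QuotientGroup.eq_one_iff (N := R) _).2 ⟨y, rfl⟩, one_mul]
        exact QuotientGroup.out_eq' q }
  let proj : GL (Fin 2) B ⧸ lvlZ e' → GL (Fin 2) B ⧸ lvlZ eB :=
    Subgroup.quotientMapOfLE (lvlZ_mono he')
  let cls := classMap (gl j Q) eB
  have hclsinj : Function.Injective cls := classMap_injective _ _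
  let π : GL (Fin 2) B ⧸ lvlZ e' → GL (Fin 2) A ⧸ lvlZ eA := fun c =>
    classMap Q eA (ψ (Function.invFun cls (proj c)))
  have hsupp : ∀ c : GL (Fin 2) B ⧸ lvlZ e',
      omegaFn τ eB ϖB (c.out⁻¹ * γ * gl τ c.out) ≠ 0 ↔ proj c ∈ Set.range cls := by
    intro c
    rw [hB, hBiff, show proj c = QuotientGroup.mk c.out by
      conv_lhs => rw [← QuotientGroup.out_eq' c]
      rfl]
    exact and_iff_right hrB
  refine ⟨π, fun ξ hξ c hc => ?_, fun c' => ?_⟩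
  · obtain ⟨b, hb⟩ := (hsupp c).1 hc
    obtain ⟨p, hp, -, -⟩ := eq_dg_of_mul hab hab (Q := Q⁻¹ * ξ * Q) (by
      rw [show dg (a₀, b₀) = Q⁻¹ * δ * Q by rw [hQ]; group]
      calc Q⁻¹ * δ * Q * (Q⁻¹ * ξ * Q) = Q⁻¹ * (δ * ξ) * Q := by group
        _ = Q⁻¹ * (ξ * δ) * Q := by rw [hξ.eq]
        _ = _ := by group)
    have hξQ : ξ * Q = Q * dg p := by rw [← hp]; group
    have hξB : gl j ξ * gl j Q = gl j Q *
        dg (Units.map j.toMonoidHom p.1, Units.map j.toMonoidHom p.2) := by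
      rw [← map_mul, hξQ, map_mul, gl_dg]
    have hproj : proj (gl j ξ • c) = gl j ξ • proj c := by
      induction c using QuotientGroup.induction_on with | _ g => rfl
    simp only [π]
    rw [hproj, ← hb, smul_classMap hξB, Function.leftInverse_invFun hclsinj,
      Function.leftInverse_invFun hclsinj, smul_classMap hξQ, ← hψeq]
    congr 2
    rw [← map_div]
    rfl
  · by_cases hc' : c' ∈ Set.range (classMap Q eA)
    · obtain ⟨y, rfl⟩ := hc'
      have hset : {c : GL (Fin 2) B ⧸ lvlZ e' | omegaFn τ eB ϖB (c.out⁻¹ * γ * gl τ c.out) ≠ 0 ∧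
          π c = classMap Q eA y} = proj ⁻¹' (cls '' {b | ψ b = y}) := by
        ext c
        simp only [Set.mem_ofPred_eq, Set.mem_preimage, Set.mem_image, hsupp]
        refine ⟨fun ⟨⟨b, hb⟩, hy⟩ => ⟨b, ?_, hb⟩, fun ⟨b, hb, hbc⟩ => ⟨⟨b, hbc⟩, ?_⟩⟩
        · simp only [π, ← hb, Function.leftInverse_invFun hclsinj b] at hy
          exact classMap_injective Q eA hy
        · simp only [π, ← hbc, Function.leftInverse_invFun hclsinj b, hb]
      have : Finite {b | ψ b = y} := Finite.of_equiv _ (fib y).symm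
      obtain ⟨hfin, hcard⟩ := card_preimage_quotientMap (lvlZ_mono (K := B) he')
        (S := cls '' {b | ψ b = y}) ((Set.toFinite _).image _)
      rw [hset]
      refine ⟨hfin, ?_⟩
      have hsum : ∑ᶠ (c) (_ : omegaFn τ eB ϖB (c.out⁻¹ * γ * gl τ c.out) ≠ 0 ∧ π c = classMap Q eA y),
          omegaFn τ eB ϖB (c.out⁻¹ * γ * gl τ c.out) =
          ∑ᶠ c ∈ (proj ⁻¹' (cls '' {b | ψ b = y}) : Set (GL (Fin 2) B ⧸ lvlZ e')), (1 : ℂ) := by
        refine finsum_congr fun c => ?_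
        rw [← hset]
        refine finsum_congr_Prop rfl fun h => hone _ _ h.1
      rw [hsum, finsum_mem_eq_finite_toFinset_sum _ hfin, Finset.sum_const, nsmul_eq_mul, mul_one,
        ← Set.ncard_eq_toFinset_card _ hfin, hcard,
        Set.ncard_image_of_injective _ hclsinj, ← Nat.card_coe_set_eq, Nat.card_congr (α := ↥{b | ψ b = y}) (fib y)]
      beta_reduce
      have : dsetFn eA ϖ ((classMap Q eA y).out⁻¹ * δ * (classMap Q eA y).out) = 1 :=
        Set.indicator_of_mem ((hA (classMap Q eA y).out).1 ((hA _).2 ((hAiff _).2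
          ⟨hr, by rw [QuotientGroup.out_eq']; exact ⟨y, rfl⟩⟩))) _
      rw [this, mul_one]
    · have hempty : {c : GL (Fin 2) B ⧸ lvlZ e' | omegaFn τ eB ϖB (c.out⁻¹ * γ * gl τ c.out) ≠ 0 ∧
          π c = c'} = ∅ := Set.eq_empty_of_forall_notMem fun c hc => hc' ⟨_, hc.2⟩
      refine ⟨by rw [hempty]; exact Set.finite_empty, ?_⟩
      beta_reduce
      have hno : ∀ c : GL (Fin 2) B ⧸ lvlZ e',
          ∑ᶠ (_ : omegaFn τ eB ϖB (c.out⁻¹ * γ * gl τ c.out) ≠ 0 ∧ π c = c'),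
            omegaFn τ eB ϖB (c.out⁻¹ * γ * gl τ c.out) = 0 := fun c => by
        rw [finsum_eq_if, if_neg fun hc => hc' ⟨_, hc.2⟩]
      refine (finsum_eq_zero_of_forall_eq_zero hno).trans (not_not.1 fun h => hc' ?_)
      have h' := right_ne_zero_of_mul (Ne.symm h)
      obtain ⟨y, hy⟩ := ((hAiff _).1 ((hA _).1 h')).2
      exact ⟨y, by rw [hy, QuotientGroup.out_eq']⟩

end FLTAgent.LT.Match
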