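import Fermat.Agent.LT.TF.Match.Basic

/-!
Contracting double cosets `U diag(ϖ,1) U Z`: diagonalisation and uniqueness.
-/

set_option autoImplicit false
set_option linter.unusedSectionVars false

noncomputable section

namespace FLTAgent.LT.Match

open WithZero

local notation "Γ₀" => WithZero (Multiplicative ℤ)

variable {K : Type*} [Field K]

/-- A diagonal matrix. -/
def dg : Kˣ × Kˣ →* GL (Fin 2) K where
  toFun p :=
    { val := !![(p.1 : K), 0; 0, (p.2 : K)]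
      inv := !![((p.1⁻¹ : Kˣ) : K), 0; 0, ((p.2⁻¹ : Kˣ) : K)]
      val_inv := by
        ext i j; fin_cases i <;> fin_cases j <;> simp [Matrix.mul_apply, Fin.sum_univ_two]
      inv_val := by
        ext i j; fin_cases i <;> fin_cases j <;> simp [Matrix.mul_apply, Fin.sum_univ_two] }
  map_one' := Units.ext (by ext i j; fin_cases i <;> fin_cases j <;> simp)
  map_mul' p q := Units.ext (by
    ext i j; fin_cases i <;> fin_cases j <;> simp [Matrix.mul_apply, Fin.sum_univ_two])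

theorem scal_mul (a b : Kˣ) : scal (a * b) = scal a * scal b := map_mul _ a b

theorem scal_eq_dg (c : Kˣ) : scal c = dg (c, c) :=
  Units.ext (by ext i j; fin_cases i <;> fin_cases j <;> simp [scal, dg])

variable [Valued K Γ₀]

/-- `U(e) diag(ϖ,1) U(e) Z`. -/
def Dset (e : Γ₀) (ϖ : Kˣ) : Set (GL (Fin 2) K) :=
  {g | ∃ k₁ ∈ lvl e, ∃ k₂ ∈ lvl e, ∃ c : Kˣ, g = k₁ * dg (ϖ, 1) * k₂ * scal c}

theorem mul_mem_Dset {e : Γ₀} {ϖ : Kˣ} {g u w : GL (Fin 2) K} (hu : u ∈ lvlZ e) (hg : g ∈ Dset e ϖ)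
    (hw : w ∈ lvlZ e) : u * g * w ∈ Dset e ϖ := by
  obtain ⟨k, hk, a, rfl⟩ := hu
  obtain ⟨l, hl, b, rfl⟩ := hw
  obtain ⟨k₁, hk₁, k₂, hk₂, c, rfl⟩ := hg
  refine ⟨k * k₁, mul_mem hk hk₁, k₂ * l, mul_mem hk₂ hl, a * c * b, ?_⟩
  rw [show scal (a * c * b) = scal a * scal c * scal b by rw [scal_mul, scal_mul]]
  calc k * scal a * (k₁ * dg (ϖ, 1) * k₂ * scal c) * (l * scal b)
      = k * (scal a * (k₁ * dg (ϖ, 1) * k₂)) * (scal c * l) * scal b := by group
    _ = k * (k₁ * dg (ϖ, 1) * k₂ * scal a) * (l * scal c) * scal b := by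
        rw [scal_mul_comm a, scal_mul_comm c l]
    _ = k * k₁ * dg (ϖ, 1) * k₂ * (scal a * l) * scal c * scal b := by group
    _ = k * k₁ * dg (ϖ, 1) * k₂ * (l * scal a) * scal c * scal b := by rw [scal_mul_comm a l]
    _ = _ := by group

theorem scal_mem_Dset_mul {e : Γ₀} {ϖ : Kˣ} {g : GL (Fin 2) K} (c : Kˣ) :
    g * scal c ∈ Dset e ϖ ↔ g ∈ Dset e ϖ := by
  refine ⟨fun h => ?_, fun h => by simpa using mul_mem_Dset (one_mem _) h (scal_mem_lvlZ e c)⟩
  have := mul_mem_Dset (one_mem _) h (inv_mem (scal_mem_lvlZ e c))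
  simpa [mul_assoc] using this

theorem dg_mem_lvl {e : Γ₀} (he : e < 1) {α β : Kˣ} (hα : Valued.v ((α : K) - 1) ≤ e)
    (hβ : Valued.v ((β : K) - 1) ≤ e) : dg (α, β) ∈ lvl e := by
  refine mem_lvl_of_ent he fun i j => ?_
  fin_cases i <;> fin_cases j <;> simp [dg, hα, hβ]

theorem v_eq_one_of_sub {e : Γ₀} (he : e < 1) {x : K} (hx : Valued.v (x - 1) ≤ e) :
    Valued.v x = (1 : Γ₀) := by
  simpa using Valued.v.map_eq_of_sub_lt (x := (1 : K)) (y := x) (by simpa using hx.trans_lt he)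

/-- A diagonal form is in the double coset. -/
theorem conj_dg_mem_Dset {e : Γ₀} (he : e < 1) {ϖ : Kˣ} {h : GL (Fin 2) K} (hh : h ∈ lvl e)
    {α β : Kˣ} (hα : Valued.v ((α : K) - 1) ≤ e) (hβ : Valued.v ((β : K) - 1) ≤ e) (c : Kˣ) :
    h * dg (c * ϖ * α, c * β) * h⁻¹ ∈ Dset e ϖ := by
  refine ⟨h, hh, dg (α, β) * h⁻¹, mul_mem (dg_mem_lvl he hα hβ) (inv_mem hh), c, ?_⟩
  rw [show (c * ϖ * α, c * β) = (c, c) * ((ϖ, 1) * (α, β)) by simp [mul_assoc], map_mul, map_mul,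
    ← scal_eq_dg]
  calc h * (scal c * (dg (ϖ, 1) * dg (α, β))) * h⁻¹
      = h * (dg (ϖ, 1) * dg (α, β) * (scal c * h⁻¹)) := by rw [scal_mul_comm]; group
    _ = _ := by rw [scal_mul_comm c h⁻¹]; group

/-- Two diagonalisations with the same order of the valuations differ by a diagonal matrix. -/
theorem eq_dg_of_mul {a b a' b' : Kˣ} (h : Valued.v (a : K) < Valued.v (b : K))
    (h' : Valued.v (a' : K) < Valued.v (b' : K)) {Q : GL (Fin 2) K}
    (hQ : dg (a, b) * Q = Q * dg (a', b')) :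
    ∃ p : Kˣ × Kˣ, Q = dg p ∧ a = a' ∧ b = b' := by
  have e : ∀ i j, ((dg (a, b) * Q : GL (Fin 2) K) : Matrix (Fin 2) (Fin 2) K) i j =
      ((Q * dg (a', b') : GL (Fin 2) K) : Matrix (Fin 2) (Fin 2) K) i j := fun i j => by rw [hQ]
  have e00 := e 0 0; have e01 := e 0 1; have e10 := e 1 0; have e11 := e 1 1
  simp [dg, Matrix.mul_apply, Fin.sum_univ_two] at e00 e01 e10 e11
  have f : ∀ {x q y : K}, x * q = q * y → q ≠ 0 → x = y := fun {x q y} hx hq =>
    mul_left_cancel₀ hq (by rw [mul_comm q x, hx])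
  have hdet : (Q : Matrix (Fin 2) (Fin 2) K) 0 0 * (Q : Matrix (Fin 2) (Fin 2) K) 1 1 -
      (Q : Matrix (Fin 2) (Fin 2) K) 0 1 * (Q : Matrix (Fin 2) (Fin 2) K) 1 0 ≠ 0 := by
    rw [← Matrix.det_fin_two]; exact (Matrix.GeneralLinearGroup.det Q).ne_zero
  by_cases hd : (Q : Matrix (Fin 2) (Fin 2) K) 0 0 ≠ 0 ∧ (Q : Matrix (Fin 2) (Fin 2) K) 1 1 ≠ 0
  · have ha := f e00 hd.1
    have hb := f e11 hd.2
    have h01 : (Q : Matrix (Fin 2) (Fin 2) K) 0 1 = 0 := by
      by_contra hne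
      rw [f e01 hne, hb] at h
      exact lt_irrefl _ h
    have h10 : (Q : Matrix (Fin 2) (Fin 2) K) 1 0 = 0 := by
      by_contra hne
      rw [f e10 hne, ha] at h
      exact lt_irrefl _ h
    refine ⟨(Units.mk0 _ hd.1, Units.mk0 _ hd.2), Units.ext ?_, Units.ext ha, Units.ext hb⟩
    ext i j; fin_cases i <;> fin_cases j <;> simp [dg, h01, h10]
  · exfalso
    have hz : (Q : Matrix (Fin 2) (Fin 2) K) 0 0 * (Q : Matrix (Fin 2) (Fin 2) K) 1 1 = 0 := by
      rcases not_and_or.1 hd with h0 | h0 <;> simp [not_not.1 h0]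
    rw [hz, zero_sub, neg_ne_zero, mul_ne_zero_iff] at hdet
    rw [f e01 hdet.1, f e10 hdet.2] at h
    exact lt_asymm h h'

theorem v_dg_lt {e : Γ₀} (he : e < 1) {ϖ : Kˣ} (hϖ : Valued.v (ϖ : K) < (1 : Γ₀)) {α β : Kˣ}
    (hα : Valued.v ((α : K) - 1) ≤ e) (hβ : Valued.v ((β : K) - 1) ≤ e) (c : Kˣ) :
    Valued.v ((c * ϖ * α : Kˣ) : K) < Valued.v ((c * β : Kˣ) : K) := by
  simp only [Units.val_mul, map_mul, v_eq_one_of_sub he hα, v_eq_one_of_sub he hβ, mul_one]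
  exact mul_lt_of_lt_one_right (zero_lt_iff.2 ((map_ne_zero _).2 c.ne_zero)) hϖ

variable [CompleteSpace K]

/-- **Diagonalisation of the double coset.** -/
theorem exists_diag {e : Γ₀} (he : e < 1) {ϖ : Kˣ} (hϖ : Valued.v (ϖ : K) < (1 : Γ₀))
    {g : GL (Fin 2) K} (hg : g ∈ Dset e ϖ) :
    ∃ h ∈ lvl e, ∃ α β c : Kˣ, Valued.v ((α : K) - 1) ≤ e ∧ Valued.v ((β : K) - 1) ≤ e ∧
      g = h * dg (c * ϖ * α, c * β) * h⁻¹ := by
  obtain ⟨k₁, hk₁, k₂, hk₂, c, rfl⟩ := hg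
  set k := k₂ * k₁ with hkdef
  have hk : Ent e ((k : Matrix (Fin 2) (Fin 2) K) - 1) := ((mem_lvl he.le).1 (mul_mem hk₂ hk₁)).1
  set a := (k : Matrix (Fin 2) (Fin 2) K) 0 0 with ha'
  set b := (k : Matrix (Fin 2) (Fin 2) K) 0 1 with hb'
  set r := (k : Matrix (Fin 2) (Fin 2) K) 1 0 with hr'
  set d := (k : Matrix (Fin 2) (Fin 2) K) 1 1 with hd'
  have ha : Valued.v (a - 1) ≤ e := by simpa using hk 0 0
  have hb : Valued.v b ≤ e := by simpa using hk 0 1
  have hr : Valued.v r ≤ e := by simpa using hk 1 0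
  have hd : Valued.v (d - 1) ≤ e := by simpa using hk 1 1
  set D := d - (ϖ : K) * a with hD'
  have hϖa : Valued.v ((ϖ : K) * a) < (1 : Γ₀) := by
    rwa [map_mul, v_eq_one_of_sub he ha, mul_one]
  have hD : Valued.v D = (1 : Γ₀) := by
    rw [hD', Valuation.map_sub_eq_of_lt_left _ (by rwa [v_eq_one_of_sub he hd]),
      v_eq_one_of_sub he hd]
  have hD0 : D ≠ 0 := fun h => by simp [h] at hD
  have hdiv : ∀ x : K, Valued.v (x / D) = Valued.v x := fun x => by rw [map_div₀, hD, div_one]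
  have hϖb : Valued.v ((ϖ : K) * b) ≤ e := by
    rw [map_mul]; exact (mul_le_mul' hϖ.le hb).trans_eq (one_mul _)
  obtain ⟨y, hy, hyeq⟩ := exists_small_root (c := -r / D) (a := (ϖ : K) * b / D) (b := 0)
    (by rw [hdiv, Valuation.map_neg]; exact hr.trans_lt he) (by rw [hdiv]; exact hϖb.trans he.le)
    (by simp)
  obtain ⟨x, hx, hxeq⟩ := exists_small_root (c := (ϖ : K) * b / D) (a := -r / D) (b := 0)
    (by rw [hdiv]; exact hϖb.trans_lt he)
    (by rw [hdiv, Valuation.map_neg]; exact hr.trans he.le) (by simp)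
  rw [hdiv] at hy hx
  rw [Valuation.map_neg] at hy
  have hxe : Valued.v x ≤ e := hx.trans hϖb
  have hye : Valued.v y ≤ e := hy.trans hr
  field_simp at hyeq hxeq
  simp only [hD'] at hyeq hxeq
  set α := a + b * y with hα'
  set β := r * x + d with hβ'
  have hα : Valued.v (α - 1) ≤ e := by
    rw [hα', add_sub_right_comm]
    exact Valued.v.map_add_le ha (by rw [map_mul]; exact (mul_le_mul' hb (hye.trans he.le)).trans_eq (mul_one _))
  have hβ : Valued.v (β - 1) ≤ e := by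
    rw [hβ', add_sub_assoc]
    exact Valued.v.map_add_le (by rw [map_mul]; exact (mul_le_mul' hr (hxe.trans he.le)).trans_eq (mul_one _)) hd
  have hα0 : α ≠ 0 := fun h => by simpa [h] using v_eq_one_of_sub he hα
  have hβ0 : β ≠ 0 := fun h => by simpa [h] using v_eq_one_of_sub he hβ
  have hdet : (!![1, x; y, 1] : Matrix (Fin 2) (Fin 2) K).det ≠ 0 := by
    rw [Matrix.det_fin_two_of, one_mul]
    intro h0
    have : Valued.v (x * y) < (1 : Γ₀) := by
      rw [map_mul]; exact (mul_le_of_le_one_right' (hye.trans he.le)).trans_lt (hxe.trans_lt he)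
    rw [show x * y = 1 by linear_combination -h0, map_one] at this
    exact lt_irrefl _ this
  set h₀ := Matrix.GeneralLinearGroup.mkOfDetNeZero _ hdet with hh₀
  have hh₀mem : h₀ ∈ lvl e := mem_lvl_of_ent he fun i j => by
    fin_cases i <;> fin_cases j <;> simp [hh₀, hxe, hye]
  have key : dg (ϖ, 1) * k * h₀ = h₀ * dg (ϖ * Units.mk0 α hα0, Units.mk0 β hβ0) := by
    refine Units.ext ?_
    ext i j
    fin_cases i <;> fin_cases j <;>
      simp [hh₀, dg, Matrix.mul_apply, Matrix.vecMul, dotProduct, Fin.sum_univ_two, ← ha', ← hb',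
        ← hr', ← hd', hα', hβ']
    all_goals first
      | (ring; done)
      | linear_combination hxeq
      | linear_combination -hxeq
      | linear_combination hyeq
      | linear_combination -hyeq
  refine ⟨k₁ * h₀, mul_mem hk₁ hh₀mem, Units.mk0 α hα0, Units.mk0 β hβ0, c, hα, hβ, ?_⟩
  rw [show (c * ϖ * Units.mk0 α hα0, c * Units.mk0 β hβ0) =
      (c, c) * (ϖ * Units.mk0 α hα0, Units.mk0 β hβ0) by simp [mul_assoc], map_mul, ← scal_eq_dg]
  have key' : dg (ϖ, 1) * k = h₀ * dg (ϖ * Units.mk0 α hα0, Units.mk0 β hβ0) * h₀⁻¹ := by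
    rw [← key, mul_inv_cancel_right]
  rw [show k₁ * dg (ϖ, 1) * k₂ = k₁ * (dg (ϖ, 1) * k) * k₁⁻¹ by rw [hkdef]; group, key']
  calc k₁ * (h₀ * dg (ϖ * Units.mk0 α hα0, Units.mk0 β hβ0) * h₀⁻¹) * k₁⁻¹ * scal c
      = k₁ * h₀ * dg (ϖ * Units.mk0 α hα0, Units.mk0 β hβ0) * ((k₁ * h₀)⁻¹ * scal c) := by group
    _ = _ := by
        rw [← scal_mul_comm, scal_mul_comm c (dg _)]
        group

/-- Splitting from the invariants. -/
theorem exists_eigen {M : GL (Fin 2) K} (hb : (M : Matrix (Fin 2) (Fin 2) K) 0 1 ≠ 0)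
    (ht : (M : Matrix (Fin 2) (Fin 2) K).trace ≠ 0)
    (hsmall : Valued.v ((M : Matrix (Fin 2) (Fin 2) K).det /
      (M : Matrix (Fin 2) (Fin 2) K).trace ^ 2) < (1 : Γ₀)) :
    ∃ (P : GL (Fin 2) K) (a b : Kˣ), Valued.v (a : K) < Valued.v (b : K) ∧
      M = P * dg (a, b) * P⁻¹ := by
  set t := (M : Matrix (Fin 2) (Fin 2) K).trace with ht'
  set D := (M : Matrix (Fin 2) (Fin 2) K).det with hD'
  obtain ⟨x, hx, hxeq⟩ := exists_small_root hsmall (a := (1 : K)) (b := 0) (by simp) (by simp)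
  have hx1 : Valued.v (1 - x) = (1 : Γ₀) := by
    rw [Valuation.map_sub_eq_of_lt_left _ (by simpa using hx.trans_lt hsmall), map_one]
  have hD0 : D ≠ 0 := (Matrix.GeneralLinearGroup.det M).ne_zero
  have hprod : x * (1 - x) * t ^ 2 = D := by field_simp at hxeq; linear_combination -hxeq
  set l := t * x with hl'
  set m := t * (1 - x) with hm'
  have hl0 : l ≠ 0 := fun h => hD0 (by rw [← hprod]; linear_combination ((1 - x) * t) * h)
  have hm0 : m ≠ 0 := fun h => hD0 (by rw [← hprod]; linear_combination (x * t) * h)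
  have hlt : Valued.v l < Valued.v m := by
    rw [hl', hm', map_mul, map_mul, hx1, mul_one]
    exact mul_lt_of_lt_one_right (zero_lt_iff.2 ((map_ne_zero _).2 ht)) (hx.trans_lt hsmall)
  set A := (M : Matrix (Fin 2) (Fin 2) K) with hA
  have htr : t = A 0 0 + A 1 1 := Matrix.trace_fin_two A
  have hdt : D = A 0 0 * A 1 1 - A 0 1 * A 1 0 := Matrix.det_fin_two A
  have hdet : (!![A 0 1, A 0 1; l - A 0 0, m - A 0 0]).det ≠ 0 := by
    rw [Matrix.det_fin_two_of, ← mul_sub]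
    refine mul_ne_zero hb fun h => hlt.ne ?_
    rw [show l = m by linear_combination -h]
  refine ⟨Matrix.GeneralLinearGroup.mkOfDetNeZero _ hdet, Units.mk0 l hl0, Units.mk0 m hm0, hlt,
    eq_mul_inv_of_mul_eq (Units.ext ?_)⟩
  ext i j
  have h1 : l * (t - l) = D := by rw [hl', ← hprod]; ring
  have h2 : m * (t - m) = D := by rw [hm', ← hprod]; ring
  fin_cases i <;> fin_cases j <;> simp [dg, Matrix.mul_apply, Fin.sum_univ_two, ← hA]
  · ring
  · ring
  · rw [htr, hdt] at h1; linear_combination h1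
  · rw [htr, hdt] at h2; linear_combination h2

end FLTAgent.LT.Match
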