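import Mathlib.Algebra.BigOperators.Finprod
import Mathlib.Algebra.BigOperators.Ring.Finset
import Mathlib.Data.Complex.Basic
import Mathlib.Data.Fintype.Pi
import Mathlib.Order.Filter.Cofinite

/-!
Fibre sums along a map of restricted products of pointed sets are products of local fibre sums.
-/

set_option autoImplicit false

noncomputable section

namespace FLTAgent.LT.Match

variable {V : Type*} {X Y : V → Type*}

/-- A restricted product of pointed sets. -/
abbrev RProd (X : V → Type*) (bX : ∀ v, X v) :=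
  {x : ∀ v, X v // ∀ᶠ v in Filter.cofinite, x v = bX v}

/-- Local matching data for pointed sets. -/
structure FibreData (bX : ∀ v, X v) (bY : ∀ v, Y v) (π : ∀ v, X v → Y v) (a : ∀ v, X v → ℂ)
    (b : ∀ v, Y v → ℂ) (κ : V → ℕ) : Prop where
  finite : ∀ v y, {x | a v x ≠ 0 ∧ π v x = y}.Finite
  sum : ∀ v y, ∑ᶠ (x) (_ : a v x ≠ 0 ∧ π v x = y), a v x = κ v * b v y
  good : ∀ᶠ v in Filter.cofinite, κ v = 1 ∧ π v (bX v) = bY v ∧ a v (bX v) = 1 ∧ b v (bY v) = 1 ∧
    ∀ x, a v x ≠ 0 → π v x = bY v → x = bX v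

variable {bX : ∀ v, X v} {bY : ∀ v, Y v} {π : ∀ v, X v → Y v} {a : ∀ v, X v → ℂ}
  {b : ∀ v, Y v → ℂ} {κ : V → ℕ}

/-- The product map. -/
def FibreData.map (h : FibreData bX bY π a b κ) (x : RProd X bX) : RProd Y bY :=
  ⟨fun v => π v (x.1 v), by
    filter_upwards [x.2, h.good] with v hv hg
    rw [hv, hg.2.1]⟩

theorem FibreData.map_apply (h : FibreData bX bY π a b κ) (x : RProd X bX) (v : V) :
    (h.map x).1 v = π v (x.1 v) := rfl

/-- **Fibre sums of products.** -/
theorem FibreData.fibre (h : FibreData bX bY π a b κ) (y : RProd Y bY) :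
    {x : RProd X bX | (∏ᶠ v, a v (x.1 v)) ≠ 0 ∧ h.map x = y}.Finite ∧
      ∑ᶠ (x : RProd X bX) (_ : (∏ᶠ v, a v (x.1 v)) ≠ 0 ∧ h.map x = y), (∏ᶠ v, a v (x.1 v)) =
        ((∏ᶠ v, κ v : ℕ) : ℂ) * ∏ᶠ v, b v (y.1 v) := by
  classical
  set P : V → Prop := fun v => (κ v = 1 ∧ π v (bX v) = bY v ∧ a v (bX v) = 1 ∧ b v (bY v) = 1 ∧
    ∀ x, a v x ≠ 0 → π v x = bY v → x = bX v) ∧ y.1 v = bY v
  set T := (Filter.eventually_cofinite.1 (show ∀ᶠ v in Filter.cofinite, P v from h.good.and y.2)).toFinset
  have hT : ∀ v ∉ T, P v := fun v hv => by simpa [T] using hv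
  let s : ∀ v : T, Finset (X v.1) := fun v => (h.finite v.1 (y.1 v.1)).toFinset
  let ext : (∀ v : T, X v.1) → RProd X bX := fun p =>
    ⟨fun v => if hv : v ∈ T then p ⟨v, hv⟩ else bX v,
      Filter.eventually_cofinite.2 (T.finite_toSet.subset fun v hv => by
        by_contra hv'
        exact hv (dif_neg hv'))⟩
  have hprod : ∀ p, ∏ᶠ v, a v ((ext p).1 v) = ∏ v : T, a v.1 (p v) := fun p => by
    rw [finprod_eq_prod_of_mulSupport_subset _ (s := T) fun v hv => by
      by_contra hv'
      refine hv ?_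
      show a v (dite _ _ _) = 1
      rw [dif_neg (by simpa using hv'), (hT v (by simpa using hv')).1.2.2.1], ← Finset.prod_attach, Finset.univ_eq_attach]
    exact Finset.prod_congr rfl fun v _ => by simp [ext]
  have hext : Function.Injective ext := fun p q e => funext fun v => by
    have := congrFun (congrArg Subtype.val e) v.1
    simpa [ext] using this
  have hset : {x : RProd X bX | (∏ᶠ v, a v (x.1 v)) ≠ 0 ∧ h.map x = y} =
      ext '' (Fintype.piFinset s : Set (∀ v : T, X v.1)) := by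
    ext x
    constructor
    · rintro ⟨hx, rfl⟩
      have hne : ∀ v, a v (x.1 v) ≠ 0 := by
        intro v hv
        refine hx ?_
        have hfin : (Function.mulSupport fun v => a v (x.1 v)).Finite :=
          (Filter.eventually_cofinite.1 (h.good.and x.2)).subset fun u hu hu' => hu (by
            show a u (x.1 u) = 1
            rw [hu'.2, hu'.1.2.2.1])
        rw [finprod_eq_prod _ hfin]
        refine Finset.prod_eq_zero (i := v) (hfin.mem_toFinset.2 ?_) hv
        simp [hv]
      refine ⟨fun v => x.1 v.1, ?_, ?_⟩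
      · simp only [Finset.mem_coe, Fintype.mem_piFinset, s, Set.Finite.mem_toFinset]
        exact fun v => ⟨hne v.1, rfl⟩
      · refine Subtype.ext (funext fun v => ?_)
        show dite _ _ _ = _
        split_ifs with hv
        · rfl
        · exact ((hT v hv).1.2.2.2.2 _ (hne v) (hT v hv).2).symm
    · rintro ⟨p, hp, rfl⟩
      simp only [Finset.mem_coe, Fintype.mem_piFinset, s, Set.Finite.mem_toFinset] at hp
      refine ⟨?_, Subtype.ext (funext fun v => ?_)⟩
      · rw [hprod]
        exact Finset.prod_ne_zero_iff.2 fun v _ => (hp v).1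
      · show π v (dite _ _ _) = _
        split_ifs with hv
        · exact (hp ⟨v, hv⟩).2
        · rw [(hT v hv).1.2.1, (hT v hv).2]
  refine ⟨by rw [hset]; exact (Finset.finite_toSet _).image _, ?_⟩
  have e : ∑ᶠ (x : RProd X bX) (_ : (∏ᶠ v, a v (x.1 v)) ≠ 0 ∧ h.map x = y), (∏ᶠ v, a v (x.1 v)) =
      ∑ᶠ x ∈ ext '' (Fintype.piFinset s : Set (∀ v : T, X v.1)), ∏ᶠ v, a v (x.1 v) := by
    refine finsum_congr fun x => ?_
    rw [← hset]
    rfl
  rw [e, finsum_mem_image hext.injOn, finsum_mem_coe_finset]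
  simp only [hprod]
  rw [← Finset.prod_univ_sum s fun v x => a v.1 x]
  have hs : ∀ v : T, ∑ x ∈ s v, a v.1 x = κ v.1 * b v.1 (y.1 v.1) := fun v => by
    rw [← h.sum v.1 (y.1 v.1), ← finsum_mem_coe_finset]
    refine finsum_congr fun x => ?_
    simp only [s, Set.Finite.coe_toFinset]
    rfl
  rw [Finset.prod_congr rfl fun v _ => hs v, Finset.prod_mul_distrib,
    finprod_eq_prod_of_mulSupport_subset (fun v => b v (y.1 v)) (s := T) fun v hv => by
      by_contra hv'
      exact hv (show b v (y.1 v) = 1 by rw [(hT v hv').2, (hT v hv').1.2.2.2.1]),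
    finprod_eq_prod_of_mulSupport_subset κ (s := T) fun v hv => by
      by_contra hv'
      exact hv (hT v hv').1.1,
    Nat.cast_prod, Finset.prod_coe_sort T fun v => (κ v : ℂ),
    Finset.prod_coe_sort T fun v => b v (y.1 v)]

end FLTAgent.LT.Match
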