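import Fermat.Agent.LT.TF.Match.Places
import Fermat.Agent.LT.TF.Match.Restricted

/-!
The finite part of a twisted term as a product over the places of the base field, and the map of
coset spaces made of the local maps.
-/

set_option autoImplicit false
set_option linter.unusedSectionVars false
set_option linter.style.haveILetI false

noncomputable section

namespace FLTAgent.LT.Match

open NumberField IsDedekindDomain

local notation "Γ₀" => WithZero (Multiplicative ℤ)

/-- A product is the product of the products over the fibres. -/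
theorem finprod_fibre {α β M : Type*} [CommMonoid M] (f : α → β) (g : α → M)
    (hg : (Function.mulSupport g).Finite) :
    ∏ᶠ a, g a = ∏ᶠ b, ∏ᶠ a : {a // f a = b}, g a.1 := by
  classical
  set S := hg.toFinset
  have hb : ∀ b, ∏ᶠ a : {a // f a = b}, g a.1 = ∏ a ∈ S.filter (fun a => f a = b), g a := fun b => by
    have e := finprod_subtype_eq_finprod_cond (f := g) (fun a => f a = b)
    rw [e]
    refine finprod_cond_eq_prod_of_cond_iff _ fun {x} hx => ?_
    simp only [S, Finset.mem_filter, Set.Finite.mem_toFinset, Function.mem_mulSupport]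
    exact ⟨fun h => ⟨hx, h⟩, fun h => h.2⟩
  rw [finprod_congr hb, finprod_eq_prod _ hg,
    finprod_eq_prod_of_mulSupport_subset _ (s := S.image f) fun b hne => by
      rw [Finset.coe_image, Set.mem_image]
      by_contra h
      push Not at h
      refine hne (Finset.prod_eq_one fun a ha => ?_)
      obtain ⟨ha1, ha2⟩ := Finset.mem_filter.1 ha
      exact absurd ha2 (h a ha1)]
  exact (Finset.prod_fiberwise_of_maps_to (fun a ha => Finset.mem_image_of_mem f ha) _).symm

variable {F E : Type*} [Field F] [NumberField F] [Field E] [NumberField E]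

/-- An isometry keeps the congruence subgroups. -/
theorem gl_mem_lvl_of_isometry {K L : Type*} [Field K] [Valued K Γ₀] [Field L] [Valued L Γ₀]
    (s : K →+* L) (hs : ∀ x, Valued.v (s x) = Valued.v x) {e : Γ₀} {k : GL (Fin 2) K}
    (hk : k ∈ lvl e) : gl s k ∈ lvl e := by
  constructor <;> intro a b
  · have := hk.1 a b
    simp only [Matrix.sub_apply, gl_apply] at this ⊢
    rwa [show (1 : Matrix (Fin 2) (Fin 2) L) a b = s ((1 : Matrix (Fin 2) (Fin 2) K) a b) by
      rcases eq_or_ne a b with rfl | h <;> simp_all, ← map_sub, hs]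
  · have := hk.2 a b
    rw [← map_inv]
    simp only [Matrix.sub_apply, gl_apply] at this ⊢
    rwa [show (1 : Matrix (Fin 2) (Fin 2) L) a b = s ((1 : Matrix (Fin 2) (Fin 2) K) a b) by
      rcases eq_or_ne a b with rfl | h <;> simp_all, ← map_sub, hs]

theorem gl_mem_lvlZ_of_isometry {K L : Type*} [Field K] [Valued K Γ₀] [Field L] [Valued L Γ₀]
    (s : K →+* L) (hs : ∀ x, Valued.v (s x) = Valued.v x) {e : Γ₀} {k : GL (Fin 2) K}
    (hk : k ∈ lvlZ e) : gl s k ∈ lvlZ e := by
  obtain ⟨l, hl, c, rfl⟩ := hk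
  exact ⟨gl s l, gl_mem_lvl_of_isometry s hs hl, Units.map s.toMonoidHom c,
    by rw [map_mul, gl_scal]⟩

theorem levN_eq_of_cMap (τ : E →+* E) {w u : HeightOneSpectrum (𝓞 E)} (hu : placeBelow τ w = u)
    (N : ℕ) : levN u N = levN w N := by
  rw [levN_eq, levN_eq, ← v_cMap_endo τ hu, map_natCast]

/-- Left and right invariance keep a value when the arguments move within their cosets. -/
theorem apply_conj_congr {G : Type*} [Group G] {U : Subgroup G} {f : G → ℂ}
    (hl : ∀ u ∈ U, ∀ g, f (u * g) = f g) (hr : ∀ u ∈ U, ∀ g, f (g * u) = f g) {u u' : G}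
    (hu : u ∈ U) (hu' : u' ∈ U) (a m b : G) :
    f ((a * u)⁻¹ * m * (b * u')) = f (a⁻¹ * m * b) := by
  rw [show (a * u)⁻¹ * m * (b * u') = u⁻¹ * ((a⁻¹ * m * b) * u') by group, hl _ (inv_mem hu),
    hr _ hu']

theorem exists_locCos_out {N : ℕ} (v : HeightOneSpectrum (𝓞 F)) (c : Cos F N) :
    ∃ u ∈ lvlZ (levN v N), (locCos N v c).out = locGF v c.out * u := by
  refine ⟨(locGF v c.out)⁻¹ * (locCos N v c).out, ?_, (mul_inv_cancel_left _ _).symm⟩
  rw [← QuotientGroup.eq, QuotientGroup.out_eq', ← locCos_mk, QuotientGroup.out_eq']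

/-! ### Local terms -/

variable (i : F →+* E) (N : ℕ)

/-- The places above `v`. -/
abbrev Above (v : HeightOneSpectrum (𝓞 F)) := {w : HeightOneSpectrum (𝓞 E) // placeBelow i w = v}

/-- The local points above `v`. -/
abbrev XLoc (v : HeightOneSpectrum (𝓞 F)) :=
  ∀ w : Above i v, GL (Fin 2) (Kp E w.1) ⧸ lvlZ (levN w.1 N)

/-- The local points at `v`. -/
abbrev YLoc (v : HeightOneSpectrum (𝓞 F)) := GL (Fin 2) (Kp F v) ⧸ lvlZ (levN v N)

/-- The base point above `v`. -/
def xBase (v : HeightOneSpectrum (𝓞 F)) : XLoc i N v := fun _ => QuotientGroup.mk 1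

/-- The base point at `v`. -/
def yBase (v : HeightOneSpectrum (𝓞 F)) : YLoc N v := QuotientGroup.mk 1

variable {i N} {τ : E →+* E} (h : Ell.CycGen i τ 3)

/-- The next place above `v`. -/
def nxt {v : HeightOneSpectrum (𝓞 F)} (w : Above i v) : Above i v :=
  ⟨placeBelow τ w.1, (placeBelow_i_tau h w.1).trans w.2⟩

/-- The twisted term at `v`. -/
def aLoc (L : ∀ w, GL (Fin 2) (Kp E w) → ℂ) (γ : GL (Fin 2) E) (v : HeightOneSpectrum (𝓞 F))
    (x : XLoc i N v) : ℂ :=
  ∏ᶠ w : Above i v, L w.1 ((x w).out⁻¹ * gl (algebraMap E (Kp E w.1)) γ *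
    gl (cMap τ w.1 (nxt h w).1 rfl) (x (nxt h w)).out)

/-- The term at `v`. -/
def bLoc (L' : ∀ v, GL (Fin 2) (Kp F v) → ℂ) (δ : GL (Fin 2) F) (v : HeightOneSpectrum (𝓞 F))
    (y : YLoc N v) : ℂ :=
  L' v (y.out⁻¹ * gl (algebraMap F (Kp F v)) δ * y.out)

/-- The action of a rational matrix on the local points above `v`. -/
def xSmul (ξ : GL (Fin 2) F) {v : HeightOneSpectrum (𝓞 F)} (x : XLoc i N v) : XLoc i N v :=
  fun w => gl (algebraMap E (Kp E w.1)) (gl i ξ) • x w

/-- Local matching of the terms at `v`. -/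
structure LocData (L : ∀ w, GL (Fin 2) (Kp E w) → ℂ) (L' : ∀ v, GL (Fin 2) (Kp F v) → ℂ)
    (γ : GL (Fin 2) E) (δ : GL (Fin 2) F) (v : HeightOneSpectrum (𝓞 F)) (κ : ℕ)
    (π : XLoc i N v → YLoc N v) : Prop where
  equiv : ∀ ξ, Commute ξ δ → ∀ x, aLoc h L γ v x ≠ 0 →
    π (xSmul ξ x) = gl (algebraMap F (Kp F v)) ξ • π x
  finite : ∀ y, {x | aLoc h L γ v x ≠ 0 ∧ π x = y}.Finite
  sum : ∀ y, ∑ᶠ (x) (_ : aLoc h L γ v x ≠ 0 ∧ π x = y), aLoc h L γ v x = κ * bLoc L' δ v y

/-- The behaviour at almost all places. -/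
structure LocGood (L : ∀ w, GL (Fin 2) (Kp E w) → ℂ) (L' : ∀ v, GL (Fin 2) (Kp F v) → ℂ)
    (γ : GL (Fin 2) E) (δ : GL (Fin 2) F) (v : HeightOneSpectrum (𝓞 F)) (κ : ℕ)
    (π : XLoc i N v → YLoc N v) : Prop where
  one : κ = 1
  base : π (xBase i N v) = yBase N v
  a_base : aLoc h L γ v (xBase i N v) = 1
  b_base : bLoc L' δ v (yBase N v) = 1
  unique : ∀ x, aLoc h L γ v x ≠ 0 → π x = yBase N v → x = xBase i N v

/-! ### The coset spaces as products over the base -/

theorem eventually_above (hN : 0 < N) (c : Cos E N) : ∀ᶠ v in Filter.cofinite,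
    (fun w : Above i v => locCos N w.1 c) = xBase i N v := by
  refine Filter.eventually_cofinite.2 (((Filter.eventually_cofinite.1
    (eventually_locCos hN c)).image (placeBelow i)).subset fun v hv => ?_)
  by_contra hmem
  refine hv (funext fun w => ?_)
  by_contra hw
  exact hmem ⟨w.1, hw, w.2⟩

/-- The components above the places of the base. -/
def aboveMap (hN : 0 < N) (c : Cos E N) :
    RProd (XLoc i N) (xBase i N) :=
  ⟨fun _ w => locCos N w.1 c, eventually_above hN c⟩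

theorem aboveMap_bijective (hN : 0 < N) :
    Function.Bijective (aboveMap (E := E) (i := i) hN) := by
  refine ⟨fun c d e => locCos_injective fun w =>
    congrFun (congrFun (congrArg Subtype.val e) (placeBelow i w)) ⟨w, rfl⟩, fun x => ?_⟩
  obtain ⟨c, hc⟩ := exists_cos (N := N) (fun w => x.1 (placeBelow i w) ⟨w, rfl⟩)
    (Filter.eventually_cofinite.2 (((Filter.eventually_cofinite.1 x.2).biUnion fun v _ =>
      finite_fibre i v).subset fun w hw => by
        simp only [Set.mem_iUnion]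
        exact ⟨_, fun e => hw (congrFun e ⟨w, rfl⟩), rfl⟩))
  refine ⟨c, Subtype.ext (funext fun v => funext ?_)⟩
  rintro ⟨w, rfl⟩
  exact hc w

/-- The factor of a twisted term at one place. -/
theorem locGF_twist (γ : GL (Fin 2) E) (g : GF E) (w : HeightOneSpectrum (𝓞 E)) :
    locGF w (g⁻¹ * toFin γ * gfMap τ g) =
      (locGF w g)⁻¹ * gl (algebraMap E (Kp E w)) γ * gl (cMap τ w _ rfl) (locGF (placeBelow τ w) g) := by
  rw [map_mul, map_mul, map_inv, locGF_toFin, locGF_gfMap τ rfl]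

theorem prodFun_twist {L : ∀ w, GL (Fin 2) (Kp E w) → ℂ} (hL : LocFam N L) (γ : GL (Fin 2) E)
    (c : Cos E N) : prodFun L (c.out⁻¹ * toFin γ * gfMap τ c.out) =
      ∏ᶠ v, aLoc h L γ v (fun w => locCos N w.1 c) := by
  rw [prodFun, finprod_fibre (placeBelow i) _ (hL.mulSupport_finite _)]
  refine finprod_congr fun v => finprod_congr fun w => ?_
  obtain ⟨u, hu, e⟩ := exists_locCos_out w.1 c
  obtain ⟨u', hu', e'⟩ := exists_locCos_out (N := N) (nxt h w).1 c
  rw [locGF_twist, e, e', map_mul]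
  refine (apply_conj_congr (hL.left_inv w.1) (hL.right_inv w.1) hu ?_ _ _ _).symm
  rw [← levN_eq_of_cMap τ (w := w.1) rfl]
  exact gl_mem_lvlZ_of_isometry _ (fun x => v_cMap_endo τ rfl x) hu'

theorem gfMap_id (g : GF F) : gfMap (RingHom.id F) g = g :=
  locGF_ext fun v => by
    have hv : placeBelow (RingHom.id F) v = v := HeightOneSpectrum.ext (Ideal.ext fun _ => Iff.rfl)
    rw [locGF_gfMap (RingHom.id F) hv]
    refine Units.ext (Matrix.ext fun a b => ?_)
    rw [gl_apply]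
    exact congrFun (hom_ext_dense (continuous_cMap _ hv) continuous_id fun x => by
      rw [cMap_coe]; rfl) _

theorem prodFun_conj {L' : ∀ v, GL (Fin 2) (Kp F v) → ℂ} (hL' : LocFam N L') (δ : GL (Fin 2) F)
    (c : Cos F N) : prodFun L' (c.out⁻¹ * toFin δ * gfMap (RingHom.id F) c.out) =
      ∏ᶠ v, bLoc L' δ v (locCos N v c) := by
  rw [gfMap_id]
  refine finprod_congr fun v => ?_
  obtain ⟨u, hu, e⟩ := exists_locCos_out v c
  rw [bLoc, e, map_mul, map_mul, map_inv, locGF_toFin,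
    apply_conj_congr (hL'.left_inv v) (hL'.right_inv v) hu hu]

/-- **The finite part of matching from local data.** -/
theorem exists_finMatch (hN : 0 < N) {L : ∀ w, GL (Fin 2) (Kp E w) → ℂ} (hL : LocFam N L)
    {L' : ∀ v, GL (Fin 2) (Kp F v) → ℂ} (hL' : LocFam N L') {γ : GL (Fin 2) E} {δ : GL (Fin 2) F}
    {κ : HeightOneSpectrum (𝓞 F) → ℕ} {π : ∀ v, XLoc i N v → YLoc N v}
    (hd : ∀ v, LocData h L L' γ δ v (κ v) (π v))
    (hg : ∀ᶠ v in Filter.cofinite, LocGood h L L' γ δ v (κ v) (π v)) :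
    ∃ πf : Cos E N → Cos F N,
      (∀ ξ, Commute ξ δ → ∀ c, prodFun L (c.out⁻¹ * toFin γ * gfMap τ c.out) ≠ 0 →
        πf (toFin (gl i ξ) • c) = toFin ξ • πf c) ∧
      (∀ d, {c | prodFun L (c.out⁻¹ * toFin γ * gfMap τ c.out) ≠ 0 ∧ πf c = d}.Finite) ∧
      ∀ d, ∑ᶠ (c) (_ : prodFun L (c.out⁻¹ * toFin γ * gfMap τ c.out) ≠ 0 ∧ πf c = d),
          prodFun L (c.out⁻¹ * toFin γ * gfMap τ c.out) =
        ((∏ᶠ v, κ v : ℕ) : ℂ) * prodFun L' (d.out⁻¹ * toFin δ * gfMap (RingHom.id F) d.out) := by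
  have hFD : FibreData (xBase i N) (yBase N) π (aLoc h L γ) (bLoc L' δ) κ :=
    ⟨fun v => (hd v).finite, fun v => (hd v).sum, hg.mono fun v hv =>
      ⟨hv.one, hv.base, hv.a_base, hv.b_base, hv.unique⟩⟩
  let eE : Cos E N ≃ RProd (XLoc i N) (xBase i N) :=
    Equiv.ofBijective _ (aboveMap_bijective hN)
  let eF : Cos F N ≃ RProd (YLoc N) (yBase N) := cosEquiv hN
  let πf : Cos E N → Cos F N := fun c => eF.symm (hFD.map (eE c))
  have hloc : ∀ c v, locCos N v (πf c) = π v (fun w => locCos N w.1 c) := fun c v =>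
    congrFun (congrArg Subtype.val (eF.apply_symm_apply (hFD.map (eE c)))) v
  have hA : ∀ c, prodFun L (c.out⁻¹ * toFin γ * gfMap τ c.out) =
      ∏ᶠ v, aLoc h L γ v ((eE c).1 v) := fun c => prodFun_twist h hL γ c
  have hset : ∀ d, {c | prodFun L (c.out⁻¹ * toFin γ * gfMap τ c.out) ≠ 0 ∧ πf c = d} =
      eE ⁻¹' {x | (∏ᶠ v, aLoc h L γ v (x.1 v)) ≠ 0 ∧ hFD.map x = eF d} := fun d => by
    ext c
    simp only [Set.mem_ofPred_eq, Set.mem_preimage, hA, πf, Equiv.symm_apply_eq]
  refine ⟨πf, fun ξ hξ c hc => locCos_injective fun v => ?_, fun d => ?_, fun d => ?_⟩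
  · have hne : aLoc h L γ v ((eE c).1 v) ≠ 0 := by
      intro h0
      refine hc ?_
      rw [hA]
      refine finprod_eq_zero _ v h0 (Filter.eventually_cofinite.1 ?_)
      filter_upwards [hg, (eE c).2] with u hu hu'
      rw [hu', hu.a_base]
    rw [hloc, locCos_smul, locGF_toFin, hloc]
    refine Eq.trans ?_ ((hd v).equiv ξ hξ _ hne)
    refine congrArg (π v) (funext fun w => ?_)
    show locCos N w.1 (toFin (gl i ξ) • c) = _
    rw [locCos_smul, locGF_toFin]
    rfl
  · rw [hset]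
    exact (hFD.fibre (eF d)).1.preimage eE.injective.injOn
  · rw [finsum_congr fun c => show
      ∑ᶠ (_ : prodFun L (c.out⁻¹ * toFin γ * gfMap τ c.out) ≠ 0 ∧ πf c = d),
          prodFun L (c.out⁻¹ * toFin γ * gfMap τ c.out) =
        ∑ᶠ (_ : (∏ᶠ v, aLoc h L γ v ((eE c).1 v)) ≠ 0 ∧ hFD.map (eE c) = eF d),
          ∏ᶠ v, aLoc h L γ v ((eE c).1 v) from
        finsum_congr_Prop (by simp only [hA, πf, Equiv.symm_apply_eq]) fun _ => hA c,
      finsum_comp_equiv eE (f := fun x => ∑ᶠ (_ : (∏ᶠ v, aLoc h L γ v (x.1 v)) ≠ 0 ∧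
        hFD.map x = eF d), ∏ᶠ v, aLoc h L γ v (x.1 v)),
      (hFD.fibre (eF d)).2, prodFun_conj hL']
    rfl

end FLTAgent.LT.Match
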