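import Mathlib.LinearAlgebra.Matrix.GeneralLinearGroup.Defs
import Mathlib.LinearAlgebra.Matrix.Determinant.Basic
import Mathlib.Tactic

/-!
Coordinates in a quadratic algebra `R[λ]`, `λ² = p λ - d`, and the cubic norm along an automorphism.
-/

set_option autoImplicit false
set_option linter.unusedSectionVars false

noncomputable section

namespace FLTAgent.LT.Match

variable {R S : Type*} [CommRing R] [CommRing S]

/-- Multiplication of `a + b λ`. -/
def qmul (p d : R) (x y : R × R) : R × R :=
  (x.1 * y.1 - d * (x.2 * y.2), x.1 * y.2 + x.2 * y.1 + p * (x.2 * y.2))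

/-- The value `a + b λ`. -/
def qval2 (f : R →+* S) (l : S) (x : R × R) : S := f x.1 + f x.2 * l

/-- The matrix `a + b M`. -/
def qmat (M : Matrix (Fin 2) (Fin 2) R) (x : R × R) : Matrix (Fin 2) (Fin 2) R :=
  x.1 • 1 + x.2 • M

/-- The coordinates with `τ` applied. -/
def qconj (τ : R →+* S) (x : R × R) : S × S := (τ x.1, τ x.2)

theorem qmul_comm (p d : R) (x y : R × R) : qmul p d x y = qmul p d y x := by
  ext <;> simp [qmul] <;> ring

theorem qmul_assoc (p d : R) (x y z : R × R) :
    qmul p d (qmul p d x y) z = qmul p d x (qmul p d y z) := by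
  ext <;> simp [qmul] <;> ring

theorem qconj_qmul (τ : R →+* S) (p d : R) (x y : R × R) :
    qconj τ (qmul p d x y) = qmul (τ p) (τ d) (qconj τ x) (qconj τ y) := by
  ext <;> simp [qmul, qconj]

theorem qval2_qmul (f : R →+* S) {l : S} {p d : R} (hl : l ^ 2 = f p * l - f d) (x y : R × R) :
    qval2 f l (qmul p d x y) = qval2 f l x * qval2 f l y := by
  simp only [qval2, qmul, map_add, map_sub, map_mul]
  linear_combination -(f x.2 * f y.2) * hl

theorem qmat_qmul {M : Matrix (Fin 2) (Fin 2) R} (x y : R × R) :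
    qmat M (qmul M.trace M.det x y) = qmat M x * qmat M y := by
  ext i j
  fin_cases i <;> fin_cases j <;>
    simp [qmat, qmul, Matrix.mul_apply, Fin.sum_univ_two, Matrix.trace_fin_two, Matrix.det_fin_two] <;>
    ring

/-- The product of the three conjugates. -/
def qnorm (τ : R →+* R) (p d : R) (x : R × R) : R × R :=
  qmul p d (qmul p d x (qconj τ x)) (qconj τ (qconj τ x))

theorem qnorm_fixed {τ : R →+* R} (h3 : ∀ x, τ (τ (τ x)) = x) {p d : R} (hp : τ p = p) (hd : τ d = d)
    (x : R × R) : qconj τ (qnorm τ p d x) = qnorm τ p d x := by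
  rw [qnorm, qconj_qmul, qconj_qmul, hp, hd,
    show qconj τ (qconj τ (qconj τ x)) = x from Prod.ext (h3 _) (h3 _), qmul_comm p d _ x, ← qmul_assoc]

theorem qval2_qnorm (f : R →+* S) {l : S} {τ : R →+* R} {p d : R}
    (hl : l ^ 2 = f p * l - f d) (x : R × R) :
    qval2 f l (qnorm τ p d x) =
      qval2 f l x * qval2 (f.comp τ) l x * qval2 ((f.comp τ).comp τ) l x := by
  rw [qnorm, qval2_qmul f hl, qval2_qmul f hl]
  rfl

theorem qmap_qnorm (g : R →+* S) {τ : R →+* R} {τ' : S →+* S} (hg : ∀ x, g (τ x) = τ' (g x))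
    (p d : R) (x : R × R) : qconj g (qnorm τ p d x) = qnorm τ' (g p) (g d) (qconj g x) := by
  simp only [qnorm, qconj_qmul]
  congr 1 <;> [congr 1; skip] <;> exact Prod.ext (by simp [qconj, hg]) (by simp [qconj, hg])

end FLTAgent.LT.Match
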