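import Fermat.Agent.Global.CFT.SecondIneq
import Fermat.Agent.LT.TF.Match.Places
import Fermat.Agent.LT.TF.Match.Quad

/-!
The Hasse norm theorem for a cyclic cubic extension, in the form needed for norms of matrices: a
regular elliptic class is a twisted norm up to scalars as soon as it is approximately one at every
place that does not split.
-/

set_option autoImplicit false
set_option linter.unusedSectionVars false
set_option synthInstance.maxHeartbeats 400000

noncomputable section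

namespace FLTAgent.LT.Match

open NumberField IsDedekindDomain
open scoped FLTAgent.Global
open FLTAgent.Global (QQbar GQ Kq Gq Semi Idele Cl QMul toQMul qval sval comp principal toCl emb loc dec
  fixSub fixField semiUnit Level CStep IsKummerRoot SplitsAt onPlace)

/-! ### Quadratic extensions inside `Q̄` -/

section quad

variable {K : Type*} [Field K] [CharZero K] (φ : K →+* QQbar) (l : QQbar) {p d : K}

theorem eq_zero_of_qval2 (hl : l ^ 2 = φ p * l - φ d) (hD : ¬ IsSquare (p ^ 2 - 4 * d)) {x : K × K}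
    (h : qval2 φ l x = 0) : x = 0 := by
  obtain ⟨a, b⟩ := x
  simp only [qval2] at h
  by_cases hb : b = 0
  · subst hb
    simp only [map_zero, zero_mul, add_zero, map_eq_zero] at h
    rw [h]; rfl
  refine absurd ⟨2 * (-a / b) - p, ?_⟩ hD
  have hb' : φ b ≠ 0 := (map_ne_zero φ).2 hb
  have hlab : l = φ (-a / b) := by
    rw [map_div₀, map_neg, eq_div_iff hb']
    linear_combination h
  have h0 : φ ((-a / b) ^ 2) = φ (p * (-a / b) - d) := by
    rw [map_pow, map_sub, map_mul, ← hlab]; exact hl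
  have h1 := φ.injective h0
  linear_combination -4 * h1

theorem qval2_injective (hl : l ^ 2 = φ p * l - φ d) (hD : ¬ IsSquare (p ^ 2 - 4 * d)) :
    Function.Injective (qval2 φ l) := fun x y h =>
  sub_eq_zero.1 (eq_zero_of_qval2 φ l hl hD (x := x - y) (by
    simp only [qval2, Prod.fst_sub, Prod.snd_sub, map_sub] at h ⊢
    linear_combination h))

/-- The field generated by a root of a quadratic polynomial. -/
def quadField (hl : l ^ 2 = φ p * l - φ d) (hD : ¬ IsSquare (p ^ 2 - 4 * d)) :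
    IntermediateField ℚ QQbar where
  carrier := Set.range (qval2 φ l)
  mul_mem' := by
    rintro _ _ ⟨x, rfl⟩ ⟨y, rfl⟩
    exact ⟨qmul p d x y, qval2_qmul φ hl x y⟩
  one_mem' := ⟨(1, 0), by simp [qval2]⟩
  add_mem' := by
    rintro _ _ ⟨x, rfl⟩ ⟨y, rfl⟩
    exact ⟨x + y, by simp [qval2]; ring⟩
  zero_mem' := ⟨(0, 0), by simp [qval2]⟩
  algebraMap_mem' r := ⟨((r : K), 0), by simp [qval2]⟩
  inv_mem' := by
    rintro _ ⟨⟨a, b⟩, rfl⟩
    by_cases h0 : qval2 φ l (a, b) = 0
    · exact ⟨(0, 0), by rw [h0]; simp [qval2]⟩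
    set n := a ^ 2 + a * b * p + b ^ 2 * d
    have hn : n ≠ 0 := by
      intro hn
      by_cases hb : b = 0
      · subst hb
        refine h0 ?_
        have ha : a = 0 := by
          simpa [n] using hn
        simp [qval2, ha]
      · refine hD ⟨(2 * a + b * p) / b, ?_⟩
        field_simp
        linear_combination (-4 : K) * hn
    refine ⟨((a + b * p) / n, -b / n), ?_⟩
    refine eq_inv_of_mul_eq_one_left ?_
    rw [← qval2_qmul φ hl]
    have e : qmul p d ((a + b * p) / n, -b / n) (a, b) = (1, 0) := by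
      ext <;> simp only [qmul] <;> field_simp <;> simp [n] <;> ring
    rw [e]
    simp [qval2]

theorem mem_quadSub (hl : l ^ 2 = φ p * l - φ d) (hD : ¬ IsSquare (p ^ 2 - 4 * d)) {g : GQ} :
    g ∈ (quadField φ l hl hD).fixingSubgroup ↔ (∀ x, g (φ x) = φ x) ∧ g l = l := by
  rw [IntermediateField.mem_fixingSubgroup_iff]
  refine ⟨fun h => ⟨fun x => h _ ⟨(x, 0), by simp [qval2]⟩, h _ ⟨(0, 1), by simp [qval2]⟩⟩, ?_⟩
  rintro ⟨h1, h2⟩ _ ⟨x, rfl⟩
  simp [qval2, h1, h2]

theorem fixField_quadSub (hl : l ^ 2 = φ p * l - φ d) (hD : ¬ IsSquare (p ^ 2 - 4 * d)) :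
    fixField (quadField φ l hl hD).fixingSubgroup = quadField φ l hl hD :=
  InfiniteGalois.fixedField_fixingSubgroup _

theorem exists_level_quad [Algebra.IsIntegral ℤ (𝓞 K)] [FiniteDimensional ℚ K]
    (hl : l ^ 2 = φ p * l - φ d) (hD : ¬ IsSquare (p ^ 2 - 4 * d)) :
    ∃ L : Level, L.grp ≤ (quadField φ l hl hD).fixingSubgroup := by
  haveI : FiniteDimensional ℚ ↥(φ.toRatAlgHom.fieldRange) :=
    φ.toRatAlgHom.toLinearMap.finiteDimensional_range
  haveI : FiniteDimensional ℚ ↥(IntermediateField.adjoin ℚ {l}) :=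
    IntermediateField.adjoin.finiteDimensional (Algebra.IsIntegral.isIntegral l)
  obtain ⟨L, hL⟩ := FLTAgent.Global.exists_level (φ.toRatAlgHom.fieldRange ⊔ IntermediateField.adjoin ℚ {l})
  refine ⟨L, fun g hg => (mem_quadSub φ l hl hD).2 ⟨fun x => ?_, ?_⟩⟩
  · exact (IntermediateField.mem_fixingSubgroup_iff _ _).1 hg _ (hL (le_sup_left (a :=
      φ.toRatAlgHom.fieldRange) ⟨x, rfl⟩))
  · exact (IntermediateField.mem_fixingSubgroup_iff _ _).1 hg _ (hL
      ((le_sup_right : IntermediateField.adjoin ℚ {l} ≤ _) (IntermediateField.mem_adjoin_simple_self ℚ l)))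

end quad

/-! ### Places from embeddings -/

section place

variable {K : Type*} [Field K] [NumberField K] {q : Nat.Primes} (ψ : K →+* Kq q)

theorem norm_map_int_le (x : 𝓞 K) : ‖ψ (x : K)‖ ≤ 1 := by
  have hx := RingOfIntegers.isIntegral_coe x
  refine FLTAgent.Global.norm_le_one_of_monic (f := (minpoly ℤ (x : K)).map (Int.castRingHom ℚ_[(q : ℕ)]))
    ((minpoly.monic hx).map _) (fun n => ?_) ?_
  · rw [Polynomial.coeff_map, eq_intCast]
    exact Padic.norm_int_le_one _
  · rw [Polynomial.aeval_def, Polynomial.eval₂_map,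
      show (algebraMap ℚ_[(q : ℕ)] (Kq q)).comp (Int.castRingHom ℚ_[(q : ℕ)]) =
        ψ.comp (Int.castRingHom K) from RingHom.ext_int _ _,
      ← Polynomial.hom_eval₂, ← algebraMap_int_eq, ← Polynomial.aeval_def, minpoly.aeval, map_zero]

/-- The elements of absolute value less than one. -/
def smallIdeal : Ideal (𝓞 K) where
  carrier := {x | ‖ψ (x : K)‖ < 1}
  add_mem' {x y} hx hy := by
    show ‖ψ ((x : K) + (y : K))‖ < 1
    rw [map_add]
    exact (IsUltrametricDist.norm_add_le_max _ _).trans_lt (max_lt hx hy)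
  zero_mem' := by simp
  smul_mem' c x hx := by
    show ‖ψ ((c : K) * (x : K))‖ < 1
    rw [map_mul, norm_mul]
    exact mul_lt_one_of_nonneg_of_lt_one_right (norm_map_int_le ψ c) (norm_nonneg _) hx

/-- The place of an embedding into `Q̄_q`. -/
def placeOf : HeightOneSpectrum (𝓞 K) where
  asIdeal := smallIdeal ψ
  isPrime := by
    refine Ideal.isPrime_iff.2 ⟨fun h => ?_, fun {x y} hxy => ?_⟩
    · have h1 : (1 : 𝓞 K) ∈ smallIdeal ψ := by rw [h]; exact Submodule.mem_top
      have h2 : ‖ψ (1 : K)‖ < 1 := h1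
      simp at h2
    · have h1 : ‖ψ ((x : K) * (y : K))‖ < 1 := hxy
      rw [map_mul, norm_mul] at h1
      by_contra hne
      push Not at hne
      have hx : ¬ ‖ψ (x : K)‖ < 1 := hne.1
      have hy : ¬ ‖ψ (y : K)‖ < 1 := hne.2
      rw [le_antisymm (norm_map_int_le ψ x) (not_lt.1 hx),
        le_antisymm (norm_map_int_le ψ y) (not_lt.1 hy), one_mul] at h1
      exact lt_irrefl _ h1
  ne_bot := fun h => by
    have h1 : ((q : ℕ) : 𝓞 K) ∈ smallIdeal ψ := by
      show ‖ψ (algebraMap (𝓞 K) K ((q : ℕ) : 𝓞 K))‖ < 1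
      rw [map_natCast, map_natCast, FLTAgent.Global.norm_prime_kq]
      exact inv_lt_one_of_one_lt₀ (by exact_mod_cast q.2.one_lt)
    rw [h, Ideal.mem_bot] at h1
    exact q.2.ne_zero (Nat.cast_eq_zero.1 h1)

theorem mem_placeOf {x : 𝓞 K} : x ∈ (placeOf ψ).asIdeal ↔ ‖ψ (x : K)‖ < 1 := Iff.rfl

theorem norm_map_le_one {x : K} (hx : (placeOf ψ).valuation K x ≤ 1) : ‖ψ x‖ ≤ 1 := by
  obtain ⟨a, b, hab⟩ := (placeOf ψ).exists_primeCompl_mul_eq_of_integer x hx
  have hb : ‖ψ ((b : 𝓞 K) : K)‖ = 1 :=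
    le_antisymm (norm_map_int_le ψ _) (not_lt.1 fun h => b.2 h)
  have h := congrArg (fun y => ‖ψ y‖) hab
  simp only [map_mul, norm_mul, hb, mul_one] at h
  rw [h]
  exact norm_map_int_le ψ a

theorem placeBelow_placeOf {K' : Type*} [Field K'] [NumberField K'] (k : K' →+* K) :
    placeBelow k (placeOf ψ) = placeOf (ψ.comp k) :=
  HeightOneSpectrum.ext (Ideal.ext fun _ => Iff.rfl)

end place

/-! ### Cube roots near one -/

theorem exists_cube_root_near {q : Nat.Primes} {z c : Kq q} (hz : IsPrimitiveRoot z 3) {δ : ℝ}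
    (hδ0 : 0 < δ) (hc : ‖c - 1‖ < δ ^ 3) : ∃ y, y ^ 3 = c ∧ ‖y - 1‖ < δ := by
  obtain ⟨y, hy⟩ := IsAlgClosed.exists_pow_nat_eq c three_pos
  have hz1 : ‖z‖ = 1 :=
    (pow_eq_one_iff_of_nonneg (norm_nonneg _) three_ne_zero).1 (by
      rw [← norm_pow, hz.pow_eq_one, norm_one])
  have hsum : 1 + z + z ^ 2 = 0 := by
    have := hz.geom_sum_eq_zero (by norm_num : 1 < 3)
    simpa [Finset.sum_range_succ] using this
  have e : c - 1 = (y - 1) * (y * z - 1) * (y * z ^ 2 - 1) := by
    linear_combination (-1 : Kq q) * hy + (y ^ 2 * z - y + (-y ^ 3) * (z - 1)) * hsum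
  rw [e, norm_mul, norm_mul] at hc
  by_contra hne
  push Not at hne
  have h1 : δ ≤ ‖y - 1‖ := hne y hy
  have h2 : δ ≤ ‖y * z - 1‖ := hne _ (by rw [mul_pow, hy, hz.pow_eq_one, mul_one])
  have h3 : δ ≤ ‖y * z ^ 2 - 1‖ :=
    hne _ (by rw [mul_pow, hy, ← pow_mul, pow_mul', hz.pow_eq_one, one_pow, mul_one])
  have := mul_le_mul (mul_le_mul h1 h2 hδ0.le (norm_nonneg _)) h3 hδ0.le (by positivity)
  rw [show δ * δ * δ = δ ^ 3 by ring] at this
  exact absurd hc (not_lt.2 this)

theorem eq_of_cube_near {q : Nat.Primes} {z y y' : Kq q} (hz : IsPrimitiveRoot z 3) {δ : ℝ}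
    (hδ : δ ≤ ‖z - 1‖ ∧ δ ≤ ‖z ^ 2 - 1‖) (hδ1 : δ ≤ 1) (h : y ^ 3 = y' ^ 3) (hy0 : y ≠ 0)
    (hy : ‖y - 1‖ < δ) (hy' : ‖y' - 1‖ < δ) : y = y' := by
  have h1 : ‖y‖ = 1 := by
    have := IsUltrametricDist.norm_add_eq_max_of_norm_ne_norm (x := y - 1) (y := (1 : Kq q))
      (by rw [norm_one]; exact (hy.trans_le hδ1).ne)
    rwa [sub_add_cancel, norm_one, max_eq_right (hy.trans_le hδ1).le] at this
  obtain ⟨k, hk, hkr⟩ := hz.eq_pow_of_pow_eq_one (ξ := y' / y)
    (by rw [div_pow, ← h, div_self (pow_ne_zero _ hy0)])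
  have hlt : ‖y' / y - 1‖ < δ := by
    rw [div_sub_one hy0, norm_div, h1, div_one,
      show y' - y = (y' - 1) + -(y - 1) by ring]
    refine (IsUltrametricDist.norm_add_le_max _ _).trans_lt (max_lt hy' ?_)
    rw [norm_neg]; exact hy
  rw [← hkr] at hlt
  interval_cases k
  · rw [pow_zero, eq_comm, div_eq_one_iff_eq hy0] at hkr
    exact hkr.symm
  · rw [pow_one] at hlt
    exact absurd hlt (not_lt.2 hδ.1)
  · exact absurd hlt (not_lt.2 hδ.2)

/-! ### The theorem -/

variable {F E : Type*} [Field F] [NumberField F] [Field E] [NumberField E] {i : F →+* E}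
  {τ : E →+* E}

theorem not_isSquare_map (h : Ell.CycGen i τ 3) {D : F} (hD : ¬ IsSquare D) : ¬ IsSquare (i D) := by
  rintro ⟨r, hr⟩
  have ht : τ r = r ∨ τ r = -r := by
    refine sq_eq_sq_iff_eq_or_eq_neg.1 ?_
    rw [sq, sq, ← map_mul, ← hr, h.fixed]
  have hfix : τ r = r := by
    rcases ht with ht | ht
    · exact ht
    · have h3 : τ (τ (τ r)) = r := h.pow r
      rw [ht, map_neg, ht, neg_neg, ht] at h3
      rw [ht, h3]
  obtain ⟨x, hx⟩ := h.fix r hfix
  exact hD ⟨x, i.injective (by rw [map_mul, hx, hr])⟩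

/-- A Kummer generator. -/
theorem exists_kummer (h : Ell.CycGen i τ 3) {ζ : F} (hζ : IsPrimitiveRoot ζ 3) :
    ∃ α : E, α ≠ 0 ∧ τ α = i ζ * α ∧ (∃ a, i a = α ^ 3) ∧
      ∀ x : E, ∃ a b c : F, x = i a + i b * α + i c * α ^ 2 := by
  set z := i ζ with hzdef
  have hz : IsPrimitiveRoot z 3 := hζ.map_of_injective i.injective
  have hz3 : z ^ 3 = 1 := hz.pow_eq_one
  have hsum : 1 + z + z ^ 2 = 0 := by
    have := hz.geom_sum_eq_zero (by norm_num : 1 < 3)
    simpa [Finset.sum_range_succ] using this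
  have hτz : τ z = z := h.fixed ζ
  let R : E → E → E := fun w x => x + w * τ x + w ^ 2 * τ (τ x)
  have hR : ∀ w : E, τ w = w → w ^ 3 = 1 → ∀ x, τ (R w x) = w ^ 2 * R w x := fun w hw hw3 x => by
    have h3 : τ (τ (τ x)) = x := h.pow x
    simp only [R, map_add, map_mul, map_pow, hw, h3]
    linear_combination (-τ x - w * τ (τ x)) * hw3
  obtain ⟨θ, hθ⟩ := h.ne 1 one_pos (by norm_num)
  rw [Function.iterate_one] at hθ
  obtain ⟨x, hx⟩ : ∃ x, R (z ^ 2) x ≠ 0 := by
    by_contra hall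
    push Not at hall
    have h1 := hall θ
    have h2 := hall (θ * θ)
    simp only [R, map_mul] at h1 h2
    set a := θ; set b := τ θ; set c := τ (τ θ)
    have key : -(b - c) ^ 2 = (0 : E) := by
      linear_combination h2 - (a - z ^ 2 * b - z ^ 4 * c) * h1 -
        (b ^ 2 + c ^ 2 + 2 * b * c * (z ^ 4 + z ^ 3 + z ^ 2) * 0) * hsum -
        (b ^ 2 * z + c ^ 2 * (z + z ^ 2 + z ^ 5) + 2 * b * c * (1 + z ^ 3)) * hz3
    have hbc : b = c := sub_eq_zero.1 (pow_eq_zero_iff two_ne_zero |>.1 (neg_eq_zero.1 key))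
    exact hθ (τ.injective hbc.symm)
  set α := R (z ^ 2) x
  have hτα : τ α = z * α := by
    rw [hR _ (by rw [map_pow, hτz]) (by linear_combination (z ^ 3 + 1) * hz3) x]
    linear_combination (z * α) * hz3
  obtain ⟨a3, ha3⟩ := h.fix (α ^ 3) (by rw [map_pow, hτα, mul_pow, hz3, one_mul])
  refine ⟨α, hx, hτα, ⟨a3, ha3⟩, fun y => ?_⟩
  obtain ⟨a, ha⟩ := h.fix (R 1 y) (by rw [hR 1 (map_one τ) (one_pow 3), one_pow, one_mul])
  obtain ⟨b, hb⟩ := h.fix (R (z ^ 2) y / α) (by
    rw [map_div₀, hR _ (by rw [map_pow, hτz]) (by linear_combination (z ^ 3 + 1) * hz3), hτα,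
      show (z ^ 2) ^ 2 = z by linear_combination z * hz3,
      mul_div_mul_left _ _ (hz.ne_zero three_ne_zero)])
  obtain ⟨c, hc⟩ := h.fix (R z y / α ^ 2) (by
    rw [map_div₀, hR _ hτz hz3, map_pow, hτα, mul_pow,
      mul_div_mul_left _ _ (pow_ne_zero _ (hz.ne_zero three_ne_zero))])
  refine ⟨a / 3, b / 3, c / 3, ?_⟩
  rw [map_div₀, map_div₀, map_div₀, map_ofNat, ha, hb, hc,
    show R 1 y / 3 + R (z ^ 2) y / α / 3 * α + R z y / α ^ 2 / 3 * α ^ 2 =
      (R 1 y + R (z ^ 2) y + R z y) / 3 by field_simp,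
    eq_div_iff (by norm_num : (3 : E) ≠ 0)]
  simp only [R]
  linear_combination -(τ y + τ (τ y)) * hsum - (z * τ (τ y)) * hz3

set_option maxHeartbeats 1000000 in
/-- **Hasse norm theorem**: `λ² / d` is a norm from `E(λ)` if it is one everywhere. -/
theorem exists_quad_norm (h : Ell.CycGen i τ 3) {ζ : F} (hζ : IsPrimitiveRoot ζ 3) {p d : F}
    (hp : p ≠ 0) (hd : d ≠ 0) (hD : ¬ IsSquare (p ^ 2 - 4 * d))
    (hloc : ∀ v : HeightOneSpectrum (𝓞 F), (∃ w, placeBelow i w = v ∧ placeBelow τ w ≠ w) ∨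
      ∀ m : ℕ, 0 < m → ∃ (x : E × E) (P Q : F), qnorm τ (i p) (i d) x = (i P, i Q) ∧ Q ≠ 0 ∧
        v.valuation F P ≤ v.valuation F ((m : F) * Q)) :
    ∃ e : E × E, qnorm τ (i p) (i d) e = (-1, i (p / d)) := by
  classical
  haveI : Fact (Nat.Prime 3) := ⟨Nat.prime_three⟩
  let σ : E →+* QQbar := (IsAlgClosed.lift (R := ℚ) (S := E) (M := QQbar) :
    E →ₐ[ℚ] QQbar).toRingHom
  set φ := σ.comp i with hφdef
  obtain ⟨r, hr⟩ := IsAlgClosed.exists_eq_mul_self (φ (p ^ 2 - 4 * d))
  set l := (φ p + r) / 2 with hldef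
  set μ := (φ p - r) / 2 with hμdef
  have hl : l ^ 2 = φ p * l - φ d := by
    simp only [map_sub, map_pow, map_mul, map_ofNat] at hr
    rw [hldef]
    linear_combination (-1 / 4 : QQbar) * hr
  have hμ : μ ^ 2 = φ p * μ - φ d := by
    simp only [map_sub, map_pow, map_mul, map_ofNat] at hr
    rw [hμdef]
    linear_combination (-1 / 4 : QQbar) * hr
  have hlμ : l * μ = φ d := by
    simp only [map_sub, map_pow, map_mul, map_ofNat] at hr
    rw [hldef, hμdef]
    linear_combination (1 / 4 : QQbar) * hr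
  have hd' : φ d ≠ 0 := (map_ne_zero φ).2 hd
  have hl0 : l ≠ 0 := fun e => hd' (by rw [← hlμ, e, zero_mul])
  have hμ0 : μ ≠ 0 := fun e => hd' (by rw [← hlμ, e, mul_zero])
  have hDE : ¬ IsSquare (i p ^ 2 - 4 * i d) := by
    have := not_isSquare_map h hD
    rwa [map_sub, map_pow, map_mul, map_ofNat] at this
  have hlσ : l ^ 2 = σ (i p) * l - σ (i d) := hl
  have hμσ : μ ^ 2 = σ (i p) * μ - σ (i d) := hμ
  -- the layer
  set H := (quadField φ l hl hD).fixingSubgroup
  obtain ⟨α, hα0, hτα, ⟨a3, ha3⟩, hdec⟩ := exists_kummer h hζ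
  set A := σ α
  have hA0 : A ≠ 0 := (map_ne_zero σ).2 hα0
  have hHφ : ∀ g ∈ H, ∀ x, g (φ x) = φ x := fun g hg => ((mem_quadSub φ l hl hD).1 hg).1
  have hHl : ∀ g ∈ H, g l = l := fun g hg => ((mem_quadSub φ l hl hD).1 hg).2
  have hHμ : ∀ g ∈ H, g μ = μ := fun g hg => by
    rw [show μ = φ p - l by rw [hldef, hμdef]; ring, map_sub, hHφ g hg, hHl g hg]
  have hA3 : A ^ 3 ∈ fixField H := FLTAgent.Global.mem_fixField_iff.2 fun g hg => by
    rw [← map_pow, ← ha3]; exact hHφ g hg a3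
  have hζQ : IsPrimitiveRoot (φ ζ) 3 := hζ.map_of_injective φ.injective
  have hμH : FLTAgent.Global.FixesMu 3 H := fun g hg z hz => by
    obtain ⟨k, -, rfl⟩ := hζQ.eq_pow_of_pow_eq_one hz
    rw [map_pow, hHφ g hg]
  have hAH : A ∉ fixField H := by
    rw [fixField_quadSub]
    rintro ⟨⟨a, b⟩, hab⟩
    have h0 : qval2 σ l (i a - α, i b) = 0 := by
      simp only [qval2, map_sub, φ, RingHom.comp_apply, A] at hab ⊢
      linear_combination hab
    have h1 := congrArg Prod.fst (eq_zero_of_qval2 σ l hlσ hDE h0)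
    simp only [Prod.fst_zero, sub_eq_zero] at h1
    have h2 := h.fixed a
    rw [h1, hτα] at h2
    exact hζ.ne_one (by norm_num) (i.injective (by
      rw [map_one]; exact mul_eq_right₀ hα0 |>.1 h2))
  obtain ⟨L₀, hL₀⟩ := exists_level_quad φ l hl hD
  obtain ⟨L, -, -, c⟩ := FLTAgent.Global.exists_cStep_root L₀ hL₀ hμH hA0 hA3 hAH
  set P := H ⊓ FLTAgent.Global.stabRoot A
  have hroot : IsKummerRoot 3 H P A :=
    ⟨hA0, hA3, fun t ht => ⟨fun e => ⟨ht, e⟩, fun e => e.2⟩⟩
  -- the action of the layer on `σ E`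
  have hact : ∀ g ∈ H, ∀ (k : ℕ), g A = σ ((i ζ) ^ k * α) → ∀ x, g (σ x) = σ (τ^[k] x) := by
    intro g hg k hk x
    have hit : ∀ n, τ^[n] α = (i ζ) ^ n * α := fun n => by
      induction n with
      | zero => simp
      | succ n ih =>
        rw [Function.iterate_succ_apply', ih, map_mul, map_pow, h.fixed, hτα, pow_succ]; ring
    have hfix : ∀ n (a : F), τ^[n] (i a) = i a := fun n a => Function.iterate_fixed (h.fixed a) n
    obtain ⟨a, b, c', rfl⟩ := hdec x
    simp only [RingHom.coe_pow, iterate_map_add, iterate_map_mul, iterate_map_pow, hit, hfix, map_add,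
      map_mul, map_pow]
    have e1 : ∀ y : F, g (σ (i y)) = σ (i y) := fun y => hHφ g hg y
    rw [e1, e1, e1, show g (σ α) = σ ((i ζ) ^ k * α) from hk, map_mul, map_pow]
  have hchar : ∀ g ∈ H, ∃ k < 3, g A = σ ((i ζ) ^ k * α) := by
    intro g hg
    have e : (g A / A) ^ 3 = 1 := by
      rw [div_pow, ← map_pow, FLTAgent.Global.mem_fixField_iff.1 hA3 g hg,
        div_self (pow_ne_zero _ hA0)]
    obtain ⟨k, hk, hk'⟩ := hζQ.eq_pow_of_pow_eq_one e
    refine ⟨k, hk, ?_⟩
    rw [map_mul, map_pow, show σ (i ζ) = φ ζ from rfl, hk', div_mul_cancel₀ _ hA0]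
  obtain ⟨s, hs, hsP, hsσ⟩ : ∃ s ∈ H, s ∉ P ∧ ∀ x, s (σ x) = σ (τ x) := by
    obtain ⟨u, hu, huP⟩ := c.exists_gen
    obtain ⟨k, hk, hkA⟩ := hchar u hu
    have hu1 := hact u hu k hkA
    interval_cases k
    · refine absurd ⟨hu, ?_⟩ huP
      show u A = A
      rw [hkA]; simp [A]
    · exact ⟨u, hu, huP, fun x => by simpa using hu1 x⟩
    · refine ⟨u * u, mul_mem hu hu, fun hP => huP ?_, fun x => ?_⟩
      · have h4 : u * u * (u * u) = u * (u * u * u) := by group
        have h3 : u * u * u ∈ P := ⟨mul_mem (mul_mem hu hu) hu, by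
          show (u * u * u) A = A
          simp only [AlgEquiv.mul_apply, A, hu1]
          show σ (τ^[2] (τ^[2] (τ^[2] α))) = σ α
          rw [← Function.iterate_add_apply, ← Function.iterate_add_apply]
          show σ (τ (τ (τ (τ (τ (τ α)))))) = σ α
          rw [cyc_cube h α, cyc_cube h α]⟩
        have := mul_mem (mul_mem hP hP) (inv_mem h3)
        rwa [h4, mul_inv_cancel_right] at this
      · rw [AlgEquiv.mul_apply, hu1, hu1, ← Function.iterate_add_apply]
        show σ (τ (τ (τ (τ x)))) = σ (τ x)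
        rw [cyc_cube h (τ x)]
  have hPσ : ∀ g ∈ P, ∀ x, g (σ x) = σ x := fun g hg x => by
    simpa using hact g hg.1 0 (by rw [pow_zero, one_mul]; exact hg.2) x
  -- norms of elements of `σ E + σ E m`
  have hnorm : ∀ (m : QQbar), m ^ 2 = σ (i p) * m - σ (i d) → s m = m → ∀ x : E × E,
      qval2 σ m (qnorm τ (i p) (i d) x) =
        qval2 σ m x * s (qval2 σ m x) * s (s (qval2 σ m x)) := fun m hm hsm x => by
    rw [qval2_qnorm σ hm]
    have e : ∀ y : E × E, s (qval2 σ m y) = qval2 σ m (qconj τ y) := fun y => by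
      simp only [qval2, qconj, map_add, map_mul, hsσ, hsm]
    rw [e, e]
    rfl
  have hsum : ∀ (q : Nat.Primes) (y : Semi q), ∑ j ∈ Finset.range 3, s ^ j • y =
      y + s • y + s • s • y := fun q y => by
    rw [Finset.sum_range_succ, Finset.sum_range_succ, Finset.sum_range_one, pow_zero, one_smul,
      pow_one, pow_two, mul_smul]
  -- the target
  set t := qval2 φ l (-1, p / d) with htdef
  have ht : t = l / μ := by
    rw [htdef, eq_div_iff hμ0]
    simp only [qval2, map_neg, map_one, map_div₀]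
    field_simp
    have hlm : l + μ = φ p := by rw [hldef, hμdef]; ring
    linear_combination (φ p) * hlμ - φ d * hlm
  have ht0 : t ≠ 0 := by rw [ht]; exact div_ne_zero hl0 hμ0
  have htH : t ∈ fixField H := by rw [fixField_quadSub]; exact ⟨_, rfl⟩
  set a := toQMul t ht0
  have haH : a ∈ fixSub (A := QMul) H := FLTAgent.Global.mem_fixSub_qmul.2 htH
  -- local norms
  have hlocal : ∀ q : Nat.Primes, ∃ y ∈ fixSub (A := Semi q) P,
      ∑ j ∈ Finset.range 3, s ^ j • y = comp q (principal a) := by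
    intro q
    refine c.exists_norm_of_places hs hsP fun g => ?_
    set ψ : QQbar →+* Kq q := ((emb q : QQbar →ₐ[ℚ] Kq q).toRingHom).comp
      (g : QQbar ≃ₐ[ℚ] QQbar).toAlgHom.toRingHom with hψ
    have hψa : ∀ y : QQbar, ψ y = emb q (g y) := fun y => rfl
    rcases hloc (placeOf (ψ.comp φ)) with ⟨w, hw, hmoved⟩ | happ
    · -- the place splits
      have hsp : SplitsAt H P q g := by
        rintro u hu ⟨γ, hγ⟩
        obtain ⟨k, hk, hkA⟩ := hchar u hu
        have hu1 := hact u hu k hkA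
        have hinv : ∀ x : E, ‖ψ (σ (τ^[k] x))‖ = ‖ψ (σ x)‖ := fun x => by
          rw [← hu1, hψa, hψa, show g (u (σ x)) = loc q γ (g (σ x)) by
            rw [hγ]; simp [AlgEquiv.mul_apply, AlgEquiv.aut_inv],
            FLTAgent.Global.emb_loc, FLTAgent.Global.norm_gq]
        set w' := placeOf (ψ.comp σ) with hw'
        have hmov : placeBelow τ w' ≠ w' := by
          intro hfix
          have hb : placeBelow i w' = placeBelow i w := by
            rw [hw, hw', placeBelow_placeOf]; rfl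
          rcases placeBelow_orbit h hb with e | e | e
          · exact hmoved (e ▸ hfix)
          · refine hmoved ((placePerm τ).injective ?_)
            rw [placePerm_apply, placePerm_apply]
            exact e ▸ hfix
          · refine hmoved ((placePerm τ).injective ((placePerm τ).injective ?_))
            simp only [placePerm_apply]
            exact e ▸ hfix
        interval_cases k
        · refine ⟨hu, ?_⟩
          show u A = A
          rw [hkA]; simp [A]
        · refine absurd ?_ hmov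
          refine HeightOneSpectrum.ext (Ideal.ext fun x => ?_)
          show ‖ψ (σ (τ (x : E)))‖ < 1 ↔ ‖ψ (σ (x : E))‖ < 1
          have := hinv (x : E)
          simp only [Function.iterate_one] at this
          rw [this]
        · refine absurd ?_ hmov
          have h2 : placeBelow τ (placeBelow τ w') = w' := by
            refine HeightOneSpectrum.ext (Ideal.ext fun x => ?_)
            show ‖ψ (σ (τ (τ (x : E))))‖ < 1 ↔ ‖ψ (σ (x : E))‖ < 1
            have := hinv (x : E)
            rw [show τ^[2] (x : E) = τ (τ x) from rfl] at this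
            rw [this]
          have h3 := placeBelow_tau_cube h w'
          rw [h2] at h3
          exact h3
      obtain ⟨y, hy, -, hye⟩ := c.exists_norm_split hs hsP hsp
        (FLTAgent.Global.comp_mem_fixSub (FLTAgent.Global.principal_mem_fixSub haH) q)
      exact ⟨y, hy, hye⟩
    · -- approximate norms
      set z := ψ (φ ζ)
      have hz : IsPrimitiveRoot z 3 := hζQ.map_of_injective ψ.injective
      set δ := min 1 (min ‖z - 1‖ ‖z ^ 2 - 1‖)
      have hδ0 : 0 < δ := lt_min one_pos (lt_min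
        (norm_pos_iff.2 (sub_ne_zero.2 (hz.ne_one (by norm_num))))
        (norm_pos_iff.2 (sub_ne_zero.2 (hz.pow_ne_one_of_pos_of_lt two_ne_zero (by norm_num)))))
      have hδ1 : δ ≤ 1 := min_le_left _ _
      have hψl : 0 < ‖ψ l‖ := norm_pos_iff.2 ((map_ne_zero ψ).2 hl0)
      have hψμ : 0 < ‖ψ μ‖ := norm_pos_iff.2 ((map_ne_zero ψ).2 hμ0)
      obtain ⟨k, hk⟩ := exists_pow_lt_of_lt_one (show (0 : ℝ) < δ ^ 3 * min ‖ψ l‖ ‖ψ μ‖ by positivity)
        (show ((q : ℕ) : ℝ)⁻¹ < 1 from inv_lt_one_of_one_lt₀ (by exact_mod_cast q.2.one_lt))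
      obtain ⟨x, P', Q', hN, hQ, hv⟩ := happ ((q : ℕ) ^ k) (pow_pos q.2.pos _)
      have hQ' : ψ (φ Q') ≠ 0 := (map_ne_zero ψ).2 ((map_ne_zero φ).2 hQ)
      set ρ := ψ (φ P') / ψ (φ Q') with hρdef
      have hm0 : (((q : ℕ) ^ k : ℕ) : F) * Q' ≠ 0 :=
        mul_ne_zero (Nat.cast_ne_zero.2 (pow_ne_zero _ q.2.ne_zero)) hQ
      have hρ : ‖ρ‖ < δ ^ 3 * min ‖ψ l‖ ‖ψ μ‖ := by
        have h1 := norm_map_le_one (ψ.comp φ) (x := P' / ((((q : ℕ) ^ k : ℕ) : F) * Q')) (by
          rw [map_div₀, div_le_one₀ (zero_lt_iff.2 ((map_ne_zero _).2 hm0))]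
          exact hv)
        simp only [RingHom.comp_apply, map_div₀, map_mul, map_natCast, Nat.cast_pow, map_pow,
          norm_div, norm_mul, norm_pow, FLTAgent.Global.norm_prime_kq] at h1
        refine lt_of_le_of_lt ?_ hk
        rw [hρdef, norm_div, div_le_iff₀ (norm_pos_iff.2 hQ')]
        rwa [div_le_one₀ (by
          have := norm_pos_iff.2 hQ'
          have : (0 : ℝ) < (((q : ℕ) : ℝ)⁻¹) ^ k := pow_pos (inv_pos.2 (by exact_mod_cast q.2.pos)) k
          positivity)] at h1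
      have hsmall : ∀ y, ψ y ≠ 0 → min ‖ψ l‖ ‖ψ μ‖ ≤ ‖ψ y‖ → ‖ρ / ψ y‖ < δ ^ 3 := fun y hy hyy => by
        rw [norm_div, div_lt_iff₀ (norm_pos_iff.2 hy)]
        exact hρ.trans_le (mul_le_mul_of_nonneg_left hyy (by positivity))
      have hu := hsmall l ((map_ne_zero ψ).2 hl0) (min_le_left _ _)
      have hu' := hsmall μ ((map_ne_zero ψ).2 hμ0) (min_le_right _ _)
      have hδ3 : δ ^ 3 ≤ 1 := pow_le_one₀ hδ0.le hδ1
      have hone : ‖1 + ρ / ψ l‖ = 1 := by
        rw [IsUltrametricDist.norm_add_eq_max_of_norm_ne_norm (by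
          rw [norm_one]; exact (hu.trans_le hδ3).ne'), norm_one, max_eq_left (hu.trans_le hδ3).le]
      -- the elements
      have hnz : ∀ m : QQbar, m ^ 2 = σ (i p) * m - σ (i d) → qval2 σ m x ≠ 0 := fun m hm h0 => by
        have hx0 := eq_zero_of_qval2 σ m hm hDE h0
        rw [hx0] at hN
        simp only [qnorm, qmul, qconj, Prod.fst_zero, Prod.snd_zero, map_zero, mul_zero, sub_zero,
          add_zero, Prod.mk.injEq] at hN
        exact hQ (i.injective (by rw [map_zero]; exact hN.2.symm))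
      have hf0 : qval2 σ l x / qval2 σ μ x ≠ 0 := div_ne_zero (hnz l hlσ) (hnz μ hμσ)
      set f := toQMul _ hf0
      set Nf := f + s • f + s • s • f
      have hNf : qval Nf = qval2 φ l (P', Q') / qval2 φ μ (P', Q') := by
        show qval f * s (qval f) * s (s (qval f)) = _
        rw [show qval f = qval2 σ l x / qval2 σ μ x from rfl, map_div₀, map_div₀, div_mul_div_comm,
          div_mul_div_comm, ← hnorm l hlσ (hHl s hs) x, ← hnorm μ hμσ (hHμ s hs) x, hN]
        rfl
      have hNfH : Nf ∈ fixSub (A := QMul) H := FLTAgent.Global.mem_fixSub_qmul.2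
        (FLTAgent.Global.mem_fixField_iff.2 fun u hu => by
          rw [hNf, map_div₀]
          simp only [qval2, map_add, map_mul, hHφ u hu, hHl u hu, hHμ u hu])
      have hfP : f ∈ fixSub (A := QMul) P := FLTAgent.Global.mem_fixSub_qmul.2
        (FLTAgent.Global.mem_fixField_iff.2 fun u hu => by
          rw [show qval f = qval2 σ l x / qval2 σ μ x from rfl, map_div₀]
          simp only [qval2, map_add, map_mul, hPσ u hu, hHl u hu.1, hHμ u hu.1])
      set ε := qval a / qval Nf with hεdef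
      have hfac : ∀ m : QQbar, m ≠ 0 → ψ (qval2 φ m (P', Q')) =
          ψ (φ Q') * ψ m * (1 + ρ / ψ m) := fun m hm => by
        have hm' : ψ m ≠ 0 := (map_ne_zero ψ).2 hm
        simp only [qval2, map_add, map_mul, hρdef]
        field_simp
        ring
      have hψε : ψ ε = (1 + ρ / ψ μ) / (1 + ρ / ψ l) := by
        rw [hεdef, map_div₀, hNf, map_div₀, hfac l hl0, hfac μ hμ0,
          show qval a = t from rfl, ht, map_div₀]
        have := (map_ne_zero ψ).2 hl0
        have := (map_ne_zero ψ).2 hμ0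
        have h1 : (1 + ρ / ψ l) ≠ 0 := fun e => by rw [e, norm_zero] at hone; exact zero_ne_one hone
        field_simp
      have hε1 : ‖ψ ε - 1‖ < δ ^ 3 := by
        rw [hψε, div_sub_one (fun e => by rw [e, norm_zero] at hone; exact zero_ne_one hone), norm_div,
          hone, div_one, show 1 + ρ / ψ μ - (1 + ρ / ψ l) = ρ / ψ μ + -(ρ / ψ l) by ring]
        exact (IsUltrametricDist.norm_add_le_max _ _).trans_lt (max_lt hu' (by rwa [norm_neg]))
      obtain ⟨y, hy3, hy1⟩ := exists_cube_root_near hz hδ0 hε1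
      have hy0 : y ≠ 0 := by
        rintro rfl
        rw [zero_sub, norm_neg, norm_one] at hy1
        exact absurd (hy1.trans_le hδ1) (lt_irrefl _)
      have hεH : ∀ u ∈ H, u ε = ε := fun u hu => by
        rw [hεdef, map_div₀, show u (qval a) = qval a from
            FLTAgent.Global.mem_fixField_iff.1 htH u hu,
          show u (qval Nf) = qval Nf from
            FLTAgent.Global.mem_fixField_iff.1 (FLTAgent.Global.mem_fixSub_qmul.1 hNfH) u hu]
      obtain ⟨zz, hzz, hzv, -, -⟩ := FLTAgent.Global.exists_semi_value L c.hLH g y hy0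
        (fun γ u hu e => by
          refine (eq_of_cube_near hz ⟨(min_le_right _ _).trans (min_le_left _ _),
            (min_le_right _ _).trans (min_le_right _ _)⟩ hδ1 ?_ hy0 hy1 ?_).symm
          · rw [hy3, ← map_pow, hy3, hψa, ← FLTAgent.Global.emb_loc]
            refine congrArg (emb q) ?_
            show _ = (loc q γ * g) ε
            rw [e, AlgEquiv.mul_apply, hεH u hu]
          · rw [show γ y - 1 = γ (y - 1) by simp, FLTAgent.Global.norm_gq]; exact hy1)
      set K := DoubleCoset.mk (dec q) H g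
      have hfS : comp q (principal f) ∈ fixSub (A := Semi q) P :=
        FLTAgent.Global.comp_mem_fixSub (FLTAgent.Global.principal_mem_fixSub hfP) q
      have hNS : comp q (principal Nf) + 3 • zz ∈ fixSub (A := Semi q) H :=
        add_mem (FLTAgent.Global.comp_mem_fixSub (FLTAgent.Global.principal_mem_fixSub hNfH) q)
          (nsmul_mem hzz 3)
      refine ⟨onPlace L c.hLH K (comp q (principal f) + zz), FLTAgent.Global.onPlace_mem_fixSub L c.hLH
        c.hP.le K (add_mem hfS fun u hu => hzz u (c.hP.le hu)), ?_⟩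
      simp only [FLTAgent.Global.smul_onPlace L c.hLH (pow_mem hs _)]
      rw [← map_sum]
      have e : ∑ j ∈ Finset.range 3, s ^ j • (comp q (principal f) + zz) =
          comp q (principal Nf) + 3 • zz := by
        rw [hsum, smul_add, smul_add, hzz s hs, hzz s hs]
        simp only [Nf, map_add, FLTAgent.Global.principal_smul, FLTAgent.Global.comp_smul]
        abel
      rw [e]
      refine FLTAgent.Global.onPlace_congr L c.hLH hNS
        (FLTAgent.Global.comp_mem_fixSub (FLTAgent.Global.principal_mem_fixSub haH) q) ?_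
      rw [FLTAgent.Global.sval_add, FLTAgent.Global.sval_nsmul, hzv, hy3,
        FLTAgent.Global.sval_principal, FLTAgent.Global.sval_principal, ← hψa, ← hψa, ← map_mul,
        hεdef, mul_div_cancel₀ _ (FLTAgent.Global.qval_ne_zero Nf)]
  -- units are norms almost everywhere
  set a' := 3 • toQMul A hA0
  set Q : Finset Nat.Primes :=
    {⟨3, Nat.prime_three⟩} ∪ (principal a).2.2.toFinset ∪ (principal a').2.2.toFinset
  have hunit : ∀ q ∉ Q, ∃ y ∈ semiUnit q ⊓ fixSub (A := Semi q) P,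
      ∑ j ∈ Finset.range 3, s ^ j • y = comp q (principal a) := by
    intro q hq
    simp only [Q, Finset.mem_union, Finset.mem_singleton, Set.Finite.mem_toFinset, Set.mem_ofPred_eq,
      not_or, not_not] at hq
    refine c.exists_norm_unit hs hsP (by norm_num) (fun e => hq.1.1 (Subtype.ext e)) hroot
      (fun g => ⟨comp q (principal a'), ⟨hq.2, FLTAgent.Global.comp_mem_fixSub
        (FLTAgent.Global.principal_mem_fixSub (c.pow_root_mem hroot)) q⟩, 0, zero_mem _, ?_⟩)
      ⟨hq.1.2, FLTAgent.Global.comp_mem_fixSub (FLTAgent.Global.principal_mem_fixSub haH) q⟩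
    rw [FLTAgent.Global.sval_zero, one_pow, mul_one, FLTAgent.Global.sval_principal,
      FLTAgent.Global.qval_nsmul]
    rfl
  -- an idele with norm `a`
  have hY' : ∀ q, ∃ y ∈ fixSub (A := Semi q) P, (q ∉ Q → y ∈ semiUnit q) ∧
      ∑ j ∈ Finset.range 3, s ^ j • y = comp q (principal a) := by
    intro q
    by_cases hq : q ∈ Q
    · obtain ⟨y, hy, e⟩ := hlocal q
      exact ⟨y, hy, fun e' => absurd hq e', e⟩
    · obtain ⟨y, hy, e⟩ := hunit q hq
      exact ⟨y, hy.2, fun _ => hy.1, e⟩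
  choose y hy hyu hye using hY'
  set Y := FLTAgent.Global.mkIdele L y (fun q u hu => hy q u (c.hLP hu))
    (Q.finite_toSet.subset fun q hq => by_contra fun e => hq (hyu q e))
  have hY : Y ∈ fixSub (A := Idele) P := FLTAgent.Global.mkIdele_mem_fixSub _ _ _ _ hy
  have hNY : ∑ j ∈ Finset.range 3, s ^ j • Y = principal a := FLTAgent.Global.idele_ext fun q => by
    rw [map_sum]
    simp only [FLTAgent.Global.comp_smul]
    exact hye q
  obtain ⟨-, hH1⟩ := c.tate_cl_eq hs hsP (by norm_num)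
  obtain ⟨c', hc', hcY⟩ := FLTAgent.Global.exists_sub_of_subsingleton hH1 (a := toCl Y)
    (fun u hu => by rw [FLTAgent.Global.smul_toCl, hY u hu]) (by
      rw [show ∑ j ∈ Finset.range 3, s ^ j • toCl Y = toCl (∑ j ∈ Finset.range 3, s ^ j • Y) by
        rw [map_sum]; exact Finset.sum_congr rfl fun j _ => FLTAgent.Global.smul_toCl _ _, hNY]
      exact FLTAgent.Global.toCl_eq_zero_iff.2 ⟨a, rfl⟩)
  obtain ⟨Y', hY'P, rfl⟩ := FLTAgent.Global.exists_fix_toCl_eq L c.hLP hc'
  obtain ⟨b, hb⟩ := FLTAgent.Global.toCl_eq_zero_iff.1 (show toCl (Y - (s • Y' - Y')) = 0 by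
    rw [map_sub, map_sub, ← FLTAgent.Global.smul_toCl, hcY, sub_self])
  have hbP : b ∈ fixSub (A := QMul) P := FLTAgent.Global.mem_fixSub_of_principal (by
    rw [hb]
    exact sub_mem hY (sub_mem (c.smul_mem_fixSub hs hY'P) hY'P))
  have hNb : b + s • b + s • s • b = a := by
    refine FLTAgent.Global.principal_injective ?_
    have h3 : s • s • s • Y' = Y' := by
      rw [← mul_smul, ← mul_smul]
      refine hY'P _ ?_
      have := (c.pow_mem_iff hs hsP (i := 3)).2 dvd_rfl
      simpa [pow_succ, mul_assoc] using this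
    rw [map_add, map_add, FLTAgent.Global.principal_smul, FLTAgent.Global.principal_smul,
      FLTAgent.Global.principal_smul, hb, ← hNY, Finset.sum_range_succ, Finset.sum_range_succ,
      Finset.sum_range_one, pow_zero, one_smul, pow_one, pow_two, mul_smul, smul_sub, smul_sub,
      smul_sub, smul_sub, h3]
    abel
  -- coordinates
  have hbE : qval b ∈ quadField σ l hlσ hDE := by
    rw [← fixField_quadSub σ l hlσ hDE]
    refine FLTAgent.Global.mem_fixField_iff.2 fun u hu => ?_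
    obtain ⟨h1, h2⟩ := (mem_quadSub σ l hlσ hDE).1 hu
    exact FLTAgent.Global.mem_fixField_iff.1 (FLTAgent.Global.mem_fixSub_qmul.1 hbP) u
      ⟨(mem_quadSub φ l hl hD).2 ⟨fun z => h1 (i z), h2⟩, h1 α⟩
  obtain ⟨e, he⟩ := hbE
  refine ⟨e, qval2_injective σ l hlσ hDE ?_⟩
  rw [hnorm l hlσ (hHl s hs) e, he]
  have h2 := congrArg qval hNb
  simp only [FLTAgent.Global.qval_add, FLTAgent.Global.qval_smul] at h2
  rw [h2]
  show t = _
  rw [htdef]
  simp [qval2, φ]

theorem mat2_sq {R : Type*} [CommRing R] (M : Matrix (Fin 2) (Fin 2) R) :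
    M ^ 2 = M.trace • M - M.det • (1 : Matrix (Fin 2) (Fin 2) R) := by
  ext j k
  fin_cases j <;> fin_cases k <;>
    simp [pow_two, Matrix.mul_apply, Fin.sum_univ_two, Matrix.trace_fin_two, Matrix.det_fin_two] <;>
    ring

theorem scalar_coe {R : Type*} [CommRing R] (u : Rˣ) :
    ((Matrix.GeneralLinearGroup.scalar (Fin 2) u : GL (Fin 2) R) : Matrix (Fin 2) (Fin 2) R) =
      (u : R) • 1 := by
  show Matrix.scalar (Fin 2) (u : R) = _
  rw [Matrix.scalar_apply, Matrix.smul_one_eq_diagonal]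

theorem scalar_comm {R : Type*} [CommRing R] (u : Rˣ) (g : GL (Fin 2) R) :
    Matrix.GeneralLinearGroup.scalar (Fin 2) u * g = g * Matrix.GeneralLinearGroup.scalar (Fin 2) u :=
  Units.ext (by rw [Units.val_mul, Units.val_mul, scalar_coe, smul_mul_assoc, one_mul, mul_smul_comm,
    mul_one])

/-- **Twisted norms of elliptic classes.** -/
theorem exists_norm_preimage (h : Ell.CycGen i τ 3) {ζ : F} (hζ : IsPrimitiveRoot ζ 3)
    {δ : GL (Fin 2) F} (hδ : EllElem δ)
    (hloc : ∀ v : HeightOneSpectrum (𝓞 F), (∃ w, placeBelow i w = v ∧ placeBelow τ w ≠ w) ∨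
      ∀ m : ℕ, 0 < m → ∃ (x : E × E) (P Q : F),
        qnorm τ (i (δ : Matrix (Fin 2) (Fin 2) F).trace) (i (δ : Matrix (Fin 2) (Fin 2) F).det) x =
          (i P, i Q) ∧ Q ≠ 0 ∧ v.valuation F P ≤ v.valuation F ((m : F) * Q)) :
    ∃ (γ : GL (Fin 2) E) (a : Eˣ),
      (twNorm τ 3 γ : Matrix (Fin 2) (Fin 2) E) =
          (a : E) • (Matrix.GeneralLinearGroup.map i δ : Matrix (Fin 2) (Fin 2) E) ∧
        Commute γ (Matrix.GeneralLinearGroup.map i δ) := by
  set p := (δ : Matrix (Fin 2) (Fin 2) F).trace with hp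
  set d := (δ : Matrix (Fin 2) (Fin 2) F).det with hd
  have hd0 : d ≠ 0 := (Matrix.GeneralLinearGroup.det δ).ne_zero
  obtain ⟨e, he⟩ := exists_quad_norm h hζ hδ.1 hd0 hδ.2 hloc
  set δE := Matrix.GeneralLinearGroup.map i δ
  set D : Matrix (Fin 2) (Fin 2) E := (δE : Matrix (Fin 2) (Fin 2) E) with hD
  have hDt : D.trace = i p := (AddMonoidHom.map_trace i.toAddMonoidHom _).symm
  have hDd : D.det = i d := (i.map_det _).symm
  have hsq : D ^ 2 = i p • D - i d • (1 : Matrix (Fin 2) (Fin 2) E) := by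
    rw [← hDt, ← hDd]; exact mat2_sq D
  have hτD : D.map τ = D := by
    ext j k
    exact h.fixed _
  set X := qmat D e with hX
  have hmap : ∀ x, (qmat D x).map τ = qmat D (qconj τ x) := fun x => by
    ext j k
    have := congrFun (congrFun hτD j) k
    simp only [Matrix.map_apply] at this
    by_cases hjk : j = k
    · subst hjk; simp [qmat, qconj, this]
    · simp [qmat, qconj, hjk, this]
  have hN : X * X.map τ * (X.map τ).map τ = (i d)⁻¹ • D ^ 2 := by
    rw [hX, hmap, hmap, ← qmat_qmul, ← qmat_qmul, hDt, hDd,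
      show qmul (i p) (i d) (qmul (i p) (i d) e (qconj τ e)) (qconj τ (qconj τ e)) = (-1, i (p / d)) from he,
      hsq, qmat, smul_sub, smul_smul, smul_smul, map_div₀, inv_mul_cancel₀ ((map_ne_zero i).2 hd0)]
    module
  have hXd : X.det ≠ 0 := fun h0 => by
    have h1 := congrArg Matrix.det hN
    rw [Matrix.det_mul, Matrix.det_mul, h0, zero_mul, zero_mul, Matrix.det_smul, Matrix.det_pow,
      hDd, eq_comm, mul_eq_zero] at h1
    rcases h1 with h1 | h1
    · exact (pow_ne_zero _ (inv_ne_zero ((map_ne_zero i).2 hd0))) h1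
    · exact pow_ne_zero _ ((map_ne_zero i).2 hd0) h1
  let G : GL (Fin 2) E := Matrix.GeneralLinearGroup.mkOfDetNeZero X hXd
  have hcomm : Commute G δE := Units.ext (by
    show X * D = D * X
    simp only [hX, qmat, add_mul, mul_add, smul_mul_assoc, mul_smul_comm, one_mul, mul_one])
  set u : Eˣ := (Units.mk0 (i d) ((map_ne_zero i).2 hd0))⁻¹
  have hscal : ((Matrix.GeneralLinearGroup.scalar (Fin 2) u : GL (Fin 2) E) :
      Matrix (Fin 2) (Fin 2) E) = (i d)⁻¹ • 1 := by
    rw [scalar_coe]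
    simp [u]
  have hNG : G * gl τ G * gl τ (gl τ G) = δE ^ 2 * Matrix.GeneralLinearGroup.scalar (Fin 2) u := Units.ext (by
    show X * X.map τ * (X.map τ).map τ = _
    rw [hN, Units.val_mul, Units.val_pow_eq_pow_val, hscal, mul_smul_comm, mul_one, ← hD])
  have hτδ : gl τ δE = δE := Units.ext hτD
  have hc1 : Commute (gl τ G) δE := by simpa [hτδ] using hcomm.map (gl τ)
  have hc2 : Commute (gl τ (gl τ G)) δE := by simpa [hτδ] using hc1.map (gl τ)
  have hτ3 : gl τ (gl τ (gl τ G)) = G := Units.ext (by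
    ext j k; exact cyc_cube h _)
  have hcG : Commute G (gl τ G) := Units.ext (by
    show X * X.map τ = X.map τ * X
    rw [hX, hmap, ← qmat_qmul, ← qmat_qmul, qmul_comm])
  set S := Matrix.GeneralLinearGroup.scalar (Fin 2) (R := E)
  refine ⟨G ^ 2 * δE⁻¹, u ^ 2, ?_, (hcomm.pow_left 2).mul_left (Commute.refl δE).inv_left⟩
  have key : twNorm τ 3 (G ^ 2 * δE⁻¹) = δE * S (u ^ 2) := by
    simp only [twNorm, mul_one, map_mul, map_pow, map_inv, map_one, hτδ]
    have c1 : Commute δE⁻¹ (gl τ G ^ 2) := (hc1.pow_left 2).symm.inv_left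
    have c2 : Commute δE⁻¹ (gl τ (gl τ G) ^ 2) := (hc2.pow_left 2).symm.inv_left
    have cG : Commute (G * gl τ G) (gl τ (gl τ G)) := by
      have h2 : Commute (gl τ (gl τ G)) G := by
        have := (hcG.map (gl τ)).map (gl τ)
        rwa [hτ3] at this
      exact h2.symm.mul_left (hcG.map (gl τ))
    calc G ^ 2 * δE⁻¹ * (gl τ G ^ 2 * δE⁻¹ * (gl τ (gl τ G) ^ 2 * δE⁻¹))
        = G ^ 2 * gl τ G ^ 2 * gl τ (gl τ G) ^ 2 * (δE⁻¹ * δE⁻¹ * δE⁻¹) := by
          simp only [mul_assoc]
          rw [← mul_assoc δE⁻¹ (gl τ G ^ 2), c1.eq, mul_assoc, ← mul_assoc δE⁻¹ δE⁻¹,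
            ← mul_assoc (δE⁻¹ * δE⁻¹) (gl τ (gl τ G) ^ 2), (c2.mul_left c2).eq]
          simp only [mul_assoc]
      _ = (δE ^ 2 * S u) ^ 2 * (δE⁻¹ * δE⁻¹ * δE⁻¹) := by
          rw [← hNG, cG.mul_pow, hcG.mul_pow]
      _ = δE * S u ^ 2 := by
          rw [(show Commute (δE ^ 2) (S u) from (scalar_comm u _).symm).mul_pow,
            mul_assoc, show S u ^ 2 * (δE⁻¹ * δE⁻¹ * δE⁻¹) = (δE⁻¹ * δE⁻¹ * δE⁻¹) * S u ^ 2 by
              rw [← map_pow]; exact scalar_comm _ _, ← mul_assoc]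
          congr 1
          group
  rw [key, Units.val_mul, scalar_coe, mul_smul_comm, mul_one]

end FLTAgent.LT.Match
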