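import Mathlib.Algebra.QuadraticAlgebra.Basic
import Mathlib.GroupTheory.Index
import Mathlib.LinearAlgebra.Matrix.Determinant.Basic
import Mathlib.RingTheory.LocalRing.Basic
import Mathlib.Tactic

/-!
A ring with an automorphism of order three moving some element by a unit: descent for twisted fixed
matrices (Hilbert 90) and norms of units of quadratic algebras with fixed coefficients.
-/

set_option autoImplicit false
set_option linter.unusedSectionVars false

noncomputable section

namespace FLTAgent.LT.Match.NormUnits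

open Matrix

variable {S : Type*} [CommRing S] (τ : S →+* S)

/-- The three term resolvent. -/
def comb (k : Matrix (Fin 2) (Fin 2) S) (c : S) : Matrix (Fin 2) (Fin 2) S :=
  c • (1 : Matrix (Fin 2) (Fin 2) S) + τ c • k + τ (τ c) • (k * k.map τ)

theorem comb_add (k : Matrix (Fin 2) (Fin 2) S) (c c' : S) :
    comb τ k (c + c') = comb τ k c + comb τ k c' := by
  simp only [comb, map_add, add_smul]
  abel

variable {τ}

theorem map_one_tau : (1 : Matrix (Fin 2) (Fin 2) S).map τ = 1 :=
  Matrix.map_one τ (map_zero τ) (map_one τ)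

/-- The resolvent is fixed by the twisted automorphism. -/
theorem comb_twist (hcube : ∀ x, τ (τ (τ x)) = x) {k : Matrix (Fin 2) (Fin 2) S}
    (hk : k * k.map τ * (k.map τ).map τ = 1) (c : S) : k * (comb τ k c).map τ = comb τ k c := by
  have h : (comb τ k c).map τ =
      τ c • (1 : Matrix (Fin 2) (Fin 2) S) + τ (τ c) • k.map τ + c • (k.map τ * (k.map τ).map τ) := by
    rw [comb, Matrix.map_add _ (map_add τ), Matrix.map_add _ (map_add τ),
      Matrix.map_smul' _ _ _ (map_mul τ), Matrix.map_smul' _ _ _ (map_mul τ),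
      Matrix.map_smul' _ _ _ (map_mul τ), map_one_tau, Matrix.map_mul, hcube]
  rw [h, mul_add, mul_add, Matrix.mul_smul, Matrix.mul_smul, Matrix.mul_smul, mul_one,
    ← mul_assoc, hk, comb]
  abel

theorem isUnit_differences (hcube : ∀ x, τ (τ (τ x)) = x) {θ : S} (hθ : IsUnit (τ θ - θ)) :
    IsUnit ((θ - τ θ) * (θ - τ (τ θ))) := by
  have h1 : IsUnit (θ - τ θ) := by rw [← neg_sub]; exact hθ.neg
  have h2 : IsUnit (θ - τ (τ θ)) := by
    have := (hθ.map τ).map τ
    rwa [map_sub, map_sub, hcube] at this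
  exact h1.mul h2

/-- An element of trace one. -/
theorem exists_trace_one (hcube : ∀ x, τ (τ (τ x)) = x) {θ : S} (hθ : IsUnit (τ θ - θ)) :
    ∃ b : S, b + τ b + τ (τ b) = 1 := by
  obtain ⟨e, he⟩ := (isUnit_differences hcube hθ).exists_right_inv
  refine ⟨τ θ * τ (τ θ) * e, ?_⟩
  have he1 := congrArg τ he
  have he2 := congrArg τ he1
  simp only [map_mul, map_sub, map_one, hcube] at he1 he2 ⊢
  have hU : IsUnit ((θ - τ θ) * (τ θ - τ (τ θ)) * (τ (τ θ) - θ)) := by
    have h1 : IsUnit (θ - τ θ) := by rw [← neg_sub]; exact hθ.neg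
    have h2 : IsUnit (τ θ - τ (τ θ)) := by simpa using h1.map τ
    have h3 : IsUnit (τ (τ θ) - θ) := by simpa [hcube] using h2.map τ
    exact (h1.mul h2).mul h3
  refine hU.mul_left_cancel ?_
  linear_combination (-(τ θ * τ (τ θ) * (τ θ - τ (τ θ)))) * he +
    (-(τ (τ θ) * θ * (τ (τ θ) - θ))) * he1 + (-(θ * τ θ * (θ - τ θ))) * he2

theorem det_comb3 (a b c : S) (A B C : Matrix (Fin 2) (Fin 2) S) :
    (a • A + b • B + c • C).det = a ^ 2 * A.det + b ^ 2 * B.det + c ^ 2 * C.det +
      a * b * ((A + B).det - A.det - B.det) + a * c * ((A + C).det - A.det - C.det) +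
      b * c * ((B + C).det - B.det - C.det) := by
  simp [det_fin_two]
  ring

/-- Some resolvent is invertible. -/
theorem exists_isUnit_det [IsLocalRing S] (hcube : ∀ x, τ (τ (τ x)) = x) {θ : S}
    (hθ : IsUnit (τ θ - θ)) (k : Matrix (Fin 2) (Fin 2) S) :
    ∃ c : S, IsUnit (comb τ k c).det := by
  by_contra! hall
  have hI : ∀ c, (comb τ k c).det ∈ IsLocalRing.maximalIdeal S := hall
  obtain ⟨e, he⟩ := (isUnit_differences hcube hθ).exists_right_inv
  set b0 := τ θ * τ (τ θ) * e
  set b1 := -(τ θ + τ (τ θ)) * e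
  have h1 : b0 • comb τ k 1 + b1 • comb τ k θ + e • comb τ k (θ ^ 2) =
      (1 : Matrix (Fin 2) (Fin 2) S) := by
    ext i j
    simp only [comb, b0, b1, map_one, map_pow, Matrix.add_apply, Matrix.smul_apply, smul_eq_mul]
    linear_combination (1 : Matrix (Fin 2) (Fin 2) S) i j * he
  have hdet := det_comb3 b0 b1 e (comb τ k 1) (comb τ k θ) (comb τ k (θ ^ 2))
  rw [h1, det_one, ← comb_add, ← comb_add, ← comb_add] at hdet
  refine (IsLocalRing.maximalIdeal.isMaximal S).ne_top ((Ideal.eq_top_iff_one _).2 ?_)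
  rw [hdet]
  have hD : ∀ c c' : S,
      (comb τ k c').det - (comb τ k c).det ∈ IsLocalRing.maximalIdeal S := fun c c' =>
    Ideal.sub_mem _ (hI c') (hI c)
  have hP : ∀ c c' : S, (comb τ k (c + c')).det - (comb τ k c).det - (comb τ k c').det ∈
      IsLocalRing.maximalIdeal S := fun c c' => Ideal.sub_mem _ (hD c (c + c')) (hI c')
  exact add_mem (add_mem (add_mem (add_mem (add_mem (Ideal.mul_mem_left _ _ (hI 1))
    (Ideal.mul_mem_left _ _ (hI θ))) (Ideal.mul_mem_left _ _ (hI (θ ^ 2))))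
    (Ideal.mul_mem_left _ _ (hP 1 θ))) (Ideal.mul_mem_left _ _ (hP 1 (θ ^ 2))))
    (Ideal.mul_mem_left _ _ (hP θ (θ ^ 2)))

/-! ### The quadratic algebra -/

/-- `x + y ω` with `ω² = t ω - d`. -/
abbrev QA (t d : S) := QuadraticAlgebra S (-d) t

variable {t d : S}

/-- The automorphism on the coordinates. -/
def sig (ht : τ t = t) (hd : τ d = d) : QA t d →+* QA t d where
  toFun x := ⟨τ x.re, τ x.im⟩
  map_one' := by ext <;> simp [QuadraticAlgebra.re_one, QuadraticAlgebra.im_one]
  map_zero' := by ext <;> simp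
  map_add' x y := by ext <;> simp
  map_mul' x y := by ext <;> simp [ht, hd]

/-- The matrices commuting with a matrix of trace `t` and determinant `d`. -/
def ev (D : Matrix (Fin 2) (Fin 2) S) (htr : D.trace = t) (hdet : D.det = d) :
    QA t d →+* Matrix (Fin 2) (Fin 2) S where
  toFun x := x.re • (1 : Matrix (Fin 2) (Fin 2) S) + x.im • D
  map_one' := by simp [QuadraticAlgebra.re_one, QuadraticAlgebra.im_one]
  map_zero' := by simp
  map_add' x y := by
    simp only [QuadraticAlgebra.re_add, QuadraticAlgebra.im_add, add_smul]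
    abel
  map_mul' x y := by
    rw [det_fin_two] at hdet
    rw [trace_fin_two] at htr
    ext i j
    fin_cases i <;> fin_cases j <;> simp [Matrix.mul_apply, Fin.sum_univ_two, ← hdet, ← htr] <;> ring

variable {D : Matrix (Fin 2) (Fin 2) S} (htr : D.trace = t) (hdet : D.det = d)

theorem ev_apply (x : QA t d) :
    ev D htr hdet x = x.re • (1 : Matrix (Fin 2) (Fin 2) S) + x.im • D := rfl

theorem det_ev (x : QA t d) : (ev D htr hdet x).det = QuadraticAlgebra.norm x := by
  rw [QuadraticAlgebra.norm_def, ev_apply, det_fin_two]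
  rw [det_fin_two] at hdet
  rw [trace_fin_two] at htr
  simp [← hdet, ← htr]
  ring

variable (ht : τ t = t) (hd : τ d = d)

theorem ev_sig (hD : D.map τ = D) (x : QA t d) :
    ev D htr hdet (sig ht hd x) = (ev D htr hdet x).map τ := by
  rw [ev_apply, ev_apply, Matrix.map_add _ (map_add τ), Matrix.map_smul' _ _ _ (map_mul τ),
    Matrix.map_smul' _ _ _ (map_mul τ), map_one_tau, hD]
  rfl

/-- The norm of the cubic extension. -/
def N3Q (x : QA t d) : QA t d := x * sig ht hd x * sig ht hd (sig ht hd x)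

theorem N3Q_mul (x y : QA t d) : N3Q ht hd (x * y) = N3Q ht hd x * N3Q ht hd y := by
  simp only [N3Q, map_mul]
  ring

theorem N3Q_one : N3Q (t := t) (d := d) ht hd 1 = 1 := by simp [N3Q]

theorem sig_cube (hcube : ∀ x, τ (τ (τ x)) = x) (x : QA t d) :
    sig ht hd (sig ht hd (sig ht hd x)) = x :=
  QuadraticAlgebra.ext (hcube _) (hcube _)

theorem sig_N3Q (hcube : ∀ x, τ (τ (τ x)) = x) (x : QA t d) :
    sig ht hd (N3Q ht hd x) = N3Q ht hd x := by
  simp only [N3Q, map_mul, sig_cube ht hd hcube]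
  ring

/-- **Hilbert 90.** -/
theorem hilbert90 [IsLocalRing S] (hcube : ∀ x, τ (τ (τ x)) = x) {θ : S} (hθ : IsUnit (τ θ - θ))
    {y : QA t d} (hy : N3Q ht hd y = 1) : ∃ z, IsUnit z ∧ y * sig ht hd z = z := by
  set Cm : Matrix (Fin 2) (Fin 2) S := !![0, -d; 1, t]
  have htr : Cm.trace = t := by simp [Cm, trace_fin_two]
  have hdet : Cm.det = d := by simp [Cm, det_fin_two]
  have hC : Cm.map τ = Cm := by
    ext i j
    fin_cases i <;> fin_cases j <;> simp [Cm, ht, hd]
  set k := ev Cm htr hdet y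
  have hk : k * k.map τ * (k.map τ).map τ = 1 := by
    simp only [k]
    rw [← ev_sig htr hdet ht hd hC, ← ev_sig htr hdet ht hd hC, ← map_mul, ← map_mul]
    exact (congrArg _ hy).trans (map_one _)
  obtain ⟨c, hc⟩ := exists_isUnit_det hcube hθ k
  set z : QA t d := ⟨c, 0⟩ + ⟨τ c, 0⟩ * y + ⟨τ (τ c), 0⟩ * (y * sig ht hd y)
  have hscal : ∀ s : S, ev Cm htr hdet ⟨s, 0⟩ = s • (1 : Matrix (Fin 2) (Fin 2) S) := fun s => by
    simp [ev_apply]
  have hz : ev Cm htr hdet z = comb τ k c := by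
    simp only [z, map_add, map_mul, hscal, comb, k, ev_sig htr hdet ht hd hC, Matrix.smul_mul,
      one_mul]
  refine ⟨z, QuadraticAlgebra.isUnit_iff_norm_isUnit.2 (det_ev htr hdet z ▸ hz ▸ hc), ?_⟩
  have hinj : Function.Injective (ev Cm htr hdet) := fun u v huv => by
    have h0 := congrFun (congrFun huv 0) 0
    have h1 := congrFun (congrFun huv 1) 0
    simp [ev_apply, Cm] at h0 h1
    exact QuadraticAlgebra.ext h0 h1
  refine hinj ?_
  rw [map_mul, ev_sig htr hdet ht hd hC, hz]
  exact comb_twist hcube hk c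

/-- **Norms of units.** -/
theorem exists_N3Q_eq [IsLocalRing S] [Finite S] (hcube : ∀ x, τ (τ (τ x)) = x) {θ : S}
    (hθ : IsUnit (τ θ - θ)) {u : QA t d} (hu : IsUnit u) (hfix : sig ht hd u = u) :
    ∃ w, IsUnit w ∧ N3Q ht hd w = u := by
  classical
  have : Finite (QA t d) := Finite.of_equiv _ (QuadraticAlgebra.equivProd (-d) t).symm
  set s : (QA t d)ˣ →* (QA t d)ˣ := Units.map (sig ht hd).toMonoidHom with hs
  set Nh : (QA t d)ˣ →* (QA t d)ˣ := MonoidHom.id _ * s * s.comp s with hNh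
  set ψ : (QA t d)ˣ →* (QA t d)ˣ := MonoidHom.id _ / s with hψ
  have hNval : ∀ x : (QA t d)ˣ, ((Nh x : (QA t d)ˣ) : QA t d) = N3Q ht hd x := fun x => rfl
  have hker : Nh.ker ≤ ψ.range := fun x hx => by
    obtain ⟨z, hz, e⟩ := hilbert90 ht hd hcube hθ (y := (x : QA t d))
      (by rw [← hNval, MonoidHom.mem_ker.1 hx, Units.val_one])
    refine ⟨hz.unit, ?_⟩
    show hz.unit / s hz.unit = x
    rw [div_eq_iff_eq_mul]
    exact Units.ext e.symm
  have hrange : Nh.range ≤ ψ.ker := by
    rintro _ ⟨x, rfl⟩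
    rw [MonoidHom.mem_ker]
    show Nh x / s (Nh x) = 1
    rw [div_eq_one]
    exact Units.ext (sig_N3Q ht hd hcube x).symm
  have hc1 := Nh.ker.card_mul_index
  have hc2 := ψ.ker.card_mul_index
  rw [Subgroup.index_ker] at hc1 hc2
  have hle : Nat.card ψ.ker ≤ Nat.card Nh.range := by
    have h1 : Nat.card Nh.ker ≤ Nat.card ψ.range := Subgroup.card_le_of_le hker
    have h2 : 0 < Nat.card ψ.range := Nat.card_pos
    refine Nat.le_of_mul_le_mul_right ?_ h2
    calc Nat.card ψ.ker * Nat.card ψ.range = Nat.card (QA t d)ˣ := hc2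
      _ = Nat.card Nh.ker * Nat.card Nh.range := hc1.symm
      _ ≤ Nat.card Nh.range * Nat.card ψ.range := by
        rw [mul_comm]; exact Nat.mul_le_mul_left _ h1
  have heq := Subgroup.eq_of_le_of_card_ge hrange hle
  have hmem : hu.unit ∈ ψ.ker := by
    rw [MonoidHom.mem_ker]
    show hu.unit / s hu.unit = 1
    rw [div_eq_one]
    exact Units.ext hfix.symm
  rw [← heq] at hmem
  obtain ⟨w, hw⟩ := hmem
  exact ⟨w, w.isUnit, by rw [← hNval, hw]; rfl⟩

end FLTAgent.LT.Match.NormUnits
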