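import Fermat.Agent.LT.TF.Match.BadLoc
import Fermat.Agent.LT.TF.Match.Inert
import Fermat.Agent.LT.TF.Match.Places

/-!
Cube roots in congruence subgroups where three is a unit: existence, uniqueness and naturality;
twisted classes inside a congruence subgroup are classes of fixed elements.
-/

set_option autoImplicit false
set_option linter.unusedSectionVars false

noncomputable section

namespace FLTAgent.LT.Match

open Matrix WithZero

local notation "Γ₀" => WithZero (Multiplicative ℤ)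

section one

variable {K : Type*} [Field K] [Valued K Γ₀] {e n : Γ₀}

theorem Ent.neg {A : Matrix (Fin 2) (Fin 2) K} (hA : Ent e A) : Ent e (-A) := fun i j => by
  rw [Matrix.neg_apply, Valuation.map_neg]; exact hA i j

theorem Ent.sub {A B : Matrix (Fin 2) (Fin 2) K} (hA : Ent e A) (hB : Ent e B) : Ent e (A - B) := by
  rw [sub_eq_add_neg]; exact hA.add hB.neg

theorem ent_of_lvl (he : e < 1) {r : GL (Fin 2) K} (hr : r ∈ lvl e) :
    Ent e ((r : Matrix (Fin 2) (Fin 2) K) - 1) :=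
  ((mem_lvl he.le).1 hr).1

/-- A matrix bounded by `e` times any bound of it vanishes. -/
theorem eq_zero_of_ent_contract (he : e < 1) {H : Matrix (Fin 2) (Fin 2) K}
    (h : ∀ r, Ent r H → Ent (e * r) H) : H = 0 := by
  obtain ⟨⟨a, b⟩, -, hmax⟩ := Finset.exists_max_image (Finset.univ : Finset (Fin 2 × Fin 2))
    (fun p => Valued.v (H p.1 p.2)) Finset.univ_nonempty
  have hH : Ent (Valued.v (H a b)) H := fun i k => hmax (i, k) (Finset.mem_univ _)
  have h0 : Valued.v (H a b) = (0 : Γ₀) := by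
    by_contra hne
    exact absurd (h _ hH a b) (not_le.2 (mul_lt_of_lt_one_left (zero_lt_iff.2 hne) he))
  ext i k
  have hik := hH i k
  rw [h0, le_zero_iff, map_eq_zero] at hik
  exact hik

theorem three_ne_zero_of_v (h3 : Valued.v (3 : K) = (1 : Γ₀)) : (3 : K) ≠ 0 := fun e0 => by
  simp [e0] at h3

theorem three_smul_eq (x : Matrix (Fin 2) (Fin 2) K) : (3 : K) • x = x + x + x := by
  rw [show (3 : K) = 1 + 1 + 1 by norm_num, add_smul, add_smul, one_smul]

theorem ent_of_three (h3 : Valued.v (3 : K) = (1 : Γ₀)) {r : Γ₀} {X : Matrix (Fin 2) (Fin 2) K}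
    (h : Ent r (X + X + X)) : Ent r X := fun i k => by
  have h' := h i k
  rw [← three_smul_eq, Matrix.smul_apply, smul_eq_mul, map_mul, h3, one_mul] at h'
  exact h'

theorem Ent.third (h3 : Valued.v (3 : K) = (1 : Γ₀)) {r : Γ₀} {X : Matrix (Fin 2) (Fin 2) K}
    (h : Ent r X) : Ent r ((3 : K)⁻¹ • X) := fun i k => by
  rw [Matrix.smul_apply, smul_eq_mul, map_mul, map_inv₀, h3, inv_one, one_mul]
  exact h i k

/-- **Cubes determine the intertwiners** inside a congruence subgroup. -/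
theorem intertwine (h3 : Valued.v (3 : K) = (1 : Γ₀)) (he : e < 1) {r r' : GL (Fin 2) K}
    (hr : r ∈ lvl e) (hr' : r' ∈ lvl e) {h : GL (Fin 2) K}
    (hh : h * (r * r * r) = r' * r' * r' * h) : h * r = r' * h := by
  set H : Matrix (Fin 2) (Fin 2) K := (h : Matrix (Fin 2) (Fin 2) K)
  set R : Matrix (Fin 2) (Fin 2) K := (r : Matrix (Fin 2) (Fin 2) K) with hR
  set R' : Matrix (Fin 2) (Fin 2) K := (r' : Matrix (Fin 2) (Fin 2) K) with hR'
  have hM : H * (R * R * R) = R' * R' * R' * H := congrArg Units.val hh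
  set D := H * R - R' * H
  have e1 : D * (R * R) + R' * D * R + R' * R' * D = 0 := by
    rw [← sub_eq_zero.2 hM]
    simp only [D]
    noncomm_ring
  have h0 : D = 0 := eq_zero_of_ent_contract he fun ρ hρ => ent_of_three h3 (by
    have a1 : Ent e (R * R - 1) := by
      simpa [hR] using ent_of_lvl he (mul_mem hr hr)
    have a2 : Ent e (R' * R' - 1) := by
      simpa [hR'] using ent_of_lvl he (mul_mem hr' hr')
    have t1 : Ent (e * ρ) (D * (R * R - 1)) := mul_comm e ρ ▸ hρ.mul a1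
    have t2 : Ent (e * ρ) ((R' - 1) * D * R) := by
      have := ((ent_of_lvl he hr').mul hρ).mul (ent_of_mem_lvl hr)
      rwa [mul_one] at this
    have t3 : Ent (e * ρ) (D * (R - 1)) := mul_comm e ρ ▸ hρ.mul (ent_of_lvl he hr)
    have t4 : Ent (e * ρ) ((R' * R' - 1) * D) := a2.mul hρ
    rw [show D + D + D = -(D * (R * R - 1) + ((R' - 1) * D * R + D * (R - 1)) + (R' * R' - 1) * D) +
      (D * (R * R) + R' * D * R + R' * R' * D) by noncomm_ring, e1, add_zero]
    exact ((t1.add (t2.add t3)).add t4).neg)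
  exact Units.ext (sub_eq_zero.1 h0)

variable [CompleteSpace K]

/-- **Cube roots** inside a congruence subgroup. -/
theorem exists_cube_root_lvl (h3 : Valued.v (3 : K) = (1 : Γ₀)) (he : e < 1) {t : GL (Fin 2) K}
    (ht : t ∈ lvl e) : ∃ r ∈ lvl e, r * r * r = t ∧
      ∀ n : Γ₀, Valued.v ((t : Matrix (Fin 2) (Fin 2) K) 1 0) ≤ n →
        Valued.v ((r : Matrix (Fin 2) (Fin 2) K) 1 0) ≤ n := by
  set T : Matrix (Fin 2) (Fin 2) K := (t : Matrix (Fin 2) (Fin 2) K)
  set C := (3 : K)⁻¹ • (T - 1) with hCdef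
  have hC : Ent e C := (ent_of_lvl he ht).third h3
  set f : Matrix (Fin 2) (Fin 2) K → Matrix (Fin 2) (Fin 2) K := fun X =>
    C - X * X - (3 : K)⁻¹ • (X * X * X) with hf
  have h2 : ∀ {X : Matrix (Fin 2) (Fin 2) K}, Ent e X → Ent e (X * X) := fun hX =>
    (hX.mul hX).mono (mul_le_of_le_one_right' he.le)
  have hmap : ∀ {X}, Ent e X → Ent e (f X) := fun hX =>
    (hC.sub (h2 hX)).sub ((((h2 hX).mul hX).mono (mul_le_of_le_one_right' he.le)).third h3)
  have hdiff : ∀ {X Y} {ρ : Γ₀}, Ent e X → Ent e Y → Ent ρ (X - Y) →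
      Ent (e * ρ) (f X - f Y) := by
    intro X Y ρ hX hY hd
    have a1 : Ent (e * ρ) (X * X - Y * Y) := by
      rw [show X * X - Y * Y = (X - Y) * X + Y * (X - Y) by noncomm_ring]
      exact (mul_comm e ρ ▸ hd.mul hX).add (hY.mul hd)
    have a2 : Ent (e * ρ) (X * X * X - Y * Y * Y) := by
      rw [show X * X * X - Y * Y * Y =
        (X - Y) * (X * X) + Y * (X - Y) * X + Y * Y * (X - Y) by noncomm_ring]
      exact ((mul_comm e ρ ▸ hd.mul (h2 hX)).add
        (((hY.mul hd).mul hX).mono (mul_le_of_le_one_right' he.le))).add ((h2 hY).mul hd)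
    rw [show f X - f Y = -((X * X - Y * Y) + (3 : K)⁻¹ • (X * X * X - Y * Y * Y)) by
      simp only [hf, smul_sub]; abel]
    exact (a1.add (a2.third h3)).neg
  set a : ℕ → Matrix (Fin 2) (Fin 2) K := fun n => f^[n] 0
  have ha : ∀ n, Ent e (a n) := fun n => by
    induction n with
    | zero => intro i k; simp [a]
    | succ n ih => simp only [a, Function.iterate_succ_apply']; exact hmap ih
  have hstep : ∀ n, Ent (e ^ (n + 1)) (a (n + 1) - a n) := fun n => by
    induction n with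
    | zero => simpa using (ha 1).sub (ha 0)
    | succ n ih =>
      have h := hdiff (ha (n + 1)) (ha n) ih
      simp only [a, Function.iterate_succ_apply'] at h ⊢
      rwa [pow_succ' e (n + 1)]
  choose L hL using fun i k => exists_limit (fun n => a n i k) he fun n =>
    (hstep n i k).trans (pow_le_pow_right_of_le_one' he.le n.le_succ)
  set X : Matrix (Fin 2) (Fin 2) K := Matrix.of L
  have hXn : ∀ n, Ent (e ^ n) (X - a n) := fun n i k => hL i k n
  have hX : Ent e X := by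
    have := (hXn 1).add ((ha 1).mono (pow_one e).ge)
    simpa using this
  have hfix : f X = X := by
    ext i k
    refine sub_eq_zero.1 (eq_zero_of_forall_le he le_rfl fun n => ?_)
    rw [mul_one, show f X i k - X i k = (f X - f (a n)) i k - (X - a (n + 1)) i k by
      simp only [a, Function.iterate_succ_apply', Matrix.sub_apply]; ring]
    exact Valued.v.map_sub_le
      ((hdiff hX (ha n) (hXn n) i k).trans (mul_le_of_le_one_left' he.le))
      ((hXn (n + 1) i k).trans (pow_le_pow_right_of_le_one' he.le n.le_succ))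
  have h30 := three_ne_zero_of_v h3
  have key : (1 + X) * (1 + X) * (1 + X) = T := by
    have h := congrArg (fun Y => (3 : K) • Y) hfix
    simp only [hf, hCdef, smul_sub, smul_smul, mul_inv_cancel₀ h30, one_smul] at h
    rw [three_smul_eq, three_smul_eq] at h
    calc (1 + X) * (1 + X) * (1 + X)
        = (X + X + X) + (X * X + X * X + X * X) + X * X * X + 1 := by noncomm_ring
      _ = T := by rw [← h]; abel
  have hdet : (1 + X).det ≠ 0 := fun h0 => by
    have := congrArg Matrix.det key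
    rw [det_mul, det_mul, h0, mul_zero] at this
    exact t.det_ne_zero this.symm
  refine ⟨Matrix.GeneralLinearGroup.mkOfDetNeZero (1 + X) hdet, mem_lvl_of_ent he ?_,
    Units.ext key, fun n hn => ?_⟩
  · simpa using hX
  show Valued.v ((1 + X) 1 0) ≤ n
  rw [Matrix.add_apply, Matrix.one_apply_ne one_ne_zero, zero_add]
  have hmul : ∀ {X Y : Matrix (Fin 2) (Fin 2) K}, Ent e X → Ent e Y → Valued.v (X 1 0) ≤ n →
      Valued.v (Y 1 0) ≤ n → Valued.v ((X * Y) 1 0) ≤ n := fun {X Y} hX hY h h' => by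
    rw [Matrix.mul_apply, Fin.sum_univ_two]
    refine Valued.v.map_add_le ?_ ?_ <;> rw [map_mul]
    · exact (mul_le_mul' h ((hY 0 0).trans he.le)).trans_eq (mul_one n)
    · exact (mul_le_mul' ((hX 1 1).trans he.le) h').trans_eq (one_mul n)
  have han : ∀ m, Valued.v (a m 1 0) ≤ n := fun m => by
    induction m with
    | zero => simp [a]
    | succ m ih =>
      have e3 : ∀ Y : Matrix (Fin 2) (Fin 2) K,
          Valued.v (((3 : K)⁻¹ • Y) 1 0) = (Valued.v (Y 1 0) : Γ₀) := fun Y => by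
        rw [Matrix.smul_apply, smul_eq_mul, map_mul, map_inv₀, h3, inv_one, one_mul]
      simp only [a, Function.iterate_succ_apply', hf, Matrix.sub_apply]
      refine Valued.v.map_sub_le (Valued.v.map_sub_le ?_ (hmul (ha m) (ha m) ih ih)) ?_
      · rw [hCdef, e3, Matrix.sub_apply, Matrix.one_apply_ne one_ne_zero, sub_zero]
        exact hn
      · rw [e3]
        exact hmul (h2 (ha m)) (ha m) (hmul (ha m) (ha m) ih ih) ih
  by_contra hlt
  rw [not_le] at hlt
  obtain ⟨m, hm⟩ := exists_pow_lt' he (zero_le.trans_lt hlt).ne'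
  have : Valued.v (X 1 0) < Valued.v (X 1 0) := calc
    Valued.v (X 1 0) = Valued.v ((X - a m) 1 0 + a m 1 0) := by rw [Matrix.sub_apply, sub_add_cancel]
    _ ≤ max (Valued.v ((X - a m) 1 0)) (Valued.v (a m 1 0)) := Valued.v.map_add _ _
    _ < Valued.v (X 1 0) := max_lt ((hXn m 1 0).trans_lt hm) ((han m).trans_lt hlt)
  exact lt_irrefl _ this

/-- Scalar cube roots close to one. -/
theorem exists_cube_root_one (h3 : Valued.v (3 : K) = (1 : Γ₀)) {η : K}
    (hη : Valued.v (η - 1) < (1 : Γ₀)) :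
    ∃ w : K, Valued.v (w - 1) ≤ Valued.v (η - 1) ∧ w * w * w = η := by
  have h30 := three_ne_zero_of_v h3
  have hv3 : ∀ x : K, Valued.v (x / 3) = (Valued.v x : Γ₀) := fun x => by rw [map_div₀, h3, div_one]
  obtain ⟨x, hx, hxe⟩ := exists_small_root (c := (η - 1) / 3) (by rwa [hv3]) (a := -1) (b := -1 / 3)
    (by simp) (by rw [hv3]; simp)
  refine ⟨1 + x, by rw [add_sub_cancel_left]; exact hx.trans (hv3 _).le, ?_⟩
  field_simp at hxe
  linear_combination -hxe

end one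

/-! ### Scalars -/

section scalars

variable {K : Type*} [Field K] [Valued K Γ₀] {e n : Γ₀}

theorem scal_mem_lvl (he : e < 1) {c : Kˣ} (hc : Valued.v ((c : K) - 1) ≤ e) :
    scal c ∈ lvl e := by
  rw [scal_eq_dg]; exact dg_mem_lvl he hc hc

theorem v_sub_one_of_scal_mem (he : e < 1) {c : Kˣ} (hc : scal c ∈ lvl e) :
    Valued.v ((c : K) - 1) ≤ e := by
  have := ent_of_lvl he hc 0 0
  simpa [scal] using this

theorem v_det_sub_one (he : e < 1) {k : GL (Fin 2) K} (hk : k ∈ lvl e) :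
    Valued.v ((k : Matrix (Fin 2) (Fin 2) K).det - 1) ≤ e := by
  have h := ent_of_lvl he hk
  have h00 := h 0 0; have h01 := h 0 1; have h10 := h 1 0; have h11 := h 1 1
  simp at h00 h01 h10 h11
  rw [Matrix.det_fin_two, show ∀ a b c d : K, a * d - b * c - 1 =
    (a - 1) * d + (d - 1) - b * c from fun a b c d => by ring]
  refine Valued.v.map_sub_le (Valued.v.map_add_le ?_ h11) ?_ <;> rw [map_mul]
  · exact (mul_le_mul' h00 (ent_of_mem_lvl hk 1 1)).trans_eq (mul_one _)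
  · exact (mul_le_mul' h01 (ent_of_mem_lvl hk 1 0)).trans_eq (mul_one _)

/-- Normalising the lower right entry. -/
theorem exists_norm11 (he : e < 1) {g : GL (Fin 2) K} (hg : g ∈ lvlZ e) :
    ∃ c : Kˣ, (c : K) = (g : Matrix (Fin 2) (Fin 2) K) 1 1 ∧ g * scal c⁻¹ ∈ lvl e := by
  obtain ⟨k, hk, c, rfl⟩ := hg
  have h11 := ent_of_lvl he hk 1 1
  simp at h11
  have hv := v_eq_one_of_sub he h11
  have hk0 : (k : Matrix (Fin 2) (Fin 2) K) 1 1 ≠ 0 := fun e0 => by simp [e0] at hv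
  refine ⟨Units.mk0 _ hk0 * c, by simp [scal], ?_⟩
  rw [_root_.mul_inv_rev, scal_mul, mul_assoc, ← mul_assoc (scal c), ← scal_mul, mul_inv_cancel,
    scal_one, one_mul]
  refine mul_mem hk (scal_mem_lvl he ?_)
  rw [Units.val_inv_eq_inv_val, Units.val_mk0, show ((k : Matrix (Fin 2) (Fin 2) K) 1 1)⁻¹ - 1 =
    -(((k : Matrix (Fin 2) (Fin 2) K) 1 1 - 1) / (k : Matrix (Fin 2) (Fin 2) K) 1 1) by
    field_simp; ring, Valuation.map_neg, map_div₀, hv, div_one]
  exact h11

theorem conj_mem_lvlZ {h k : GL (Fin 2) K} (hh : h ∈ lvlZ 1) (hk : k ∈ lvlZ e) :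
    h * k * h⁻¹ ∈ lvlZ e := by
  obtain ⟨h, hh, c, rfl⟩ := hh
  obtain ⟨k, hk, d, rfl⟩ := hk
  refine ⟨h * k * h⁻¹, conj_mem_lvl hh hk, d, ?_⟩
  calc h * scal c * (k * scal d) * (h * scal c)⁻¹
      = h * (scal c * (k * scal d) * (scal c)⁻¹) * h⁻¹ := by group
    _ = h * (k * scal d) * h⁻¹ := by rw [scal_mul_comm c (k * scal d), mul_inv_cancel_right]
    _ = _ := by rw [← mul_assoc h k, mul_assoc (h * k), scal_mul_comm, ← mul_assoc]

theorem commute_scal (c : Kˣ) (g : GL (Fin 2) K) : Commute g (scal c) := (scal_mul_comm c g).symm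

theorem mul_scal_cube (x : GL (Fin 2) K) (c : Kˣ) :
    x * scal c * (x * scal c) * (x * scal c) = x * x * x * scal (c * c * c) := by
  rw [scal_mul, scal_mul, (commute_scal c x).symm.mul_mul_mul_comm x (scal c),
    (show Commute (scal c * scal c) x from
      ((commute_scal c x).symm.mul_left (commute_scal c x).symm)).mul_mul_mul_comm (x * x) (scal c)]

theorem v_inv10 {k : GL (Fin 2) K} (hk : k ∈ lvl e) :
    Valued.v (((k⁻¹ : GL (Fin 2) K) : Matrix (Fin 2) (Fin 2) K) 1 0) =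
      (Valued.v ((k : Matrix (Fin 2) (Fin 2) K) 1 0) : Γ₀) := by
  rw [Matrix.coe_units_inv, Matrix.inv_def, Matrix.smul_apply, smul_eq_mul, map_mul,
    Ring.inverse_eq_inv', map_inv₀, v_det_of_mem_lvl hk, inv_one, one_mul, Matrix.adjugate_fin_two]
  simp

theorem v_one10 (n : Γ₀) : Valued.v ((1 : Matrix (Fin 2) (Fin 2) K) 1 0) ≤ n := by simp

theorem mem_pinGrp_of_lvl {k : GL (Fin 2) K} (hk : k ∈ lvl e)
    (hk' : Valued.v ((k : Matrix (Fin 2) (Fin 2) K) 1 0) ≤ n) : k ∈ pinGrp e n :=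
  ⟨k, hk, hk', (v_inv10 hk).trans_le hk', 1, by rw [scal_one, mul_one]⟩

theorem scal_mem_pinGrp (c : Kˣ) : scal c ∈ pinGrp e n :=
  ⟨1, one_mem _, v_one10 n, by rw [inv_one]; exact v_one10 n, c, (one_mul _).symm⟩

theorem mul_scal_mem_pinGrp_iff (x : GL (Fin 2) K) (c : Kˣ) :
    x * scal c ∈ pinGrp e n ↔ x ∈ pinGrp e n :=
  (pinGrp e n).mul_mem_cancel_right (scal_mem_pinGrp c)

theorem pinGrp_le_lvlZ : pinGrp (B := K) e n ≤ lvlZ e := by
  rintro _ ⟨k, hk, -, -, c, rfl⟩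
  exact ⟨k, hk, c, rfl⟩

theorem lvlZ_le_pinGrp {d : Γ₀} (hdn : d ≤ n) (hde : d ≤ e) (hd : d < 1) :
    lvlZ (K := K) d ≤ pinGrp e n := by
  rintro _ ⟨k, hk, c, rfl⟩
  refine (mul_scal_mem_pinGrp_iff k c).2 (mem_pinGrp_of_lvl (lvl_mono hde hk) ?_)
  have h := ent_of_lvl hd hk 1 0
  simp at h
  exact h.trans hdn

/-- The group is seen on the normalised representative. -/
theorem exists_norm11_pin (he : e < 1) {g : GL (Fin 2) K} (hg : g ∈ pinGrp e n) :
    ∃ c : Kˣ, (c : K) = (g : Matrix (Fin 2) (Fin 2) K) 1 1 ∧ g * scal c⁻¹ ∈ lvl e ∧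
      Valued.v (((g * scal c⁻¹ : GL (Fin 2) K)) 1 0) ≤ n := by
  obtain ⟨k, hk, hk', -, d, rfl⟩ := hg
  obtain ⟨c, hc, hmem⟩ := exists_norm11 he ⟨k, hk, d, rfl⟩
  refine ⟨c, hc, hmem, ?_⟩
  have h11 := ent_of_lvl he hk 1 1
  simp at h11
  have e1 : ((k * scal d * scal c⁻¹ : GL (Fin 2) K) : Matrix (Fin 2) (Fin 2) K) 1 0 =
      (k : Matrix (Fin 2) (Fin 2) K) 1 0 * ((d : K) / (c : K)) := by
    have key : ∀ u : Kˣ, ((k * scal u : GL (Fin 2) K) : Matrix (Fin 2) (Fin 2) K) 1 0 =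
        (k : Matrix (Fin 2) (Fin 2) K) 1 0 * (u : K) := fun u => by simp [scal]
    rw [mul_assoc, ← scal_mul, key]
    simp [div_eq_mul_inv]
  have e2 : (c : K) = (k : Matrix (Fin 2) (Fin 2) K) 1 1 * (d : K) := by
    rw [hc]; simp [scal]
  rw [e1, map_mul, map_div₀, e2, map_mul, v_eq_one_of_sub he h11, one_mul,
    div_self ((map_ne_zero _).2 d.ne_zero), mul_one]
  exact hk'

end scalars

/-! ### Descent -/

variable {A B : Type*} [Field A] [Valued A Γ₀] [Field B] [Valued B Γ₀]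
variable {j : A →+* B} {τ : B →+* B} {e n : Γ₀}

/-- Fixed matrices come from below. -/
theorem Pair.exists_of_gl_tau (P : Pair j τ) {x : GL (Fin 2) B} (hx : gl τ x = x) :
    ∃ q : GL (Fin 2) A, gl j q = x := by
  choose y hy using fun a b => P.fixed _ (congrFun (congrFun
    (congrArg (fun z : GL (Fin 2) B => (z : Matrix (Fin 2) (Fin 2) B)) hx) a) b)
  have hdet : (Matrix.of y).det ≠ 0 := fun h0 => by
    refine x.det_ne_zero ?_
    rw [show (x : Matrix (Fin 2) (Fin 2) B) = (Matrix.of y).map j from Matrix.ext fun a b =>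
      (hy a b).symm, ← RingHom.mapMatrix_apply, ← RingHom.map_det, h0, map_zero]
  exact ⟨Matrix.GeneralLinearGroup.mkOfDetNeZero (Matrix.of y) hdet,
    Units.ext (Matrix.ext fun a b => hy a b)⟩

theorem gl_j_injective (j : A →+* B) : Function.Injective (gl j) := fun x y h =>
  Units.ext (Matrix.ext fun a b => j.injective
    (congrFun (congrFun (congrArg (fun z : GL (Fin 2) B => (z : Matrix (Fin 2) (Fin 2) B)) h) a) b))

theorem Pair.v_tau10 (P : Pair j τ) (k : GL (Fin 2) B) :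
    Valued.v ((gl τ k : Matrix (Fin 2) (Fin 2) B) 1 0) =
      (Valued.v ((k : Matrix (Fin 2) (Fin 2) B) 1 0) : Γ₀) := P.v_tau _

theorem Pair.tau_mem_pinGrp (P : Pair j τ) {x : GL (Fin 2) B} (hx : x ∈ pinGrp e n) :
    gl τ x ∈ pinGrp e n := by
  obtain ⟨k, hk, hk', -, c, rfl⟩ := hx
  rw [map_mul, gl_scal, mul_scal_mem_pinGrp_iff]
  exact mem_pinGrp_of_lvl (P.tau_mem_lvl hk) ((P.v_tau10 k).trans_le hk')

theorem v10_mul_scal {k : GL (Fin 2) B} {c : Bˣ} (hc : Valued.v (c : B) = (1 : Γ₀)) :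
    Valued.v (((k * scal c : GL (Fin 2) B) : Matrix (Fin 2) (Fin 2) B) 1 0) =
      (Valued.v ((k : Matrix (Fin 2) (Fin 2) B) 1 0) : Γ₀) := by
  simp [scal, hc]

theorem N3_inv_twist (P : Pair j τ) (h : GL (Fin 2) B) : N3 τ (h⁻¹ * gl τ h) = 1 := by
  simp only [N3, map_mul, map_inv, P.gl_cube]
  group

/-- A cocycle inside a congruence subgroup is a coboundary there. -/
theorem Pair.exists_coboundary_lvl (P : Pair j τ) (h3 : Valued.v (3 : B) = (1 : Γ₀)) (he : e < 1)
    {u : GL (Fin 2) B} (hu : u ∈ lvl e) (hu' : Valued.v ((u : Matrix (Fin 2) (Fin 2) B) 1 0) ≤ n)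
    (hN : N3 τ u = 1) :
    ∃ k ∈ lvl e, Valued.v ((k : Matrix (Fin 2) (Fin 2) B) 1 0) ≤ n ∧ u * gl τ k = k := by
  set U : Matrix (Fin 2) (Fin 2) B := (u : Matrix (Fin 2) (Fin 2) B)
  set W : Matrix (Fin 2) (Fin 2) B := U * U.map τ
  have hW : W = ((u * gl τ u : GL (Fin 2) B) : Matrix (Fin 2) (Fin 2) B) := rfl
  have h30 := three_ne_zero_of_v h3
  set K := (3 : B)⁻¹ • (1 + U + W)
  have hK : Ent e (K - 1) := by
    rw [show K - 1 = (3 : B)⁻¹ • ((U - 1) + (W - 1)) by
      simp only [K]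
      rw [show (1 : Matrix (Fin 2) (Fin 2) B) + U + W = (1 + 1 + 1) + ((U - 1) + (W - 1)) by abel,
        smul_add, ← three_smul_eq, smul_smul, inv_mul_cancel₀ h30, one_smul, add_sub_cancel_left]]
    exact ((ent_of_lvl he hu).add (hW ▸ ent_of_lvl he (mul_mem hu (P.tau_mem_lvl hu)))).third h3
  have hdet : K.det ≠ 0 := fun h0 => by
    have : Valued.v (K.det - 1) < (1 : Γ₀) := by
      have h00 := hK 0 0; have h01 := hK 0 1; have h10 := hK 1 0; have h11 := hK 1 1
      simp at h00 h01 h10 h11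
      rw [Matrix.det_fin_two, show ∀ a b c d : B, a * d - b * c - 1 =
        (a - 1) * (d - 1) + (a - 1) + (d - 1) - b * c from fun a b c d => by ring]
      refine Valued.v.map_sub_lt (Valued.v.map_add_lt (Valued.v.map_add_lt ?_ ?_) ?_) ?_
      · rw [map_mul]; exact (mul_le_mul' h00 (h11.trans he.le)).trans_lt (by rwa [mul_one])
      · exact h00.trans_lt he
      · exact h11.trans_lt he
      · rw [map_mul]; exact (mul_le_mul' h01 (h10.trans he.le)).trans_lt (by rwa [mul_one])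
    simp [h0] at this
  set k := Matrix.GeneralLinearGroup.mkOfDetNeZero K hdet
  refine ⟨k, mem_lvl_of_ent he hK, ?_, Units.ext ?_⟩
  · show Valued.v (K 1 0) ≤ n
    simp only [K, W, Matrix.smul_apply, Matrix.add_apply, Matrix.one_apply_ne one_ne_zero, zero_add,
      smul_eq_mul, map_mul, map_inv₀, h3, inv_one, one_mul, Matrix.mul_apply, Fin.sum_univ_two,
      Matrix.map_apply]
    refine Valued.v.map_add_le hu' (Valued.v.map_add_le ?_ ?_) <;> rw [map_mul, P.v_tau]
    · exact (mul_le_mul' hu' (ent_of_mem_lvl hu 0 0)).trans_eq (mul_one n)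
    · exact (mul_le_mul' (ent_of_mem_lvl hu 1 1) hu').trans_eq (one_mul n)
  have hN' : U * U.map τ * (U.map τ).map τ = 1 := congrArg Units.val hN
  show U * K.map τ = K
  simp only [K, W]
  rw [show ((3 : B)⁻¹ • (1 + U + U * U.map τ)).map τ =
      (3 : B)⁻¹ • (1 + U.map τ + U.map τ * (U.map τ).map τ) by
    rw [← RingHom.mapMatrix_apply]
    ext a b
    simp [Matrix.mul_apply, map_ofNat, Matrix.one_apply, apply_ite τ]
    split_ifs <;> ring,
    mul_smul_comm, mul_add, mul_add, mul_one, ← mul_assoc, hN']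
  congr 1
  abel

/-- **Descent.** -/
theorem Pair.exists_descent_lvl (P : Pair j τ) (h3 : Valued.v (3 : B) = (1 : Γ₀)) (he : e < 1)
    {h : GL (Fin 2) B} (hh : h⁻¹ * gl τ h ∈ pinGrp e n) :
    ∃ q : GL (Fin 2) A, (gl j q)⁻¹ * h ∈ pinGrp e n := by
  obtain ⟨k, hk, hk', -, c, hkc⟩ := hh
  set T : Bˣ →* Bˣ := Units.map τ.toMonoidHom
  set d : Bˣ := Matrix.GeneralLinearGroup.det h
  set dk : Bˣ := Matrix.GeneralLinearGroup.det k
  have hT : ∀ g : GL (Fin 2) B, T (Matrix.GeneralLinearGroup.det g) =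
      Matrix.GeneralLinearGroup.det (gl τ g) := fun g =>
    Units.ext (τ.map_det (g : Matrix (Fin 2) (Fin 2) B))
  have hdet : T d = d * dk * (c * c) := by
    have := congrArg Matrix.GeneralLinearGroup.det hkc
    rw [map_mul, map_mul, map_inv, ← hT] at this
    rw [show Matrix.GeneralLinearGroup.det (scal c) = c * c from Units.ext (by simp [scal, sq])] at this
    rw [mul_assoc, ← this, mul_inv_cancel_left]
  set nc : Bˣ := c * T c * T (T c)
  have hNk : N3 τ k * scal nc = 1 := by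
    have := N3_inv_twist P h
    rwa [hkc, N3_scal] at this
  have hnc : Valued.v ((nc : B) - 1) ≤ e := v_sub_one_of_scal_mem he (by
    rw [← inv_eq_of_mul_eq_one_right hNk]
    exact inv_mem (mul_mem (mul_mem hk (P.tau_mem_lvl hk)) (P.tau_mem_lvl (P.tau_mem_lvl hk))))
  set ε := nc * dk
  have hε : Valued.v ((ε : B) - 1) ≤ e := by
    rw [show ((ε : B) - 1) = ((nc : B) - 1) * (dk : B) + ((dk : B) - 1) by simp [ε]; ring]
    refine Valued.v.map_add_le ?_ (v_det_sub_one he hk)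
    rw [map_mul, show Valued.v (dk : B) = (1 : Γ₀) from v_eq_one_of_sub he (v_det_sub_one he hk), mul_one]
    exact hnc
  set b := c * c * T c * d
  have hb : c * T b = b * ε := by
    simp only [b, ε, nc, map_mul, hdet]
    ac_rfl
  set h' := h * scal b
  have hu : h'⁻¹ * gl τ h' = k * scal ε := by
    simp only [h', map_mul, gl_scal, _root_.mul_inv_rev]
    calc (scal b)⁻¹ * h⁻¹ * (gl τ h * scal (T b))
        = (scal b)⁻¹ * (h⁻¹ * gl τ h) * scal (T b) := by group
      _ = k * scal (c * T b * b⁻¹) := by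
        rw [hkc, show (scal b)⁻¹ = scal b⁻¹ from (map_inv _ b).symm, scal_mul_comm, mul_assoc,
          mul_assoc k, ← scal_mul, ← scal_mul]
        congr 2
        ac_rfl
      _ = _ := by rw [hb, mul_comm b, mul_inv_cancel_right]
  obtain ⟨K, hK, hK', hKe⟩ := P.exists_coboundary_lvl (n := n) h3 he
    (mul_mem hk (scal_mem_lvl he hε)) ((v10_mul_scal (v_eq_one_of_sub he hε)).trans_le hk')
    (by rw [← hu]; exact N3_inv_twist P h')
  obtain ⟨q, hq⟩ := P.exists_of_gl_tau (x := h' * K) (by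
    rw [map_mul]
    calc gl τ h' * gl τ K = h' * ((h'⁻¹ * gl τ h') * gl τ K) := by group
      _ = h' * K := by rw [hu, hKe])
  refine ⟨q, K⁻¹, inv_mem hK, (v_inv10 hK).trans_le hK', by rwa [inv_inv], b⁻¹, ?_⟩
  rw [hq, show scal b⁻¹ = (scal b)⁻¹ from map_inv _ b]
  calc (h * scal b * K)⁻¹ * h = K⁻¹ * ((scal b)⁻¹ * (h⁻¹ * h)) := by group
    _ = _ := by rw [inv_mul_cancel, mul_one]

/-- **The root follows its cube** between two points. -/
theorem root_mem_lvlZ [CompleteSpace B] (h3 : Valued.v (3 : B) = (1 : Γ₀)) (he : e < 1)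
    {E g₀ g : GL (Fin 2) B} (hg₀ : g₀⁻¹ * E * g₀ ∈ lvl e) (hg : g⁻¹ * (E * E * E) * g ∈ pinGrp e n) :
    g⁻¹ * E * g ∈ pinGrp e n := by
  obtain ⟨k, hk, hk', -, η, hkη⟩ := hg
  set r₀ := g₀⁻¹ * E * g₀
  have hr₀ : r₀ * r₀ * r₀ ∈ lvl e := mul_mem (mul_mem hg₀ hg₀) hg₀
  have hconj : r₀ * r₀ * r₀ = (g⁻¹ * g₀)⁻¹ * (k * scal η) * (g⁻¹ * g₀) := by
    rw [← hkη]; simp only [r₀]; group
  set M : Matrix (Fin 2) (Fin 2) B := ((r₀ * r₀ * r₀ : GL (Fin 2) B) : Matrix (Fin 2) (Fin 2) B)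
  set Kk : Matrix (Fin 2) (Fin 2) B := (k : Matrix (Fin 2) (Fin 2) B)
  have hMc : M = (((g⁻¹ * g₀)⁻¹ * (k * scal η) * (g⁻¹ * g₀) : GL (Fin 2) B) :
      Matrix (Fin 2) (Fin 2) B) := congrArg Units.val hconj
  have hdet : M.det = Kk.det * ((η : B) * η) := by
    rw [hMc, det_conj', Units.val_mul, det_mul]
    simp [scal, Kk, sq]
  have htr : M.trace = Kk.trace * (η : B) := by
    rw [hMc, Units.val_mul, Units.val_mul, Matrix.trace_mul_cycle, ← Units.val_mul, mul_inv_cancel,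
      Units.val_one, one_mul, Units.val_mul, trace_fin_two, trace_fin_two]
    simp [scal, Kk, Matrix.mul_diagonal]
    ring
  have hM := v_det_sub_one he hr₀
  have hKd := v_det_sub_one he hk
  have hMe := ent_of_lvl he hr₀
  have hKe := ent_of_lvl he hk
  have hvη : Valued.v ((η : B)) = (1 : Γ₀) := by
    have h1 := congrArg (fun x : B => (Valued.v x : Γ₀)) hdet
    rw [show Valued.v M.det = (1 : Γ₀) from v_eq_one_of_sub he hM, map_mul, map_mul,
      show Valued.v Kk.det = (1 : Γ₀) from v_eq_one_of_sub he hKd, one_mul, ← sq] at h1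
    exact (pow_eq_one_iff.1 h1.symm).resolve_right two_ne_zero
  have hη2 : Valued.v ((η : B) * η - 1) < (1 : Γ₀) := by
    rw [show (η : B) * η - 1 = (M.det - 1) - (Kk.det - 1) * (η * η) by rw [hdet]; ring]
    refine Valued.v.map_sub_lt (hM.trans_lt he) ?_
    rw [map_mul, map_mul, hvη, mul_one, mul_one]
    exact hKd.trans_lt he
  have hη : Valued.v ((η : B) - 1) < (1 : Γ₀) := by
    by_contra hne
    have h1 : Valued.v ((η : B) - 1) = (1 : Γ₀) :=
      le_antisymm (Valued.v.map_sub_le hvη.le (map_one _).le) (not_lt.1 hne)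
    have hp : Valued.v ((η : B) + 1) < (1 : Γ₀) := by
      rw [show (η : B) * η - 1 = ((η : B) - 1) * ((η : B) + 1) by ring, map_mul, h1, one_mul] at hη2
      exact hη2
    have h2 : Valued.v (2 : B) = (1 : Γ₀) := by
      rw [show (2 : B) = -((η : B) - 1) + ((η : B) + 1) by ring]
      rw [Valuation.map_add_eq_of_lt_left _ (by rw [Valuation.map_neg, h1]; exact hp),
        Valuation.map_neg, h1]
    have : Valued.v ((2 : B) * ((η : B) - 1)) < (1 : Γ₀) := by
      have a0 := hMe 0 0; have a1 := hMe 1 1; have b0 := hKe 0 0; have b1 := hKe 1 1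
      simp at a0 a1 b0 b1
      rw [show (2 : B) * ((η : B) - 1) =
        ((M 0 0 - 1) + (M 1 1 - 1)) - ((Kk 0 0 - 1) + (Kk 1 1 - 1)) * η by
        have := htr; rw [trace_fin_two, trace_fin_two] at this; linear_combination -this]
      refine Valued.v.map_sub_lt (Valued.v.map_add_lt (a0.trans_lt he) (a1.trans_lt he)) ?_
      rw [map_mul, hvη, mul_one]
      exact Valued.v.map_add_lt (b0.trans_lt he) (b1.trans_lt he)
    rw [map_mul, h1, h2, one_mul] at this
    exact lt_irrefl _ this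
  obtain ⟨w, hw, hw3⟩ := exists_cube_root_one h3 hη
  set m := max (Valued.v ((η : B) - 1)) e
  have hm : m < 1 := max_lt hη he
  have hw0 : w ≠ 0 := fun e0 => η.ne_zero (by rw [← hw3, e0, zero_mul, zero_mul])
  set wu := Units.mk0 w hw0
  obtain ⟨r, hr, hr3, hrn⟩ := exists_cube_root_lvl h3 he hk
  have hR : (r * scal wu) * (r * scal wu) * (r * scal wu) = k * scal η := by
    rw [mul_scal_cube, hr3]
    congr 2
    exact Units.ext hw3
  have key : g⁻¹ * g₀ * r₀ = r * scal wu * (g⁻¹ * g₀) :=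
    intertwine h3 hm (lvl_mono (le_max_right _ _) hg₀)
      (mul_mem (lvl_mono (le_max_right _ _) hr)
        (scal_mem_lvl hm (by exact hw.trans (le_max_left _ _)))) (by
      rw [hR, hconj]; group)
  have : g⁻¹ * E * g = r * scal wu := by
    calc g⁻¹ * E * g = g⁻¹ * g₀ * r₀ * (g⁻¹ * g₀)⁻¹ := by simp only [r₀]; group
      _ = r * scal wu := by rw [key, mul_inv_cancel_right]
  exact ⟨r, hr, hrn n hk', (v_inv10 hr).trans_le (hrn n hk'), wu, this⟩

/-- **The common root**: if a point below or above sees `δ` in the congruence subgroup, there is a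
cube root of `δ` below, integral at some point, and the congruence holds at a point below. -/
theorem Pair.exists_root_point (P : Pair j τ) [CompleteSpace B] (h3 : Valued.v (3 : B) = (1 : Γ₀))
    (he : e < 1) {δ : GL (Fin 2) A} {q : GL (Fin 2) A}
    (hq : gl j (q⁻¹ * δ * q) ∈ pinGrp e n) :
    ∃ (σ : GL (Fin 2) A) (a : Aˣ), Commute σ δ ∧ σ * σ * σ = δ * scal a ∧
      (gl j q)⁻¹ * gl j σ * gl j q ∈ lvl e := by
  set t := q⁻¹ * δ * q
  obtain ⟨c, hc, hmem⟩ := exists_norm11 he (pinGrp_le_lvlZ hq)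
  have h11 : (t : Matrix (Fin 2) (Fin 2) A) 1 1 ≠ 0 := fun e0 => c.ne_zero (by
    rw [hc, gl_apply, e0, map_zero])
  set a : Aˣ := Units.mk0 _ h11
  have hca : Units.map j.toMonoidHom a = c := Units.ext (by simp [a, hc])
  set t₁ := t * scal a⁻¹
  have ht₁ : gl j t₁ ∈ lvl e := by rwa [map_mul, gl_scal, map_inv, hca]
  obtain ⟨r, hr, hr3, -⟩ := exists_cube_root_lvl h3 he ht₁
  have hτr : gl τ r = r := by
    have := intertwine h3 he (P.tau_mem_lvl hr) hr (h := 1) (by
      rw [one_mul, mul_one, ← map_mul, ← map_mul, hr3, P.gl_tau_j])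
    rwa [one_mul, mul_one] at this
  obtain ⟨rA, rfl⟩ := P.exists_of_gl_tau hτr
  have hrA : rA * rA * rA = t₁ := gl_j_injective j (by rw [map_mul, map_mul, hr3])
  set σ := q * rA * q⁻¹
  have hσ : σ * σ * σ = δ * scal a⁻¹ := by
    calc σ * σ * σ = q * (rA * rA * rA) * q⁻¹ := by simp only [σ]; group
      _ = q * t * (scal a⁻¹ * q⁻¹) := by rw [hrA]; simp only [t₁]; group
      _ = q * t * (q⁻¹ * scal a⁻¹) := by rw [scal_mul_comm]
      _ = _ := by simp only [t]; group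
  refine ⟨σ, a⁻¹, ?_, hσ, ?_⟩
  · have h1 : Commute σ (σ * σ * σ) :=
      ((Commute.refl σ).mul_right (Commute.refl σ)).mul_right (Commute.refl σ)
    rw [hσ] at h1
    have h2 := h1.mul_right (commute_scal a σ)
    rwa [mul_assoc, ← scal_mul, inv_mul_cancel, scal_one, mul_one] at h2
  · rw [← map_inv, ← map_mul, ← map_mul, show q⁻¹ * σ * q = rA by simp only [σ]; group]
    exact hr

/-- **A point below from a point above.** -/
theorem Pair.exists_point_below (P : Pair j τ) [CompleteSpace A] [CompleteSpace B]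
    (h3 : Valued.v (3 : B) = (1 : Γ₀)) (he : e < 1) {θ : B} (hθ : τ θ ≠ θ) {δ : GL (Fin 2) A}
    (hδ : (δ : Matrix (Fin 2) (Fin 2) A) 0 1 ≠ 0) {γ : GL (Fin 2) B} {a : Bˣ}
    (hγ : N3 τ γ = gl j δ * scal a) (hc : Commute γ (gl j δ)) {g : GL (Fin 2) B}
    (hg : g⁻¹ * γ * gl τ g ∈ pinGrp e n) :
    ∃ q : GL (Fin 2) A, gl j (q⁻¹ * δ * q) ∈ pinGrp e n := by
  obtain ⟨s₀, hs₀, hs₀', -, c, hs⟩ := hg
  set N := N3 τ s₀
  have hN : N ∈ lvl e := mul_mem (mul_mem hs₀ (P.tau_mem_lvl hs₀)) (P.tau_mem_lvl (P.tau_mem_lvl hs₀))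
  have hmul10 : ∀ {x y : GL (Fin 2) B}, x ∈ lvl e → y ∈ lvl e →
      Valued.v ((x : Matrix (Fin 2) (Fin 2) B) 1 0) ≤ n →
      Valued.v ((y : Matrix (Fin 2) (Fin 2) B) 1 0) ≤ n →
      Valued.v (((x * y : GL (Fin 2) B) : Matrix (Fin 2) (Fin 2) B) 1 0) ≤ n := by
    intro x y hx hy hx' hy'
    rw [Units.val_mul, Matrix.mul_apply, Fin.sum_univ_two]
    refine Valued.v.map_add_le ?_ ?_ <;> rw [map_mul]
    · exact (mul_le_mul' hx' (ent_of_mem_lvl hy 0 0)).trans_eq (mul_one n)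
    · exact (mul_le_mul' (ent_of_mem_lvl hx 1 1) hy').trans_eq (one_mul n)
  have hN' : Valued.v ((N : Matrix (Fin 2) (Fin 2) B) 1 0) ≤ n :=
    hmul10 (mul_mem hs₀ (P.tau_mem_lvl hs₀)) (P.tau_mem_lvl (P.tau_mem_lvl hs₀))
      (hmul10 hs₀ (P.tau_mem_lvl hs₀) hs₀' ((P.v_tau10 _).trans_le hs₀'))
      ((P.v_tau10 _).trans_le ((P.v_tau10 _).trans_le hs₀'))
  obtain ⟨nc, hNδ⟩ : ∃ nc : Bˣ, g⁻¹ * gl j δ * g * scal a = N * scal nc :=
    ⟨_, by
      rw [← conj_scal, ← hγ, ← P.N3_twist, hs, N3_scal]⟩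
  obtain ⟨r, hr, hr3, hrn⟩ := exists_cube_root_lvl h3 he hN
  have hτN : s₀ * gl τ N = N * s₀ := by
    simp only [N, N3, map_mul, P.gl_cube]
    group
  have hτr : s₀ * gl τ r = r * s₀ := intertwine h3 he (P.tau_mem_lvl hr) hr (by
    rw [← map_mul, ← map_mul, hr3, hτN])
  have hτr1 : gl τ r = s₀⁻¹ * r * s₀ := by rw [mul_assoc, ← hτr, inv_mul_cancel_left]
  set u := r⁻¹ * s₀
  have hu : N3 τ u = 1 := by
    have e1 : gl τ (gl τ r) = (gl τ s₀)⁻¹ * (s₀⁻¹ * r * s₀) * gl τ s₀ := by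
      conv_lhs => rw [hτr1]
      rw [map_mul, map_mul, map_inv, hτr1]
    simp only [N3, u, map_mul, map_inv, hτr1]
    calc _ = r⁻¹ * r⁻¹ * r⁻¹ * (s₀ * gl τ s₀ * gl τ (gl τ s₀)) := by group
      _ = 1 := by rw [show s₀ * gl τ s₀ * gl τ (gl τ s₀) = N from rfl, ← hr3]; group
  obtain ⟨K, hK, hK', hKe⟩ := P.exists_coboundary_lvl (n := n) h3 he (mul_mem (inv_mem hr) hs₀)
    (hmul10 (inv_mem hr) hs₀ ((v_inv10 hr).trans_le (hrn n hN')) hs₀') hu
  set g₁ := g * K
  set ε := g * r * g⁻¹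
  set y := g₁ * (gl τ g₁)⁻¹
  have hεc : Commute ε (gl j δ) := by
    have h1 : Commute r N := by
      rw [← hr3]; exact ((Commute.refl r).mul_right (Commute.refl r)).mul_right (Commute.refl r)
    have h2 : Commute r (g⁻¹ * gl j δ * g) := by
      rw [show g⁻¹ * gl j δ * g = N * scal nc * (scal a)⁻¹ by rw [← hNδ]; group]
      exact (h1.mul_right (commute_scal nc r)).mul_right (commute_scal a r).inv_right
    have h3 := h2.map (MulAut.conj g).toMonoidHom
    simp only [MulEquiv.toMonoidHom_eq_coe, MonoidHom.coe_coe, MulAut.conj_apply] at h3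
    rwa [show g * (g⁻¹ * gl j δ * g) * g⁻¹ = gl j δ by group] at h3
  have hyc : Commute y (gl j δ) := by
    have e1 : y = ε⁻¹ * γ * (scal c)⁻¹ := by
      have hγ' : γ = g * (s₀ * scal c) * (gl τ g)⁻¹ := by rw [← hs]; group
      have hK' : K = r⁻¹ * s₀ * gl τ K := hKe.symm
      rw [hγ', mul_assoc g, mul_assoc s₀, scal_mul_comm]
      simp only [y, g₁, ε, map_mul, _root_.mul_inv_rev, inv_inv]
      calc g * K * ((gl τ K)⁻¹ * (gl τ g)⁻¹) = g * (r⁻¹ * s₀ * gl τ K) * (gl τ K)⁻¹ * (gl τ g)⁻¹ := by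
            rw [← hK']; group
        _ = _ := by group
    rw [e1]
    exact (hεc.inv_left.mul_left hc).mul_left (commute_scal c _).symm.inv_left
  have hyN : N3 τ y = N3 τ 1 * scal 1 := by
    simp only [N3, y, map_mul, map_inv, map_one, P.gl_cube, scal_one]
    group
  obtain ⟨Z, mu, hsplit, hZ⟩ := P.exists_coboundary hθ hδ hyc (Commute.one_left _) hyN
  set x := Z⁻¹ * g₁
  have hx : x⁻¹ * gl τ x ∈ pinGrp e n := by
    have e1 : gl τ Z = y⁻¹ * (Z * 1 * scal mu) := by rw [← hsplit, inv_mul_cancel_left]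
    have e2 : x⁻¹ * gl τ x = g₁⁻¹ * Z * (scal mu)⁻¹ * (Z⁻¹ * g₁) := by
      simp only [x, map_mul, map_inv, e1, y, mul_one, _root_.mul_inv_rev, inv_inv]
      group
    rw [e2, show (scal mu)⁻¹ = scal mu⁻¹ from (map_inv _ mu).symm, mul_assoc (g₁⁻¹ * Z), scal_mul_comm, ← mul_assoc,
      show g₁⁻¹ * Z * (Z⁻¹ * g₁) = 1 by group, one_mul]
    exact scal_mem_pinGrp _
  obtain ⟨q, hq⟩ := P.exists_descent_lvl h3 he hx
  refine ⟨q, ?_⟩
  set k := (gl j q)⁻¹ * x
  have hkK : k * K⁻¹ ∈ pinGrp e n := mul_mem hq (inv_mem (mem_pinGrp_of_lvl hK hK'))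
  have hgN : g⁻¹ * gl j δ * g ∈ pinGrp e n := ⟨N, hN, hN', (v_inv10 hN).trans_le hN', nc / a, by
    rw [div_eq_mul_inv, scal_mul, ← mul_assoc, ← hNδ, mul_assoc _ (scal a), ← scal_mul, mul_inv_cancel,
      scal_one, mul_one]⟩
  have hg' : g = Z * gl j q * (k * K⁻¹) := by simp only [k, x, g₁]; group
  have hD : gl j (q⁻¹ * δ * q) = (Z * gl j q)⁻¹ * gl j δ * (Z * gl j q) := by
    rw [show (Z * gl j q)⁻¹ * gl j δ * (Z * gl j q) = (gl j q)⁻¹ * (Z⁻¹ * (gl j δ * Z)) * gl j q by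
      group, hZ δ (Commute.refl δ), inv_mul_cancel_left, map_mul, map_mul, map_inv]
  rw [hD]
  have := mul_mem (mul_mem hkK hgN) (inv_mem hkK)
  rwa [show k * K⁻¹ * (g⁻¹ * gl j δ * g) * (k * K⁻¹)⁻¹ =
    (Z * gl j q)⁻¹ * gl j δ * (Z * gl j q) by rw [hg']; group] at this

end FLTAgent.LT.Match
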