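import Fermat.Agent.LT.TF.Match.BadLoc
import Fermat.Agent.LT.TF.Match.PinRoot

/-!
Local matching for a character of a congruence subgroup at a place where three is a unit.
-/

set_option autoImplicit false
set_option linter.unusedSectionVars false
set_option linter.style.haveILetI false

noncomputable section

namespace FLTAgent.LT.Match

open NumberField IsDedekindDomain

local notation "Γ₀" => WithZero (Multiplicative ℤ)

/-- Lifting a map of classes of a subgroup to classes of a normal subgroup of it: the fibres have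
the index of the image. -/
theorem exists_coset_match {G H : Type*} [Group G] [Group H] (φ : H →* G) {UB VB : Subgroup G}
    (hnorm : ∀ v ∈ VB, ∀ u ∈ UB, v * u * v⁻¹ ∈ UB) (hle : UB ≤ VB)
    [Finite (↥VB ⧸ UB.subgroupOf VB)] :
    ∃ κ : ℕ, κ ≠ 0 ∧ ∀ (UA : Subgroup H), (∀ h, h ∈ UA ↔ φ h ∈ UB) →
      ∀ (Z : G) (FB : G → ℂ) (FA : H → ℂ),
        (∀ g, FB g ≠ 0 → ∃ q, (Z * φ q)⁻¹ * g ∈ VB) →
        (∀ q, ∀ u ∈ VB, FB (Z * φ q * u) = FA q) →
        ∃ π : G ⧸ UB → H ⧸ UA,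
          (∀ ξ, φ ξ * Z = Z * φ ξ → ∀ c, FB c.out ≠ 0 → π (φ ξ • c) = ξ • π c) ∧
            ∀ c', {c | FB c.out ≠ 0 ∧ π c = c'}.Finite ∧
              ∑ᶠ (c) (_ : FB c.out ≠ 0 ∧ π c = c'), FB c.out = κ * FA c'.out := by
  classical
  haveI : (UB.subgroupOf VB).Normal := ⟨fun u hu v => by
    rw [Subgroup.mem_subgroupOf] at hu ⊢
    exact hnorm v v.2 u hu⟩
  let ι : ↥(VB.comap φ) →* ↥VB ⧸ UB.subgroupOf VB :=
    MonoidHom.mk' (fun v => QuotientGroup.mk ⟨φ v, v.2⟩) fun v w => by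
      rw [← QuotientGroup.mk_mul]
      congr 1
      exact Subtype.ext (map_mul φ _ _)
  refine ⟨Nat.card ((↥VB ⧸ UB.subgroupOf VB) ⧸ ι.range), Nat.card_pos.ne',
    fun UA hUA Z FB FA hsupp hval => ?_⟩
  set R := ι.range
  have hker : ∀ v w : ↥(VB.comap φ), ι v = ι w →
      (QuotientGroup.mk (v : H) : H ⧸ UA) = QuotientGroup.mk (w : H) := fun v w h => by
    rw [QuotientGroup.eq, hUA, map_mul, map_inv]
    exact Subgroup.mem_subgroupOf.1 (QuotientGroup.eq.1 h)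
  let o : ↥VB ⧸ UB.subgroupOf VB → ↥VB ⧸ UB.subgroupOf VB := fun g =>
    (QuotientGroup.mk g⁻¹ : (↥VB ⧸ UB.subgroupOf VB) ⧸ R).out
  have ho : ∀ g, g * o g ∈ R := fun g => by
    have h := (QuotientGroup.eq (s := R) (a := g⁻¹) (b := o g)).1 (QuotientGroup.out_eq' _).symm
    rwa [inv_inv] at h
  choose ν hν using ho
  let σ : ↥VB ⧸ UB.subgroupOf VB → H ⧸ UA := fun g => QuotientGroup.mk (ν g : H)
  have hσ : ∀ (v : ↥(VB.comap φ)) g, σ (ι v * g) = (v : H) • σ g := fun v g => by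
    have e : o (ι v * g) = o g := by
      simp only [o]
      congr 1
      rw [QuotientGroup.eq, inv_inv, mul_assoc, mul_inv_cancel, mul_one]
      exact ⟨v, rfl⟩
    refine (hker _ (v * ν g) ?_).trans rfl
    rw [hν, map_mul, hν, e, mul_assoc]
  let π : G ⧸ UB → H ⧸ UA := fun c =>
    if h : ∃ q, (Z * φ q)⁻¹ * c.out ∈ VB then
      h.choose • σ (QuotientGroup.mk ⟨_, h.choose_spec⟩) else QuotientGroup.mk 1
  have key : ∀ (q : H) (u : ↥VB),
      π (QuotientGroup.mk (Z * φ q * (u : G))) = q • σ (QuotientGroup.mk u) := by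
    intro q u
    obtain ⟨w, hw, ew⟩ := exists_out_mk UB (Z * φ q * (u : G))
    have hex : ∃ q', (Z * φ q')⁻¹ * (QuotientGroup.mk (Z * φ q * (u : G)) : G ⧸ UB).out ∈ VB :=
      ⟨q, by
        rw [ew, ← mul_assoc, ← mul_assoc, inv_mul_cancel, one_mul]
        exact mul_mem u.2 (hle hw)⟩
    simp only [π]
    rw [dif_pos hex]
    generalize hex.choose_spec = hs
    revert hs
    generalize hex.choose = q'
    intro hs
    have hv : q'⁻¹ * q ∈ VB.comap φ := by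
      show φ _ ∈ VB
      have h1 := mul_mem hs (inv_mem (mul_mem u.2 (hle hw)))
      rwa [show (Z * φ q')⁻¹ * (QuotientGroup.mk (Z * φ q * (u : G)) : G ⧸ UB).out *
        ((u : G) * w)⁻¹ = φ (q'⁻¹ * q) by rw [ew, map_mul, map_inv]; group] at h1
    have e : (QuotientGroup.mk ⟨_, hs⟩ : ↥VB ⧸ UB.subgroupOf VB) =
        ι ⟨_, hv⟩ * QuotientGroup.mk u := by
      show _ = QuotientGroup.mk _ * QuotientGroup.mk u
      rw [← QuotientGroup.mk_mul, QuotientGroup.eq, Subgroup.mem_subgroupOf]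
      show ((Z * φ q')⁻¹ * (QuotientGroup.mk (Z * φ q * (u : G)) : G ⧸ UB).out)⁻¹ *
        (φ (q'⁻¹ * q) * (u : G)) ∈ UB
      rw [ew, map_mul, map_inv, show ((Z * φ q')⁻¹ * (Z * φ q * (u : G) * w))⁻¹ *
        ((φ q')⁻¹ * φ q * (u : G)) = w⁻¹ by group]
      exact inv_mem hw
    rw [e, hσ, smul_smul, mul_inv_cancel_left]
  have hFBout : ∀ (q : H) (u : ↥VB),
      FB (QuotientGroup.mk (Z * φ q * (u : G)) : G ⧸ UB).out = FA q := fun q u => by
    obtain ⟨w, hw, ew⟩ := exists_out_mk UB (Z * φ q * (u : G))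
    rw [ew, mul_assoc _ (u : G) w]
    exact hval q _ (mul_mem u.2 (hle hw))
  have hrep : ∀ c : G ⧸ UB, FB c.out ≠ 0 → ∃ (q : H) (u : ↥VB),
      c = QuotientGroup.mk (Z * φ q * (u : G)) := fun c hc => by
    obtain ⟨q, hq⟩ := hsupp _ hc
    exact ⟨q, ⟨_, hq⟩, by rw [mul_inv_cancel_left]; exact (QuotientGroup.out_eq' c).symm⟩
  have hFAinv : ∀ (q : H) (v : ↥(VB.comap φ)), FA (q * v) = FA q := fun q v => by
    rw [← hval (q * v) 1 (one_mem _), ← hval q (φ v) v.2, map_mul, mul_one, mul_assoc]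
  refine ⟨π, fun ξ hξ c hc => ?_, fun c' => ?_⟩
  · obtain ⟨q, u, rfl⟩ := hrep c hc
    rw [MulAction.Quotient.smul_mk, smul_eq_mul, show φ ξ * (Z * φ q * (u : G)) =
      Z * φ (ξ * q) * (u : G) by rw [map_mul, ← mul_assoc, ← mul_assoc, hξ, mul_assoc Z], key, key,
      smul_smul]
  · set p := c'.out with hp
    have hc' : c' = QuotientGroup.mk p := (QuotientGroup.out_eq' c').symm
    let Φ : ↥VB ⧸ UB.subgroupOf VB → G ⧸ UB := fun x =>
      QuotientGroup.mk (Z * φ p * ((x.out : ↥VB) : G))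
    set S : Set (↥VB ⧸ UB.subgroupOf VB) := {x | FA p ≠ 0 ∧ σ x = QuotientGroup.mk 1}
    have hΦinj : Function.Injective Φ := fun x y hxy => by
      have h := QuotientGroup.eq.1 hxy
      rw [show (Z * φ p * ((x.out : ↥VB) : G))⁻¹ * (Z * φ p * ((y.out : ↥VB) : G)) =
        ((x.out⁻¹ * y.out : ↥VB) : G) by push_cast; group] at h
      rw [← QuotientGroup.out_eq' x, ← QuotientGroup.out_eq' y]
      exact QuotientGroup.eq.2 (Subgroup.mem_subgroupOf.2 h)
    have hset : {c | FB c.out ≠ 0 ∧ π c = c'} = Φ '' S := by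
      refine Set.Subset.antisymm ?_ ?_
      · rintro c ⟨hc, hπ⟩
        obtain ⟨q, u, rfl⟩ := hrep c hc
        rw [key, hc', show σ (QuotientGroup.mk u) = QuotientGroup.mk (ν (QuotientGroup.mk u) : H)
          from rfl, MulAction.Quotient.smul_mk, smul_eq_mul, QuotientGroup.eq] at hπ
        set n := ν (QuotientGroup.mk u : ↥VB ⧸ UB.subgroupOf VB) with hn
        set w := (q * (n : H))⁻¹ * p with hw
        have hwV : w ∈ VB.comap φ := hle ((hUA w).1 hπ)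
        set v : ↥(VB.comap φ) := n * ⟨w, hwV⟩
        have hpv : p = q * (v : H) := by
          show p = q * ((n : H) * w)
          rw [hw]; group
        refine ⟨ι v⁻¹ * QuotientGroup.mk u, ⟨?_, ?_⟩, ?_⟩
        · rw [hpv, hFAinv, ← hFBout q u]
          exact hc
        · rw [hσ, show σ (QuotientGroup.mk u) = QuotientGroup.mk (n : H) from rfl,
            MulAction.Quotient.smul_mk, smul_eq_mul, QuotientGroup.eq, mul_one]
          show (((n * ⟨w, hwV⟩)⁻¹ : ↥(VB.comap φ)) * (n : H))⁻¹ ∈ UA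
          push_cast
          rw [show (((n : H) * w)⁻¹ * (n : H))⁻¹ = w by group]
          exact hπ
        · set x := ι v⁻¹ * (QuotientGroup.mk u : ↥VB ⧸ UB.subgroupOf VB) with hx
          have e : (QuotientGroup.mk x.out : ↥VB ⧸ UB.subgroupOf VB) =
              QuotientGroup.mk (⟨φ (v⁻¹ : ↥(VB.comap φ)), (v⁻¹).2⟩ * u) := by
            rw [QuotientGroup.out_eq', QuotientGroup.mk_mul]
            rfl
          have e' := Subgroup.mem_subgroupOf.1 (QuotientGroup.eq.1 e)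
          push_cast at e'
          refine QuotientGroup.eq.2 ?_
          rw [show (Z * φ p * ((x.out : ↥VB) : G))⁻¹ * (Z * φ q * (u : G)) =
            ((x.out : ↥VB) : G)⁻¹ * (φ ((v : H))⁻¹ * (u : G)) by rw [hpv, map_inv, map_mul]; group]
          exact e'
      · rintro _ ⟨x, ⟨hFA, hx⟩, rfl⟩
        refine ⟨by rw [hFBout p x.out]; exact hFA, ?_⟩
        show π (QuotientGroup.mk _) = c'
        rw [key, QuotientGroup.out_eq', hx, hc', MulAction.Quotient.smul_mk, smul_eq_mul, mul_one]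
    have hfin : (Φ '' S).Finite := (Set.toFinite S).image Φ
    refine ⟨hset ▸ hfin, ?_⟩
    have hsum : ∑ᶠ (c) (_ : FB c.out ≠ 0 ∧ π c = c'), FB c.out = ∑ᶠ c ∈ Φ '' S, FB c.out := by
      refine finsum_congr fun c => finsum_congr_Prop ?_ fun _ => rfl
      exact congrArg (fun T => c ∈ T) hset
    rw [hsum, finsum_mem_image hΦinj.injOn]
    by_cases h0 : FA p = 0
    · have hS : S = ∅ := Set.eq_empty_of_forall_notMem fun x hx => hx.1 h0
      rw [hS, finsum_mem_empty, h0, mul_zero]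
    have hcard : Nat.card ↥S = Nat.card ((↥VB ⧸ UB.subgroupOf VB) ⧸ R) := by
      refine Nat.card_eq_of_bijective (fun x => QuotientGroup.mk x.1⁻¹) ⟨?_, fun t => ?_⟩
      · intro sx sy hxy
        obtain ⟨x, hx0, hx⟩ := sx
        obtain ⟨y, hy0, hy⟩ := sy
        have h1 : ∀ {x}, σ x = QuotientGroup.mk 1 → x * o x = 1 := fun {x} hx => by
          have h := (hUA _).1 (QuotientGroup.eq.1 hx.symm)
          rw [inv_one, one_mul] at h
          rw [← hν, ← QuotientGroup.mk_one]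
          refine QuotientGroup.eq.2 (Subgroup.mem_subgroupOf.2 ?_)
          push_cast
          rw [mul_one]
          exact inv_mem h
        have eo : o x = o y := congrArg Quotient.out hxy
        refine Subtype.ext ?_
        have hx1 := h1 hx
        rw [eo, ← h1 hy] at hx1
        exact mul_right_cancel hx1
      · refine ⟨⟨t.out⁻¹, h0, ?_⟩, by simp⟩
        refine hker _ 1 ?_
        rw [hν, map_one]
        simp [o]
    have hval1 : ∀ x : ↥VB ⧸ UB.subgroupOf VB, FB (Φ x).out = FA p := fun x => hFBout p x.out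
    simp only [hval1]
    rw [finsum_mem_eq_finite_toFinset_sum _ (Set.toFinite S), Finset.sum_const, nsmul_eq_mul,
      ← Set.ncard_eq_toFinset_card _ (Set.toFinite S), ← Nat.card_coe_set_eq, hcard]

namespace PinChar

variable {B : Type*} [Field B] [Valued B Γ₀] {τ : B →+* B} {e n : Γ₀} {ψ ψ' : GL (Fin 2) B → ℂ}

theorem map_one (hψ : PinChar τ e n ψ ψ') : ψ 1 = 1 := by
  have h := hψ.mul 1 (one_mem _) 1 (one_mem _)
  rw [one_mul] at h
  exact mul_left_cancel₀ ((hψ.supp 1).2 (one_mem _)) (by rw [← h, mul_one])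

theorem eq_zero (hψ : PinChar τ e n ψ ψ') {g : GL (Fin 2) B} (hg : g ∉ pinGrp e n) : ψ g = 0 :=
  not_not.1 fun h => hg ((hψ.supp g).1 h)

theorem eq_zero' (hψ : PinChar τ e n ψ ψ') {g : GL (Fin 2) B} (hg : g ∉ pinGrp e n) : ψ' g = 0 :=
  not_not.1 fun h => hg ((hψ.supp' g).1 h)

/-- Twisted conjugation by the group does not move the character. -/
theorem twist {A : Type*} [Field A] [Valued A Γ₀] {j : A →+* B} (P : Pair j τ)
    (hψ : PinChar τ e n ψ ψ') {u : GL (Fin 2) B} (hu : u ∈ pinGrp e n) (x : GL (Fin 2) B) :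
    ψ (u⁻¹ * x * gl τ u) = ψ x := by
  have hτu : gl τ u ∈ pinGrp e n := P.tau_mem_pinGrp hu
  by_cases hx : x ∈ pinGrp e n
  · rw [hψ.mul _ (mul_mem (inv_mem hu) hx) _ hτu, hψ.mul _ (inv_mem hu) _ hx, hψ.tau u hu,
      mul_right_comm, ← hψ.mul _ (inv_mem hu) _ hu, inv_mul_cancel, hψ.map_one, one_mul]
  · rw [hψ.eq_zero hx, hψ.eq_zero fun h => hx ?_]
    have := mul_mem (mul_mem hu h) (inv_mem hτu)
    rwa [show u * (u⁻¹ * x * gl τ u) * (gl τ u)⁻¹ = x by group] at this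

end PinChar

variable {A B : Type*} [Field A] [Valued A Γ₀] [CompleteSpace A] [Field B] [Valued B Γ₀]
  [CompleteSpace B] {j : A →+* B} {τ : B →+* B}

/-- The trace of a congruence subgroup below. -/
theorem Pair.mem_lvlZ_iff_gl_j (P : Pair j τ) {ν : A} (hν : Valued.v ν < (1 : Γ₀))
    (q : GL (Fin 2) A) : q ∈ lvlZ (Valued.v ν) ↔ gl j q ∈ lvlZ (Valued.v (j ν)) := by
  refine ⟨?_, fun hq => ?_⟩
  · rintro ⟨k, hk, c, rfl⟩
    exact ⟨gl j k, P.j_mem_lvl hν hk, _, by rw [map_mul, gl_scal]⟩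
  · obtain ⟨c, hc, hmem⟩ := exists_norm11 (P.v_j_lt_one.2 hν) hq
    have h11 : (q : Matrix (Fin 2) (Fin 2) A) 1 1 ≠ 0 := fun e0 => c.ne_zero (by
      rw [hc, gl_apply, e0, map_zero])
    have hca : Units.map j.toMonoidHom (Units.mk0 _ h11) = c :=
      Units.ext (by simp [hc])
    rw [← hca, ← map_inv, ← gl_scal, ← map_mul] at hmem
    refine ⟨q * scal (Units.mk0 _ h11)⁻¹, mem_lvl_of_ent hν fun a b => ?_, Units.mk0 _ h11, by
      rw [mul_assoc, ← scal_mul, inv_mul_cancel, scal_one, mul_one]⟩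
    have h := ent_of_lvl (P.v_j_lt_one.2 hν) hmem a b
    simp only [Matrix.sub_apply, gl_apply] at h ⊢
    rwa [show (1 : Matrix (Fin 2) (Fin 2) B) a b = j ((1 : Matrix (Fin 2) (Fin 2) A) a b) by
      rcases eq_or_ne a b with rfl | h <;> simp_all, ← map_sub, P.v_j] at h

/-- **Local matching of a character.** -/
theorem Pair.localMatch_pin (P : Pair j τ) {θ : B} (hθ : τ θ ≠ θ)
    (h3 : Valued.v (3 : B) = (1 : Γ₀)) {ν : A} (hν : Valued.v ν < (1 : Γ₀)) {e n : Γ₀}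
    (hle : Valued.v (j ν) ≤ n) {ψ ψ' : GL (Fin 2) B → ℂ} (hψ : PinChar τ e n ψ ψ')
    [Finite (↥(pinGrp (B := B) e n) ⧸ (lvlZ (Valued.v (j ν))).subgroupOf (pinGrp e n))] :
    ∃ κ : ℕ, κ ≠ 0 ∧ ∀ {δ : GL (Fin 2) A}, (δ : Matrix (Fin 2) (Fin 2) A) 0 1 ≠ 0 →
      ∀ {γ : GL (Fin 2) B} {a : Bˣ}, N3 τ γ = gl j δ * scal a → Commute γ (gl j δ) →
        LocalMatch j (lvlZ (Valued.v (j ν))) (lvlZ (Valued.v ν)) δ
          (fun g => ψ (g⁻¹ * γ * gl τ g)) (fun q => ψ' (gl j (q⁻¹ * δ * q))) κ := by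
  have he := hψ.lt_one
  obtain ⟨κ, hκ, hmatch⟩ := exists_coset_match (gl j) (UB := lvlZ (Valued.v (j ν))) (VB := pinGrp e n)
    (fun v hv u hu => conj_mem_lvlZ (lvlZ_mono he.le (pinGrp_le_lvlZ hv)) hu)
    (lvlZ_le_pinGrp hle (hle.trans hψ.le) (P.v_j_lt_one.2 hν))
  refine ⟨κ, hκ, fun {δ} hδ {γ a} hγ hc => ?_⟩
  have hcomp := P.mem_lvlZ_iff_gl_j hν
  by_cases hex : ∃ q, gl j (q⁻¹ * δ * q) ∈ pinGrp e n
  swap
  · have hB : ∀ g : GL (Fin 2) B, ψ (g⁻¹ * γ * gl τ g) = 0 := fun g => hψ.eq_zero fun hg =>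
      hex (P.exists_point_below h3 he hθ hδ hγ hc hg)
    have hA : ∀ q : GL (Fin 2) A, ψ' (gl j (q⁻¹ * δ * q)) = 0 := fun q => hψ.eq_zero' fun hq =>
      hex ⟨q, hq⟩
    obtain ⟨π, -, h2⟩ := hmatch _ hcomp 1 (fun g => ψ (g⁻¹ * γ * gl τ g))
      (fun q => ψ' (gl j (q⁻¹ * δ * q))) (fun g hg => absurd (hB g) hg)
      (fun q u _ => by simp only [hB, hA])
    exact ⟨π, fun ξ _ c hc => absurd (hB c.out) hc, h2⟩
  obtain ⟨q₀, hq₀⟩ := hex
  obtain ⟨σ, b, hσδ, hσ3, hσ0⟩ := P.exists_root_point h3 he hq₀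
  set bj := Units.map j.toMonoidHom b
  have hE3 : gl j σ * gl j σ * gl j σ = gl j δ * scal bj := by
    rw [← map_mul, ← map_mul, hσ3, map_mul, gl_scal]
  obtain ⟨Z, mu, hsplit, hZ⟩ := P.exists_coboundary hθ hδ hc (hσδ.map (gl j)) (u := a / bj) (by
    rw [hγ, N3, P.gl_tau_j, P.gl_tau_j, hE3, mul_assoc, ← scal_mul, mul_div_cancel])
  have hroot : ∀ g : GL (Fin 2) B, g⁻¹ * gl j δ * g ∈ pinGrp e n → g⁻¹ * gl j σ * g ∈ pinGrp e n :=
    fun g hg => root_mem_lvlZ h3 he hσ0 (by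
      rw [hE3, conj_scal]; exact (mul_scal_mem_pinGrp_iff _ _).2 hg)
  have hsupp : ∀ g, ψ (g⁻¹ * γ * gl τ g) ≠ 0 → ∃ q, (Z * gl j q)⁻¹ * g ∈ pinGrp e n := by
    intro g hg
    have hs := (hψ.supp _).1 hg
    have hN : g⁻¹ * gl j δ * g ∈ pinGrp e n := by
      have h1 : N3 τ (g⁻¹ * γ * gl τ g) ∈ pinGrp e n :=
        mul_mem (mul_mem hs (P.tau_mem_pinGrp hs))
          (P.tau_mem_pinGrp (P.tau_mem_pinGrp hs))
      rwa [P.N3_twist, hγ, conj_scal, mul_scal_mem_pinGrp_iff] at h1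
    set h := Z⁻¹ * g with hh
    have h1 : h⁻¹ * gl j σ * h ∈ pinGrp e n := by
      rw [show h⁻¹ * gl j σ * h = g⁻¹ * (Z * gl j σ) * Z⁻¹ * g by rw [hh]; group, ← hZ σ hσδ]
      simpa [mul_assoc] using hroot g hN
    have h2 : h⁻¹ * gl j σ * gl τ h ∈ pinGrp e n := by
      have e2 : γ = Z * gl j σ * scal mu * (gl τ Z)⁻¹ := by rw [← hsplit]; group
      refine (mul_scal_mem_pinGrp_iff _ mu).1 ?_
      rw [show h⁻¹ * gl j σ * gl τ h * scal mu = g⁻¹ * γ * gl τ g by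
        rw [e2, hh, map_mul, map_inv, mul_assoc _ _ (scal mu), ← scal_mul_comm mu]
        group]
      exact hs
    have h3' := mul_mem (inv_mem h1) h2
    rw [show (h⁻¹ * gl j σ * h)⁻¹ * (h⁻¹ * gl j σ * gl τ h) = h⁻¹ * gl τ h by group] at h3'
    obtain ⟨q, hq⟩ := P.exists_descent_lvl h3 he h3'
    exact ⟨q, by rwa [show (Z * gl j q)⁻¹ * g = (gl j q)⁻¹ * h by rw [hh]; group]⟩
  have hval : ∀ q, ∀ u ∈ pinGrp e n,
      ψ ((Z * gl j q * u)⁻¹ * γ * gl τ (Z * gl j q * u)) = ψ' (gl j (q⁻¹ * δ * q)) := by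
    intro q u hu
    set x := gl j (q⁻¹ * σ * q)
    rw [show (Z * gl j q * u)⁻¹ * γ * gl τ (Z * gl j q * u) = u⁻¹ * (x * scal mu) * gl τ u by
      rw [map_mul, map_mul, P.gl_tau_j]
      calc _ = u⁻¹ * ((gl j q)⁻¹ * Z⁻¹ * (γ * gl τ Z) * gl j q) * gl τ u := by group
        _ = u⁻¹ * ((gl j q)⁻¹ * (gl j σ * (scal mu * gl j q))) * gl τ u := by rw [hsplit]; group
        _ = _ := by rw [scal_mul_comm]; simp only [x, map_mul, map_inv, mul_assoc],
      hψ.twist P hu, hψ.central]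
    have e3 : gl j (q⁻¹ * δ * q) * scal bj = x * x * x := by
      simp only [x, ← map_mul]
      rw [← gl_scal, ← map_mul]
      congr 1
      rw [mul_assoc _ q (scal b), ← scal_mul_comm b q, ← mul_assoc, mul_assoc q⁻¹, ← hσ3]
      group
    by_cases hx : x ∈ pinGrp e n
    · rw [← hψ.central' bj, e3, hψ.cube x hx]
    · rw [hψ.eq_zero hx, hψ.eq_zero' fun h => hx ?_]
      have h' := hroot (gl j q) (by rwa [← map_inv, ← map_mul, ← map_mul])
      rwa [← map_inv, ← map_mul, ← map_mul] at h'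
  obtain ⟨π, h1, h2⟩ := hmatch _ hcomp Z (fun g => ψ (g⁻¹ * γ * gl τ g))
    (fun q => ψ' (gl j (q⁻¹ * δ * q))) hsupp hval
  exact ⟨π, fun ξ hξ => h1 ξ (hZ ξ hξ), h2⟩

variable {F E : Type*} [Field F] [NumberField F] [Field E] [NumberField E] {i : F →+* E}
  {T : E →+* E}

/-- The generator moves something at every completion. -/
theorem exists_cMap_ne (h : Ell.CycGen i T 3) {w : HeightOneSpectrum (𝓞 E)}
    (hτ : placeBelow T w = w) : ∃ θ : Kp E w, cMap T w w hτ θ ≠ θ := by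
  obtain ⟨x, hx⟩ := h.ne 1 (by norm_num) (by norm_num)
  refine ⟨(x : Kp E w), fun e0 => hx ?_⟩
  rw [cMap_coe] at e0
  simpa using (algebraMap E (Kp E w)).injective e0

/-- **The characters match.** -/
theorem badLoc_pin (h : Ell.CycGen i T 3) {N : ℕ} (hN : 0 < N)
    {w : HeightOneSpectrum (𝓞 E)} {v : HeightOneSpectrum (𝓞 F)} (hτ : placeBelow T w = w)
    (hw : placeBelow i w = v) (h3 : Valued.v (3 : Kp E w) = (1 : Γ₀)) {e n : Γ₀}
    (hle : levN w N ≤ n) {ψ ψ' : GL (Fin 2) (Kp E w) → ℂ}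
    (hψ : PinChar (cMap T w w hτ) e n ψ ψ') :
    BadLoc h N hτ hw ψ (fun g => ψ' (gl (cMap i w v hw) g)) := by
  set jv := cMap i w v hw
  have P := pair_of_fixed h hτ hw
  obtain ⟨θ, hθ⟩ := exists_cMap_ne h hτ
  refine ⟨fun {δv q} hδ hq => ?_, ?_⟩
  · obtain ⟨σ, b, hσδ, hσ3, -⟩ := P.exists_root_point h3 hψ.lt_one ((hψ.supp' _).1 hq)
    refine ⟨gl jv σ, Units.map jv.toMonoidHom b, hσδ.map (gl jv), ?_⟩
    rw [N3, P.gl_tau_j, P.gl_tau_j, ← map_mul, ← map_mul, hσ3, map_mul, gl_scal]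
  · have hlev : Valued.v ((N : Kp F v)) = levN v N := (levN_eq v N).symm
    have hlevw : Valued.v (jv (N : Kp F v)) = levN w N := by rw [map_natCast, levN_eq]
    have hν : Valued.v ((N : Kp F v)) < (1 : Γ₀) :=
      P.v_j_lt_one.1 (by rw [hlevw]; exact (hle.trans hψ.le).trans_lt hψ.lt_one)
    haveI := finite_lvlZ_quotient w e (e' := Valued.v (jv (N : Kp F v)))
      (by rw [hlevw]; exact levN_ne_zero w hN)
    haveI : Finite (↥(pinGrp (B := Kp E w) e n) ⧸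
        (lvlZ (Valued.v (jv (N : Kp F v)))).subgroupOf (pinGrp e n)) :=
      Finite.of_injective _ (Subgroup.quotientSubgroupOfEmbeddingOfLE
        (lvlZ (Valued.v (jv (N : Kp F v)))) pinGrp_le_lvlZ).injective
    obtain ⟨κ, hκ, H⟩ := P.localMatch_pin hθ h3 hν (hlevw.trans_le hle) hψ
    refine ⟨κ, hκ, fun L L' hL hL' γ δ a hδ hNm hcomm => ?_⟩
    have H' : ∀ (ew ev : Γ₀), Valued.v (jv (N : Kp F v)) = ew → Valued.v ((N : Kp F v)) = ev →
        LocalMatch jv (lvlZ ew) (lvlZ ev) (gl (algebraMap F (Kp F v)) δ)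
          (fun g => L w (g⁻¹ * gl (algebraMap E (Kp E w)) γ * gl (cMap T w w hτ) g))
          (fun q => L' v (q⁻¹ * gl (algebraMap F (Kp F v)) δ * q)) κ := by
      rintro _ _ rfl rfl
      rw [hL, hL']
      exact H (alg_apply_ne_zero hδ v) (N3_alg hτ hw hNm) (alg_commute hcomm hw)
    obtain ⟨π₀, h1, h2⟩ := H' _ _ hlevw hlev
    exact ⟨_, locData_of_local h hτ hw h1 h2⟩

end FLTAgent.LT.Match
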