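import Fermat.Agent.LT.TF.Aleph.Local
import Fermat.Agent.LT.TF.Match.Contract
import Fermat.Agent.LT.TF.Match.Local

/-!
The local test functions: contracting classes, units, Hecke operators in one slot of a product.
-/

set_option autoImplicit false
set_option linter.unusedSectionVars false
set_option linter.style.haveILetI false

noncomputable section

namespace FLTAgent.LT.Match

open NumberField IsDedekindDomain

variable {F E : Type*} [Field F] [NumberField F] [Field E] [NumberField E]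

local notation "Γ₀" => WithZero (Multiplicative ℤ)

/-! ### Bounded cosets -/

/-- Integral matrices with determinant bounded below meet finitely many cosets. -/
theorem finite_bounded_cosets (v : HeightOneSpectrum (𝓞 F)) {d e : Γ₀} (hd : d ≠ 0) (he : e ≠ 0) :
    ((QuotientGroup.mk : GL (Fin 2) (Kp F v) → GL (Fin 2) (Kp F v) ⧸ lvlZ e) ''
      {g | ∀ a b, Valued.v ((g : Matrix (Fin 2) (Fin 2) (Kp F v)) a b) ≤ 1 ∧
        d ≤ Valued.v (g : Matrix (Fin 2) (Fin 2) (Kp F v)).det}).Finite := by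
  classical
  set γ : Γ₀ := d * min e 1 * WithZero.exp (-1 : ℤ) with hγdef
  have hγ : γ ≠ 0 :=
    mul_ne_zero (mul_ne_zero hd (lt_min (zero_lt_iff.2 he) zero_lt_one).ne') WithZero.exp_ne_zero
  obtain ⟨k, hk⟩ := Red.exists_exp_le hγ
  have hq : (Ideal.absNorm v.asIdeal : 𝓞 F) ∈ v.asIdeal := Ideal.absNorm_mem _
  set n : 𝓞 F := (Ideal.absNorm v.asIdeal : 𝓞 F) ^ k with hn
  have hn0 : n ≠ 0 := pow_ne_zero _ (by
    rw [Nat.cast_ne_zero]
    exact fun h => v.ne_bot (Ideal.absNorm_eq_zero_iff.1 h))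
  haveI : Finite (𝓞 F ⧸ Ideal.span {n}) :=
    Ideal.finiteQuotientOfFreeOfNeBot _ (by simpa [Ideal.span_singleton_eq_bot] using hn0)
  have hvn : v.valuation F (n : F) ≤ γ := by
    refine le_trans ?_ hk
    rw [HeightOneSpectrum.valuation_of_algebraMap, v.intValuation_le_pow_iff_mem]
    exact Ideal.pow_mem_pow hq k
  set X := {g : GL (Fin 2) (Kp F v) | ∀ a b, Valued.v ((g : Matrix (Fin 2) (Fin 2) (Kp F v)) a b) ≤ 1 ∧
    d ≤ Valued.v (g : Matrix (Fin 2) (Fin 2) (Kp F v)).det}
  choose y hy using fun (g : X) (a b : Fin 2) => Red.exists_int_near v (g.2 a b).1 hγ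
  obtain ⟨R, hR, hrep⟩ := Red.exists_finite_reps
    fun g : X => fun a b => Ideal.Quotient.mk (Ideal.span {n}) (y g a b)
  refine ((hR.image Subtype.val).image QuotientGroup.mk).subset ?_
  rintro _ ⟨g, hg, rfl⟩
  obtain ⟨r, hr, he'⟩ := hrep ⟨g, hg⟩
  refine ⟨r.1, ⟨r, hr, rfl⟩, QuotientGroup.eq.2 (lvl_le_lvlZ e ?_)⟩
  have hdiff : ∀ a b, Valued.v ((g : Matrix (Fin 2) (Fin 2) (Kp F v)) a b -
      (r.1 : Matrix (Fin 2) (Fin 2) (Kp F v)) a b) ≤ γ := fun a b => by
    obtain ⟨c, hc⟩ := Ideal.mem_span_singleton'.1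
      (Ideal.Quotient.eq.1 (congrFun (congrFun he' a) b))
    have h1 := hy r a b
    have h2 := hy ⟨g, hg⟩ a b
    rw [show (g : Matrix (Fin 2) (Fin 2) (Kp F v)) a b - (r.1 : Matrix (Fin 2) (Fin 2) (Kp F v)) a b =
        ((g : Matrix (Fin 2) (Fin 2) (Kp F v)) a b - ((y ⟨g, hg⟩ a b : F) : Kp F v)) -
        ((r.1 : Matrix (Fin 2) (Fin 2) (Kp F v)) a b - ((y r a b : F) : Kp F v)) -
        (((y r a b : F) : Kp F v) - ((y ⟨g, hg⟩ a b : F) : Kp F v)) by ring]
    refine (Valued.v.map_sub _ _).trans (max_le ((Valued.v.map_sub _ _).trans (max_le h2 h1)) ?_)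
    rw [← Red.coe_sub_completion, HeightOneSpectrum.adicCompletion.valued_coe, ← map_sub, ← hc,
      map_mul, map_mul]
    exact (mul_le_of_le_one_left' (v.valuation_le_one c)).trans hvn
  have he1 : min e 1 * WithZero.exp (-1 : ℤ) < 1 :=
    lt_of_le_of_lt (mul_le_of_le_one_left' (min_le_right _ _))
      (by rw [← WithZero.exp_zero, WithZero.exp_lt_exp]; norm_num)
  have he2 : min e 1 * WithZero.exp (-1 : ℤ) ≤ e :=
    (mul_le_of_le_one_right' (by rw [← WithZero.exp_zero, WithZero.exp_le_exp]; norm_num)).trans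
      (min_le_left _ _)
  refine lvl_mono he2 (mem_lvl_of_ent he1 fun a b => ?_)
  have hdet : d ≤ Valued.v (r.1 : Matrix (Fin 2) (Fin 2) (Kp F v)).det := (r.2 0 0).2
  have hd0 : (r.1 : Matrix (Fin 2) (Fin 2) (Kp F v)).det ≠ 0 := fun h => hd (le_zero_iff.1 (by
    simpa [h] using hdet))
  have hinv : ∀ a b, Valued.v ((((r.1⁻¹ : GL (Fin 2) (Kp F v))) : Matrix (Fin 2) (Fin 2) (Kp F v)) a b) ≤
      d⁻¹ := fun a b => by
    rw [Matrix.coe_units_inv, Matrix.inv_def, Matrix.smul_apply, smul_eq_mul, map_mul,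
      Ring.inverse_eq_inv', map_inv₀]
    refine (mul_le_mul' (inv_anti₀ (zero_lt_iff.2 hd) hdet) (?_ : _ ≤ (1 : Γ₀))).trans_eq (mul_one _)
    rw [Matrix.adjugate_fin_two]
    fin_cases a <;> fin_cases b <;> simp <;> exact (r.2 _ _).1
  rw [Units.val_mul, show ((r.1⁻¹ : GL (Fin 2) (Kp F v)) : Matrix (Fin 2) (Fin 2) (Kp F v)) *
      (g : Matrix (Fin 2) (Fin 2) (Kp F v)) - 1 =
      ((r.1⁻¹ : GL (Fin 2) (Kp F v)) : Matrix (Fin 2) (Fin 2) (Kp F v)) *
        ((g : Matrix (Fin 2) (Fin 2) (Kp F v)) - (r.1 : Matrix (Fin 2) (Fin 2) (Kp F v))) by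
    rw [mul_sub, ← Units.val_mul, ← Units.val_mul, inv_mul_cancel, Units.val_one]]
  rw [Matrix.mul_apply]
  refine Valued.v.map_sum_le fun l _ => ?_
  rw [map_mul]
  refine (mul_le_mul' (hinv a l) (hdiff l b)).trans_eq ?_
  rw [hγdef, mul_assoc d, inv_mul_cancel_left₀ hd]

/-- Finitely many cosets of a congruence subgroup in a larger one. -/
theorem finite_lvlZ_quotient (v : HeightOneSpectrum (𝓞 F)) (e : Γ₀) {e' : Γ₀} (he' : e' ≠ 0) :
    Finite (↥(lvlZ (K := Kp F v) e) ⧸ (lvlZ e').subgroupOf (lvlZ e)) := by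
  let f : ↥(lvlZ (K := Kp F v) e) ⧸ (lvlZ e').subgroupOf (lvlZ e) →
      GL (Fin 2) (Kp F v) ⧸ lvlZ e' :=
    Quotient.map' Subtype.val fun x y h => by
      rw [QuotientGroup.leftRel_apply] at h ⊢
      exact h
  have hf : Function.Injective f := by
    intro x y h
    induction x using QuotientGroup.induction_on with | _ x =>
    induction y using QuotientGroup.induction_on with | _ y =>
    change (QuotientGroup.mk x.1 : GL (Fin 2) (Kp F v) ⧸ lvlZ e') = QuotientGroup.mk y.1 at h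
    have h2 := QuotientGroup.eq.1 h
    exact QuotientGroup.eq.2 h2
  suffices h : (Set.range f).Finite by
    haveI := h.to_subtype
    exact Finite.of_injective_finite_range (f := f) hf
  refine (finite_bounded_cosets v (d := 1) one_ne_zero he').subset ?_
  rintro _ ⟨x, rfl⟩
  induction x using QuotientGroup.induction_on with | _ x =>
  obtain ⟨k, hk, c, hc⟩ := x.2
  refine ⟨k, fun a b => ⟨ent_of_mem_lvl hk a b, (v_det_of_mem_lvl hk).ge⟩,
    QuotientGroup.eq.2 (show k⁻¹ * x.1 ∈ lvlZ e' from ?_)⟩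
  rw [hc, inv_mul_cancel_left]
  exact scal_mem_lvlZ e' c

/-! ### Contracting classes -/

/-- A natural number as a unit (one if it vanishes). -/
def natU (K : Type*) [Field K] (n : ℕ) : Kˣ := by
  classical exact if h : (n : K) ≠ 0 then Units.mk0 (n : K) h else 1

theorem natU_val {v : HeightOneSpectrum (𝓞 F)} {n : ℕ} (hn : 0 < n) :
    ((natU (Kp F v) n : (Kp F v)ˣ) : Kp F v) = (n : Kp F v) := by
  have h : (n : Kp F v) ≠ 0 := fun h => levN_ne_zero v hn (by rw [levN_eq, h, map_zero])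
  rw [natU, dif_pos h, Units.val_mk0]

/-- The test at a place fixed by `τ`: twisted contracting classes. -/
def omegaAt (τ : E →+* E) (N' j : ℕ) (w : HeightOneSpectrum (𝓞 E)) : GL (Fin 2) (Kp E w) → ℂ := by
  classical
  exact if h : placeBelow τ w = w then
    omegaFn (cMap τ w w h) (levN w N') (natU (Kp E w) N' ^ j) else 0

/-- The test below: contracting classes. -/
def dsetAt (N' j : ℕ) (v : HeightOneSpectrum (𝓞 F)) : GL (Fin 2) (Kp F v) → ℂ :=
  dsetFn (levN v N') (natU (Kp F v) N' ^ j)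

/-! ### Hecke operators in one slot -/

/-- The components of the representatives. -/
def hLoc (v : HeightOneSpectrum (𝓞 F)) (r : Aleph.RIdx v) : GL (Fin 2) (Kp F v) :=
  locGF v (Aleph.hRep v r)

/-- `T_v` on local functions. -/
def heckeFn (v : HeightOneSpectrum (𝓞 F)) (f : GL (Fin 2) (Kp F v) → ℂ) (y : GL (Fin 2) (Kp F v)) :
    ℂ :=
  (∑ᶠ u : 𝓞 F ⧸ v.asIdeal, f (y * hLoc v (some u))) + f (y * hLoc v none)

/-- `1 - (T_v/(q+1))²` on local functions. -/
def dampFn (v : HeightOneSpectrum (𝓞 F)) (f : GL (Fin 2) (Kp F v) → ℂ) (y : GL (Fin 2) (Kp F v)) :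
    ℂ :=
  f y - heckeFn v (heckeFn v f) y / (((Nat.card (𝓞 F ⧸ v.asIdeal) + 1 : ℕ) : ℂ)) ^ 2

theorem locGF_hRep_ne {v w : HeightOneSpectrum (𝓞 F)} (h : w ≠ v) (r : Aleph.RIdx v) :
    locGF w (Aleph.hRep v r) = 1 :=
  Units.ext (by rw [coe_locGF, (Aleph.loc_hRep_ne v h r).1, Units.val_one])

variable [DecidableEq (HeightOneSpectrum (𝓞 F))] {N : ℕ} {L : ∀ v, GL (Fin 2) (Kp F v) → ℂ}

/-- The factors away from `v`. -/
def restFun (L : ∀ v, GL (Fin 2) (Kp F v) → ℂ) (v : HeightOneSpectrum (𝓞 F)) (g : GF F) : ℂ :=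
  ∏ᶠ w, if w = v then 1 else L w (locGF w g)

theorem LocFam.prodFun_update (hL : LocFam N L) (v : HeightOneSpectrum (𝓞 F))
    (f : GL (Fin 2) (Kp F v) → ℂ) (g : GF F) :
    prodFun (Function.update L v f) g = f (locGF v g) * restFun L v g := by
  have e : ∀ w, Function.update L v f w (locGF w g) =
      (if w = v then f (locGF v g) else 1) * (if w = v then 1 else L w (locGF w g)) := fun w => by
    rcases eq_or_ne w v with rfl | h
    · simp
    · simp [h]
  have h1 : (Function.mulSupport fun w => if w = v then f (locGF v g) else 1).Finite :=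
    (Set.finite_singleton v).subset fun w hw => by
      by_contra h
      simp only [Set.mem_singleton_iff] at h
      exact hw (if_neg h)
  have h2 : (Function.mulSupport fun w => if w = v then 1 else L w (locGF w g)).Finite :=
    (hL.mulSupport_finite g).subset fun w hw => by
      rcases eq_or_ne w v with rfl | h
      · exact absurd (if_pos rfl) hw
      · simpa [h] using hw
  rw [prodFun, finprod_congr e, finprod_mul_distrib h1 h2,
    finprod_eq_single _ v (fun w hw => if_neg hw), if_pos rfl]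
  rfl

theorem restFun_mul_hRep (L : ∀ v, GL (Fin 2) (Kp F v) → ℂ) (v : HeightOneSpectrum (𝓞 F)) (g : GF F)
    (r : Aleph.RIdx v) : restFun L v (g * Aleph.hRep v r) = restFun L v g :=
  finprod_congr fun w => by
    split_ifs with h
    · rfl
    · rw [map_mul, locGF_hRep_ne h, mul_one]

theorem LocFam.mulHecke_prodTest (hL : LocFam N L) (v : HeightOneSpectrum (𝓞 F))
    (f : GL (Fin 2) (Kp F v) → ℂ) (h : (InfinitePlace F → ℝ) → ℂ) :
    (prodTest (Function.update L v f) h).mulHecke v =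
      prodTest (Function.update L v (heckeFn v f)) h := by
  show (⟨_, h⟩ : Test F) = ⟨_, h⟩
  congr 1
  funext y
  show (∑ᶠ u : 𝓞 F ⧸ v.asIdeal, prodFun (Function.update L v f) (y * Aleph.hRep v (some u))) +
    prodFun (Function.update L v f) (y * Aleph.hRep v none) = _
  simp only [hL.prodFun_update, restFun_mul_hRep, map_mul]
  rw [heckeFn, add_mul, finsum_mul _ _]
  rfl

theorem LocFam.damp_prodTest (hL : LocFam N L) (v : HeightOneSpectrum (𝓞 F))
    (f : GL (Fin 2) (Kp F v) → ℂ) (h : (InfinitePlace F → ℝ) → ℂ) :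
    (prodTest (Function.update L v f) h).damp v =
      prodTest (Function.update L v (dampFn v f)) h := by
  show (⟨_, h⟩ : Test F) = ⟨_, h⟩
  congr 1
  funext y
  rw [hL.mulHecke_prodTest, hL.mulHecke_prodTest]
  show prodFun (Function.update L v f) y -
    prodFun (Function.update L v (heckeFn v (heckeFn v f))) y / _ = _
  simp only [hL.prodFun_update, dampFn]
  rw [sub_mul, div_mul_eq_mul_div]

/-- Damping stays among products. -/
theorem LocFam.dampPow_prodTest (hL : LocFam N L) (v : HeightOneSpectrum (𝓞 F))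
    (h : (InfinitePlace F → ℝ) → ℂ) (J : ℕ) :
    (prodTest L h).dampPow v J = prodTest (Function.update L v ((dampFn v)^[J] (L v))) h := by
  induction J with
  | zero => rw [Function.iterate_zero_apply, Function.update_eq_self]; rfl
  | succ J ih =>
    show Test.damp v (Test.dampPow v J (prodTest L h)) = _
    rw [ih, hL.damp_prodTest, Function.iterate_succ_apply']

end FLTAgent.LT.Match
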