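import Fermat.Agent.LT.TF.Match.Split
import Fermat.Agent.LT.TF.Match.Tests
import Fermat.Agent.LT.TF.Aleph.Word

/-!
Powers of `T_v` in the slots of a product of local functions: they stay bi-invariant, and in a triple
convolution they add up.
-/

set_option autoImplicit false
set_option linter.unusedSectionVars false
set_option linter.style.haveILetI false

noncomputable section

namespace FLTAgent.LT.Match

open NumberField IsDedekindDomain

local notation "Γ₀" => WithZero (Multiplicative ℤ)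

variable {F : Type*} [Field F] [NumberField F] (v : HeightOneSpectrum (𝓞 F))

theorem heckeFn_eq_sum (f : GL (Fin 2) (Kp F v) → ℂ) (y : GL (Fin 2) (Kp F v)) :
    heckeFn v f y = ∑ r : Aleph.RIdx v, f (y * hLoc v r) := by
  rw [heckeFn, finsum_eq_sum_of_fintype, Fintype.sum_option, add_comm]

/-- The scalar of the damping. -/
def dampConst : ℂ := ((((Nat.card (𝓞 F ⧸ v.asIdeal) + 1 : ℕ) : ℂ)) ^ 2)⁻¹

theorem dampFn_eq (f : GL (Fin 2) (Kp F v) → ℂ) :
    dampFn v f = f - dampConst v • heckeFn v (heckeFn v f) :=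
  funext fun y => by simp [dampFn, dampConst, div_eq_inv_mul]

theorem heckeFn_sub_smul (a b : GL (Fin 2) (Kp F v) → ℂ) (c : ℂ) :
    heckeFn v (a - c • b) = heckeFn v a - c • heckeFn v b :=
  funext fun y => by
    simp only [heckeFn_eq_sum, Pi.sub_apply, Pi.smul_apply, smul_eq_mul, Finset.sum_sub_distrib,
      Finset.mul_sum]

theorem commute_damp_hecke : Function.Commute (dampFn v) (heckeFn v) := fun f => by
  rw [dampFn_eq, dampFn_eq, heckeFn_sub_smul]

theorem coe_hLoc_inv (r : Aleph.RIdx v) :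
    ((hLoc v r)⁻¹ : GL (Fin 2) (Kp F v)).1 = Aleph.lInv v r := by
  rw [hLoc, ← map_inv, coe_locGF]
  exact (Aleph.loc_hRep_self v r).2

theorem v_det_hLoc (r : Aleph.RIdx v) :
    Valued.v (hLoc v r : Matrix (Fin 2) (Fin 2) (Kp F v)).det = WithZero.exp (-1 : ℤ) := by
  rw [coe_hLoc]
  cases r <;> simp [Aleph.lRep, Matrix.det_fin_two, Aleph.valued_piV]

/-- The representatives are permuted by the maximal compact group. -/
theorem exists_hLoc_perm {k : GL (Fin 2) (Kp F v)} (hk : k ∈ lvl 1) :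
    ∃ σ : Equiv.Perm (Aleph.RIdx v), ∀ r, (hLoc v (σ r))⁻¹ * k * hLoc v r ∈ lvl 1 := by
  obtain ⟨hent, hdet⟩ := mem_lvl_one.1 hk
  choose σ hσ using Aleph.exists_target v hent hdet
  have hm : ∀ r, (hLoc v (σ r))⁻¹ * k * hLoc v r ∈ lvl 1 := fun r => by
    refine mem_lvl_one.2 ⟨?_, ?_⟩
    · rw [Units.val_mul, Units.val_mul, coe_hLoc_inv, coe_hLoc]
      exact hσ r
    · rw [Units.val_mul, Units.val_mul, Matrix.det_mul, Matrix.det_mul, map_mul, map_mul, hdet,
        mul_one, Matrix.coe_units_inv, Matrix.det_nonsing_inv, Ring.inverse_eq_inv', map_inv₀,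
        v_det_hLoc, v_det_hLoc, inv_mul_cancel₀ WithZero.exp_ne_zero]
  have hinj : Function.Injective σ := fun r r' e => by
    have h := mul_mem (inv_mem (hm r')) (hm r)
    rw [e, show ((hLoc v (σ r'))⁻¹ * k * hLoc v r')⁻¹ * ((hLoc v (σ r'))⁻¹ * k * hLoc v r) =
      (hLoc v r')⁻¹ * hLoc v r by group] at h
    refine Aleph.eq_of_entLe v ?_
    have h' := (mem_lvl_one.1 h).1
    rwa [Units.val_mul, coe_hLoc_inv, coe_hLoc] at h'
  exact ⟨Equiv.ofBijective σ (Finite.injective_iff_bijective.1 hinj), hm⟩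

variable {v}

theorem BiFin.sub_smul {G : Type*} [Group G] {U : Subgroup G} {a b : G → ℂ} (ha : BiFin U a)
    (hb : BiFin U b) (c : ℂ) : BiFin U (a - c • b) where
  left u hu g := by simp [ha.left u hu, hb.left u hu]
  right u hu g := by simp [ha.right u hu, hb.right u hu]
  fin := (ha.fin.union hb.fin).subset fun x hx => by
    rcases eq_or_ne (a x.out) 0 with h | h
    · exact Or.inr fun h' => hx (by simp [h, h'])
    · exact Or.inl h

theorem BiFin.hecke {f : GL (Fin 2) (Kp F v) → ℂ} (hf : BiFin (lvlZ 1) f) :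
    BiFin (lvlZ 1) (heckeFn v f) := by
  classical
  refine ⟨fun u hu g => ?_, fun u hu g => ?_, ?_⟩
  · simp only [heckeFn_eq_sum, mul_assoc, hf.left u hu]
  · obtain ⟨k, hk, c, rfl⟩ := hu
    obtain ⟨σ, hσ⟩ := exists_hLoc_perm v hk
    have e : ∀ r, f (g * (k * scal c) * hLoc v r) = f (g * hLoc v (σ r)) := fun r => by
      rw [show g * (k * scal c) * hLoc v r =
        g * hLoc v (σ r) * ((hLoc v (σ r))⁻¹ * k * hLoc v r * scal c) by
          rw [show g * (k * scal c) * hLoc v r = g * k * (scal c * hLoc v r) by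
            simp only [mul_assoc], scal_mul_comm c (hLoc v r)]
          group,
        hf.right _ ⟨_, hσ r, c, rfl⟩]
    simp only [heckeFn_eq_sum, e]
    exact Equiv.sum_comp σ fun r => f (g * hLoc v r)
  · have hπ : Aleph.piV v ≠ 0 := Aleph.piV_ne_zero v
    have hπv : Valued.v (Aleph.piV v) = WithZero.exp (-1 : ℤ) := Aleph.valued_piV v
    set X := {x : GL (Fin 2) (Kp F v) | ∀ a b,
      Valued.v ((x : Matrix (Fin 2) (Fin 2) (Kp F v)) a b) ≤ (1 : Γ₀) ∧
        WithZero.exp (-1 : ℤ) ≤ Valued.v (x : Matrix (Fin 2) (Fin 2) (Kp F v)).det}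
    have hX := finite_bounded_cosets v (d := WithZero.exp (-1 : ℤ)) (e := 1) WithZero.exp_ne_zero
      one_ne_zero
    refine ((hf.fin.biUnion fun a _ => hX.image fun x => a.out • x)).subset fun c hc => ?_
    have hc' : heckeFn v f c.out ≠ 0 := hc
    rw [heckeFn_eq_sum] at hc'
    obtain ⟨r, -, hr⟩ := Finset.exists_ne_zero_of_sum_ne_zero hc'
    set a : GL (Fin 2) (Kp F v) ⧸ lvlZ (1 : Γ₀) := QuotientGroup.mk (c.out * hLoc v r)
    have ha : f a.out ≠ 0 := by rwa [hf.apply_out']
    obtain ⟨k, hk, z, hz⟩ : a.out⁻¹ * (c.out * hLoc v r) ∈ lvlZ (1 : Γ₀) :=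
      QuotientGroup.eq.1 a.out_eq'
    obtain ⟨hkE, hkd⟩ := mem_lvl_one.1 hk
    set x : GL (Fin 2) (Kp F v) := k * (hLoc v r)⁻¹ * scal (Units.mk0 _ hπ)
    have hxmem : x ∈ X := fun i l => by
      refine ⟨?_, ?_⟩
      · have hL : Ent (1 : Γ₀)
            (((hLoc v r)⁻¹ * scal (Units.mk0 _ hπ) : GL (Fin 2) (Kp F v)) :
              Matrix (Fin 2) (Fin 2) (Kp F v)) := by
          have h1 : Valued.v (Aleph.piV v) ≤ (1 : Γ₀) := by
            rw [hπv, ← WithZero.exp_zero, WithZero.exp_le_exp]; norm_num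
          intro i l
          rw [Units.val_mul, coe_hLoc_inv]
          cases r <;> fin_cases i <;> fin_cases l <;>
            simp [Aleph.lInv, scal, Matrix.mul_apply, Fin.sum_univ_two, hπ] <;>
            first
              | exact h1
              | (rw [mul_right_comm, inv_mul_cancel₀ (by rw [hπv]; exact WithZero.exp_ne_zero),
                   one_mul]
                 exact v.valuation_le_one _)
        show Valued.v ((x : Matrix (Fin 2) (Fin 2) (Kp F v)) i l) ≤ 1
        rw [show (x : Matrix (Fin 2) (Fin 2) (Kp F v)) = (k : Matrix (Fin 2) (Fin 2) (Kp F v)) *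
            (((hLoc v r)⁻¹ * scal (Units.mk0 _ hπ) : GL (Fin 2) (Kp F v)) :
              Matrix (Fin 2) (Fin 2) (Kp F v)) from by
          simp only [x, Units.val_mul, Matrix.mul_assoc], Matrix.mul_apply]
        refine Valued.v.map_sum_le fun s _ => ?_
        rw [map_mul]
        exact mul_le_one' (hkE i s) (hL s l)
      · simp only [x, Units.val_mul, Matrix.det_mul, map_mul, hkd, one_mul, Matrix.coe_units_inv,
          Matrix.det_nonsing_inv, Ring.inverse_eq_inv', map_inv₀, v_det_hLoc]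
        simp [scal, hπv, ← WithZero.exp_neg, ← WithZero.exp_add]
    refine Set.mem_biUnion ha ⟨QuotientGroup.mk x, ⟨x, hxmem, rfl⟩, ?_⟩
    show (QuotientGroup.mk (a.out * x) : GL (Fin 2) (Kp F v) ⧸ lvlZ (1 : Γ₀)) = c
    conv_rhs => rw [← c.out_eq']
    refine QuotientGroup.eq.2 ?_
    have e : c.out = a.out * (k * scal z) * (hLoc v r)⁻¹ := by rw [← hz]; group
    rw [show (a.out * x)⁻¹ * c.out = (scal (Units.mk0 _ hπ))⁻¹ * scal z by
      rw [e, show a.out * (k * scal z) * (hLoc v r)⁻¹ = a.out * k * (scal z * (hLoc v r)⁻¹) by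
        simp only [mul_assoc], scal_mul_comm z (hLoc v r)⁻¹]
      simp only [x]; group]
    exact mul_mem (inv_mem (scal_mem_lvlZ 1 _)) (scal_mem_lvlZ 1 z)

theorem BiFin.damp {f : GL (Fin 2) (Kp F v) → ℂ} (hf : BiFin (lvlZ 1) f) :
    BiFin (lvlZ 1) (dampFn v f) := by
  rw [dampFn_eq]; exact hf.sub_smul hf.hecke.hecke _

theorem BiFin.iterate {op : (GL (Fin 2) (Kp F v) → ℂ) → GL (Fin 2) (Kp F v) → ℂ}
    (hop : ∀ f, BiFin (lvlZ 1) f → BiFin (lvlZ 1) (op f)) {f : GL (Fin 2) (Kp F v) → ℂ}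
    (hf : BiFin (lvlZ 1) f) (n : ℕ) : BiFin (lvlZ 1) (op^[n] f) := by
  induction n with
  | zero => exact hf
  | succ n ih => rw [Function.iterate_succ_apply']; exact hop _ ih

theorem biFin_unitFn {K : Type*} [Field K] [Valued K Γ₀] (e : Γ₀) :
    BiFin (lvlZ e) (unitFn (K := K) e) where
  left u hu g := by
    classical simp only [unitFn, Set.indicator_apply, SetLike.mem_coe, (lvlZ e).mul_mem_cancel_left hu,
      Pi.one_apply]
  right u hu g := by
    classical simp only [unitFn, Set.indicator_apply, SetLike.mem_coe, (lvlZ e).mul_mem_cancel_right hu,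
      Pi.one_apply]
  fin := (Set.finite_singleton (QuotientGroup.mk 1)).subset fun c hc => by
    by_contra h
    refine hc (Set.indicator_of_notMem (fun hm => h ?_) _)
    rw [Set.mem_singleton_iff, ← c.out_eq', QuotientGroup.eq]
    simpa using inv_mem hm

/-- Replacing a factor at a place prime to the level. -/
theorem LocFam.update_good [DecidableEq (HeightOneSpectrum (𝓞 F))] {N : ℕ}
    {L : ∀ v, GL (Fin 2) (Kp F v) → ℂ} (hL : LocFam N L) (hv : (N : 𝓞 F) ∉ v.asIdeal)
    {f : GL (Fin 2) (Kp F v) → ℂ} (hf : BiFin (lvlZ 1) f) : LocFam N (Function.update L v f) := by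
  refine ⟨?_, fun w u hu g => ?_, fun w u hu g => ?_, fun w => ?_⟩
  · filter_upwards [hL.unit, Filter.eventually_cofinite_ne v] with w hw hne
    rw [Function.update_of_ne hne, hw]
  all_goals rcases eq_or_ne w v with rfl | h
  · rw [Function.update_self]; exact hf.left u (by rwa [levN_eq_one hv] at hu) g
  · rw [Function.update_of_ne h]; exact hL.left_inv w u hu g
  · rw [Function.update_self]; exact hf.right u (by rwa [levN_eq_one hv] at hu) g
  · rw [Function.update_of_ne h]; exact hL.right_inv w u hu g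
  · rw [Function.update_self, levN_eq_one hv]
    refine hf.fin.subset ?_
    rintro _ ⟨g, hg, rfl⟩
    show f (QuotientGroup.mk g : GL (Fin 2) (Kp F w) ⧸ lvlZ (1 : Γ₀)).out ≠ 0
    rwa [hf.apply_out']
  · rw [Function.update_of_ne h]; exact hL.finite w

/-! ### Triple convolutions -/

section

variable {G : Type*} [Group G] {U : Subgroup G}

theorem finsum_comp_of_subset_range {α β : Type*} {g : α → β} {h : β → ℂ}
    (hg : Function.Injective g) (hs : Function.support h ⊆ Set.range g) :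
    ∑ᶠ b, h b = ∑ᶠ a, h (g a) := by
  rw [← finsum_mem_range hg]
  refine (finsum_congr fun b => ?_)
  by_cases hb : b ∈ Set.range g
  · simp [hb]
  · simp [hb, Function.notMem_support.1 fun h' => hb (hs h')]

theorem conv3_unit_last {f g : G → ℂ} (hg : BiFin U g) (_hf : BiFin U f) (s : G) :
    conv3 U ![f, g, (U : Set G).indicator 1] s = conv3 U ![f, (U : Set G).indicator 1, g] s := by
  rw [conv3, conv3]
  simp only [Matrix.cons_val_zero, Matrix.cons_val_one, Matrix.cons_val_two, Matrix.head_cons,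
    Matrix.tail_cons]
  obtain ⟨u, hu, es⟩ := exists_out_mk U s
  rw [finsum_comp_of_subset_range (g := fun y : G ⧸ U => (y, (QuotientGroup.mk s : G ⧸ U)))
      (fun a b h => congrArg Prod.fst h) ?_,
    finsum_comp_of_subset_range (g := fun y : G ⧸ U => (y, y))
      (fun a b h => congrArg Prod.fst h) ?_]
  · refine finsum_congr fun y => ?_
    simp only [es]
    rw [show (s * u)⁻¹ * s = u⁻¹ by group, Set.indicator_of_mem (inv_mem hu),
      inv_mul_cancel y.out, Set.indicator_of_mem (one_mem U), Pi.one_apply, Pi.one_apply, mul_one,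
      mul_one, show y.out⁻¹ * (s * u) = y.out⁻¹ * s * u by group, hg.right u hu]
  · intro p hp
    obtain ⟨-, h⟩ := mul_ne_zero_iff.1 (mul_ne_zero_iff.1 hp).1
    have hm : p.1.out⁻¹ * p.2.out ∈ U := Set.mem_of_indicator_ne_zero h
    refine ⟨p.1, Prod.ext rfl ?_⟩
    show p.1 = p.2
    rw [← p.1.out_eq', ← p.2.out_eq']
    exact QuotientGroup.eq.2 hm
  · intro p hp
    obtain ⟨-, h⟩ := mul_ne_zero_iff.1 hp
    have hm : p.2.out⁻¹ * s ∈ U := Set.mem_of_indicator_ne_zero h
    refine ⟨p.1, Prod.ext rfl ?_⟩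
    show QuotientGroup.mk s = p.2
    rw [← p.2.out_eq']
    exact (QuotientGroup.eq.2 hm).symm

end

theorem conv3_hecke_last {f₀ f₁ g : GL (Fin 2) (Kp F v) → ℂ} (h0 : BiFin (lvlZ 1) f₀)
    (h1 : BiFin (lvlZ 1) f₁) (hg : BiFin (lvlZ 1) g) :
    conv3 (lvlZ 1) ![f₀, f₁, heckeFn v g] = heckeFn v (conv3 (lvlZ 1) ![f₀, f₁, g]) := by
  funext s
  rw [heckeFn_eq_sum, conv3]
  simp only [conv3, Matrix.cons_val_zero, Matrix.cons_val_one, Matrix.cons_val_two,
    Matrix.head_cons, Matrix.tail_cons, heckeFn_eq_sum, Finset.mul_sum, mul_assoc]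
  refine finsum_sum_comm _ _ fun r _ => ?_
  refine (conv3_finite (f := ![f₀, f₁, g]) (fun i => by fin_cases i <;> assumption)
    (s * hLoc v r)).subset fun p hp => ?_
  simpa [mul_assoc] using hp

/-- **Powers of `T_v` in three slots add up.** -/
theorem conv3_powers (J a b c : ℕ) :
    conv3 (lvlZ 1) ![(dampFn v)^[J] ((heckeFn v)^[a] (unitFn 1)), (heckeFn v)^[b] (unitFn 1),
        (heckeFn v)^[c] (unitFn 1)] =
      (dampFn v)^[J] ((heckeFn v)^[a + b + c] (unitFn 1)) := by
  have hu : BiFin (lvlZ 1) (unitFn (K := Kp F v) 1) := biFin_unitFn 1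
  have hT : ∀ {f}, BiFin (lvlZ 1) f → ∀ n, BiFin (lvlZ 1) ((heckeFn v)^[n] f) :=
    fun hf n => hf.iterate (fun _ h => h.hecke) n
  have hf := (hT hu a).iterate (fun _ h => h.damp) J
  have step : ∀ {f₀ f₁}, BiFin (lvlZ 1) f₀ → BiFin (lvlZ 1) f₁ → ∀ n,
      conv3 (lvlZ 1) ![f₀, f₁, (heckeFn v)^[n] (unitFn 1)] =
        (heckeFn v)^[n] (conv3 (lvlZ 1) ![f₀, f₁, unitFn 1]) := fun h0 h1 n => by
    induction n with
    | zero => rfl
    | succ n ih =>
      rw [Function.iterate_succ_apply', conv3_hecke_last h0 h1 (hT hu n), ih,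
        Function.iterate_succ_apply']
  have e0 : conv3 (lvlZ 1) ![(dampFn v)^[J] ((heckeFn v)^[a] (unitFn 1)), unitFn 1, unitFn 1] =
      (dampFn v)^[J] ((heckeFn v)^[a] (unitFn 1)) := funext (conv3_units _ hf.right)
  have e1 : conv3 (lvlZ 1) ![(dampFn v)^[J] ((heckeFn v)^[a] (unitFn 1)), (heckeFn v)^[b] (unitFn 1),
      unitFn 1] = (heckeFn v)^[b] ((dampFn v)^[J] ((heckeFn v)^[a] (unitFn 1))) := by
    refine (funext (conv3_unit_last (hT hu b) hf)).trans ?_
    show conv3 (lvlZ 1) ![_, unitFn 1, _] = _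
    rw [step hf hu b, e0]
  rw [step hf (hT hu b) c, e1, ← Function.iterate_add_apply,
    ← ((commute_damp_hecke v).iterate_iterate J (c + b)).eq, ← Function.iterate_add_apply,
    show a + b + c = c + b + a by omega]

end FLTAgent.LT.Match
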