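import Fermat.Agent.LT.TF.Match.Pair
import Fermat.Agent.LT.TF.Match.NormUnits
import Mathlib.RingTheory.Valuation.ValuationSubring
import Mathlib.RingTheory.LocalRing.ResidueField.Basic

/-!
Local matching of the units at a place which stays prime with a nontrivial residue automorphism: an
element of the group has the norm of a unit of the order of `δ`, twisted fixed lattices descend.
-/

set_option autoImplicit false
set_option linter.unusedSectionVars false

noncomputable section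

namespace FLTAgent.LT.Match

open NormUnits Matrix IsLocalRing

local notation "Γ₀" => WithZero (Multiplicative ℤ)

section General

variable {S T : Type*} [CommRing S] [CommRing T]

/-- Change of coefficients of the quadratic algebra. -/
def qmap (f : S →+* T) {t d : S} {t' d' : T} (ht : f t = t') (hd : f d = d') :
    QA t d →+* QA t' d' where
  toFun x := ⟨f x.re, f x.im⟩
  map_one' := by ext <;> simp [QuadraticAlgebra.re_one, QuadraticAlgebra.im_one]
  map_zero' := by ext <;> simp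
  map_add' x y := by ext <;> simp
  map_mul' x y := by ext <;> simp [← ht, ← hd]

theorem qmap_N3Q (f : S →+* T) {τ : S →+* S} {τ' : T →+* T} (hf : ∀ x, f (τ x) = τ' (f x))
    {t d : S} {t' d' : T} (ht : f t = t') (hd : f d = d') (hτt : τ t = t) (hτd : τ d = d)
    (hτt' : τ' t' = t') (hτd' : τ' d' = d') (x : QA t d) :
    qmap f ht hd (N3Q hτt hτd x) = N3Q hτt' hτd' (qmap f ht hd x) := by
  have h : ∀ y : QA t d, qmap f ht hd (sig hτt hτd y) = sig hτt' hτd' (qmap f ht hd y) := fun y =>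
    QuadraticAlgebra.ext (hf _) (hf _)
  simp only [N3Q, map_mul, h]

theorem norm_qmap (f : S →+* T) {t d : S} {t' d' : T} (ht : f t = t') (hd : f d = d')
    (x : QA t d) : QuadraticAlgebra.norm (qmap f ht hd x) = f (QuadraticAlgebra.norm x) := by
  simp [QuadraticAlgebra.norm_def, qmap, ← ht, ← hd]

theorem norm_sig {τ : S →+* S} {t d : S} (ht : τ t = t) (hd : τ d = d) (x : QA t d) :
    QuadraticAlgebra.norm (sig ht hd x) = τ (QuadraticAlgebra.norm x) := by
  simp [QuadraticAlgebra.norm_def, sig, ht, hd]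

end General

variable {A B : Type*} [Field A] [Valued A Γ₀] [Field B] [Valued B Γ₀]
variable {j : A →+* B} {τ : B →+* B}

/-- The integers of `B`. -/
abbrev intB (B : Type*) [Field B] [Valued B Γ₀] : ValuationSubring B :=
  (Valued.v : Valuation B Γ₀).valuationSubring

theorem isUnit_intB_iff {x : intB B} : IsUnit x ↔ Valued.v (x : B) = (1 : Γ₀) := by
  constructor
  · rintro ⟨u, rfl⟩
    refine le_antisymm (u : intB B).2 ?_
    calc (1 : Γ₀) = Valued.v (((u : intB B) : B) * (((u⁻¹ : (intB B)ˣ) : intB B) : B)) := by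
          rw [← MulMemClass.coe_mul, ← Units.val_mul, mul_inv_cancel]; simp
      _ ≤ Valued.v ((u : intB B) : B) * 1 := by
          rw [map_mul]; exact mul_le_mul' le_rfl ((u⁻¹ : (intB B)ˣ) : intB B).2
      _ = _ := mul_one _
  · intro h
    have h0 : (x : B) ≠ 0 := fun e => by simp [e] at h
    refine IsUnit.of_mul_eq_one ⟨(x : B)⁻¹, ?_⟩ (Subtype.ext (mul_inv_cancel₀ h0))
    show Valued.v ((x : B)⁻¹) ≤ (1 : Γ₀)
    rw [map_inv₀, h, inv_one]

theorem residue_eq_zero_iff_lt {x : intB B} :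
    residue (intB B) x = 0 ↔ Valued.v (x : B) < (1 : Γ₀) := by
  rw [IsLocalRing.residue_eq_zero_iff, mem_maximalIdeal, mem_nonunits_iff, isUnit_intB_iff]
  exact ⟨fun h => lt_of_le_of_ne x.2 h, ne_of_lt⟩

/-- The automorphism on the integers. -/
def Pair.tauInt (P : Pair j τ) : intB B →+* intB B :=
  (τ.comp (intB B).subtype).codRestrict (intB B) fun x => by
    show Valued.v (τ x) ≤ (1 : Γ₀)
    rw [P.v_tau]
    exact x.2

theorem Pair.coe_tauInt (P : Pair j τ) (x : intB B) : (P.tauInt x : B) = τ x := rfl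

theorem Pair.isLocalHom_tauInt (P : Pair j τ) : IsLocalHom P.tauInt :=
  ⟨fun x hx => isUnit_intB_iff.2 (by
    rw [← P.v_tau]
    exact isUnit_intB_iff.1 hx)⟩

theorem Pair.tau_mem (P : Pair j τ) {x : B} (hx : Valued.v x ≤ (1 : Γ₀)) :
    Valued.v (τ x) ≤ (1 : Γ₀) := by rwa [P.v_tau]

theorem Pair.v_j_le_one (P : Pair j τ) {x : A} :
    Valued.v (j x) ≤ (1 : Γ₀) ↔ Valued.v x ≤ (1 : Γ₀) := by
  simpa using P.v_j x 1

theorem Pair.v_j_eq_one (P : Pair j τ) {x : A} :
    Valued.v (j x) = (1 : Γ₀) ↔ Valued.v x = (1 : Γ₀) := by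
  simp only [le_antisymm_iff, P.v_j_le_one, ← not_lt, P.v_j_lt_one]

theorem v_one_add_eq {K : Type*} [Field K] [Valued K Γ₀] {x : K} (hx : Valued.v x < (1 : Γ₀)) :
    Valued.v (1 + x) = (1 : Γ₀) := by
  rw [Valuation.map_add_eq_of_lt_left _ (by rwa [map_one]), map_one]

variable [CompleteSpace A]

/-- An element of the order of `δ` whose norm is a scalar times `δ`. -/
theorem Pair.exists_norm_omega (P : Pair j τ) [Finite (ResidueField (intB B))] {θ : B}
    (hθ : Valued.v θ ≤ (1 : Γ₀)) (hθ' : Valued.v (τ θ - θ) = (1 : Γ₀)) {t d : A}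
    (ht : Valued.v t ≤ (1 : Γ₀)) (hd : Valued.v d = (1 : Γ₀)) :
    ∃ (w : QA (j t) (j d)) (c : B), Valued.v w.re ≤ (1 : Γ₀) ∧ Valued.v w.im ≤ (1 : Γ₀) ∧
      Valued.v (QuadraticAlgebra.norm w) = (1 : Γ₀) ∧
      N3Q (P.tau_j t) (P.tau_j d) w = ⟨0, c⟩ := by
  have := P.isLocalHom_tauInt
  set k := ResidueField (intB B)
  set τk : k →+* k := ResidueField.map P.tauInt
  have hres : ∀ x, residue (intB B) (P.tauInt x) = τk (residue (intB B) x) := fun x =>
    (ResidueField.map_residue P.tauInt x).symm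
  set tV : intB B := ⟨j t, P.v_j_le_one.2 ht⟩
  set dV : intB B := ⟨j d, (P.v_j_eq_one.2 hd).le⟩
  have htV : P.tauInt tV = tV := Subtype.ext (P.tau_j t)
  have hdV : P.tauInt dV = dV := Subtype.ext (P.tau_j d)
  have hkt : τk (residue _ tV) = residue _ tV := by rw [← hres, htV]
  have hkd : τk (residue _ dV) = residue _ dV := by rw [← hres, hdV]
  set θV : intB B := ⟨θ, hθ⟩
  have hcubeV : ∀ x, P.tauInt (P.tauInt (P.tauInt x)) = x := fun x => Subtype.ext (P.cube x)
  have hcubek : ∀ x, τk (τk (τk x)) = x := fun x => by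
    obtain ⟨y, rfl⟩ := residue_surjective x
    rw [← hres, ← hres, ← hres, hcubeV]
  have hθV : IsUnit (P.tauInt θV - θV) := isUnit_intB_iff.2 hθ'
  have hθk : IsUnit (τk (residue _ θV) - residue _ θV) := by
    rw [← hres, ← map_sub]
    exact hθV.map _
  -- modulo the maximal ideal
  obtain ⟨wb, hwb, hNwb⟩ := exists_N3Q_eq hkt hkd hcubek hθk
    (u := (⟨0, 1⟩ : QA (residue _ tV) (residue _ dV)))
    (QuadraticAlgebra.isUnit_iff_norm_isUnit.2 (by
      simp [QuadraticAlgebra.norm_def]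
      exact isUnit_intB_iff.2 (P.v_j_eq_one.2 hd)))
    (QuadraticAlgebra.ext (map_zero τk) (map_one τk))
  obtain ⟨r0, hr0⟩ := residue_surjective wb.re
  obtain ⟨i0, hi0⟩ := residue_surjective wb.im
  set w0 : QA tV dV := ⟨r0, i0⟩
  set Rk := qmap (residue (intB B)) (t := tV) (d := dV) rfl rfl
  set RB := qmap (intB B).subtype (t := tV) (d := dV) (t' := j t) (d' := j d) rfl rfl
  have hw0 : Rk w0 = wb := QuadraticAlgebra.ext hr0 hi0
  have hX := qmap_N3Q (residue (intB B)) hres rfl rfl htV hdV hkt hkd w0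
  rw [show qmap (residue (intB B)) rfl rfl w0 = wb from hw0, hNwb] at hX
  set XV := N3Q htV hdV w0
  have hXre : Valued.v ((XV.re : intB B) : B) < (1 : Γ₀) :=
    residue_eq_zero_iff_lt.1 (congrArg QuadraticAlgebra.re hX)
  have hXim : Valued.v (((XV.im - 1 : intB B)) : B) < (1 : Γ₀) := residue_eq_zero_iff_lt.1 (by
    rw [map_sub, map_one, sub_eq_zero]
    exact congrArg QuadraticAlgebra.im hX)
  have hXB : N3Q (P.tau_j t) (P.tau_j d) (RB w0) = RB XV :=
    (qmap_N3Q (intB B).subtype (τ := P.tauInt) (τ' := τ) (fun _ => rfl) rfl rfl htV hdV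
      (P.tau_j t) (P.tau_j d) w0).symm
  have hsigX := sig_N3Q (P.tau_j t) (P.tau_j d) P.cube (RB w0)
  rw [hXB] at hsigX
  obtain ⟨x0, hx0⟩ := P.fixed (XV.re : B) (congrArg QuadraticAlgebra.re hsigX)
  obtain ⟨y0, hy0⟩ := P.fixed (XV.im : B) (congrArg QuadraticAlgebra.im hsigX)
  have hvx0 : Valued.v x0 < (1 : Γ₀) := P.v_j_lt_one.1 (by rw [hx0]; exact hXre)
  have hvy0 : Valued.v y0 = (1 : Γ₀) := by
    have h : Valued.v (y0 - 1) < (1 : Γ₀) := P.v_j_lt_one.1 (by
      rw [map_sub, map_one, hy0]; simpa using hXim)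
    simpa using v_one_add_eq h
  have hd0 : d ≠ 0 := fun e => by simp [e] at hd
  have hy00 : y0 ≠ 0 := fun e => by simp [e] at hvy0
  set y := x0 / (d * y0)
  have hvy : Valued.v y < (1 : Γ₀) := by
    simp only [y, map_div₀, map_mul, hd, hvy0, one_mul, div_one]
    exact hvx0
  -- an element of trace one
  obtain ⟨bV, hbV⟩ := exists_trace_one hcubeV hθV
  set b : B := (bV : B)
  have hb : Valued.v b ≤ (1 : Γ₀) := bV.2
  have hb1 : Valued.v (τ b) ≤ (1 : Γ₀) := P.tau_mem hb
  have hb2 : Valued.v (τ (τ b)) ≤ (1 : Γ₀) := P.tau_mem hb1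
  have hT : b + τ b + τ (τ b) = 1 := congrArg Subtype.val hbV
  obtain ⟨s2, hs2⟩ := P.fixed (b * τ b + τ b * τ (τ b) + τ (τ b) * b)
    (by simp only [map_add, map_mul, P.cube]; ring)
  obtain ⟨s3, hs3⟩ := P.fixed (b * τ b * τ (τ b)) (by simp only [map_mul, P.cube]; ring)
  have hvs2 : Valued.v s2 ≤ (1 : Γ₀) := P.v_j_le_one.1 (by
    rw [hs2]
    refine Valued.v.map_add_le (Valued.v.map_add_le ?_ ?_) ?_ <;> rw [map_mul]
    exacts [mul_le_one' hb hb1, mul_le_one' hb1 hb2, mul_le_one' hb2 hb])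
  have hvs3 : Valued.v s3 ≤ (1 : Γ₀) := P.v_j_le_one.1 (by
    rw [hs3, map_mul, map_mul]
    exact mul_le_one' (mul_le_one' hb hb1) hb2)
  have ha : Valued.v (-(t * s2) - y * d * s2) ≤ (1 : Γ₀) := by
    refine Valued.v.map_sub_le ?_ ?_
    · rw [Valuation.map_neg, map_mul]; exact mul_le_one' ht hvs2
    · rw [map_mul, map_mul]; exact mul_le_one' (mul_le_one' hvy.le hd.le) hvs2
  have hb' : Valued.v (-((t ^ 2 - d) * s3) - y * d * t * s3) ≤ (1 : Γ₀) := by
    refine Valued.v.map_sub_le ?_ ?_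
    · rw [Valuation.map_neg, map_mul]
      exact mul_le_one' (Valued.v.map_sub_le (by rw [map_pow]; exact pow_le_one₀ zero_le ht) hd.le)
        hvs3
    · rw [map_mul, map_mul, map_mul]
      exact mul_le_one' (mul_le_one' (mul_le_one' hvy.le hd.le) ht) hvs3
  obtain ⟨r, hr, hroot⟩ := exists_small_root hvy ha hb'
  set w1 : QA (j t) (j d) := ⟨1, b * j r⟩
  have hvb : Valued.v (b * j r) < (1 : Γ₀) := by
    rw [map_mul]
    exact (mul_le_of_le_one_left' hb).trans_lt (P.v_j_lt_one.2 (hr.trans_lt hvy))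
  refine ⟨RB w0 * w1,
    (1 - j d * j s2 * j r ^ 2 - j d * j t * j s3 * j r ^ 3) *
      (j y0 + j y * j x0 + j t * j y * j y0), ?_, ?_, ?_, ?_⟩
  · simp only [w1, RB, qmap, QuadraticAlgebra.re_mul, RingHom.coe_mk, MonoidHom.coe_mk, OneHom.coe_mk]
    refine Valued.v.map_add_le ?_ ?_
    · rw [map_mul, map_one, mul_one]; exact r0.2
    · rw [map_mul, map_mul, Valuation.map_neg]
      exact mul_le_one' (mul_le_one' dV.2 i0.2) hvb.le
  · simp only [w1, RB, qmap, QuadraticAlgebra.im_mul, RingHom.coe_mk, MonoidHom.coe_mk, OneHom.coe_mk]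
    refine Valued.v.map_add_le (Valued.v.map_add_le ?_ ?_) ?_
    · rw [map_mul]; exact mul_le_one' r0.2 hvb.le
    · rw [map_mul, map_one, mul_one]; exact i0.2
    · rw [map_mul, map_mul]; exact mul_le_one' (mul_le_one' tV.2 i0.2) hvb.le
  · rw [map_mul, map_mul, show QuadraticAlgebra.norm (RB w0) =
      (intB B).subtype (QuadraticAlgebra.norm w0) from norm_qmap _ _ _ _]
    have h0 : IsUnit (QuadraticAlgebra.norm w0) := by
      refine isUnit_of_map_unit (residue (intB B)) _ ?_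
      rw [← norm_qmap (residue (intB B)) (t := tV) (d := dV) rfl rfl, hw0]
      exact QuadraticAlgebra.isUnit_iff_norm_isUnit.1 hwb
    rw [show (intB B).subtype (QuadraticAlgebra.norm w0) = ((QuadraticAlgebra.norm w0 : intB B) : B)
      from rfl, isUnit_intB_iff.1 h0, one_mul,
      show QuadraticAlgebra.norm w1 = 1 + (b * j r) * (j t + j d * (b * j r)) by
        simp [w1, QuadraticAlgebra.norm_def]; ring]
    refine v_one_add_eq ?_
    rw [map_mul]
    refine (mul_le_of_le_one_right' ?_).trans_lt hvb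
    refine Valued.v.map_add_le (P.v_j_le_one.2 ht) ?_
    rw [map_mul]
    exact mul_le_one' (P.v_j_eq_one.2 hd).le hvb.le
  · rw [N3Q_mul, hXB]
    have hN : N3Q (P.tau_j t) (P.tau_j d) w1 =
        ⟨1 - j d * j s2 * j r ^ 2 - j d * j t * j s3 * j r ^ 3,
          (1 - j d * j s2 * j r ^ 2 - j d * j t * j s3 * j r ^ 3) * j y⟩ := by
      have h := congrArg j hroot
      simp only [map_add, map_mul, map_pow, map_sub, map_neg] at h
      refine QuadraticAlgebra.ext ?_ ?_
      · simp [N3Q, sig, w1, P.tau_j, hs2, hs3]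
        ring
      · simp [N3Q, sig, w1, P.tau_j]
        linear_combination j r * hT - h - j t * j r ^ 2 * hs2 - (j t ^ 2 - j d) * j r ^ 3 * hs3
    have hy' : j d * j y * j y0 = j x0 := by
      rw [← map_mul, ← map_mul]
      congr 1
      simp only [y]
      field_simp
    rw [hN]
    refine QuadraticAlgebra.ext ?_ ?_
    · simp [RB, qmap, ← hx0, ← hy0]
      linear_combination -(1 - j d * j s2 * j r ^ 2 - j d * j t * j s3 * j r ^ 3) * hy'
    · simp [RB, qmap, ← hx0, ← hy0]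
      ring

/-- A unit scalar multiple in the maximal compact subgroup. -/
theorem mem_lvl_one_of_det {K : Type*} [Field K] [Valued K Γ₀] {g : GL (Fin 2) K}
    (hg : g ∈ lvlZ 1) (hd : Valued.v (g : Matrix (Fin 2) (Fin 2) K).det = (1 : Γ₀)) :
    g ∈ lvl 1 := by
  obtain ⟨k, hk, c, rfl⟩ := hg
  rw [Units.val_mul, det_mul, map_mul, v_det_of_mem_lvl hk, one_mul] at hd
  have hc : Valued.v (c : K) = (1 : Γ₀) := by
    simp [scal, det_diagonal] at hd
    exact hd
  refine mul_mem hk (mem_lvl_one.2 ⟨fun a b => ?_, ?_⟩)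
  · fin_cases a <;> fin_cases b <;> simp [scal, hc]
  · simp [scal, det_diagonal, hc]

variable [CompleteSpace B]

/-- Scaling into the maximal compact subgroup by a scalar of `A`. -/
theorem Pair.exists_scal (_P : Pair j τ) (hval : ∀ x : B, ∃ y, Valued.v (j y) = Valued.v x)
    {g : GL (Fin 2) B} (hg : g ∈ lvlZ 1) :
    ∃ c : Aˣ, g * scal (Units.map j.toMonoidHom c)⁻¹ ∈ lvl 1 := by
  obtain ⟨k, hk, c, rfl⟩ := hg
  obtain ⟨y, hy⟩ := hval c
  have hy0 : y ≠ 0 := fun e => by
    rw [e, map_zero, map_zero, eq_comm, Valuation.zero_iff] at hy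
    exact c.ne_zero hy
  refine ⟨Units.mk0 y hy0, ?_⟩
  rw [mul_assoc, ← scal_mul]
  refine mul_mem hk (mem_lvl_one_of_det (scal_mem_lvlZ 1 _) ?_)
  have hc : Valued.v (c : B) ≠ (0 : Γ₀) := (Valuation.ne_zero_iff _).2 c.ne_zero
  simp [scal, det_diagonal, hy, hc]

/-- The classes of `B` over a fixed class come from `A` uniquely. -/
theorem Pair.mem_lvlZ_of_gl_j (P : Pair j τ) (hval : ∀ x : B, ∃ y, Valued.v (j y) = Valued.v x)
    {q : GL (Fin 2) A} (hq : gl j q ∈ lvlZ 1) : q ∈ lvlZ 1 := by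
  obtain ⟨c, hc⟩ := P.exists_scal hval hq
  have e : gl j q * scal (Units.map j.toMonoidHom c)⁻¹ = gl j (q * scal c⁻¹) := by
    rw [map_mul, gl_scal, map_inv]
  rw [e] at hc
  have hmem : q * scal c⁻¹ ∈ lvl 1 := by
    rw [mem_lvl_one] at hc ⊢
    refine ⟨fun a b => P.v_j_le_one.1 (hc.1 a b), P.v_j_eq_one.1 ?_⟩
    rw [RingHom.map_det]
    exact hc.2
  exact ⟨q * scal c⁻¹, hmem, c, by rw [mul_assoc, ← scal_mul, inv_mul_cancel]; simp [scal]⟩

/-- **Descent of fixed lattices.** -/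
theorem Pair.exists_descent (P : Pair j τ) {θ : B} (hθ : Valued.v θ ≤ (1 : Γ₀))
    (hθ' : Valued.v (τ θ - θ) = (1 : Γ₀)) {h : GL (Fin 2) B} (hh : h⁻¹ * gl τ h ∈ lvlZ 1) :
    ∃ q : GL (Fin 2) A, h⁻¹ * gl j q ∈ lvl 1 := by
  set s := h⁻¹ * gl τ h with hs
  have hdet : Valued.v (s : Matrix (Fin 2) (Fin 2) B).det = (1 : Γ₀) := by
    have h1 : ((gl τ h : GL (Fin 2) B) : Matrix (Fin 2) (Fin 2) B).det =
        τ (h : Matrix (Fin 2) (Fin 2) B).det := (τ.map_det _).symm
    have h0 : Valued.v (h : Matrix (Fin 2) (Fin 2) B).det ≠ (0 : Γ₀) :=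
      (Valuation.ne_zero_iff _).2 (Matrix.GeneralLinearGroup.det h).ne_zero
    rw [hs, Units.val_mul, det_mul, map_mul, h1, P.v_tau, Matrix.coe_units_inv,
      Matrix.det_nonsing_inv, Ring.inverse_eq_inv', map_inv₀, inv_mul_cancel₀ h0]
  have hs1 := mem_lvl_one_of_det hh hdet
  have hcube : s * gl τ s * gl τ (gl τ s) = 1 := by
    simp only [hs, map_mul, map_inv, P.gl_cube]
    group
  set sV : Matrix (Fin 2) (Fin 2) (intB B) := fun a b => ⟨(s : Matrix (Fin 2) (Fin 2) B) a b,
    ent_of_mem_lvl hs1 a b⟩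
  have hcubeV : ∀ x, P.tauInt (P.tauInt (P.tauInt x)) = x := fun x => Subtype.ext (P.cube x)
  have hsV : sV * sV.map P.tauInt * (sV.map P.tauInt).map P.tauInt = 1 := by
    refine Matrix.map_injective Subtype.val_injective (show Matrix.map _ (intB B).subtype =
      Matrix.map _ (intB B).subtype from ?_)
    rw [Matrix.map_mul, Matrix.map_mul, Matrix.map_one _ (map_zero _) (map_one _)]
    exact congrArg Units.val hcube
  obtain ⟨c, hc⟩ := exists_isUnit_det hcubeV (θ := ⟨θ, hθ⟩) (isUnit_intB_iff.2 hθ') sV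
  set WV := comb P.tauInt sV c
  have hW : sV * WV.map P.tauInt = WV := comb_twist hcubeV hsV c
  set WB : Matrix (Fin 2) (Fin 2) B := WV.map (intB B).subtype
  have hdW : Valued.v WB.det = (1 : Γ₀) := by
    rw [show WB.det = (intB B).subtype WV.det from ((intB B).subtype.map_det WV).symm]
    exact isUnit_intB_iff.1 hc
  set W := GeneralLinearGroup.mkOfDetNeZero WB fun e => by simp [e] at hdW
  have hW1 : W ∈ lvl 1 := mem_lvl_one.2 ⟨fun a b => (WV a b).2, hdW⟩
  have hfix : gl τ (h * W) = h * W := by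
    have e : s * gl τ W = W := by
      refine Units.ext ?_
      have := congrArg (fun M : Matrix (Fin 2) (Fin 2) (intB B) => M.map (intB B).subtype) hW
      simp only [Matrix.map_mul] at this
      exact this
    rw [map_mul]
    calc gl τ h * gl τ W = h * (s * gl τ W) := by rw [hs]; group
      _ = _ := by rw [e]
  choose y hy using fun a b => P.fixed (((h * W : GL (Fin 2) B) : Matrix (Fin 2) (Fin 2) B) a b)
    (congrFun (congrFun (congrArg (fun x : GL (Fin 2) B => (x : Matrix (Fin 2) (Fin 2) B)) hfix) a) b)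
  have hy' : (Matrix.of y).map j = ((h * W : GL (Fin 2) B) : Matrix (Fin 2) (Fin 2) B) :=
    Matrix.ext hy
  refine ⟨GeneralLinearGroup.mkOfDetNeZero (Matrix.of y) fun e => ?_, ?_⟩
  · have := congrArg Matrix.det hy'
    rw [← RingHom.mapMatrix_apply, ← RingHom.map_det, e, map_zero] at this
    exact (Matrix.GeneralLinearGroup.det (h * W)).ne_zero this.symm
  · rw [show gl j (GeneralLinearGroup.mkOfDetNeZero (Matrix.of y) _) = h * W from Units.ext hy',
      inv_mul_cancel_left]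
    exact hW1

end FLTAgent.LT.Match
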